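/-
GATE-P (S56) / [P-GW] leaf S56-GW-FORMULAABS (helper7): **the arithmetic glue of the Greenberg–Wiles
consumer form.**

The two node statements of `GP/GW/Model.lean` (helper59) are

* `(PRE)`  : `dim Sel_L(M) + dim P⁰(M) + h¹(M*) = dim Sel_{L^⊥}(M*) + h⁰(M) + dim ∏ L_v + h²(M*)`,
* `(TATE)` : `h⁰(M*) + h²(M*) + dim M* ≤ h¹(M*) + dim (M*)^{c = 1}`,

and the consumer wants the right hand side in terms of `M` alone.  This file supplies, with
`Mathlib` + frozen `Prelude` only (no GC import, orphan):

* `range_add_one_eq_ker_sub_one`, `finrank_ker_sub_add_ker_add` : an involution `T` with `2`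
  invertible splits `V = ker (T - 1) ⊕ ker (T + 1)` (dimension form);
* `finrank_twistedDual_invariants` : the invariants of `f ↦ -(f ∘ T)` on the dual have dimension
  `dim V - dim ker (T - 1)`;
* `finrank_dualTwist_invariants_add` : Rep form, `dim (A*)^c + dim A^c = dim A` for
  `A* = A.dualTwist χ`, `c * c = 1`, `χ c = -1`;
* `cycloChar_complexConjugation` : `ExtCitation.cycloChar p complexConjugation = -1`
  (frozen cyclotomic character mod `p`, frozen complex conjugation);
* `finrank_dualTwist_conj_add` : the instance `G = G_ℚ`, `k = ZMod p`, `p` odd;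
* `finrank_pi_univ` : `dim ∏ L_v = Σ_v dim L_v` for `Submodule.pi Set.univ L`;
* `gw_arith`, `gw_arith_le`, `gw_bound` : the `ℕ`-arithmetic that turns
  `(PRE)` + `(TATE)` + involution + `dual Selmer = 0` into
  `dim Sel_L(M) + Σ_v h⁰(G_v, M) + h⁰(M*) + dim M^{c=1} ≤ h⁰(M) + Σ_v dim L_v`;
* `natCard_le_pow_of_finrank_le` : cardinality form over a finite field.
-/
import Mathlib
import Fermat.Prelude.Def_GroupCohomology_Selmer
import Fermat.Prelude.Def_ExtCitation_KummerBridge
import Fermat.Prelude.Def_GaloisRep_ComplexConjugation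

set_option autoImplicit false

universe u

namespace Fermat.Agent.GP.GW.FormulaAbs

open Module

/-! ### Involutions and the `(-1)`-twisted dual -/

section Involution

variable {k : Type*} [Field k] {V : Type*} [AddCommGroup V] [Module k V]

/-- For an involution `T` (with `2` invertible): `im (T + 1) = ker (T - 1)`. -/
theorem range_add_one_eq_ker_sub_one (h2 : (2 : k) ≠ 0) (T : V →ₗ[k] V)
    (hT : T ∘ₗ T = LinearMap.id) :
    LinearMap.range (T + 1) = LinearMap.ker (T - 1) := by
  have hTT : ∀ x, T (T x) = x := fun x => by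
    have := LinearMap.congr_fun hT x
    simpa using this
  ext x
  constructor
  · rintro ⟨y, rfl⟩
    rw [LinearMap.mem_ker]
    simp only [LinearMap.sub_apply, LinearMap.add_apply, Module.End.one_apply, map_add, hTT]
    abel
  · intro hx
    rw [LinearMap.mem_ker, LinearMap.sub_apply, Module.End.one_apply, sub_eq_zero] at hx
    refine ⟨(2 : k)⁻¹ • x, ?_⟩
    simp only [LinearMap.add_apply, Module.End.one_apply, map_smul, hx]
    rw [← two_smul k x, smul_smul, inv_mul_cancel₀ h2, one_smul]

/-- For an involution `T` (with `2` invertible): `dim ker (T - 1) + dim ker (T + 1) = dim V`. -/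
theorem finrank_ker_sub_add_ker_add [FiniteDimensional k V] (h2 : (2 : k) ≠ 0) (T : V →ₗ[k] V)
    (hT : T ∘ₗ T = LinearMap.id) :
    finrank k (LinearMap.ker (T - 1)) + finrank k (LinearMap.ker (T + 1)) = finrank k V := by
  have h := LinearMap.finrank_range_add_finrank_ker (T + 1)
  rw [range_add_one_eq_ker_sub_one h2 T hT] at h
  exact h

/-- The `(-1)`-twisted dual action of an involution: the invariants of `f ↦ -(f ∘ T)` on the dual
have dimension `dim V - dim ker (T - 1)`. -/
theorem finrank_twistedDual_invariants [FiniteDimensional k V] (h2 : (2 : k) ≠ 0) (T : V →ₗ[k] V)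
    (hT : T ∘ₗ T = LinearMap.id) (S : Dual k V →ₗ[k] Dual k V)
    (hS : ∀ f : Dual k V, S f = -(f ∘ₗ T)) :
    finrank k (LinearMap.ker (S - 1)) + finrank k (LinearMap.ker (T - 1)) = finrank k V := by
  have hker : LinearMap.ker (S - 1) = (LinearMap.range (T + 1)).dualAnnihilator := by
    ext f
    rw [LinearMap.mem_ker, LinearMap.sub_apply, Module.End.one_apply, hS,
      Submodule.mem_dualAnnihilator]
    constructor
    · rintro h _ ⟨y, rfl⟩
      have h1 := LinearMap.congr_fun h y
      simp only [LinearMap.sub_apply, LinearMap.neg_apply, LinearMap.comp_apply,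
        LinearMap.zero_apply] at h1
      rw [LinearMap.add_apply, Module.End.one_apply, map_add]
      have : f (T y) + f y = -(-(f (T y)) - f y) := by ring
      rw [this, h1, neg_zero]
    · intro h
      ext y
      have h1 := h ((T + 1) y) ⟨y, rfl⟩
      rw [LinearMap.add_apply, Module.End.one_apply, map_add] at h1
      simp only [LinearMap.sub_apply, LinearMap.neg_apply, LinearMap.comp_apply,
        LinearMap.zero_apply]
      have : -(f (T y)) - f y = -(f (T y) + f y) := by ring
      rw [this, h1, neg_zero]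
  rw [hker, range_add_one_eq_ker_sub_one h2 T hT]
  have := Subspace.finrank_add_finrank_dualAnnihilator_eq (LinearMap.ker (T - 1))
  omega

end Involution

/-! ### Rep form -/

section RepForm

variable {k G : Type u} [Field k] [Group G]

/-- **Rep form.** `c ∈ G` an involution with `χ c = -1` (complex conjugation and the cyclotomic
character, `p` odd): `dim (A*)^c + dim A^c = dim A` for `A* = A.dualTwist χ`. -/
theorem finrank_dualTwist_invariants_add (A : Rep k G)
    [FiniteDimensional k A] (χ : G →* kˣ) (c : G) (hc : c * c = 1) (hχ : (χ c : k) = -1)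
    (h2 : (2 : k) ≠ 0) :
    finrank k (LinearMap.ker ((A.dualTwist χ).ρ c - 1)) + finrank k (LinearMap.ker (A.ρ c - 1)) =
      finrank k A := by
  have hinv : c⁻¹ = c := inv_eq_of_mul_eq_one_right hc
  have hT : A.ρ c ∘ₗ A.ρ c = LinearMap.id := by
    have := map_mul A.ρ c c
    rw [hc, map_one] at this
    exact this.symm
  refine finrank_twistedDual_invariants h2 (A.ρ c) hT ((A.dualTwist χ).ρ c) (fun f => ?_)
  rw [Rep.dualTwist_ρ_apply, hinv, hχ]
  refine LinearMap.ext fun y => ?_
  rw [LinearMap.smul_apply, LinearMap.neg_apply, smul_eq_mul, neg_one_mul]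

/-- Same statement in subtraction form: `dim (A*)^c = dim A - dim A^c`. -/
theorem finrank_dualTwist_invariants (A : Rep k G)
    [FiniteDimensional k A] (χ : G →* kˣ) (c : G) (hc : c * c = 1) (hχ : (χ c : k) = -1)
    (h2 : (2 : k) ≠ 0) :
    finrank k (LinearMap.ker ((A.dualTwist χ).ρ c - 1)) =
      finrank k A - finrank k (LinearMap.ker (A.ρ c - 1)) := by
  have := finrank_dualTwist_invariants_add A χ c hc hχ h2
  omega

end RepForm

/-! ### The instance `G_ℚ`, `ZMod p`, complex conjugation -/

section Conj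

variable (p : ℕ) [Fact p.Prime]

/-- Complex conjugation inverts roots of unity. -/
theorem conj_root_of_unity (m : ℕ) (hm : m ≠ 0) (ζ : AlgebraicClosure ℚ)
    (hζ : ζ ^ m = 1) : complexConjugation ζ = ζ⁻¹ := by
  apply complexEmbedding.toRingHom.injective
  show complexEmbedding (complexConjugation ζ) = complexEmbedding ζ⁻¹
  rw [complexEmbedding_complexConjugation, map_inv₀]
  have h1 : (complexEmbedding ζ) ^ m = 1 := by rw [← map_pow, hζ, map_one]
  exact (Complex.inv_eq_conj (Complex.norm_eq_one_of_pow_eq_one h1 hm)).symm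

/-- **The mod `p` cyclotomic character of complex conjugation is `-1`** (frozen `cycloChar`). -/
theorem cycloChar_complexConjugation :
    ((ExtCitation.cycloChar p complexConjugation : (ZMod p)ˣ) : ZMod p) = -1 := by
  have hp : p.Prime := Fact.out
  have : NeZero p := ⟨hp.ne_zero⟩
  have key := modularCyclotomicCharacter.unique (L := AlgebraicClosure ℚ)
    (ExtCitation.card_rootsOfUnity_eq_self p)
    (complexConjugation : AlgebraicClosure ℚ ≃+* AlgebraicClosure ℚ) (c := ((p - 1 : ℕ) : ZMod p))
    (fun t ht => by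
      have ht' : ((t : (AlgebraicClosure ℚ)ˣ) : AlgebraicClosure ℚ) ^ p = 1 := by
        have := (mem_rootsOfUnity p t).1 ht
        rw [← Units.val_pow_eq_pow_val, this, Units.val_one]
      have hval : ((p - 1 : ℕ) : ZMod p).val = p - 1 :=
        ZMod.val_natCast_of_lt (Nat.sub_lt hp.pos Nat.one_pos)
      rw [hval]
      show complexConjugation (t : AlgebraicClosure ℚ) = _
      rw [conj_root_of_unity p hp.ne_zero _ ht']
      apply inv_eq_of_mul_eq_one_left
      rw [← pow_succ, Nat.sub_add_cancel hp.one_le, ht'])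
  have h1 : ((ExtCitation.cycloChar p complexConjugation : (ZMod p)ˣ) : ZMod p) =
      ((p - 1 : ℕ) : ZMod p) := by
    rw [key]
    rfl
  rw [h1, Nat.cast_sub hp.one_le, ZMod.natCast_self, Nat.cast_one, zero_sub]

/-- `2 ≠ 0` in `ZMod p` for odd `p`. -/
theorem two_ne_zero_zmod (hp2 : p ≠ 2) : (2 : ZMod p) ≠ 0 := by
  have hp : p.Prime := Fact.out
  intro h
  have h' : ((2 : ℕ) : ZMod p) = 0 := by exact_mod_cast h
  rw [ZMod.natCast_eq_zero_iff] at h'
  exact hp2 ((Nat.prime_dvd_prime_iff_eq hp Nat.prime_two).1 h')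

/-- **`dim (M*)^{c=1} + dim M^{c=1} = dim M`** for `M* = M.dualTwist (cycloChar p)`, `p` odd,
`c = complexConjugation`. -/
theorem finrank_dualTwist_conj_add (hp2 : p ≠ 2)
    (M : Rep (ZMod p) (AlgebraicClosure ℚ ≃ₐ[ℚ] AlgebraicClosure ℚ))
    [FiniteDimensional (ZMod p) M] :
    finrank (ZMod p) (LinearMap.ker
        ((M.dualTwist (ExtCitation.cycloChar p)).ρ complexConjugation - 1)) +
      finrank (ZMod p) (LinearMap.ker (M.ρ complexConjugation - 1)) = finrank (ZMod p) M :=
  finrank_dualTwist_invariants_add M (ExtCitation.cycloChar p) complexConjugation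
    complexConjugation_mul_self (cycloChar_complexConjugation p) (two_ne_zero_zmod p hp2)

end Conj

/-! ### Products of local conditions -/

section Pi

variable {k : Type*} [Field k] {ι : Type*} [Fintype ι] {X : ι → Type*}
  [∀ i, AddCommGroup (X i)] [∀ i, Module k (X i)]

/-- `∏ L_v` (as `Submodule.pi Set.univ L`) is linearly equivalent to the product of the `L v`. -/
def piUnivLinearEquiv (L : ∀ i, Submodule k (X i)) :
    (Submodule.pi Set.univ L) ≃ₗ[k] (∀ i, L i) where
  toFun x := fun i => ⟨x.1 i, x.2 i (Set.mem_univ i)⟩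
  invFun y := ⟨fun i => (y i).1, fun i _ => (y i).2⟩
  map_add' _ _ := rfl
  map_smul' _ _ := rfl
  left_inv _ := rfl
  right_inv _ := rfl

/-- `dim ∏ L_v = Σ_v dim L_v`. -/
theorem finrank_pi_univ (L : ∀ i, Submodule k (X i)) [∀ i, FiniteDimensional k (L i)] :
    finrank k (Submodule.pi Set.univ L) = ∑ i, finrank k (L i) := by
  rw [(piUnivLinearEquiv L).finrank_eq, Module.finrank_pi_fintype]

/-- `dim ∏ X_v = Σ_v dim X_v` (restated for convenience). -/
theorem finrank_pi_all [∀ i, FiniteDimensional k (X i)] :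
    finrank k (∀ i, X i) = ∑ i, finrank k (X i) :=
  Module.finrank_pi_fintype k

end Pi

/-! ### The arithmetic -/

/-- **The Greenberg–Wiles arithmetic, equality form.**
`(PRE)`: `sel + p0 + h1s = sel' + h0 + l + h2s`;
`(TATE)` for `M*`, equality: `h0s + h2s + dMs = h1s + dMsc`;
involution: `dMsc + dMc = dM`, `dMs = dM`.
Conclusion: `sel + p0 + h0s + dMc = sel' + h0 + l`. -/
theorem gw_arith {sel sel' p0 h0 h0s h1s h2s l dM dMs dMc dMsc : ℕ}
    (hpre : sel + p0 + h1s = sel' + h0 + l + h2s)
    (htate : h0s + h2s + dMs = h1s + dMsc)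
    (hinv : dMsc + dMc = dM) (hdual : dMs = dM) :
    sel + p0 + h0s + dMc = sel' + h0 + l := by
  omega

/-- **The Greenberg–Wiles arithmetic, inequality form** (`(TATE)` only as `≤`, as in
`GP/GW/Model.lean`'s `TateLe`). Conclusion: `sel + p0 + h0s + dMc ≤ sel' + h0 + l`. -/
theorem gw_arith_le {sel sel' p0 h0 h0s h1s h2s l dM dMs dMc dMsc : ℕ}
    (hpre : sel + p0 + h1s = sel' + h0 + l + h2s)
    (htate : h0s + h2s + dMs ≤ h1s + dMsc)
    (hinv : dMsc + dMc = dM) (hdual : dMs = dM) :
    sel + p0 + h0s + dMc ≤ sel' + h0 + l := by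
  omega

/-- The form consumed by Taylor–Wiles: if moreover the dual Selmer group vanishes and
`h⁰(M) = 0`, then `sel ≤ l - p0 - dMc` (truncated subtraction is harmless: the inequality
`sel + p0 + dMc ≤ l` is also given). -/
theorem gw_bound {sel sel' p0 h0 h0s h1s h2s l dM dMs dMc dMsc : ℕ}
    (hpre : sel + p0 + h1s = sel' + h0 + l + h2s)
    (htate : h0s + h2s + dMs ≤ h1s + dMsc)
    (hinv : dMsc + dMc = dM) (hdual : dMs = dM) (hsel' : sel' = 0) (hh0 : h0 = 0) :
    sel + p0 + dMc ≤ l ∧ sel ≤ l - p0 - dMc := by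
  omega

/-- Per-place form of `gw_bound`: with `l = Σ_v l_v`, `p0 = Σ_v p0_v` and `p0_v ≤ l_v` for all
`v`: `sel + dMc ≤ Σ_v (l_v - p0_v)`. -/
theorem gw_bound_sum {ι : Type*} (s : Finset ι) (lv p0v : ι → ℕ) {sel dMc : ℕ}
    (hle : ∀ v ∈ s, p0v v ≤ lv v)
    (h : sel + (∑ v ∈ s, p0v v) + dMc ≤ ∑ v ∈ s, lv v) :
    sel + dMc ≤ ∑ v ∈ s, (lv v - p0v v) := by
  have hsum : (∑ v ∈ s, (lv v - p0v v)) + ∑ v ∈ s, p0v v = ∑ v ∈ s, lv v := by
    rw [← Finset.sum_add_distrib]
    exact Finset.sum_congr rfl fun v hv => Nat.sub_add_cancel (hle v hv)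
  omega

/-! ### Cardinality form -/

/-- Over a finite field, `dim V ≤ r` gives `#V ≤ #k ^ r`. -/
theorem natCard_le_pow_of_finrank_le {k : Type*} [Field k] [Finite k] {V : Type*}
    [AddCommGroup V] [Module k V] [FiniteDimensional k V] {r : ℕ} (h : finrank k V ≤ r) :
    Nat.card V ≤ Nat.card k ^ r := by
  rw [Module.natCard_eq_pow_finrank (K := k) (V := V)]
  exact Nat.pow_le_pow_right Nat.card_pos h

end Fermat.Agent.GP.GW.FormulaAbs
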