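/-
GATE-P (S56 long shot) / node [P-GW], leaf GW-0 (helper59): **FULL EXPORT of the compact-support
Poitou–Tate duality proved inside the closure of S55.**

The frozen S55 only asks for `Ш²(M) ≅ Ш¹(M*)^∨`, but the GATE-C chain proves much more on the way:
for `G = G_ℚ`, `𝒰 = levelS S`, `L = locDataQ S`, `χ = cycloChar p` there is a trace functional
`τ` on `∏_v Hlc²(G_v, k(χ))` (reciprocity `(R)` + local injectivity `(I)`), a cup/trace pairing datum
`D : ConePairingData L χ` with boundary datum `E : ConeBdryData D` (local pairings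
`lamᵢ b c = τ ((b_v ∪ c_v)_v)`), such that EVERY finite-dimensional discrete `N` has the duality
property `D.Pr N`:  `α¹_c, α²_c` bijective, `α³_c` injective (`H^i_c(N) × H^{3-i}(N*) → k`),
`H¹(N*)` finite-dimensional, `H³(N*) = 0`.

This file re-runs the S55 wiring (`GC/C0/S55Final … S55OfCls`, `Fermat/Agent/S55.lean`) with the
conclusion `PTFull S` instead of `PTSha S M`.  Nothing new is proved; every step is the adapter used
by S55.  Consumers: the nine-term sequence, local/global Euler characteristics and the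
Greenberg–Wiles formula of `[P-GW]`.
-/
import Mathlib
import Fermat.Agent.GC.C0.S55OfCls
import Fermat.Agent.GC.Global.WRec.NCQAssemble
import Fermat.Agent.GC.Global.Limit.ClsCycProof
import Fermat.Agent.GC.Global.Limit.ClsDivFinal
import Fermat.Agent.GC.Global.Limit.ClsOntoProof

set_option autoImplicit false

namespace Fermat.Agent.GP.GW

open Fermat.Agent.GC.Prof Fermat.Agent.GC.Prof.Cone Fermat.Agent.GC.PT
  Fermat.Agent.GC.PT.LocDataQ Fermat.Agent.GC.PT.MainInst groupCohomology CategoryTheory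
  ExtCitation Module Fermat.Agent.GC.C0

variable {p : ℕ} [Fact p.Prime]

/-- **The full compact-support Poitou–Tate package** at `(G_ℚ, levelS S, locDataQ S, cycloChar p)`. -/
def PTFull (S : Finset Nat.Primes) [IsDiscrete (levelS S) (TChi p)] : Prop :=
  ∃ (τ : (∀ v, Hlc ((locDataQ S).𝒰v v) (Rep.res ((locDataQ S).r v) (TChi p)) 2) →ₗ[ZMod p] ZMod p)
    (D : ConePairingData (locDataQ S) (cycloChar p)) (E : ConeBdryData D),
    (∀ x : Hlc (levelS S) (TChi p) 2, τ (locRes (locDataQ S) (TChi p) 2 x) = 0) ∧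
    (∀ v, Function.Injective fun y :
      Hlc ((locDataQ S).𝒰v v) (Rep.res ((locDataQ S).r v) (TChi p)) 2 => τ (Pi.single v y)) ∧
    LamFormulas τ E ∧
    ∀ (N : Rep (ZMod p) GQ) [FiniteDimensional (ZMod p) N] [IsDiscrete (levelS S) N], D.Pr N

/-- `PTFull` from the arithmetic inputs (mirror of `PTSha_of_arith_final`). -/
theorem ptFull_of_arith_final (S : Finset Nat.Primes) (hpS : pPrime p ∈ S)
    [IsDiscrete (levelS S) (TChi p)]
    [FiniteDimensional (ZMod p)
      (∀ v, Hlc ((locDataQ S).𝒰v v) (Rep.res ((locDataQ S).r v) (TChi p)) 2)]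
    (hNa : finrank (ZMod p)
        (∀ v, Hlc ((locDataQ S).𝒰v v) (Rep.res ((locDataQ S).r v) (TChi p)) 2) ≤
      finrank (ZMod p) (LinearMap.range (locRes (locDataQ S) (TChi p) 2)) + 1)
    (hNC : ∀ (v : (locDataQ S).ι)
      (y : Hlc ((locDataQ S).𝒰v v) (Rep.res ((locDataQ S).r v) (TChi p)) 2)
      (x : Hlc (levelS S) (TChi p) 2),
      locRes (locDataQ S) (TChi p) 2 x = Pi.single v y → y = 0)
    (inputs : ∀ (τ : (∀ v, Hlc ((locDataQ S).𝒰v v) (Rep.res ((locDataQ S).r v) (TChi p)) 2)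
          →ₗ[ZMod p] ZMod p),
      (∀ x : Hlc (levelS S) (TChi p) 2, τ (locRes (locDataQ S) (TChi p) 2 x) = 0) →
      (∀ v, Function.Injective fun y :
        Hlc ((locDataQ S).𝒰v v) (Rep.res ((locDataQ S).r v) (TChi p)) 2 => τ (Pi.single v y)) →
      ∀ (D : ConePairingData (locDataQ S) (cycloChar p)) (E : ConeBdryData D),
        LamFormulas τ E →
        ∀ (H : Subgroup GQ), IsOpenSub (levelS S) H → (∀ g ∈ H, cycloChar p g = 1) →
          ∀ [IsDiscrete (levelS S) (Rep.coind H.subtype (Rep.trivial (ZMod p) H (ZMod p)))],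
            BaseInputs E (Rep.coind H.subtype (Rep.trivial (ZMod p) H (ZMod p)))) :
    PTFull (p := p) S := by
  have : Nonempty (locDataQ S).ι := nonempty_locDataQ S ⟨_, hpS⟩
  have : Finite (locDataQ S).ι := Finite.of_fintype _
  have hQ : finrank (ZMod p)
      ((∀ v, Hlc ((locDataQ S).𝒰v v) (Rep.res ((locDataQ S).r v) (TChi p)) 2) ⧸
        LinearMap.range (locRes (locDataQ S) (TChi p) 2)) ≤ 1 := by
    have := Submodule.finrank_quotient_add_finrank
      (LinearMap.range (locRes (locDataQ S) (TChi p) 2))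
    omega
  obtain ⟨τ, hR, hI⟩ := TraceOfNC.exists_tau_of_nc_finrank
    (locRes (locDataQ S) (TChi p) 2) hQ hNC
  obtain ⟨D, E, h02, h11, h20⟩ := exists_data (L := locDataQ S) (χ := cycloChar p) τ hR
    (fun _ htr => Fermat.Agent.GC.PT.ConePairing.cupFacts (locDataQ S) (cycloChar p) htr)
  have hχ := exists_levelS_cycloChar_eq_one (p := p) S hpS
  have base := E.base_of_inputs hχ (inputs τ hR hI D E ⟨h02, h11, h20⟩)
  refine ⟨τ, D, E, hR, hI, ⟨h02, h11, h20⟩, fun N _ _ => ?_⟩
  exact RepDevissage.rep_devissage (levelS S) p (cycloChar p) hχ D.Pr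
    (fun M M₁ _ _ _ _ i r hir h₁ => D.pr_of_retract hχ M M₁ i r hir h₁)
    (fun X _ _ _ _ _ _ hX h₁ h₃ => D.pr_of_shortExact hχ X hX h₁ h₃) base N

/-- **GW-0: the full compact-support Poitou–Tate package, UNCONDITIONAL** (`p` odd, `p ∈ S`).
Same closed terms as `Fermat/Agent/S55.lean`. -/
theorem ptFull (hp2 : p ≠ 2) (S : Finset Nat.Primes) (hpS : pPrime p ∈ S)
    [IsDiscrete (levelS S) (TChi p)] : PTFull (p := p) S := by
  have hp : p.Prime := Fact.out
  have : Nonempty (locDataQ S).ι := nonempty_locDataQ S ⟨_, hpS⟩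
  have := Fermat.Agent.GC.Places.LocalNum.finiteDimensional_Lam S p 2 le_rfl
  have hKum : Fermat.Agent.GC.PT.BaseInputsQ.KummerAll S p :=
    Fermat.Agent.GC.KBGlue.kummerAll_of_hyps hp2 S hpS (fun K _ hK hχK => by
      obtain ⟨ζ, hζ⟩ := Fermat.Agent.GJ.CycChar.exists_primitiveRoot (p := p)
      have hζK : ζ ∈ K :=
        Fermat.Agent.GC.C0.primitiveRoot_mem_of_cycloChar_eq_one K (fun g hg => hχK ⟨g, hg⟩) hζ
      exact Fermat.Agent.GC.KBGlue.kHyps_of_cls hp2 S hpS K hK hχK
        (Fermat.Agent.GC.Global.Limit.ClsOntoProof.clsOnto_final hp hp2 hpS hζ hζK)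
        (Fermat.Agent.GC.Global.Limit.ClsDivProof.clsDiv_final hp hp2 hpS hζ hζK)
        (Fermat.Agent.GC.Global.Limit.ClsCycProof.clsCyc_final hp hp2 hpS hK hζ hζK))
  exact ptFull_of_arith_final S hpS (hNa_of_kummerAll S hpS hKum)
    (Fermat.Agent.GC.Global.WRec.NCQAsm.hNC_of_ncFin p hp2 S hpS)
    (fun τ _ hI D E hE H hH hχH _ =>
      Fermat.Agent.GC.PT.BaseInputsQ.inputs_of_K S (cycloChar p) τ
        (Fermat.Agent.GC.PT.BaseInputsQ.inputsK_of_kummerAll S p hKum τ hI) D E hE H hH hχH)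

/-- `ptFull` with the discreteness instance of `k(χ)` supplied (`isDiscrete_TChi`). -/
theorem ptFull_inst (hp2 : p ≠ 2) (S : Finset Nat.Primes) (hpS : pPrime p ∈ S) :
    @PTFull p _ S (isDiscrete_TChi S hpS) :=
  @ptFull p _ hp2 S hpS (isDiscrete_TChi S hpS)

end Fermat.Agent.GP.GW
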