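/-
GATE-P (S56) / node [P-GW], leaf GW-0b (helper59): the Poitou–Tate package of `PrAll.lean` as a
STRUCTURE, so that the leaves of [P-GW] can take one argument `Δ : PTData S`.
-/
import Mathlib
import Fermat.Agent.GP.GW.PrAll

set_option autoImplicit false

namespace Fermat.Agent.GP.GW

open Fermat.Agent.GC.Prof Fermat.Agent.GC.Prof.Cone Fermat.Agent.GC.PT
  Fermat.Agent.GC.PT.LocDataQ Fermat.Agent.GC.PT.MainInst groupCohomology CategoryTheory
  ExtCitation Module Fermat.Agent.GC.C0

variable {p : ℕ} [Fact p.Prime]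

/-- The compact-support Poitou–Tate data at `(G_ℚ, levelS S, locDataQ S, cycloChar p)`:
trace functional `τ` with reciprocity `hR` and local injectivity `hI`, cone pairing `D` with
boundary datum `E` whose local pairings are `lamᵢ b c = τ ((b_v ∪ c_v)_v)` (`hLam`), and the
duality property `D.Pr N` for EVERY finite-dimensional discrete `N` (`hPr`). -/
structure PTData (S : Finset Nat.Primes) [IsDiscrete (levelS S) (TChi p)] where
  /-- the trace functional on `∏_v Hlc²(G_v, k(χ))` -/
  τ : (∀ v, Hlc ((locDataQ S).𝒰v v) (Rep.res ((locDataQ S).r v) (TChi p)) 2) →ₗ[ZMod p] ZMod p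
  /-- the cup/trace pairing on the compact-support cone -/
  D : ConePairingData (locDataQ S) (cycloChar p)
  /-- the local pairings with the boundary formula (E8) -/
  E : ConeBdryData D
  hR : ∀ x : Hlc (levelS S) (TChi p) 2, τ (locRes (locDataQ S) (TChi p) 2 x) = 0
  hI : ∀ v, Function.Injective fun y :
      Hlc ((locDataQ S).𝒰v v) (Rep.res ((locDataQ S).r v) (TChi p)) 2 => τ (Pi.single v y)
  hLam : LamFormulas τ E
  hPr : ∀ (N : Rep (ZMod p) GQ) [FiniteDimensional (ZMod p) N] [IsDiscrete (levelS S) N], D.Pr N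

/-- `PTData` exists (`p` odd, `p ∈ S`). -/
theorem nonempty_ptData (hp2 : p ≠ 2) (S : Finset Nat.Primes) (hpS : pPrime p ∈ S)
    [IsDiscrete (levelS S) (TChi p)] : Nonempty (PTData (p := p) S) := by
  obtain ⟨τ, D, E, hR, hI, hLam, hPr⟩ := ptFull hp2 S hpS
  exact ⟨⟨τ, D, E, hR, hI, hLam, fun N _ _ => hPr N⟩⟩

end Fermat.Agent.GP.GW
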