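/-
GATE-P / S56 [P-GW] (helper74): the LINEAR-ALGEBRA CORE of the Greenberg–Wiles formula.

Data (all finite-dimensional over a field `k`):
* `H`, `H'`   : global `H¹(G_S, M)`, `H¹(G_S, M*)`;
* `P`, `P'`   : local sums `⊕_v H¹(G_v, M)`, `⊕_v H¹(G_v, M*)`;
* `loc`, `loc'` : the localisation maps;
* `B : P × P' → k` : the sum of the local Tate pairings, PERFECT;
* global reciprocity (middle of the Poitou–Tate sequence): `im loc = (im loc')^⊥`;
* `L ⊆ P` : the local conditions, `L^⊥ ⊆ P'` their annihilator.
Then with `Sel = loc⁻¹ L`, `Sel' = loc'⁻¹ L^⊥`: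
  `dim Sel + dim ker loc' + dim P = dim Sel' + dim H + dim L`,
i.e. `h¹_L(M) - h¹_{L^⊥}(M*) = h¹(G_S, M) - dim Ш¹(M*) - Σ_v h¹(G_v, M) + Σ_v dim L_v`.
Mathlib only.
-/
import Mathlib

set_option autoImplicit false

namespace Fermat.Agent.GP.GW.SelmerCount

open Module

variable {k : Type*} [Field k]
variable {P P' : Type*} [AddCommGroup P] [Module k P] [AddCommGroup P'] [Module k P']

/-- the annihilator in `P'` of a subspace of `P` under a pairing -/
def annR (B : P →ₗ[k] P' →ₗ[k] k) (L : Submodule k P) : Submodule k P' where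
  carrier := {y | ∀ x ∈ L, B x y = 0}
  add_mem' := by
    intro a b ha hb x hx
    rw [map_add, ha x hx, hb x hx, add_zero]
  zero_mem' := by
    intro x _
    rw [map_zero]
  smul_mem' := by
    intro c a ha x hx
    rw [map_smul, ha x hx, smul_zero]

/-- the annihilator in `P` of a subspace of `P'` under a pairing -/
def annL (B : P →ₗ[k] P' →ₗ[k] k) (L' : Submodule k P') : Submodule k P where
  carrier := {x | ∀ y ∈ L', B x y = 0}
  add_mem' := by
    intro a b ha hb y hy
    rw [map_add, LinearMap.add_apply, ha y hy, hb y hy, add_zero]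
  zero_mem' := by
    intro y _
    rw [map_zero, LinearMap.zero_apply]
  smul_mem' := by
    intro c a ha y hy
    rw [map_smul, LinearMap.smul_apply, ha y hy, smul_zero]

theorem mem_annR {B : P →ₗ[k] P' →ₗ[k] k} {L : Submodule k P} {y : P'} :
    y ∈ annR B L ↔ ∀ x ∈ L, B x y = 0 := Iff.rfl

theorem mem_annL {B : P →ₗ[k] P' →ₗ[k] k} {L' : Submodule k P'} {x : P} :
    x ∈ annL B L' ↔ ∀ y ∈ L', B x y = 0 := Iff.rfl

theorem annR_eq_comap (B : P →ₗ[k] P' →ₗ[k] k) (L : Submodule k P) :
    annR B L = L.dualAnnihilator.comap B.flip := by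
  ext y
  simp only [mem_annR, Submodule.mem_comap, Submodule.mem_dualAnnihilator, LinearMap.flip_apply]

/-- `(A + L)^⊥ = A^⊥ ∩ L^⊥` -/
theorem annR_sup (B : P →ₗ[k] P' →ₗ[k] k) (A L : Submodule k P) :
    annR B (A ⊔ L) = annR B A ⊓ annR B L := by
  ext y
  simp only [mem_annR, Submodule.mem_inf]
  constructor
  · intro h
    exact ⟨fun x hx => h x (Submodule.mem_sup_left hx), fun x hx => h x (Submodule.mem_sup_right hx)⟩
  · rintro ⟨h1, h2⟩ x hx
    obtain ⟨a, ha, l, hl, rfl⟩ := Submodule.mem_sup.1 hx
    rw [map_add, LinearMap.add_apply, h1 a ha, h2 l hl, add_zero]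

section Perfect

variable [FiniteDimensional k P] [FiniteDimensional k P']
variable (B : P →ₗ[k] P' →ₗ[k] k)

omit [FiniteDimensional k P] [FiniteDimensional k P'] in
theorem flip_injective (hBr : ∀ y, (∀ x, B x y = 0) → y = 0) : Function.Injective B.flip := by
  intro y y' h
  rw [← sub_eq_zero]
  apply hBr
  intro x
  have := LinearMap.congr_fun h x
  rw [LinearMap.flip_apply, LinearMap.flip_apply] at this
  rw [map_sub, this, sub_self]

omit [FiniteDimensional k P] [FiniteDimensional k P'] in
theorem toLin_injective (hBl : ∀ x, (∀ y, B x y = 0) → x = 0) : Function.Injective B := by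
  intro x x' h
  rw [← sub_eq_zero]
  apply hBl
  intro y
  rw [map_sub, LinearMap.sub_apply, h, sub_self]

variable (hBl : ∀ x, (∀ y, B x y = 0) → x = 0) (hBr : ∀ y, (∀ x, B x y = 0) → y = 0)

include hBl hBr

theorem finrank_eq : finrank k P = finrank k P' := by
  have h1 : finrank k P' ≤ finrank k (Dual k P) :=
    LinearMap.finrank_le_finrank_of_injective (flip_injective B hBr)
  have h2 : finrank k P ≤ finrank k (Dual k P') :=
    LinearMap.finrank_le_finrank_of_injective (toLin_injective B hBl)
  rw [Subspace.dual_finrank_eq] at h1 h2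
  exact le_antisymm h2 h1

theorem flip_bijective : Function.Bijective B.flip := by
  refine ⟨flip_injective B hBr, ?_⟩
  have h : finrank k P' = finrank k (Dual k P) := by
    rw [Subspace.dual_finrank_eq, finrank_eq B hBl hBr]
  exact (LinearMap.injective_iff_surjective_of_finrank_eq_finrank h).1
    (flip_injective B hBr)

/-- `dim L + dim L^⊥ = dim P` -/
theorem finrank_annR (L : Submodule k P) :
    finrank k L + finrank k (annR B L) = finrank k P := by
  let e : P' ≃ₗ[k] Dual k P := LinearEquiv.ofBijective B.flip (flip_bijective B hBl hBr)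
  have h1 : annR B L = L.dualAnnihilator.comap (e : P' →ₗ[k] Dual k P) := annR_eq_comap B L
  have h2 : finrank k (annR B L) = finrank k L.dualAnnihilator := by
    rw [h1, Submodule.comap_equiv_eq_map_symm]
    exact LinearEquiv.finrank_map_eq e.symm _
  rw [h2]
  exact Subspace.finrank_add_finrank_dualAnnihilator_eq L

/-- `dim L' + dim ⊥L' = dim P'` -/
theorem finrank_annL (L' : Submodule k P') :
    finrank k L' + finrank k (annL B L') = finrank k P' := by
  have h := finrank_annR (P := P') (P' := P) B.flip
    (fun y hy => hBr y (fun x => by simpa using hy x))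
    (fun x hx => hBl x (fun y => by simpa using hx y)) L'
  have e : annR B.flip L' = annL B L' := by
    ext x
    simp only [mem_annR, mem_annL, LinearMap.flip_apply]
  rw [e] at h
  exact h

/-- double annihilator -/
theorem annR_annL (L' : Submodule k P') : annR B (annL B L') = L' := by
  symm
  apply Submodule.eq_of_le_of_finrank_eq
  · intro y hy x hx
    exact hx y hy
  · have h1 := finrank_annL B hBl hBr L'
    have h2 := finrank_annR B hBl hBr (annL B L')
    have h3 := finrank_eq B hBl hBr
    omega

end Perfect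

section Count

variable {H H' : Type*} [AddCommGroup H] [Module k H] [AddCommGroup H'] [Module k H']
variable [FiniteDimensional k H] [FiniteDimensional k H']
variable [FiniteDimensional k P] [FiniteDimensional k P']

/-- `dim loc⁻¹(L) = dim ker loc + dim (im loc ∩ L)` -/
theorem finrank_comap (loc : H →ₗ[k] P) (L : Submodule k P) :
    finrank k (L.comap loc) =
      finrank k (LinearMap.ker loc) + finrank k (LinearMap.range loc ⊓ L : Submodule k P) := by
  -- restrict `loc` to `L.comap loc`
  set f : (L.comap loc) →ₗ[k] P := loc.domRestrict (L.comap loc) with hf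
  have hr : LinearMap.range f = LinearMap.range loc ⊓ L := by
    ext x
    constructor
    · rintro ⟨⟨y, hy⟩, rfl⟩
      exact ⟨⟨y, rfl⟩, hy⟩
    · rintro ⟨⟨y, rfl⟩, hy⟩
      exact ⟨⟨y, hy⟩, rfl⟩
  have hk : finrank k (LinearMap.ker f) = finrank k (LinearMap.ker loc) := by
    have : LinearMap.ker f = (LinearMap.ker loc).comap (L.comap loc).subtype := by
      ext ⟨y, hy⟩
      simp [hf, LinearMap.mem_ker]
    rw [this]
    have hle : LinearMap.ker loc ≤ L.comap loc := by
      intro y hy
      rw [Submodule.mem_comap, LinearMap.mem_ker.1 hy]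
      exact L.zero_mem
    exact (Submodule.comapSubtypeEquivOfLe hle).finrank_eq
  have := LinearMap.finrank_range_add_finrank_ker f
  rw [hr, hk] at this
  omega

/-- **The Selmer count** (linear-algebra core of the Greenberg–Wiles formula). -/
theorem selmer_count (B : P →ₗ[k] P' →ₗ[k] k)
    (hBl : ∀ x, (∀ y, B x y = 0) → x = 0) (hBr : ∀ y, (∀ x, B x y = 0) → y = 0)
    (loc : H →ₗ[k] P) (loc' : H' →ₗ[k] P')
    (hrec : ∀ x : P, x ∈ LinearMap.range loc ↔ ∀ y' : H', B x (loc' y') = 0)
    (L : Submodule k P) :
    finrank k (L.comap loc) + finrank k (LinearMap.ker loc') + finrank k P =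
      finrank k ((annR B L).comap loc') + finrank k H + finrank k L := by
  set A : Submodule k P := LinearMap.range loc with hA
  set A' : Submodule k P' := LinearMap.range loc' with hA'
  -- `A = ⊥A'`, hence `A' = A^⊥`
  have h1 : A = annL B A' := by
    ext x
    rw [hA, hrec x, mem_annL]
    constructor
    · rintro h _ ⟨y', rfl⟩
      exact h y'
    · intro h y'
      exact h _ ⟨y', rfl⟩
  have h2 : annR B A = A' := by
    rw [h1]
    exact annR_annL B hBl hBr A'
  -- counts
  have c1 := finrank_comap loc L
  have c2 := finrank_comap loc' (annR B L)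
  have c3 : (A' ⊓ annR B L : Submodule k P') = annR B (A ⊔ L) := by
    rw [annR_sup, h2]
  have c4 := finrank_annR B hBl hBr (A ⊔ L)
  have c5 := Submodule.finrank_sup_add_finrank_inf_eq A L
  have c6 := LinearMap.finrank_range_add_finrank_ker loc
  rw [← hA] at c1 c6
  rw [← hA', c3] at c2
  omega

/-- Numerical corollary used for Taylor–Wiles primes: if the dual Selmer group vanishes and
`dim H + dim L ≤ dim ker loc' + dim P + r`, then `dim Sel ≤ r`. -/
theorem selmer_le (B : P →ₗ[k] P' →ₗ[k] k)
    (hBl : ∀ x, (∀ y, B x y = 0) → x = 0) (hBr : ∀ y, (∀ x, B x y = 0) → y = 0)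
    (loc : H →ₗ[k] P) (loc' : H' →ₗ[k] P')
    (hrec : ∀ x : P, x ∈ LinearMap.range loc ↔ ∀ y' : H', B x (loc' y') = 0)
    (L : Submodule k P) (r : ℕ)
    (hdual : (annR B L).comap loc' = ⊥)
    (hnum : finrank k H + finrank k L ≤ finrank k (LinearMap.ker loc') + finrank k P + r) :
    finrank k (L.comap loc) ≤ r := by
  have h := selmer_count B hBl hBr loc loc' hrec L
  rw [hdual, finrank_bot] at h
  omega

end Count

section Reciprocity

variable {H H' C : Type*} [AddCommGroup H] [Module k H] [AddCommGroup H'] [Module k H']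
  [AddCommGroup C] [Module k C]

/-- Global reciprocity `im loc = (im loc')^⊥` from the cone sequence `H → P → H²_c` and an
INJECTIVE duality map `α : H²_c → (H')^∨` compatible with the local pairing. -/
theorem reciprocity_of_exact (B : P →ₗ[k] P' →ₗ[k] k) (loc : H →ₗ[k] P) (loc' : H' →ₗ[k] P')
    (δ : P →ₗ[k] C) (hex : Function.Exact loc δ)
    (α : C →ₗ[k] Dual k H') (hα : Function.Injective α)
    (hcomp : ∀ (x : P) (y' : H'), α (δ x) y' = B x (loc' y')) (x : P) :
    x ∈ LinearMap.range loc ↔ ∀ y' : H', B x (loc' y') = 0 := by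
  have h0 : x ∈ LinearMap.range loc ↔ δ x = 0 := by
    rw [LinearMap.mem_range]
    exact (hex x).symm
  rw [h0]
  constructor
  · intro h y'
    rw [← hcomp, h, map_zero, LinearMap.zero_apply]
  · intro h
    apply hα
    rw [map_zero]
    ext y'
    rw [hcomp, h y', LinearMap.zero_apply]

end Reciprocity

end Fermat.Agent.GP.GW.SelmerCount
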