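/-
GATE-P (S56) / [SEL] S56-SEL-MODEL (helper59): **the pinned `H¹` model of the Greenberg–Wiles node.**

MODEL.  `k = ZMod p`, `G = G_ℚ`, level system `levelS S` (`S : Finset Nat.Primes`, `p ∈ S`),
local family `locDataQ S` (`ι = ↥S`, `G_v = Gq v`, all open subgroups as levels), character
`χ = cycloChar p`.  Global cohomology `Hⁱ(M) = Hlc (levelS S) M i`, local cohomology
`Hⁱ_v(M) = Hlc (levelQ v) (Rep.res (localGaloisToGlobal v) M) i`, `M* = M.dualTwist χ`.
`Hlc1π : lcCocycles₁ ↠ Hlc¹` (GC/Prof/Low) is the bridge from level-constant function cocycles.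

* `locPair Δ M v`   : the local Tate pairing `H¹_v(M) × H¹_v(M*) → k`, `(x,y) ↦ τ_v (x ∪ y)`;
* `lam11_eq_sum`    : `Δ.E.lam11 M M* ev b c = ∑_v locPair Δ M v (b v) (c v)`;
* `selmerGrp S M L` : the Selmer group of a family `L v ⊆ H¹_v(M)`;
* `perpLoc Δ M v Lv`: the annihilator `Lv^⊥ ⊆ H¹_v(M*)`;  `dualSelmerGrp Δ M L := selmerGrp S M* L^⊥`;
* `annR_pi`         : `(∏ L_v)^⊥ = ∏ L_v^⊥` for the sum pairing;
* `selmer_le_of_preEuler_tate` : THE CONSUMER FORM of the formula, from the two node statements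
  `(PRE)` (GW-1d, nine-term bookkeeping) and `(TATE)` (GW-E, global Euler characteristic of `M*`).
-/
import Mathlib
import Fermat.Agent.GP.GW.PTData
import Fermat.Agent.GP.GW.SelmerCount

set_option autoImplicit false

namespace Fermat.Agent.GP.GW

open Fermat.Agent.GC.Prof Fermat.Agent.GC.Prof.Cone Fermat.Agent.GC.PT
  Fermat.Agent.GC.PT.LocDataQ Fermat.Agent.GC.PT.MainInst groupCohomology CategoryTheory
  ExtCitation Module Fermat.Agent.GC.C0 Fermat.Agent.GC.PT.Triples

noncomputable section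

variable {p : ℕ} [Fact p.Prime]

section Model

variable (S : Finset Nat.Primes) [IsDiscrete (levelS S) (TChi p)]
variable (M : Rep (ZMod p) GQ) [IsDiscrete (levelS S) M]

/-- Local cohomology at `v ∈ S`. -/
abbrev Hloc (v : (locDataQ S).ι) (n : ℕ) : ModuleCat (ZMod p) :=
  Hlc ((locDataQ S).𝒰v v) (Rep.res ((locDataQ S).r v) M) n

/-- The Selmer group of a family of local conditions `L v ⊆ H¹_v(M)`. -/
def selmerGrp (L : ∀ v, Submodule (ZMod p) (Hloc S M v 1)) :
    Submodule (ZMod p) (Hlc (levelS S) M 1) :=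
  (Submodule.pi Set.univ L).comap (locRes (locDataQ S) M 1)

omit [IsDiscrete (levelS S) (TChi p)] in
theorem mem_selmerGrp (L : ∀ v, Submodule (ZMod p) (Hloc S M v 1)) (x : Hlc (levelS S) M 1) :
    x ∈ selmerGrp S M L ↔ ∀ v, locRes (locDataQ S) M 1 x v ∈ L v := by
  rw [selmerGrp, Submodule.mem_comap, Submodule.mem_pi]
  exact ⟨fun h v => h v (Set.mem_univ v), fun h v _ => h v⟩

variable {S}
variable [IsDiscrete (levelS S) (M.dualTwist (cycloChar p))]

/-- Discreteness of the restriction of `M*` to `G_v` (instance search does not find it through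
the two `CommRing (ZMod p)` paths). -/
instance isDiscrete_res_dualTwist (v : (locDataQ S).ι) :
    IsDiscrete ((locDataQ S).𝒰v v) (Rep.res ((locDataQ S).r v) (M.dualTwist (cycloChar p))) :=
  LocalData.isDiscrete_res (locDataQ S) v (M.dualTwist (cycloChar p))

/-- The local Tate pairing at `v`: `(x, y) ↦ τ (single_v (x ∪ y))`. -/
def locPair (Δ : PTData (p := p) S) (v : (locDataQ S).ι) :
    Hloc S M v 1 →ₗ[ZMod p] Hloc S (M.dualTwist (cycloChar p)) v 1 →ₗ[ZMod p] ZMod p :=
  (HlcCup ((locDataQ S).𝒰v v)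
    (locB (locDataQ S) (toChi (cycloChar p) (evB (cycloChar p) M)) v)
    (equivariant_locB (locDataQ S) (equivariant_toChi (isChiPairing_evB (cycloChar p) M)) v)
    (show 1 + 1 = 2 from rfl)).compr₂
    (Δ.τ ∘ₗ LinearMap.single (ZMod p)
      (fun w => Hlc ((locDataQ S).𝒰v w) (Rep.res ((locDataQ S).r w) (TChi p)) 2) v)

/-- The global sum pairing `E.lam11` is the sum of the local Tate pairings. -/
theorem lam11_eq_sum (Δ : PTData (p := p) S) (b : ∀ v, Hloc S M v 1)
    (c : ∀ v, Hloc S (M.dualTwist (cycloChar p)) v 1) :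
    Δ.E.lam11 M (M.dualTwist (cycloChar p)) (evB (cycloChar p) M)
      (isChiPairing_evB (cycloChar p) M) b c = ∑ v, locPair M Δ v (b v) (c v) := by
  rw [Δ.hLam.2.1 M (M.dualTwist (cycloChar p)) (evB (cycloChar p) M)
    (isChiPairing_evB (cycloChar p) M) b c]
  conv_lhs => rw [← Finset.univ_sum_single (fun v => HlcCup ((locDataQ S).𝒰v v)
    (locB (locDataQ S) (toChi (cycloChar p) (evB (cycloChar p) M)) v)
    (equivariant_locB (locDataQ S) (equivariant_toChi (isChiPairing_evB (cycloChar p) M)) v)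
    (show 1 + 1 = 2 from rfl) (b v) (c v))]
  rw [map_sum]
  rfl

/-- The annihilator `Lv^⊥ ⊆ H¹_v(M*)` of a local condition. -/
def perpLoc (Δ : PTData (p := p) S) (v : (locDataQ S).ι)
    (Lv : Submodule (ZMod p) (Hloc S M v 1)) :
    Submodule (ZMod p) (Hloc S (M.dualTwist (cycloChar p)) v 1) where
  carrier := {y | ∀ x ∈ Lv, locPair M Δ v x y = 0}
  add_mem' := fun {a b} ha hb x hx => by rw [map_add, ha x hx, hb x hx, add_zero]
  zero_mem' := fun x _ => map_zero _
  smul_mem' := fun c a ha x hx => by rw [map_smul, ha x hx, smul_zero]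

theorem mem_perpLoc (Δ : PTData (p := p) S) (v : (locDataQ S).ι)
    (Lv : Submodule (ZMod p) (Hloc S M v 1)) (y : Hloc S (M.dualTwist (cycloChar p)) v 1) :
    y ∈ perpLoc M Δ v Lv ↔ ∀ x ∈ Lv, locPair M Δ v x y = 0 := Iff.rfl

/-- The dual Selmer group `H¹_{L^⊥}(M*)`. -/
def dualSelmerGrp (Δ : PTData (p := p) S) (L : ∀ v, Submodule (ZMod p) (Hloc S M v 1)) :
    Submodule (ZMod p) (Hlc (levelS S) (M.dualTwist (cycloChar p)) 1) :=
  selmerGrp S (M.dualTwist (cycloChar p)) fun v => perpLoc M Δ v (L v)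

/-- `(∏ L_v)^⊥ = ∏ L_v^⊥` for the sum pairing `E.lam11`. -/
theorem annR_pi (Δ : PTData (p := p) S) (L : ∀ v, Submodule (ZMod p) (Hloc S M v 1)) :
    SelmerCount.annR (Δ.E.lam11 M (M.dualTwist (cycloChar p)) (evB (cycloChar p) M)
      (isChiPairing_evB (cycloChar p) M)) (Submodule.pi Set.univ L) =
      Submodule.pi Set.univ fun v => perpLoc M Δ v (L v) := by
  classical
  ext c
  rw [SelmerCount.mem_annR, Submodule.mem_pi]
  constructor
  · intro h v _ x hx
    have h1 := h (Pi.single v x) (by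
      rw [Submodule.mem_pi]
      intro w _
      by_cases hw : w = v
      · subst hw
        rw [Pi.single_eq_same]
        exact hx
      · rw [Pi.single_eq_of_ne hw]
        exact zero_mem _)
    rw [lam11_eq_sum, Finset.sum_eq_single v] at h1
    · rw [Pi.single_eq_same] at h1
      exact h1
    · intro w _ hw
      rw [Pi.single_eq_of_ne hw, map_zero, LinearMap.zero_apply]
    · intro hv
      exact absurd (Finset.mem_univ v) hv
  · intro h b hb
    rw [lam11_eq_sum]
    refine Finset.sum_eq_zero fun v _ => ?_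
    exact h v (Set.mem_univ v) (b v) ((Submodule.mem_pi.1 hb) v (Set.mem_univ v))

/-- The dual Selmer group in `SelmerCount` language. -/
theorem dualSelmerGrp_eq_comap (Δ : PTData (p := p) S)
    (L : ∀ v, Submodule (ZMod p) (Hloc S M v 1)) :
    dualSelmerGrp M Δ L =
      (SelmerCount.annR (Δ.E.lam11 M (M.dualTwist (cycloChar p)) (evB (cycloChar p) M)
        (isChiPairing_evB (cycloChar p) M)) (Submodule.pi Set.univ L)).comap
        (locRes (locDataQ S) (M.dualTwist (cycloChar p)) 1) := by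
  rw [annR_pi]
  rfl

/-! ### The two node statements and the consumer form -/

/-- **(PRE)** = target of GW-1d (nine-term bookkeeping; NO Euler characteristic): finiteness and
`dim Sel_L(M) + dim P⁰(M) + h¹(M*) = dim Sel_{L^⊥}(M*) + h⁰(M) + dim L + h²(M*)`. -/
def PreEuler (Δ : PTData (p := p) S) (L : ∀ v, Submodule (ZMod p) (Hloc S M v 1)) : Prop :=
  FiniteDimensional (ZMod p) (Hlc (levelS S) M 1) ∧
  FiniteDimensional (ZMod p) (Hlc (levelS S) (M.dualTwist (cycloChar p)) 1) ∧
  FiniteDimensional (ZMod p) (Hlc (levelS S) (M.dualTwist (cycloChar p)) 2) ∧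
  (∀ v, FiniteDimensional (ZMod p) (Hloc S M v 1)) ∧
  finrank (ZMod p) (selmerGrp S M L) + finrank (ZMod p) (∀ v, Hloc S M v 0) +
      finrank (ZMod p) (Hlc (levelS S) (M.dualTwist (cycloChar p)) 1) =
    finrank (ZMod p) (dualSelmerGrp M Δ L) + finrank (ZMod p) (Hlc (levelS S) M 0) +
      finrank (ZMod p) (Submodule.pi Set.univ L) +
      finrank (ZMod p) (Hlc (levelS S) (M.dualTwist (cycloChar p)) 2)

end Model

/-- **(TATE)** = target of GW-E for ONE module `N`: the inequality half of Tate's global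
Euler–Poincaré characteristic formula `χ(G_S, N) = h⁰(ℝ, N) − dim N`
(`h⁰ + h² + dim N ≤ h¹ + dim N^{c = 1}`, `c = complexConjugation`). -/
def TateLe (S : Finset Nat.Primes) (N : Rep (ZMod p) GQ) [IsDiscrete (levelS S) N] : Prop :=
  finrank (ZMod p) (Hlc (levelS S) N 0) + finrank (ZMod p) (Hlc (levelS S) N 2) +
      finrank (ZMod p) N ≤
    finrank (ZMod p) (Hlc (levelS S) N 1) +
      finrank (ZMod p) (LinearMap.ker (N.ρ complexConjugation - 1))

section Consumer

variable {S : Finset Nat.Primes} [IsDiscrete (levelS S) (TChi p)]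
variable (M : Rep (ZMod p) GQ) [IsDiscrete (levelS S) M]
variable [IsDiscrete (levelS S) (M.dualTwist (cycloChar p))]

/-- `∏ L_v` as a product of the `L v`. -/
def piUnivEquiv {ι : Type*} {V : ι → Type*} [∀ i, AddCommGroup (V i)] [∀ i, Module (ZMod p) (V i)]
    (L : ∀ i, Submodule (ZMod p) (V i)) :
    (Submodule.pi Set.univ L) ≃ₗ[ZMod p] (∀ i, L i) where
  toFun x := fun i => ⟨x.1 i, x.2 i (Set.mem_univ i)⟩
  invFun y := ⟨fun i => (y i).1, fun i _ => (y i).2⟩
  map_add' _ _ := rfl
  map_smul' _ _ := rfl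
  left_inv _ := rfl
  right_inv _ := rfl

/-- **Consumer form of the Greenberg–Wiles formula** (inequality), from `(PRE)` for `(M, L)` and
`(TATE)` for `M*`:
`dim Sel_L(M) + Σ_v h⁰(G_v, M) + h⁰(M*) + dim M* ≤ dim Sel_{L^⊥}(M*) + h⁰(M) + dim ∏ L_v + dim (M*)^{c=1}`. -/
theorem selmer_le_of_preEuler_tate (Δ : PTData (p := p) S)
    (L : ∀ v, Submodule (ZMod p) (Hloc S M v 1)) (hpre : PreEuler M Δ L)
    (htate : TateLe S (M.dualTwist (cycloChar p))) :
    FiniteDimensional (ZMod p) (selmerGrp S M L) ∧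
    finrank (ZMod p) (selmerGrp S M L) + finrank (ZMod p) (∀ v, Hloc S M v 0) +
        finrank (ZMod p) (Hlc (levelS S) (M.dualTwist (cycloChar p)) 0) +
        finrank (ZMod p) (M.dualTwist (cycloChar p)) ≤
      finrank (ZMod p) (dualSelmerGrp M Δ L) + finrank (ZMod p) (Hlc (levelS S) M 0) +
        finrank (ZMod p) (Submodule.pi Set.univ L) +
        finrank (ZMod p) (LinearMap.ker
          ((M.dualTwist (cycloChar p)).ρ complexConjugation - 1)) := by
  obtain ⟨h1, _, _, _, hE⟩ := hpre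
  refine ⟨inferInstance, ?_⟩
  unfold TateLe at htate
  omega

/-- The special case used by S56: if the dual Selmer group vanishes. -/
theorem selmer_le_of_dual_eq_bot (Δ : PTData (p := p) S)
    (L : ∀ v, Submodule (ZMod p) (Hloc S M v 1)) (hpre : PreEuler M Δ L)
    (htate : TateLe S (M.dualTwist (cycloChar p))) (hdual : dualSelmerGrp M Δ L = ⊥) :
    finrank (ZMod p) (selmerGrp S M L) + finrank (ZMod p) (∀ v, Hloc S M v 0) +
        finrank (ZMod p) (Hlc (levelS S) (M.dualTwist (cycloChar p)) 0) +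
        finrank (ZMod p) (M.dualTwist (cycloChar p)) ≤
      finrank (ZMod p) (Hlc (levelS S) M 0) + finrank (ZMod p) (Submodule.pi Set.univ L) +
        finrank (ZMod p) (LinearMap.ker
          ((M.dualTwist (cycloChar p)).ρ complexConjugation - 1)) := by
  have h := (selmer_le_of_preEuler_tate M Δ L hpre htate).2
  rw [hdual, finrank_bot] at h
  omega

end Consumer

end

end Fermat.Agent.GP.GW
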