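/-
GATE-P (S56) / [P-GW] leaf S56-GW-FORMULAABS, part 2 (helper7): **the consumer form of
`GP/GW/Model.lean` with the archimedean term rewritten on `M`.**

`Model.selmer_le_of_dual_eq_bot` (helper59) ends with `dim M*` on the left and `dim (M*)^{c=1}` on
the right.  With `FormulaAbs.finrank_dualTwist_conj_add` (`dim (M*)^{c=1} + dim M^{c=1} = dim M`,
`p` odd) this becomes

  `dim Sel_L(M) + Σ_v h⁰(G_v, M) + h⁰(M*) + dim M^{c=1} ≤ h⁰(M) + Σ_v dim L_v`

(`selmer_le_conj` with products, `selmer_le_conj_sum` with sums over `v`, `selmer_add_conj_le`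
the `h⁰(M) = 0` corollary, `natCard_selmer_le` the cardinality form).
-/
import Mathlib
import Fermat.Agent.GP.GW.Model
import Fermat.Agent.GP.GW.FormulaAbs

set_option autoImplicit false

namespace Fermat.Agent.GP.GW.ModelConj

open Fermat.Agent.GC.Prof Fermat.Agent.GC.Prof.Cone Fermat.Agent.GC.PT
  Fermat.Agent.GC.PT.LocDataQ Fermat.Agent.GC.PT.MainInst groupCohomology CategoryTheory
  ExtCitation Module Fermat.Agent.GC.C0 Fermat.Agent.GC.PT.Triples Fermat.Agent.GP.GW

noncomputable section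

variable {p : ℕ} [Fact p.Prime]
variable {S : Finset Nat.Primes} [IsDiscrete (levelS S) (TChi p)]
variable (M : Rep (ZMod p) GQ) [IsDiscrete (levelS S) M]
variable [IsDiscrete (levelS S) (M.dualTwist (cycloChar p))]

/-- **Consumer form with the archimedean term on `M`** (product shape):
`dim Sel_L(M) + dim P⁰(M) + h⁰(M*) + dim M^{c=1} ≤ dim Sel_{L^⊥}(M*) + h⁰(M) + dim ∏ L_v`. -/
theorem selmer_le_conj_general (hp2 : p ≠ 2) [FiniteDimensional (ZMod p) M]
    (Δ : PTData (p := p) S) (L : ∀ v, Submodule (ZMod p) (Hloc S M v 1))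
    (hpre : PreEuler M Δ L) (htate : TateLe S (M.dualTwist (cycloChar p))) :
    finrank (ZMod p) (selmerGrp S M L) + finrank (ZMod p) (∀ v, Hloc S M v 0) +
        finrank (ZMod p) (Hlc (levelS S) (M.dualTwist (cycloChar p)) 0) +
        finrank (ZMod p) (LinearMap.ker (M.ρ complexConjugation - 1)) ≤
      finrank (ZMod p) (dualSelmerGrp M Δ L) + finrank (ZMod p) (Hlc (levelS S) M 0) +
        finrank (ZMod p) (Submodule.pi Set.univ L) := by
  have h := (selmer_le_of_preEuler_tate M Δ L hpre htate).2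
  have hinv := FormulaAbs.finrank_dualTwist_conj_add p hp2 M
  have hd := Rep.finrank_dualTwist (ZMod p) M (cycloChar p)
  omega

/-- **Consumer form, dual Selmer group `= ⊥`** (product shape):
`dim Sel_L(M) + dim P⁰(M) + h⁰(M*) + dim M^{c=1} ≤ h⁰(M) + dim ∏ L_v`. -/
theorem selmer_le_conj (hp2 : p ≠ 2) [FiniteDimensional (ZMod p) M]
    (Δ : PTData (p := p) S) (L : ∀ v, Submodule (ZMod p) (Hloc S M v 1))
    (hpre : PreEuler M Δ L) (htate : TateLe S (M.dualTwist (cycloChar p)))
    (hdual : dualSelmerGrp M Δ L = ⊥) :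
    finrank (ZMod p) (selmerGrp S M L) + finrank (ZMod p) (∀ v, Hloc S M v 0) +
        finrank (ZMod p) (Hlc (levelS S) (M.dualTwist (cycloChar p)) 0) +
        finrank (ZMod p) (LinearMap.ker (M.ρ complexConjugation - 1)) ≤
      finrank (ZMod p) (Hlc (levelS S) M 0) + finrank (ZMod p) (Submodule.pi Set.univ L) := by
  have h := selmer_le_conj_general M hp2 Δ L hpre htate
  rw [hdual, finrank_bot] at h
  omega

omit [IsDiscrete (levelS S) (TChi p)] [IsDiscrete (levelS S) (M.dualTwist (cycloChar p))] in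
/-- `H⁰_v(M)` is finite-dimensional for finite-dimensional `M`. -/
theorem finiteDimensional_Hloc_zero [FiniteDimensional (ZMod p) M] (v : (locDataQ S).ι) :
    FiniteDimensional (ZMod p) (Hloc S M v 0) := by
  have : FiniteDimensional (ZMod p) (Rep.res ((locDataQ S).r v) M) :=
    inferInstanceAs (FiniteDimensional (ZMod p) M)
  exact LinearEquiv.finiteDimensional
    (Hlc0Equiv ((locDataQ S).𝒰v v) (Rep.res ((locDataQ S).r v) M)).symm

/-- **Consumer form, sums over the places** :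
`dim Sel_L(M) + Σ_v h⁰(G_v, M) + h⁰(M*) + dim M^{c=1} ≤ h⁰(M) + Σ_v dim L_v`. -/
theorem selmer_le_conj_sum (hp2 : p ≠ 2) [FiniteDimensional (ZMod p) M]
    (Δ : PTData (p := p) S) (L : ∀ v, Submodule (ZMod p) (Hloc S M v 1))
    (hpre : PreEuler M Δ L) (htate : TateLe S (M.dualTwist (cycloChar p)))
    (hdual : dualSelmerGrp M Δ L = ⊥) :
    finrank (ZMod p) (selmerGrp S M L) + (∑ v, finrank (ZMod p) (Hloc S M v 0)) +
        finrank (ZMod p) (Hlc (levelS S) (M.dualTwist (cycloChar p)) 0) +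
        finrank (ZMod p) (LinearMap.ker (M.ρ complexConjugation - 1)) ≤
      finrank (ZMod p) (Hlc (levelS S) M 0) + ∑ v, finrank (ZMod p) (L v) := by
  have h := selmer_le_conj M hp2 Δ L hpre htate hdual
  have : ∀ v, FiniteDimensional (ZMod p) (Hloc S M v 1) := hpre.2.2.2.1
  have : ∀ v, FiniteDimensional (ZMod p) (Hloc S M v 0) := finiteDimensional_Hloc_zero M
  rw [FormulaAbs.finrank_pi_univ L, Module.finrank_pi_fintype] at h
  exact h

/-- **The S56 shape**: `h⁰(M) = 0` (e.g. `M = ad⁰ρ̄`, `ρ̄` absolutely irreducible) and per-place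
inequalities `h⁰(G_v, M) ≤ dim L_v`:
`dim Sel_L(M) + dim M^{c=1} ≤ Σ_v (dim L_v - h⁰(G_v, M))`. -/
theorem selmer_add_conj_le (hp2 : p ≠ 2) [FiniteDimensional (ZMod p) M]
    (Δ : PTData (p := p) S) (L : ∀ v, Submodule (ZMod p) (Hloc S M v 1))
    (hpre : PreEuler M Δ L) (htate : TateLe S (M.dualTwist (cycloChar p)))
    (hdual : dualSelmerGrp M Δ L = ⊥)
    (hh0 : finrank (ZMod p) (Hlc (levelS S) M 0) = 0)
    (hle : ∀ v, finrank (ZMod p) (Hloc S M v 0) ≤ finrank (ZMod p) (L v)) :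
    finrank (ZMod p) (selmerGrp S M L) +
        finrank (ZMod p) (LinearMap.ker (M.ρ complexConjugation - 1)) ≤
      ∑ v, (finrank (ZMod p) (L v) - finrank (ZMod p) (Hloc S M v 0)) := by
  have h := selmer_le_conj_sum M hp2 Δ L hpre htate hdual
  rw [hh0, zero_add] at h
  refine FormulaAbs.gw_bound_sum Finset.univ (fun v => finrank (ZMod p) (L v))
    (fun v => finrank (ZMod p) (Hloc S M v 0)) (fun v _ => hle v) ?_
  omega

/-- Cardinality form of `selmer_add_conj_le`: `#Sel_L(M) ≤ p ^ r` as soon as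
`Σ_v (dim L_v - h⁰(G_v, M)) ≤ r + dim M^{c=1}`. -/
theorem natCard_selmer_le (hp2 : p ≠ 2) [FiniteDimensional (ZMod p) M]
    (Δ : PTData (p := p) S) (L : ∀ v, Submodule (ZMod p) (Hloc S M v 1))
    (hpre : PreEuler M Δ L) (htate : TateLe S (M.dualTwist (cycloChar p)))
    (hdual : dualSelmerGrp M Δ L = ⊥)
    (hh0 : finrank (ZMod p) (Hlc (levelS S) M 0) = 0)
    (hle : ∀ v, finrank (ZMod p) (Hloc S M v 0) ≤ finrank (ZMod p) (L v)) (r : ℕ)
    (hr : ∑ v, (finrank (ZMod p) (L v) - finrank (ZMod p) (Hloc S M v 0)) ≤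
      r + finrank (ZMod p) (LinearMap.ker (M.ρ complexConjugation - 1))) :
    Nat.card (selmerGrp S M L) ≤ p ^ r := by
  have h := selmer_add_conj_le M hp2 Δ L hpre htate hdual hh0 hle
  have : FiniteDimensional (ZMod p) (selmerGrp S M L) :=
    (selmer_le_of_preEuler_tate M Δ L hpre htate).1
  have h1 : finrank (ZMod p) (selmerGrp S M L) ≤ r := by omega
  have := FormulaAbs.natCard_le_pow_of_finrank_le (k := ZMod p) h1
  rwa [Nat.card_zmod] at this

end

end Fermat.Agent.GP.GW.ModelConj
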