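/-
GATE-P / S56 [P-GW] (helper74): the EULER CHARACTERISTIC `χ(M) = h⁰ − h¹ + h²` of the
level-constant cohomology `Hlc 𝒰 M ·` (GC/Prof) is ADDITIVE on short exact sequences of discrete
representations — from the long exact sequence of `GC/Prof/LES`, finiteness of `Hlc i`, `i ≤ 2`,
and `Hlc 3 = 0`.  Abstract in `(G, 𝒰)`; no arithmetic.
-/
import Fermat.Agent.GC.Prof.Concrete

set_option autoImplicit false

open CategoryTheory Module

noncomputable section

namespace Fermat.Agent.GP.GW.ChiAdd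

open Fermat.Agent.GC.Prof

universe u

variable {k G : Type u} [Field k] [Group G] (𝒰 : LevelSystem G)

/-- `χ(M) = h⁰ − h¹ + h²` -/
def chi (M : Rep.{u} k G) [IsDiscrete 𝒰 M] : ℤ :=
  (finrank k (Hlc 𝒰 M 0) : ℤ) - finrank k (Hlc 𝒰 M 1) + finrank k (Hlc 𝒰 M 2)

section Lin

variable {U V W : Type*} [AddCommGroup U] [Module k U] [AddCommGroup V] [Module k V]
  [AddCommGroup W] [Module k W]

/-- `dim V = rk f + rk g` at an exact spot -/
theorem finrank_eq_of_exact (f : U →ₗ[k] V) (g : V →ₗ[k] W) (h : Function.Exact f g)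
    [FiniteDimensional k V] :
    finrank k V = finrank k (LinearMap.range f) + finrank k (LinearMap.range g) := by
  have h1 := LinearMap.finrank_range_add_finrank_ker g
  rw [LinearMap.exact_iff.1 h] at h1
  omega

theorem finrank_range_of_injective (f : U →ₗ[k] V) (hf : Function.Injective f) :
    finrank k (LinearMap.range f) = finrank k U :=
  LinearMap.finrank_range_of_inj hf

theorem finrank_range_of_surjective (f : U →ₗ[k] V) (hf : Function.Surjective f) :
    finrank k (LinearMap.range f) = finrank k V := by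
  rw [LinearMap.range_eq_top.2 hf, finrank_top]

end Lin

section Inj

variable {M N : Rep.{u} k G} [IsDiscrete 𝒰 M] [IsDiscrete 𝒰 N]

/-- `H⁰` is left exact -/
theorem HlcMap_zero_injective (φ : M ⟶ N) (hφ : Function.Injective φ.hom) :
    Function.Injective (HlcMap 𝒰 φ 0).hom := by
  rw [← LinearMap.ker_eq_bot, LinearMap.ker_eq_bot']
  intro x hx
  obtain ⟨f, hf, rfl⟩ := Hlc_exists_mk 𝒰 M x
  have h1 : HlcMap 𝒰 φ 0 (HlcMk 𝒰 M f hf) = 0 := hx
  rw [HlcMap_mk, HlcMk_zero_eq_zero_iff] at h1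
  rw [HlcMk_zero_eq_zero_iff]
  apply Subtype.ext
  funext g
  apply hφ
  have := congrFun (congrArg Subtype.val h1) g
  rw [lcMapLin_coe] at this
  rw [this]
  simp

end Inj

section Additive

variable {X : ShortComplex (Rep.{u} k G)}
  [IsDiscrete 𝒰 X.X₁] [IsDiscrete 𝒰 X.X₂] [IsDiscrete 𝒰 X.X₃]

theorem exact₁ (hX : X.ShortExact) (i j : ℕ) (hij : i + 1 = j) :
    Function.Exact (Hlcδ 𝒰 hX i j hij).hom (HlcMap 𝒰 X.f j).hom :=
  (ShortComplex.ShortExact.moduleCat_exact_iff_function_exact _).1 (Hlc_exact₁ 𝒰 hX i j hij)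

theorem exact₂ (hX : X.ShortExact) (i : ℕ) :
    Function.Exact (HlcMap 𝒰 X.f i).hom (HlcMap 𝒰 X.g i).hom :=
  (ShortComplex.ShortExact.moduleCat_exact_iff_function_exact _).1 (Hlc_exact₂ 𝒰 hX i)

theorem exact₃ (hX : X.ShortExact) (i j : ℕ) (hij : i + 1 = j) :
    Function.Exact (HlcMap 𝒰 X.g i).hom (Hlcδ 𝒰 hX i j hij).hom :=
  (ShortComplex.ShortExact.moduleCat_exact_iff_function_exact _).1 (Hlc_exact₃ 𝒰 hX i j hij)

/-- **additivity of the Euler characteristic** -/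
theorem chi_additive (hX : X.ShortExact)
    (hfin : ∀ i, i ≤ 2 → FiniteDimensional k (Hlc 𝒰 X.X₁ i) ∧ FiniteDimensional k (Hlc 𝒰 X.X₂ i) ∧
      FiniteDimensional k (Hlc 𝒰 X.X₃ i))
    (h3 : ∀ x : Hlc 𝒰 X.X₁ 3, x = 0) :
    chi 𝒰 X.X₂ = chi 𝒰 X.X₁ + chi 𝒰 X.X₃ := by
  obtain ⟨f01, f02, f03⟩ := hfin 0 (by omega)
  obtain ⟨f11, f12, f13⟩ := hfin 1 (by omega)
  obtain ⟨f21, f22, f23⟩ := hfin 2 (by omega)
  have hinj : Function.Injective X.f.hom := (Rep.mono_iff_injective X.f).1 hX.mono_f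
  -- the nine spots
  have e01 := finrank_range_of_injective _ (HlcMap_zero_injective 𝒰 X.f hinj)
  have e02 := finrank_eq_of_exact _ _ (exact₂ 𝒰 hX 0)
  have e03 := finrank_eq_of_exact _ _ (exact₃ 𝒰 hX 0 1 rfl)
  have e11 := finrank_eq_of_exact _ _ (exact₁ 𝒰 hX 0 1 rfl)
  have e12 := finrank_eq_of_exact _ _ (exact₂ 𝒰 hX 1)
  have e13 := finrank_eq_of_exact _ _ (exact₃ 𝒰 hX 1 2 rfl)
  have e21 := finrank_eq_of_exact _ _ (exact₁ 𝒰 hX 1 2 rfl)
  have e22 := finrank_eq_of_exact _ _ (exact₂ 𝒰 hX 2)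
  have hsurj : Function.Surjective (HlcMap 𝒰 X.g 2).hom := by
    intro y
    have := (exact₃ 𝒰 hX 2 3 rfl y).1 (h3 _)
    exact this
  have e23 := finrank_range_of_surjective _ hsurj
  unfold chi
  omega

end Additive

section Iso

variable {M N : Rep.{u} k G} [IsDiscrete 𝒰 M] [IsDiscrete 𝒰 N]

/-- the linear equivalence on `Hlc` induced by an isomorphism of coefficients -/
def HlcCongr (e : M ≅ N) (n : ℕ) : Hlc 𝒰 M n ≃ₗ[k] Hlc 𝒰 N n where
  toFun := (HlcMap 𝒰 e.hom n).hom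
  map_add' := map_add _
  map_smul' := map_smul _
  invFun := (HlcMap 𝒰 e.inv n).hom
  left_inv x := by
    have := HlcMap_comp 𝒰 e.hom e.inv n
    rw [e.hom_inv_id, HlcMap_id] at this
    have h := congr($this x)
    simp only [ModuleCat.hom_comp, LinearMap.comp_apply] at h
    exact h.symm
  right_inv x := by
    have := HlcMap_comp 𝒰 e.inv e.hom n
    rw [e.inv_hom_id, HlcMap_id] at this
    have h := congr($this x)
    simp only [ModuleCat.hom_comp, LinearMap.comp_apply] at h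
    exact h.symm

theorem chi_congr (e : M ≅ N) : chi 𝒰 M = chi 𝒰 N := by
  unfold chi
  rw [(HlcCongr 𝒰 e 0).finrank_eq, (HlcCongr 𝒰 e 1).finrank_eq, (HlcCongr 𝒰 e 2).finrank_eq]

end Iso

end Fermat.Agent.GP.GW.ChiAdd
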