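/-
GATE-P / S56 [P-GW], node GW-1d (helper19): **nine-term bookkeeping, ABSTRACT linear algebra.**

Everything here is about vector spaces over a field `k`, bilinear pairings `β : X →ₗ Y →ₗ k`
(left non-degenerate = `Function.Injective β`, right non-degenerate = `Function.Injective β.flip`)
and exact sequences of linear maps (`Function.Exact`).  Mathlib only (+ the Mathlib-only file
`GP/GW/SelmerCount` of helper74).

* `exists_dual_comp_of_ker_le`   : a functional vanishing on `ker f` factors through `f`;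
* `injective_mid`                : the mono four-lemma in PAIRING form, squares commuting up to
                                   non-zero scalars;
* `bijective_of_injective_flip`  : finite-dimensional, both sides non-degenerate ⟹ perfect;
* `Block`                        : block-diagonal pairings on finite products;
* `finrank_ker_eq_of_swap`       : `dim ker (H²_c(M) → H²(M)) = h¹(N) − dim Ш¹(N)`;
* `preEuler_abs`                 : the pre-Euler form of the Greenberg–Wiles count.
-/
import Mathlib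
import Fermat.Agent.GP.GW.SelmerCount

set_option autoImplicit false

namespace Fermat.Agent.GP.GW.NineTermAbs

open Module Function Fermat.Agent.GP.GW.SelmerCount

variable {k : Type*} [Field k]

/-! ### functionals vanishing on a kernel -/

section Factor

variable {Y Z : Type*} [AddCommGroup Y] [Module k Y] [AddCommGroup Z] [Module k Z]

/-- A functional on `Y` vanishing on `ker f` is of the form `φ ∘ f`. -/
theorem exists_dual_comp_of_ker_le (f : Y →ₗ[k] Z) (ψ : Y →ₗ[k] k)
    (h : ∀ y, f y = 0 → ψ y = 0) : ∃ φ : Z →ₗ[k] k, ∀ y, ψ y = φ (f y) := by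
  have hψ : ψ ∈ (LinearMap.ker f).dualAnnihilator := by
    rw [Submodule.mem_dualAnnihilator]
    intro y hy
    exact h y (LinearMap.mem_ker.1 hy)
  rw [← LinearMap.range_dualMap_eq_dualAnnihilator_ker] at hψ
  obtain ⟨φ, hφ⟩ := hψ
  refine ⟨φ, fun y => ?_⟩
  rw [← hφ, LinearMap.dualMap_apply]

end Factor

/-! ### the mono four-lemma in pairing form -/

section FourLemma

variable {X1 X2 X3 X4 Y1 Y2 Y3 Y4 : Type*}
  [AddCommGroup X1] [Module k X1] [AddCommGroup X2] [Module k X2]
  [AddCommGroup X3] [Module k X3] [AddCommGroup X4] [Module k X4]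
  [AddCommGroup Y1] [Module k Y1] [AddCommGroup Y2] [Module k Y2]
  [AddCommGroup Y3] [Module k Y3] [AddCommGroup Y4] [Module k Y4]

/-- **Mono four-lemma, pairing form.**  Rows `X1 → X2 → X3 → X4` and `Y4 → Y3 → Y2 → Y1`
(the second one is to be dualised), pairings `βᵢ : Xᵢ × Yᵢ → k` compatible with the maps up to
non-zero scalars.  If `X1 → Y1ᵛ` is onto, `X2 → Y2ᵛ` and `X4 → Y4ᵛ` are injective, then
`X3 → Y3ᵛ` is injective. -/
theorem injective_mid
    (f : X1 →ₗ[k] X2) (g : X2 →ₗ[k] X3) (h : X3 →ₗ[k] X4)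
    (hgf : ∀ x, g (f x) = 0) (hex : Function.Exact g h)
    (h' : Y4 →ₗ[k] Y3) (g' : Y3 →ₗ[k] Y2) (f' : Y2 →ₗ[k] Y1) (hex' : Function.Exact g' f')
    (β1 : X1 →ₗ[k] Y1 →ₗ[k] k) (β2 : X2 →ₗ[k] Y2 →ₗ[k] k)
    (β3 : X3 →ₗ[k] Y3 →ₗ[k] k) (β4 : X4 →ₗ[k] Y4 →ₗ[k] k)
    (c1 c2 c3 : k) (hc1 : c1 ≠ 0) (hc2 : c2 ≠ 0)
    (sq1 : ∀ x y, β2 (f x) y = c1 * β1 x (f' y))
    (sq2 : ∀ x y, β3 (g x) y = c2 * β2 x (g' y))
    (sq3 : ∀ x y, β4 (h x) y = c3 * β3 x (h' y))
    (s1 : Function.Surjective β1) (i2 : Function.Injective β2) (i4 : Function.Injective β4) :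
    Function.Injective β3 := by
  rw [injective_iff_map_eq_zero]
  intro x3 hx3
  have hx3' : ∀ y, β3 x3 y = 0 := fun y => by rw [hx3, LinearMap.zero_apply]
  -- `h x3 = 0`
  have h4 : h x3 = 0 := by
    apply i4
    rw [map_zero]
    ext y
    rw [sq3, hx3' (h' y), mul_zero, LinearMap.zero_apply]
  obtain ⟨x2, rfl⟩ := (hex x3).1 h4
  -- `β2 x2` vanishes on `range g' = ker f'`
  have hv : ∀ y, f' y = 0 → β2 x2 y = 0 := by
    intro y hy
    obtain ⟨y3, rfl⟩ := (hex' y).1 hy
    have := hx3' y3
    rw [sq2] at this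
    exact (mul_eq_zero.1 this).resolve_left hc2
  obtain ⟨φ, hφ⟩ := exists_dual_comp_of_ker_le f' (β2 x2) hv
  obtain ⟨x1, hx1⟩ := s1 φ
  have hx2 : x2 = c1⁻¹ • f x1 := by
    apply i2
    ext y
    rw [map_smul, LinearMap.smul_apply, sq1, hφ, hx1, smul_eq_mul, ← mul_assoc,
      inv_mul_cancel₀ hc1, one_mul]
  rw [hx2, map_smul, hgf, smul_zero]

/-- **Mono four-lemma, pairing form, left-exact variant**: rows `X2 → X3 → X4` and
`Y4 → Y3 ↠ Y2`. -/
theorem injective_mid_of_surjective
    (g : X2 →ₗ[k] X3) (h : X3 →ₗ[k] X4) (hex : Function.Exact g h)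
    (h' : Y4 →ₗ[k] Y3) (g' : Y3 →ₗ[k] Y2) (hg' : Function.Surjective g')
    (β2 : X2 →ₗ[k] Y2 →ₗ[k] k) (β3 : X3 →ₗ[k] Y3 →ₗ[k] k) (β4 : X4 →ₗ[k] Y4 →ₗ[k] k)
    (c2 c3 : k) (hc2 : c2 ≠ 0)
    (sq2 : ∀ x y, β3 (g x) y = c2 * β2 x (g' y))
    (sq3 : ∀ x y, β4 (h x) y = c3 * β3 x (h' y))
    (i2 : Function.Injective β2) (i4 : Function.Injective β4) :
    Function.Injective β3 := by
  rw [injective_iff_map_eq_zero]
  intro x3 hx3
  have hx3' : ∀ y, β3 x3 y = 0 := fun y => by rw [hx3, LinearMap.zero_apply]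
  have h4 : h x3 = 0 := by
    apply i4
    rw [map_zero]
    ext y
    rw [sq3, hx3' (h' y), mul_zero, LinearMap.zero_apply]
  obtain ⟨x2, rfl⟩ := (hex x3).1 h4
  have hx2 : x2 = 0 := by
    apply i2
    rw [map_zero]
    ext y
    obtain ⟨y3, rfl⟩ := hg' y
    have := hx3' y3
    rw [sq2] at this
    rw [(mul_eq_zero.1 this).resolve_left hc2, LinearMap.zero_apply]
  rw [hx2, map_zero]

end FourLemma

/-! ### perfect pairings -/

section Perfect

variable {X Y : Type*} [AddCommGroup X] [Module k X] [AddCommGroup Y] [Module k Y]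

theorem flip_flip_apply (β : X →ₗ[k] Y →ₗ[k] k) (x : X) (y : Y) : β.flip.flip x y = β x y := rfl

/-- left non-degeneracy, element form -/
theorem injective_iff_left (β : X →ₗ[k] Y →ₗ[k] k) :
    Function.Injective β ↔ ∀ x, (∀ y, β x y = 0) → x = 0 := by
  rw [injective_iff_map_eq_zero]
  constructor
  · intro h x hx
    apply h
    ext y
    rw [hx, LinearMap.zero_apply]
  · intro h x hx
    apply h
    intro y
    rw [hx, LinearMap.zero_apply]

/-- right non-degeneracy, element form -/
theorem injective_flip_iff_right (β : X →ₗ[k] Y →ₗ[k] k) :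
    Function.Injective β.flip ↔ ∀ y, (∀ x, β x y = 0) → y = 0 := by
  rw [injective_iff_left]
  rfl

/-- finite-dimensional, non-degenerate on both sides ⟹ `X → Yᵛ` bijective -/
theorem bijective_of_injective_flip [FiniteDimensional k X] [FiniteDimensional k Y]
    (β : X →ₗ[k] Y →ₗ[k] k) (hl : Function.Injective β) (hr : Function.Injective β.flip) :
    Function.Bijective β := by
  have h := flip_bijective β.flip ((injective_flip_iff_right β).1 hr)
    ((injective_iff_left β).1 hl)
  exact h

theorem bijective_flip_of_injective [FiniteDimensional k X] [FiniteDimensional k Y]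
    (β : X →ₗ[k] Y →ₗ[k] k) (hl : Function.Injective β) (hr : Function.Injective β.flip) :
    Function.Bijective β.flip :=
  flip_bijective β ((injective_iff_left β).1 hl) ((injective_flip_iff_right β).1 hr)

/-- a bijective pairing in finite dimension is right non-degenerate -/
theorem injective_flip_of_bijective [FiniteDimensional k Y] (β : X →ₗ[k] Y →ₗ[k] k)
    (hb : Function.Bijective β) : Function.Injective β.flip := by
  rw [injective_flip_iff_right]
  intro y hy
  by_contra hne
  obtain ⟨φ, hφ⟩ : ∃ φ : Y →ₗ[k] k, φ y ≠ 0 := by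
    by_contra hall
    refine hne ((Module.forall_dual_apply_eq_zero_iff k y).1 fun φ => ?_)
    by_contra hφ
    exact hall ⟨φ, hφ⟩
  obtain ⟨x, rfl⟩ := hb.2 φ
  exact hφ (hy x)

theorem finrank_eq_of_bijective [FiniteDimensional k Y] (β : X →ₗ[k] Y →ₗ[k] k)
    (hb : Function.Bijective β) : finrank k X = finrank k Y := by
  rw [← Subspace.dual_finrank_eq (K := k) (V := Y)]
  exact (LinearEquiv.ofBijective β hb).finrank_eq

/-- transport of left non-degeneracy along a symmetry `β' y x = ε β x y` -/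
theorem injective_flip_of_symm {β : X →ₗ[k] Y →ₗ[k] k} {β' : Y →ₗ[k] X →ₗ[k] k} {ε : k}
    (hsym : ∀ x y, β' y x = ε * β x y) (h : Function.Injective β') :
    Function.Injective β.flip := by
  rw [injective_flip_iff_right]
  intro y hy
  apply (injective_iff_left β').1 h
  intro x
  rw [hsym, hy, mul_zero]

end Perfect

/-! ### block-diagonal pairings -/

section Block

variable {ι : Type*} [Fintype ι] [DecidableEq ι]
  {X Y : ι → Type*} [∀ v, AddCommGroup (X v)] [∀ v, Module k (X v)]
  [∀ v, AddCommGroup (Y v)] [∀ v, Module k (Y v)]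

/-- the `v`-th diagonal block of a pairing on products -/
def block (β : (∀ v, X v) →ₗ[k] (∀ v, Y v) →ₗ[k] k) (v : ι) : X v →ₗ[k] Y v →ₗ[k] k :=
  (β.comp (LinearMap.single k X v)).compl₂ (LinearMap.single k Y v)

omit [Fintype ι] in
theorem block_apply (β : (∀ v, X v) →ₗ[k] (∀ v, Y v) →ₗ[k] k) (v : ι) (a : X v) (b : Y v) :
    block β v a b = β (Pi.single v a) (Pi.single v b) := rfl

/-- `β` is block diagonal -/
def IsDiag (β : (∀ v, X v) →ₗ[k] (∀ v, Y v) →ₗ[k] k) : Prop :=
  ∀ (v w : ι), v ≠ w → ∀ (a : X v) (b : Y w), β (Pi.single v a) (Pi.single w b) = 0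

omit [DecidableEq ι] in
theorem sum_single_eq [DecidableEq ι] {Z : ι → Type*} [∀ v, AddCommGroup (Z v)] (x : ∀ v, Z v) :
    ∑ v, Pi.single v (x v) = x := by
  ext w
  rw [Finset.sum_apply, Finset.sum_eq_single w]
  · rw [Pi.single_eq_same]
  · intro v _ hvw
    rw [Pi.single_eq_of_ne (Ne.symm hvw)]
  · intro hw
    exact absurd (Finset.mem_univ w) hw

theorem IsDiag.apply_eq_sum {β : (∀ v, X v) →ₗ[k] (∀ v, Y v) →ₗ[k] k} (hβ : IsDiag β)
    (x : ∀ v, X v) (y : ∀ v, Y v) : β x y = ∑ v, block β v (x v) (y v) := by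
  have h1 : β x y = ∑ v, β (Pi.single v (x v)) y := by
    conv_lhs => rw [← sum_single_eq x]
    rw [map_sum, LinearMap.sum_apply]
  rw [h1]
  refine Finset.sum_congr rfl fun v _ => ?_
  have h2 : β (Pi.single v (x v)) y = ∑ w, β (Pi.single v (x v)) (Pi.single w (y w)) := by
    conv_lhs => rw [← sum_single_eq y]
    rw [map_sum]
  rw [h2, Finset.sum_eq_single v]
  · rfl
  · intro w _ hwv
    exact hβ v w (Ne.symm hwv) _ _
  · intro hv
    exact absurd (Finset.mem_univ v) hv

theorem IsDiag.apply_single_left {β : (∀ v, X v) →ₗ[k] (∀ v, Y v) →ₗ[k] k} (hβ : IsDiag β)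
    (v : ι) (a : X v) (y : ∀ v, Y v) : β (Pi.single v a) y = block β v a (y v) := by
  rw [hβ.apply_eq_sum, Finset.sum_eq_single v]
  · rw [Pi.single_eq_same]
  · intro w _ hwv
    rw [Pi.single_eq_of_ne hwv, map_zero, LinearMap.zero_apply]
  · intro hv
    exact absurd (Finset.mem_univ v) hv

theorem IsDiag.apply_single_right {β : (∀ v, X v) →ₗ[k] (∀ v, Y v) →ₗ[k] k} (hβ : IsDiag β)
    (v : ι) (x : ∀ v, X v) (b : Y v) : β x (Pi.single v b) = block β v (x v) b := by
  rw [hβ.apply_eq_sum, Finset.sum_eq_single v]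
  · rw [Pi.single_eq_same]
  · intro w _ hwv
    rw [Pi.single_eq_of_ne hwv, map_zero]
  · intro hv
    exact absurd (Finset.mem_univ v) hv

/-- left non-degeneracy passes to the blocks -/
theorem IsDiag.block_injective {β : (∀ v, X v) →ₗ[k] (∀ v, Y v) →ₗ[k] k} (hβ : IsDiag β)
    (h : Function.Injective β) (v : ι) : Function.Injective (block β v) := by
  rw [injective_iff_left] at h ⊢
  intro a ha
  have : Pi.single (M := X) v a = 0 := by
    apply h
    intro y
    rw [hβ.apply_single_left, ha]
  have h2 := congrFun this v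
  rwa [Pi.single_eq_same] at h2

/-- right non-degeneracy passes to the blocks -/
theorem IsDiag.block_flip_injective {β : (∀ v, X v) →ₗ[k] (∀ v, Y v) →ₗ[k] k} (hβ : IsDiag β)
    (h : Function.Injective β.flip) (v : ι) : Function.Injective (block β v).flip := by
  rw [injective_flip_iff_right] at h ⊢
  intro b hb
  have : Pi.single (M := Y) v b = 0 := by
    apply h
    intro x
    rw [hβ.apply_single_right, hb]
  have h2 := congrFun this v
  rwa [Pi.single_eq_same] at h2

/-- the blocks of a non-degenerate block-diagonal pairing conversely give non-degeneracy -/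
theorem IsDiag.injective_of_blocks {β : (∀ v, X v) →ₗ[k] (∀ v, Y v) →ₗ[k] k} (hβ : IsDiag β)
    (h : ∀ v, Function.Injective (block β v)) : Function.Injective β := by
  rw [injective_iff_left]
  intro x hx
  ext v
  apply (injective_iff_left (block β v)).1 (h v)
  intro b
  rw [← hβ.apply_single_right, hx]

/-- the annihilator of a product of subspaces is the product of the block annihilators -/
theorem IsDiag.annR_pi {β : (∀ v, X v) →ₗ[k] (∀ v, Y v) →ₗ[k] k} (hβ : IsDiag β)
    (L : ∀ v, Submodule k (X v)) :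
    annR β (Submodule.pi Set.univ L) = Submodule.pi Set.univ fun v => annR (block β v) (L v) := by
  ext y
  rw [mem_annR, Submodule.mem_pi]
  constructor
  · intro h v _ a ha
    rw [← hβ.apply_single_left]
    apply h
    rw [Submodule.mem_pi]
    intro w _
    by_cases hw : w = v
    · subst hw
      rwa [Pi.single_eq_same]
    · rw [Pi.single_eq_of_ne hw]
      exact (L w).zero_mem
  · intro h x hx
    rw [hβ.apply_eq_sum]
    refine Finset.sum_eq_zero fun v _ => ?_
    exact h v (Set.mem_univ v) (x v) ((Submodule.mem_pi.1 hx) v (Set.mem_univ v))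

/-- `L_v = ⊤` and the block right non-degenerate ⟹ `L_v^⊥ = ⊥` -/
theorem annR_top_eq_bot {X' Y' : Type*} [AddCommGroup X'] [Module k X'] [AddCommGroup Y']
    [Module k Y'] (β : X' →ₗ[k] Y' →ₗ[k] k) (h : Function.Injective β.flip) :
    annR β ⊤ = ⊥ := by
  rw [eq_bot_iff]
  intro y hy
  rw [Submodule.mem_bot]
  exact (injective_flip_iff_right β).1 h y fun x => hy x Submodule.mem_top

/-- `L_v = ⊥ ⟹ L_v^⊥ = ⊤` -/
theorem annR_bot_eq_top {X' Y' : Type*} [AddCommGroup X'] [Module k X'] [AddCommGroup Y']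
    [Module k Y'] (β : X' →ₗ[k] Y' →ₗ[k] k) : annR β ⊥ = ⊤ := by
  rw [eq_top_iff]
  intro y _ x hx
  rw [(Submodule.mem_bot k).1 hx, map_zero, LinearMap.zero_apply]

end Block

/-! ### numerics -/

section Numerics

variable {A B C : Type*} [AddCommGroup A] [Module k A] [AddCommGroup B] [Module k B]
  [AddCommGroup C] [Module k C]

/-- `dim B = dim im f + dim im g` for `A → B → C` exact. -/
theorem finrank_mid_eq [FiniteDimensional k B] (f : A →ₗ[k] B) (g : B →ₗ[k] C)
    (h : Function.Exact f g) :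
    finrank k B = finrank k (LinearMap.range f) + finrank k (LinearMap.range g) := by
  have := LinearMap.finrank_range_add_finrank_ker g
  rw [(LinearMap.exact_iff).1 h] at this
  omega

theorem finrank_range_of_injective (f : A →ₗ[k] B) (hf : Function.Injective f) :
    finrank k (LinearMap.range f) = finrank k A :=
  LinearMap.finrank_range_of_inj hf

theorem finrank_range_of_surjective (f : A →ₗ[k] B) (hf : Function.Surjective f) :
    finrank k (LinearMap.range f) = finrank k B := by
  rw [LinearMap.range_eq_top.2 hf, finrank_top]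

theorem finiteDimensional_mid [FiniteDimensional k A] [FiniteDimensional k C] (f : A →ₗ[k] B)
    (g : B →ₗ[k] C) (h : Function.Exact f g) : FiniteDimensional k B := by
  have h1 : FiniteDimensional k (LinearMap.ker g) := by
    rw [(LinearMap.exact_iff).1 h]
    infer_instance
  have h2 : FiniteDimensional k (B ⧸ LinearMap.ker g) :=
    (g.quotKerEquivRange).symm.finiteDimensional
  exact Module.Finite.of_submodule_quotient (LinearMap.ker g)

/-- a space pairing injectively into the dual of a finite-dimensional space is f.d. -/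
theorem finiteDimensional_of_injective_pairing [FiniteDimensional k B] (β : A →ₗ[k] B →ₗ[k] k)
    (h : Function.Injective β) : FiniteDimensional k A :=
  Module.Finite.of_injective β h

/-- the alternating sum of a nine-term exact sequence
`0 → A0 → A1 → A2 → A3 → A4 → A5 → A6 → A7 → A8 → 0` -/
theorem nine_term_sum {A0 A1 A2 A3 A4 A5 A6 A7 A8 : Type*}
    [AddCommGroup A0] [Module k A0] [AddCommGroup A1] [Module k A1]
    [AddCommGroup A2] [Module k A2] [AddCommGroup A3] [Module k A3]
    [AddCommGroup A4] [Module k A4] [AddCommGroup A5] [Module k A5]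
    [AddCommGroup A6] [Module k A6] [AddCommGroup A7] [Module k A7]
    [AddCommGroup A8] [Module k A8]
    [FiniteDimensional k A0] [FiniteDimensional k A1] [FiniteDimensional k A2]
    [FiniteDimensional k A3] [FiniteDimensional k A4] [FiniteDimensional k A5]
    [FiniteDimensional k A6] [FiniteDimensional k A7] [FiniteDimensional k A8]
    (f0 : A0 →ₗ[k] A1) (f1 : A1 →ₗ[k] A2) (f2 : A2 →ₗ[k] A3) (f3 : A3 →ₗ[k] A4)
    (f4 : A4 →ₗ[k] A5) (f5 : A5 →ₗ[k] A6) (f6 : A6 →ₗ[k] A7) (f7 : A7 →ₗ[k] A8)
    (h0 : Function.Injective f0) (e1 : Function.Exact f0 f1) (e2 : Function.Exact f1 f2)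
    (e3 : Function.Exact f2 f3) (e4 : Function.Exact f3 f4) (e5 : Function.Exact f4 f5)
    (e6 : Function.Exact f5 f6) (e7 : Function.Exact f6 f7) (h8 : Function.Surjective f7) :
    finrank k A0 + finrank k A2 + finrank k A4 + finrank k A6 + finrank k A8 =
      finrank k A1 + finrank k A3 + finrank k A5 + finrank k A7 := by
  have n0 := finrank_range_of_injective f0 h0
  have n1 := finrank_mid_eq f0 f1 e1
  have n2 := finrank_mid_eq f1 f2 e2
  have n3 := finrank_mid_eq f2 f3 e3
  have n4 := finrank_mid_eq f3 f4 e4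
  have n5 := finrank_mid_eq f4 f5 e5
  have n6 := finrank_mid_eq f5 f6 e6
  have n7 := finrank_mid_eq f6 f7 e7
  have n8 := finrank_range_of_surjective f7 h8
  omega

end Numerics

/-! ### `ker (H²_c(M) → H²(M))` -/

section Swap

variable {C2 H2 C1' H1' P1' : Type*}
  [AddCommGroup C2] [Module k C2] [AddCommGroup H2] [Module k H2]
  [AddCommGroup C1'] [Module k C1'] [AddCommGroup H1'] [Module k H1']
  [AddCommGroup P1'] [Module k P1']

/-- With `a21 : H²_c(M) × H¹(N) → k` perfect, `a12' : H¹_c(N) × H²(M) → k` right non-degenerate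
and SWAP: `ker (j2 : H²_c(M) → H²(M))` is the annihilator of `im (j1' : H¹_c(N) → H¹(N))`
`= ker (loc¹_N)`; hence `dim ker j2 + dim ker loc¹_N = h¹(N)`. -/
theorem finrank_ker_add_of_swap [FiniteDimensional k C2] [FiniteDimensional k H1']
    (j2 : C2 →ₗ[k] H2) (j1' : C1' →ₗ[k] H1') (r1' : H1' →ₗ[k] P1')
    (e3' : Function.Exact j1' r1')
    (a21 : C2 →ₗ[k] H1' →ₗ[k] k) (hl : Function.Injective a21) (hr : Function.Injective a21.flip)
    (a12' : C1' →ₗ[k] H2 →ₗ[k] k) (hr' : Function.Injective a12'.flip)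
    (s : k) (hs : s ≠ 0) (swap : ∀ x x', a21 x (j1' x') = s * a12' x' (j2 x)) :
    finrank k (LinearMap.ker j2) + finrank k (LinearMap.ker r1') = finrank k H1' := by
  have hker : LinearMap.ker j2 = annL a21 (LinearMap.ker r1') := by
    ext x
    rw [LinearMap.mem_ker, mem_annL]
    constructor
    · intro hx y hy
      obtain ⟨x', rfl⟩ := (e3' y).1 (LinearMap.mem_ker.1 hy)
      rw [swap, hx, map_zero, mul_zero]
    · intro hx
      apply (injective_flip_iff_right a12').1 hr'
      intro x'
      have h1 := hx (j1' x') (LinearMap.mem_ker.2 ((e3' _).2 ⟨x', rfl⟩))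
      rw [swap] at h1
      exact (mul_eq_zero.1 h1).resolve_left hs
  rw [hker]
  have := finrank_annL a21 ((injective_iff_left a21).1 hl) ((injective_flip_iff_right a21).1 hr)
    (LinearMap.ker r1')
  omega

end Swap

/-! ### the pre-Euler count -/

section PreEuler

variable {H0 P0 C1 H1 P1 C2 H2 C1' H1' P1' H2' : Type*}
  [AddCommGroup H0] [Module k H0] [AddCommGroup P0] [Module k P0]
  [AddCommGroup C1] [Module k C1] [AddCommGroup H1] [Module k H1]
  [AddCommGroup P1] [Module k P1] [AddCommGroup C2] [Module k C2]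
  [AddCommGroup H2] [Module k H2] [AddCommGroup C1'] [Module k C1']
  [AddCommGroup H1'] [Module k H1'] [AddCommGroup P1'] [Module k P1']
  [AddCommGroup H2'] [Module k H2']

/-- **Pre-Euler form of the Greenberg–Wiles count** (abstract).  Unprimed = coefficients `M`,
primed = coefficients `N = M*`.  Inputs: the cone long exact sequence of `M` up to `H²(M)`,
`H¹_c(N) → H¹(N) → P¹(N)` exact, the global duality pairings `a12`, `a21` (perfect), `a12'`
(right non-degenerate), SWAP, the local pairing `l11` (perfect) with the boundary formula `e21`.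
Output:
`dim Sel_L(M) + dim P⁰(M) + h¹(N) = dim Sel_{L^⊥}(N) + h⁰(M) + dim L + h²(N)`. -/
theorem preEuler_abs
    [FiniteDimensional k H0] [FiniteDimensional k P0] [FiniteDimensional k C1]
    [FiniteDimensional k H1] [FiniteDimensional k P1] [FiniteDimensional k C2]
    [FiniteDimensional k H1'] [FiniteDimensional k P1'] [FiniteDimensional k H2']
    (r0 : H0 →ₗ[k] P0) (d0 : P0 →ₗ[k] C1) (j1 : C1 →ₗ[k] H1) (r1 : H1 →ₗ[k] P1)
    (d1 : P1 →ₗ[k] C2) (j2 : C2 →ₗ[k] H2)
    (hr0 : Function.Injective r0) (e1 : Function.Exact r0 d0) (e2 : Function.Exact d0 j1)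
    (e3 : Function.Exact j1 r1) (e4 : Function.Exact r1 d1) (e5 : Function.Exact d1 j2)
    (j1' : C1' →ₗ[k] H1') (r1' : H1' →ₗ[k] P1') (e3' : Function.Exact j1' r1')
    (a12 : C1 →ₗ[k] H2' →ₗ[k] k) (ha12 : Function.Bijective a12)
    (a21 : C2 →ₗ[k] H1' →ₗ[k] k) (ha21 : Function.Bijective a21)
    (a12' : C1' →ₗ[k] H2 →ₗ[k] k) (ha12' : Function.Injective a12'.flip)
    (s : k) (hs : s ≠ 0) (swap : ∀ x x', a21 x (j1' x') = s * a12' x' (j2 x))
    (l11 : P1 →ₗ[k] P1' →ₗ[k] k) (hl11 : Function.Injective l11)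
    (hl11' : Function.Injective l11.flip)
    (e21 : ∀ b y, a21 (d1 b) y = l11 b (r1' y))
    (L : Submodule k P1) :
    finrank k (L.comap r1) + finrank k P0 + finrank k H1' =
      finrank k ((annR l11 L).comap r1') + finrank k H0 + finrank k L + finrank k H2' := by
  -- reciprocity
  have hrec : ∀ x : P1, x ∈ LinearMap.range r1 ↔ ∀ y' : H1', l11 x (r1' y') = 0 :=
    fun x => reciprocity_of_exact l11 r1 r1' d1 e4 a21 ha21.1 e21 x
  have hcount := selmer_count l11 ((injective_iff_left l11).1 hl11)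
    ((injective_flip_iff_right l11).1 hl11') r1 r1' hrec L
  -- `dim ker j2 + dim ker r1' = h¹(N)`
  have hk := finrank_ker_add_of_swap j2 j1' r1' e3' a21 ha21.1
    (injective_flip_of_bijective a21 ha21) a12' ha12' s hs swap
  -- the exact sequence `0 → H0 → P0 → C1 → H1 → P1 → C2 → H2`
  have n1 := finrank_mid_eq r0 d0 e1
  have n1' := finrank_range_of_injective r0 hr0
  have n2 := finrank_mid_eq d0 j1 e2
  have n3 := finrank_mid_eq j1 r1 e3
  have n4 := finrank_mid_eq r1 d1 e4
  have n5 : finrank k (LinearMap.range d1) = finrank k (LinearMap.ker j2) := by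
    rw [(LinearMap.exact_iff).1 e5]
  have n6 := finrank_eq_of_bijective a12 ha12
  omega

end PreEuler

end Fermat.Agent.GP.GW.NineTermAbs
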