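/-
GATE-P / S56 [P-GW], node GW-1d (helper19): **nine-term bookkeeping on the compact-support cone.**

General setting of GATE-C / C5: a group `G` with level system `𝒰`, local data `L`, a character `χ`,
a cone pairing `D : ConePairingData L χ` with boundary datum `E : ConeBdryData D`.  For a PAIR of
finite-dimensional discrete coefficient modules `(M, N, B)` (`B : M × N → k` a `χ`-pairing) such
that both `(M, N, B)` and `(N, M, B.flip)` have the duality property `Good`
(`GoodPair`; for `N = M*` this is what `D.Pr` gives for every `M`), we prove: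

* all the groups of the nine-term sequence are finite-dimensional (`GoodPair.fd…`);
* **local perfectness by the four-lemma**:
  `lam11_injective`  (needs the cup-commutativity `lam11' c b = ε · lam11 b c`, GW-1a),
  `lam20_injective`  (nothing extra),
  `lam02_injective`  (needs GW-1c: `h30` of `(N, M)` right non-degenerate);
* `hrec`      : global reciprocity in the shape of `SelmerCount.selmer_count`;
* `preEuler`  : `dim Sel_L(M) + dim P⁰(M) + h¹(N) = dim Sel_{L^⊥}(N) + h⁰(M) + dim L + h²(N)`;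
* numerics    : `h¹_c(M) = h²(N)`, `h²_c(M) = h¹(N)`, the nine-term alternating sum.
-/
import Mathlib
import Fermat.Agent.GC.PT.Main
import Fermat.Agent.GC.PT.BaseTop
import Fermat.Agent.GP.GW.NineTermAbs

set_option autoImplicit false

open CategoryTheory Module

noncomputable section

namespace Fermat.Agent.GP.GW.NineTerm

open Fermat.Agent.GC.Prof Fermat.Agent.GC.Prof.Cone Fermat.Agent.GC.PT
  Fermat.Agent.GC.PT.Triples Fermat.Agent.GP.GW.NineTermAbs Fermat.Agent.GP.GW.SelmerCount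

universe u

variable {k G : Type u} [Field k] [Group G] {𝒰 : LevelSystem G}
variable {L : LocalData 𝒰} {χ : G →* kˣ}

/-- The pair `(M, N, B)` has the duality property in both directions, `H¹` is finite-dimensional
and `H³ = 0` on both sides. -/
structure GoodPair (D : ConePairingData L χ) (M N : Rep.{u} k G) [IsDiscrete 𝒰 M]
    [IsDiscrete 𝒰 N] (B : M →ₗ[k] N →ₗ[k] k) (hB : IsChiPairing χ B) : Prop where
  good : (D.pair M N B hB).Good
  good' : (D.pair N M B.flip hB.flip).Good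
  fin1 : FiniteDimensional k (Hlc 𝒰 M 1)
  fin1' : FiniteDimensional k (Hlc 𝒰 N 1)
  zero3 : Limits.IsZero (Hlc 𝒰 M 3)
  zero3' : Limits.IsZero (Hlc 𝒰 N 3)

namespace GoodPair

variable {D : ConePairingData L χ} {M N : Rep.{u} k G} [IsDiscrete 𝒰 M] [IsDiscrete 𝒰 N]
  {B : M →ₗ[k] N →ₗ[k] k} {hB : IsChiPairing χ B}

/-- the flipped pair -/
theorem flip (h : GoodPair D M N B hB) : GoodPair D N M B.flip hB.flip where
  good := h.good'
  good' := h.good
  fin1 := h.fin1'
  fin1' := h.fin1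
  zero3 := h.zero3'
  zero3' := h.zero3

end GoodPair

/-! ### the global pairings, typed on `HlcC` / `Hlc` -/

section Typed

variable (D : ConePairingData L χ) (M N : Rep.{u} k G) [IsDiscrete 𝒰 M] [IsDiscrete 𝒰 N]
  (B : M →ₗ[k] N →ₗ[k] k) (hB : IsChiPairing χ B)

/-- `H¹_c(M) × H²(N) → k` -/
def g12 : HlcC L M 1 →ₗ[k] Hlc 𝒰 N 2 →ₗ[k] k := (D.pair M N B hB).h12
/-- `H²_c(M) × H¹(N) → k` -/
def g21 : HlcC L M 2 →ₗ[k] Hlc 𝒰 N 1 →ₗ[k] k := (D.pair M N B hB).h21
/-- `H³_c(M) × H⁰(N) → k` -/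
def g30 : HlcC L M 3 →ₗ[k] Hlc 𝒰 N 0 →ₗ[k] k := (D.pair M N B hB).h30

variable {D M N B hB}

theorem GoodPair.g12_bijective (h : GoodPair D M N B hB) : Function.Bijective (g12 D M N B hB) :=
  h.good.1
theorem GoodPair.g21_bijective (h : GoodPair D M N B hB) : Function.Bijective (g21 D M N B hB) :=
  h.good.2.1
theorem GoodPair.g30_injective (h : GoodPair D M N B hB) : Function.Injective (g30 D M N B hB) :=
  h.good.2.2

variable (D M N B hB)

/-- SWAP, typed. -/
theorem g_swap (x : HlcC L M 2) (x' : HlcC L N 1) :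
    g21 D M N B hB x ((HlcCToH L N 1).hom x') =
      D.s * g12 D N M B.flip hB.flip x' ((HlcCToH L M 2).hom x) :=
  D.swap M N B hB x x'

/-- SWAP for the flipped pair, typed. -/
theorem g_swap' (x : HlcC L M 1) (x' : HlcC L N 2) :
    g21 D N M B.flip hB.flip x' ((HlcCToH L M 1).hom x) =
      D.s * g12 D M N B hB x ((HlcCToH L N 2).hom x') :=
  D.swap N M B.flip hB.flip x' x

variable {D} (E : ConeBdryData D)

theorem g_e12 (b : ∀ v, Hlc (L.𝒰v v) (Rep.res (L.r v) M) 0) (y : Hlc 𝒰 N 2) :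
    g12 D M N B hB (HlcCBdry L M 0 b) y = E.lam02 M N B hB b (locRes L N 2 y) :=
  E.e12 M N B hB b y

theorem g_e21 (b : ∀ v, Hlc (L.𝒰v v) (Rep.res (L.r v) M) 1) (y : Hlc 𝒰 N 1) :
    g21 D M N B hB (HlcCBdry L M 1 b) y = E.lam11 M N B hB b (locRes L N 1 y) :=
  E.e21 M N B hB b y

theorem g_e30 (b : ∀ v, Hlc (L.𝒰v v) (Rep.res (L.r v) M) 2) (y : Hlc 𝒰 N 0) :
    g30 D M N B hB (HlcCBdry L M 2 b) y = E.lam20 M N B hB b (locRes L N 0 y) :=
  E.e30 M N B hB b y

end Typed

/-! ### finiteness -/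

section Finite

variable (D : ConePairingData L χ) (M N : Rep.{u} k G) [IsDiscrete 𝒰 M] [IsDiscrete 𝒰 N]
  (B : M →ₗ[k] N →ₗ[k] k) (hB : IsChiPairing χ B)

theorem fdH0 [FiniteDimensional k M] : FiniteDimensional k (Hlc 𝒰 M 0) :=
  finiteDimensional_Hlc_zero 𝒰 M

theorem fdP0 [Finite L.ι] [FiniteDimensional k M] :
    FiniteDimensional k (∀ v, Hlc (L.𝒰v v) (Rep.res (L.r v) M) 0) := by
  have fv : ∀ v, FiniteDimensional k (Hlc (L.𝒰v v) (Rep.res (L.r v) M) 0) :=
    fun v => @finiteDimensional_Hlc_zero k _ (L.Gv v) _ (L.𝒰v v) (Rep.res (L.r v) M)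
      (inferInstanceAs (FiniteDimensional k M)) (L.isDiscrete_res v M)
  have : Fintype L.ι := Fintype.ofFinite L.ι
  exact Module.Finite.pi

variable {D M N B hB}

theorem GoodPair.fdC1 [Finite L.ι] [FiniteDimensional k M] (h : GoodPair D M N B hB) :
    FiniteDimensional k (HlcC L M 1) := by
  have := fdP0 (L := L) M
  have := h.fin1
  exact finiteDimensional_mid (HlcCBdry L M 0) (HlcCToH L M 1).hom (exact_HlcCBdry_HlcCToH L M 0)

theorem GoodPair.fdH2' [Finite L.ι] [FiniteDimensional k M] (h : GoodPair D M N B hB) :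
    FiniteDimensional k (Hlc 𝒰 N 2) := by
  have := h.fdC1
  have : FiniteDimensional k (Module.Dual k (Hlc 𝒰 N 2)) :=
    (LinearEquiv.ofBijective (g12 D M N B hB) h.g12_bijective).finiteDimensional
  exact (Module.finite_dual_iff k).1 this

theorem GoodPair.fdH2 [Finite L.ι] [FiniteDimensional k N] (h : GoodPair D M N B hB) :
    FiniteDimensional k (Hlc 𝒰 M 2) := h.flip.fdH2'

theorem GoodPair.fdC2 (h : GoodPair D M N B hB) : FiniteDimensional k (HlcC L M 2) := by
  have := h.fin1'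
  exact finiteDimensional_of_injective_pairing (g21 D M N B hB) h.g21_bijective.1

theorem GoodPair.fdC3 [FiniteDimensional k N] (h : GoodPair D M N B hB) :
    FiniteDimensional k (HlcC L M 3) := by
  have := fdH0 (𝒰 := 𝒰) N
  exact finiteDimensional_of_injective_pairing (g30 D M N B hB) h.g30_injective

theorem GoodPair.fdP1 (h : GoodPair D M N B hB) :
    FiniteDimensional k (∀ v, Hlc (L.𝒰v v) (Rep.res (L.r v) M) 1) := by
  have := h.fin1
  have := h.fdC2
  exact finiteDimensional_mid (locRes L M 1) (HlcCBdry L M 1) (exact_locRes_HlcCBdry L M 1)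

theorem GoodPair.fdP2 [Finite L.ι] [FiniteDimensional k N] (h : GoodPair D M N B hB) :
    FiniteDimensional k (∀ v, Hlc (L.𝒰v v) (Rep.res (L.r v) M) 2) := by
  have := h.fdH2
  have := h.fdC3
  exact finiteDimensional_mid (locRes L M 2) (HlcCBdry L M 2) (exact_locRes_HlcCBdry L M 2)

end Finite

/-! ### injectivity of `loc⁰` -/

theorem injective_locRes_zero [Nonempty L.ι] (M : Rep.{u} k G) [IsDiscrete 𝒰 M] :
    Function.Injective (locRes L M 0) := by
  rw [injective_iff_map_eq_zero]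
  intro x hx
  obtain ⟨c, rfl⟩ := (exact_HlcCToH_locRes L M 0 x).1 hx
  have := HlcC_zero_subsingleton L M
  rw [Subsingleton.elim c 0, map_zero]

/-! ### local perfectness -/

section Local

variable {D : ConePairingData L χ} (E : ConeBdryData D) {M N : Rep.{u} k G} [IsDiscrete 𝒰 M]
  [IsDiscrete 𝒰 N] {B : M →ₗ[k] N →ₗ[k] k} {hB : IsChiPairing χ B}

/-- **`lam11` is left non-degenerate** (four-lemma on
`H¹_c(M) → H¹(M) → P¹(M) → H²_c(M)` against the dual of `H²(N) ← H²_c(N) ← P¹(N) ← H¹(N)`),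
given the graded commutativity `lam11' c b = ε · lam11 b c` of the local cup products (GW-1a). -/
theorem lam11_injective (h : GoodPair D M N B hB) (ε : k) (hε : ε ≠ 0)
    (hsym : ∀ (b : ∀ v, Hlc (L.𝒰v v) (Rep.res (L.r v) M) 1)
      (c : ∀ v, Hlc (L.𝒰v v) (Rep.res (L.r v) N) 1),
      E.lam11 N M B.flip hB.flip c b = ε * E.lam11 M N B hB b c) :
    Function.Injective (E.lam11 M N B hB) := by
  have := h.fin1
  refine injective_mid (HlcCToH L M 1).hom (locRes L M 1) (HlcCBdry L M 1)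
    (fun x => (exact_HlcCToH_locRes L M 1 _).2 ⟨x, rfl⟩) (exact_locRes_HlcCBdry L M 1)
    (locRes L N 1) (HlcCBdry L N 1) (HlcCToH L N 2).hom (exact_HlcCBdry_HlcCToH L N 1)
    (g12 D M N B hB) (g21 D N M B.flip hB.flip).flip (E.lam11 M N B hB)
    (g21 D M N B hB) D.s ε⁻¹ 1 D.s_ne (inv_ne_zero hε) ?_ ?_ ?_ h.g12_bijective.2
    (injective_flip_of_bijective _ h.flip.g21_bijective) h.g21_bijective.1
  · intro x y
    rw [LinearMap.flip_apply]
    exact g_swap' D M N B hB x y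
  · intro x c
    rw [LinearMap.flip_apply, g_e21 N M B.flip hB.flip E c x, hsym, ← mul_assoc,
      inv_mul_cancel₀ hε, one_mul]
  · intro b y
    rw [one_mul]
    exact g_e21 M N B hB E b y

/-- **`lam11` is right non-degenerate.** -/
theorem lam11_flip_injective (h : GoodPair D M N B hB) (ε : k) (hε : ε ≠ 0)
    (hsym : ∀ (b : ∀ v, Hlc (L.𝒰v v) (Rep.res (L.r v) M) 1)
      (c : ∀ v, Hlc (L.𝒰v v) (Rep.res (L.r v) N) 1),
      E.lam11 N M B.flip hB.flip c b = ε * E.lam11 M N B hB b c) :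
    Function.Injective (E.lam11 M N B hB).flip := by
  refine injective_flip_of_symm (ε := ε) hsym ?_
  refine lam11_injective E h.flip ε⁻¹ (inv_ne_zero hε) fun c b => ?_
  change E.lam11 M N B hB b c = ε⁻¹ * E.lam11 N M B.flip hB.flip c b
  rw [hsym, ← mul_assoc, inv_mul_cancel₀ hε, one_mul]

/-- **`lam20` is left non-degenerate** (four-lemma on
`H²_c(M) → H²(M) → P²(M) → H³_c(M)` against the dual of `H¹(N) ← H¹_c(N) ← P⁰(N) ← H⁰(N)`),
given `lam02' c b = ε · lam20 b c` (GW-1a, the trivial flips). -/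
theorem lam20_injective [Finite L.ι] [FiniteDimensional k N] (h : GoodPair D M N B hB) (ε : k)
    (hε : ε ≠ 0)
    (hsym : ∀ (b : ∀ v, Hlc (L.𝒰v v) (Rep.res (L.r v) M) 2)
      (c : ∀ v, Hlc (L.𝒰v v) (Rep.res (L.r v) N) 0),
      E.lam02 N M B.flip hB.flip c b = ε * E.lam20 M N B hB b c) :
    Function.Injective (E.lam20 M N B hB) := by
  have := h.fdH2
  refine injective_mid (HlcCToH L M 2).hom (locRes L M 2) (HlcCBdry L M 2)
    (fun x => (exact_HlcCToH_locRes L M 2 _).2 ⟨x, rfl⟩) (exact_locRes_HlcCBdry L M 2)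
    (locRes L N 0) (HlcCBdry L N 0) (HlcCToH L N 1).hom (exact_HlcCBdry_HlcCToH L N 0)
    (g21 D M N B hB) (g12 D N M B.flip hB.flip).flip (E.lam20 M N B hB)
    (g30 D M N B hB) D.s⁻¹ ε⁻¹ 1 (inv_ne_zero D.s_ne) (inv_ne_zero hε) ?_ ?_ ?_
    h.g21_bijective.2 (injective_flip_of_bijective _ h.flip.g12_bijective) h.g30_injective
  · intro x y
    rw [LinearMap.flip_apply, g_swap D M N B hB x y, ← mul_assoc, inv_mul_cancel₀ D.s_ne,
      one_mul]
  · intro x c
    rw [LinearMap.flip_apply, g_e12 N M B.flip hB.flip E c x, hsym, ← mul_assoc,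
      inv_mul_cancel₀ hε, one_mul]
  · intro b y
    rw [one_mul]
    exact g_e30 M N B hB E b y

/-- **`lam02` is left non-degenerate** (left-exact four-lemma on `H⁰(M) → P⁰(M) → H¹_c(M)` against
the dual of `H³_c(N) ↞ P²(N) ← H²(N)`), given `lam20' c b = ε · lam02 b c` (GW-1a) and the right
non-degeneracy of `h30` of the flipped pair (GW-1c). -/
theorem lam02_injective (h : GoodPair D M N B hB) (ε : k) (hε : ε ≠ 0)
    (hsym : ∀ (b : ∀ v, Hlc (L.𝒰v v) (Rep.res (L.r v) M) 0)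
      (c : ∀ v, Hlc (L.𝒰v v) (Rep.res (L.r v) N) 2),
      E.lam20 N M B.flip hB.flip c b = ε * E.lam02 M N B hB b c)
    (h30 : Function.Injective (g30 D N M B.flip hB.flip).flip) :
    Function.Injective (E.lam02 M N B hB) := by
  refine injective_mid_of_surjective (locRes L M 0) (HlcCBdry L M 0) (exact_locRes_HlcCBdry L M 0)
    (locRes L N 2) (HlcCBdry L N 2) (surjective_HlcCBdry_two N h.zero3')
    (g30 D N M B.flip hB.flip).flip (E.lam02 M N B hB) (g12 D M N B hB) ε⁻¹ 1 (inv_ne_zero hε)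
    ?_ ?_ h30 h.g12_bijective.1
  · intro x c
    rw [LinearMap.flip_apply, g_e30 N M B.flip hB.flip E c x, hsym, ← mul_assoc,
      inv_mul_cancel₀ hε, one_mul]
  · intro b y
    rw [one_mul]
    exact g_e12 M N B hB E b y

/-- **`lam20` is right non-degenerate** (from `lam02_injective` of the flipped pair). -/
theorem lam20_flip_injective (h : GoodPair D M N B hB) (ε : k) (hε : ε ≠ 0)
    (hsym : ∀ (b : ∀ v, Hlc (L.𝒰v v) (Rep.res (L.r v) M) 2)
      (c : ∀ v, Hlc (L.𝒰v v) (Rep.res (L.r v) N) 0),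
      E.lam02 N M B.flip hB.flip c b = ε * E.lam20 M N B hB b c)
    (h30 : Function.Injective (g30 D M N B hB).flip) :
    Function.Injective (E.lam20 M N B hB).flip := by
  refine injective_flip_of_symm (ε := ε) hsym ?_
  refine lam02_injective E h.flip ε⁻¹ (inv_ne_zero hε) (fun c b => ?_) h30
  change E.lam20 M N B hB b c = ε⁻¹ * E.lam02 N M B.flip hB.flip c b
  rw [hsym, ← mul_assoc, inv_mul_cancel₀ hε, one_mul]

/-- **`lam02` is right non-degenerate** (from `lam20_injective` of the flipped pair). -/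
theorem lam02_flip_injective [Finite L.ι] [FiniteDimensional k M] (h : GoodPair D M N B hB)
    (ε : k) (hε : ε ≠ 0)
    (hsym : ∀ (b : ∀ v, Hlc (L.𝒰v v) (Rep.res (L.r v) M) 0)
      (c : ∀ v, Hlc (L.𝒰v v) (Rep.res (L.r v) N) 2),
      E.lam20 N M B.flip hB.flip c b = ε * E.lam02 M N B hB b c) :
    Function.Injective (E.lam02 M N B hB).flip := by
  refine injective_flip_of_symm (ε := ε) hsym ?_
  refine lam20_injective E h.flip ε⁻¹ (inv_ne_zero hε) fun c b => ?_
  change E.lam02 M N B hB b c = ε⁻¹ * E.lam20 N M B.flip hB.flip c b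
  rw [hsym, ← mul_assoc, inv_mul_cancel₀ hε, one_mul]

end Local

/-! ### reciprocity and the pre-Euler count -/

section Count

variable {D : ConePairingData L χ} (E : ConeBdryData D) {M N : Rep.{u} k G} [IsDiscrete 𝒰 M]
  [IsDiscrete 𝒰 N] {B : M →ₗ[k] N →ₗ[k] k} {hB : IsChiPairing χ B}

/-- **global reciprocity** in the shape of `SelmerCount.selmer_count`:
`im (loc¹_M) = (im loc¹_N)^⊥` under `lam11`. -/
theorem hrec (h : GoodPair D M N B hB) (x : ∀ v, Hlc (L.𝒰v v) (Rep.res (L.r v) M) 1) :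
    x ∈ LinearMap.range (locRes L M 1) ↔
      ∀ y' : Hlc 𝒰 N 1, E.lam11 M N B hB x (locRes L N 1 y') = 0 :=
  reciprocity_of_exact (E.lam11 M N B hB) (locRes L M 1) (locRes L N 1) (HlcCBdry L M 1)
    (exact_locRes_HlcCBdry L M 1) (g21 D M N B hB) h.g21_bijective.1 (g_e21 M N B hB E) x

/-- **pre-Euler form of the Greenberg–Wiles count**:
`dim Sel_L(M) + dim P⁰(M) + h¹(N) = dim Sel_{L^⊥}(N) + h⁰(M) + dim L + h²(N)`,
`Sel_L(M) = (loc¹_M)⁻¹ L`, `L^⊥ = annR lam11 L`. -/
theorem preEuler [Finite L.ι] [Nonempty L.ι] [FiniteDimensional k M] [FiniteDimensional k N]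
    (h : GoodPair D M N B hB) (ε : k) (hε : ε ≠ 0)
    (hsym : ∀ (b : ∀ v, Hlc (L.𝒰v v) (Rep.res (L.r v) M) 1)
      (c : ∀ v, Hlc (L.𝒰v v) (Rep.res (L.r v) N) 1),
      E.lam11 N M B.flip hB.flip c b = ε * E.lam11 M N B hB b c)
    (𝓛 : Submodule k (∀ v, Hlc (L.𝒰v v) (Rep.res (L.r v) M) 1)) :
    finrank k (𝓛.comap (locRes L M 1)) +
        finrank k (∀ v, Hlc (L.𝒰v v) (Rep.res (L.r v) M) 0) + finrank k (Hlc 𝒰 N 1) =
      finrank k ((annR (E.lam11 M N B hB) 𝓛).comap (locRes L N 1)) + finrank k (Hlc 𝒰 M 0) +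
        finrank k 𝓛 + finrank k (Hlc 𝒰 N 2) := by
  have := fdH0 (𝒰 := 𝒰) M
  have := fdP0 (L := L) M
  have := h.fdC1
  have := h.fin1
  have := h.fdP1
  have := h.fdC2
  have := h.fin1'
  have := h.flip.fdP1
  have := h.fdH2'
  have := h.fdH2
  exact preEuler_abs (locRes L M 0) (HlcCBdry L M 0) (HlcCToH L M 1).hom (locRes L M 1)
    (HlcCBdry L M 1) (HlcCToH L M 2).hom (injective_locRes_zero M)
    (exact_locRes_HlcCBdry L M 0) (exact_HlcCBdry_HlcCToH L M 0) (exact_HlcCToH_locRes L M 1)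
    (exact_locRes_HlcCBdry L M 1) (exact_HlcCBdry_HlcCToH L M 1)
    (HlcCToH L N 1).hom (locRes L N 1) (exact_HlcCToH_locRes L N 1)
    (g12 D M N B hB) h.g12_bijective (g21 D M N B hB) h.g21_bijective
    (g12 D N M B.flip hB.flip) (injective_flip_of_bijective _ h.flip.g12_bijective)
    D.s D.s_ne (g_swap D M N B hB)
    (E.lam11 M N B hB) (lam11_injective E h ε hε hsym) (lam11_flip_injective E h ε hε hsym)
    (g_e21 M N B hB E) 𝓛

end Count

/-! ### numerics -/

section Numerics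

variable {D : ConePairingData L χ} (E : ConeBdryData D) {M N : Rep.{u} k G} [IsDiscrete 𝒰 M]
  [IsDiscrete 𝒰 N] {B : M →ₗ[k] N →ₗ[k] k} {hB : IsChiPairing χ B}

/-- `h¹_c(M) = h²(N)` -/
theorem finrank_HlcC_one [Finite L.ι] [FiniteDimensional k M] (h : GoodPair D M N B hB) :
    finrank k (HlcC L M 1) = finrank k (Hlc 𝒰 N 2) := by
  have := h.fdH2'
  exact finrank_eq_of_bijective (g12 D M N B hB) h.g12_bijective

/-- `h²_c(M) = h¹(N)` -/
theorem finrank_HlcC_two (h : GoodPair D M N B hB) :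
    finrank k (HlcC L M 2) = finrank k (Hlc 𝒰 N 1) := by
  have := h.fin1'
  exact finrank_eq_of_bijective (g21 D M N B hB) h.g21_bijective

/-- `h³_c(M) = h⁰(N)`, given GW-1c. -/
theorem finrank_HlcC_three [FiniteDimensional k N] (h : GoodPair D M N B hB)
    (h30 : Function.Injective (g30 D M N B hB).flip) :
    finrank k (HlcC L M 3) = finrank k (Hlc 𝒰 N 0) := by
  have := fdH0 (𝒰 := 𝒰) N
  have := h.fdC3
  exact finrank_eq_of_bijective (g30 D M N B hB)
    (bijective_of_injective_flip _ h.g30_injective h30)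

/-- **the nine-term alternating sum** of the cone sequence of `M`:
`h⁰ + h¹_c + p¹ + h² + h³_c = p⁰ + h¹ + h²_c + p²`. -/
theorem nine_term [Finite L.ι] [Nonempty L.ι] [FiniteDimensional k M] [FiniteDimensional k N]
    (h : GoodPair D M N B hB) :
    finrank k (Hlc 𝒰 M 0) + finrank k (HlcC L M 1) +
        finrank k (∀ v, Hlc (L.𝒰v v) (Rep.res (L.r v) M) 1) + finrank k (Hlc 𝒰 M 2) +
        finrank k (HlcC L M 3) =
      finrank k (∀ v, Hlc (L.𝒰v v) (Rep.res (L.r v) M) 0) + finrank k (Hlc 𝒰 M 1) +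
        finrank k (HlcC L M 2) + finrank k (∀ v, Hlc (L.𝒰v v) (Rep.res (L.r v) M) 2) := by
  have := fdH0 (𝒰 := 𝒰) M
  have := fdP0 (L := L) M
  have := h.fdC1
  have := h.fin1
  have := h.fdP1
  have := h.fdC2
  have := h.fdH2
  have := h.fdP2
  have := h.fdC3
  exact nine_term_sum (locRes L M 0) (HlcCBdry L M 0) (HlcCToH L M 1).hom (locRes L M 1)
    (HlcCBdry L M 1) (HlcCToH L M 2).hom (locRes L M 2) (HlcCBdry L M 2)
    (injective_locRes_zero M)
    (exact_locRes_HlcCBdry L M 0) (exact_HlcCBdry_HlcCToH L M 0) (exact_HlcCToH_locRes L M 1)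
    (exact_locRes_HlcCBdry L M 1) (exact_HlcCBdry_HlcCToH L M 1) (exact_HlcCToH_locRes L M 2)
    (exact_locRes_HlcCBdry L M 2) (surjective_HlcCBdry_two M h.zero3)

/-- **the nine-term alternating sum in terms of `M` and `N` only** (GW-1c needed for the last
term): `h⁰(M) + h²(N) + p¹(M) + h²(M) + h⁰(N) = p⁰(M) + h¹(M) + h¹(N) + p²(M)`. -/
theorem nine_term' [Finite L.ι] [Nonempty L.ι] [FiniteDimensional k M] [FiniteDimensional k N]
    (h : GoodPair D M N B hB) (h30 : Function.Injective (g30 D M N B hB).flip) :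
    finrank k (Hlc 𝒰 M 0) + finrank k (Hlc 𝒰 N 2) +
        finrank k (∀ v, Hlc (L.𝒰v v) (Rep.res (L.r v) M) 1) + finrank k (Hlc 𝒰 M 2) +
        finrank k (Hlc 𝒰 N 0) =
      finrank k (∀ v, Hlc (L.𝒰v v) (Rep.res (L.r v) M) 0) + finrank k (Hlc 𝒰 M 1) +
        finrank k (Hlc 𝒰 N 1) + finrank k (∀ v, Hlc (L.𝒰v v) (Rep.res (L.r v) M) 2) := by
  have h1 := nine_term h
  rw [finrank_HlcC_one h, finrank_HlcC_two h, finrank_HlcC_three h h30] at h1
  exact h1

end Numerics

/-! ### the named inputs (GW-1a, GW-1c) and the bundled statements -/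

section Named

variable (L) in
/-- the local sum `Pⁿ(M) = ∏_v Hⁿ(G_v, M)` -/
abbrev Ploc (M : Rep.{u} k G) [IsDiscrete 𝒰 M] (n : ℕ) : Type u :=
  ∀ v, Hlc (L.𝒰v v) (Rep.res (L.r v) M) n

variable {D : ConePairingData L χ} (E : ConeBdryData D) (M N : Rep.{u} k G) [IsDiscrete 𝒰 M]
  [IsDiscrete 𝒰 N] (B : M →ₗ[k] N →ₗ[k] k) (hB : IsChiPairing χ B)

/-- GW-1a in degree `(1,1)`: `lam11 (N, M, B.flip) c b = ε · lam11 (M, N, B) b c`, `ε ≠ 0`. -/
def CupSymm11 : Prop :=
  ∃ ε : k, ε ≠ 0 ∧ ∀ (b : Ploc L M 1) (c : Ploc L N 1),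
    E.lam11 N M B.flip hB.flip c b = ε * E.lam11 M N B hB b c

/-- GW-1a, the flip: `lam02 (N, M, B.flip) c b = ε · lam20 (M, N, B) b c`, `ε ≠ 0`. -/
def CupSymm20 : Prop :=
  ∃ ε : k, ε ≠ 0 ∧ ∀ (b : Ploc L M 2) (c : Ploc L N 0),
    E.lam02 N M B.flip hB.flip c b = ε * E.lam20 M N B hB b c

/-- GW-1a, the flip: `lam20 (N, M, B.flip) c b = ε · lam02 (M, N, B) b c`, `ε ≠ 0`. -/
def CupSymm02 : Prop :=
  ∃ ε : k, ε ≠ 0 ∧ ∀ (b : Ploc L M 0) (c : Ploc L N 2),
    E.lam20 N M B.flip hB.flip c b = ε * E.lam02 M N B hB b c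

variable (D) in
/-- GW-1c: `h30 : H³_c(M) × H⁰(N) → k` is right non-degenerate. -/
def H30Right : Prop := Function.Injective (g30 D M N B hB).flip

variable {M N B hB}

theorem CupSymm11.flip (h : CupSymm11 E M N B hB) : CupSymm11 E N M B.flip hB.flip := by
  obtain ⟨ε, hε, hsym⟩ := h
  refine ⟨ε⁻¹, inv_ne_zero hε, fun c b => ?_⟩
  change E.lam11 M N B hB b c = ε⁻¹ * E.lam11 N M B.flip hB.flip c b
  rw [hsym, ← mul_assoc, inv_mul_cancel₀ hε, one_mul]

theorem CupSymm20.flip (h : CupSymm20 E M N B hB) : CupSymm02 E N M B.flip hB.flip := by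
  obtain ⟨ε, hε, hsym⟩ := h
  refine ⟨ε⁻¹, inv_ne_zero hε, fun c b => ?_⟩
  change E.lam20 M N B hB b c = ε⁻¹ * E.lam02 N M B.flip hB.flip c b
  rw [hsym, ← mul_assoc, inv_mul_cancel₀ hε, one_mul]

theorem CupSymm02.flip (h : CupSymm02 E M N B hB) : CupSymm20 E N M B.flip hB.flip := by
  obtain ⟨ε, hε, hsym⟩ := h
  refine ⟨ε⁻¹, inv_ne_zero hε, fun c b => ?_⟩
  change E.lam02 M N B hB b c = ε⁻¹ * E.lam20 N M B.flip hB.flip c b
  rw [hsym, ← mul_assoc, inv_mul_cancel₀ hε, one_mul]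

/-- **`lam11` is perfect**, given GW-1a. -/
theorem lam11_perfect (h : GoodPair D M N B hB) (h11 : CupSymm11 E M N B hB) :
    Function.Injective (E.lam11 M N B hB) ∧ Function.Injective (E.lam11 M N B hB).flip := by
  obtain ⟨ε, hε, hsym⟩ := h11
  exact ⟨lam11_injective E h ε hε hsym, lam11_flip_injective E h ε hε hsym⟩

/-- **`lam20` is perfect**, given GW-1a and GW-1c. -/
theorem lam20_perfect [Finite L.ι] [FiniteDimensional k N] (h : GoodPair D M N B hB)
    (h20 : CupSymm20 E M N B hB) (h30 : H30Right D M N B hB) :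
    Function.Injective (E.lam20 M N B hB) ∧ Function.Injective (E.lam20 M N B hB).flip := by
  obtain ⟨ε, hε, hsym⟩ := h20
  exact ⟨lam20_injective E h ε hε hsym, lam20_flip_injective E h ε hε hsym h30⟩

/-- **`lam02` is perfect**, given GW-1a and GW-1c (for the flipped pair). -/
theorem lam02_perfect [Finite L.ι] [FiniteDimensional k M] (h : GoodPair D M N B hB)
    (h02 : CupSymm02 E M N B hB) (h30 : H30Right D N M B.flip hB.flip) :
    Function.Injective (E.lam02 M N B hB) ∧ Function.Injective (E.lam02 M N B hB).flip := by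
  obtain ⟨ε, hε, hsym⟩ := h02
  exact ⟨lam02_injective E h ε hε hsym h30, lam02_flip_injective E h ε hε hsym⟩

/-- `p¹(M) = p¹(N)` -/
theorem finrank_Ploc_one (h : GoodPair D M N B hB) (h11 : CupSymm11 E M N B hB) :
    finrank k (Ploc L M 1) = finrank k (Ploc L N 1) := by
  have := h.fdP1
  have := h.flip.fdP1
  obtain ⟨hl, hr⟩ := lam11_perfect E h h11
  exact finrank_eq_of_bijective _ (bijective_of_injective_flip _ hl hr)

/-- `p²(M) = p⁰(N)` -/
theorem finrank_Ploc_two [Finite L.ι] [FiniteDimensional k N] (h : GoodPair D M N B hB)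
    (h20 : CupSymm20 E M N B hB) (h30 : H30Right D M N B hB) :
    finrank k (Ploc L M 2) = finrank k (Ploc L N 0) := by
  have := h.fdP2
  have := fdP0 (L := L) N
  obtain ⟨hl, hr⟩ := lam20_perfect E h h20 h30
  exact finrank_eq_of_bijective _ (bijective_of_injective_flip _ hl hr)

/-- **pre-Euler**, bundled form. -/
theorem preEuler' [Finite L.ι] [Nonempty L.ι] [FiniteDimensional k M] [FiniteDimensional k N]
    (h : GoodPair D M N B hB) (h11 : CupSymm11 E M N B hB) (𝓛 : Submodule k (Ploc L M 1)) :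
    finrank k (𝓛.comap (locRes L M 1)) + finrank k (Ploc L M 0) + finrank k (Hlc 𝒰 N 1) =
      finrank k ((annR (E.lam11 M N B hB) 𝓛).comap (locRes L N 1)) + finrank k (Hlc 𝒰 M 0) +
        finrank k 𝓛 + finrank k (Hlc 𝒰 N 2) := by
  obtain ⟨ε, hε, hsym⟩ := h11
  exact preEuler E h ε hε hsym 𝓛

end Named

/-! ### the evaluation pair `(M, M*, ev)` -/

section Ev

variable (D : ConePairingData L χ) (hχ : ∃ U ∈ 𝒰.sets, ∀ g ∈ U, χ g = 1)

include hχ in
/-- **`(M, M*, ev)` is a `GoodPair`** as soon as `D.Pr` holds for `M` and `M*`. -/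
theorem goodPair_ev (M : Rep.{u} k G) [FiniteDimensional k M] [IsDiscrete 𝒰 M]
    [IsDiscrete 𝒰 (M.dualTwist χ)] (hM : D.Pr M) (hN : D.Pr (M.dualTwist χ)) :
    GoodPair D M (M.dualTwist χ) (evB χ M) (isChiPairing_evB χ M) := by
  have dd : IsDiscrete 𝒰 ((M.dualTwist χ).dualTwist χ) :=
    isDiscrete_dualTwist 𝒰 χ hχ (M.dualTwist χ)
  obtain ⟨good, fin', zero'⟩ := hM inferInstance inferInstance
  obtain ⟨-, fin'', zero''⟩ := hN inferInstance dd
  -- transport along biduality `M ≅ M**`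
  have hH : ∀ (n : ℕ) (x : Hlc 𝒰 M n),
      (HlcMap 𝒰 (ddIso χ M).inv n).hom ((HlcMap 𝒰 (ddIso χ M).hom n).hom x) = x := by
    intro n x
    have h := congr($(HlcMap_comp 𝒰 (ddIso χ M).hom (ddIso χ M).inv n) x)
    rw [Iso.hom_inv_id, HlcMap_id] at h
    simpa using h.symm
  have hinj : ∀ n, Function.Injective (HlcMap 𝒰 (ddIso χ M).hom n).hom := by
    intro n x y hxy
    rw [← hH n x, ← hH n y, hxy]
  refine ⟨good, D.good_flip hχ M hN, ?_, fin', ?_, zero'⟩
  · exact Module.Finite.of_injective _ (hinj 1)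
  · rw [ModuleCat.isZero_iff_subsingleton]
    have hz : Subsingleton (Hlc 𝒰 ((M.dualTwist χ).dualTwist χ) 3) :=
      ModuleCat.isZero_iff_subsingleton.1 zero''
    exact ⟨fun x y => hinj 3 (hz.elim _ _)⟩

end Ev

end Fermat.Agent.GP.GW.NineTerm
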