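/-
GATE-P / S56 [P-GW], node GW-1d (ii) (helper19): **block form of the local pairings.**

If the local pairings of `E : ConeBdryData D` are given by `lamᵢ b c = τ ((b_v ∪ c_v)_v)`
(`LamFormulas τ E`, which is what `MainInst.exists_data` produces), they are block diagonal over the
places, the `v`-th block is `(a, b) ↦ τ (single v (a ∪ b))`, and perfectness of `lamᵢ` passes to
every block: LOCAL TATE DUALITY at each place.  Also `(∏ L_v)^⊥ = ∏ L_v^⊥`.
-/
import Mathlib
import Fermat.Agent.GC.PT.MainFinal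
import Fermat.Agent.GP.GW.NineTerm

set_option autoImplicit false

open CategoryTheory Module

noncomputable section

namespace Fermat.Agent.GP.GW.NineTerm

open Fermat.Agent.GC.Prof Fermat.Agent.GC.Prof.Cone Fermat.Agent.GC.PT
  Fermat.Agent.GC.PT.Triples Fermat.Agent.GC.PT.MainInst Fermat.Agent.GP.GW.NineTermAbs
  Fermat.Agent.GP.GW.SelmerCount

universe u

variable {k G : Type u} [Field k] [Group G] {𝒰 : LevelSystem G}
variable {L : LocalData 𝒰} {χ : G →* kˣ} [IsDiscrete 𝒰 (chiRep χ)]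
variable [Fintype L.ι] [DecidableEq L.ι]
variable {τ : (∀ v, Hlc (L.𝒰v v) (Rep.res (L.r v) (chiRep χ)) 2) →ₗ[k] k}
  {D : ConePairingData L χ} {E : ConeBdryData D}

section Diag

variable (hLam : LamFormulas τ E) (M N : Rep.{u} k G) [IsDiscrete 𝒰 M] [IsDiscrete 𝒰 N]
  (B : M →ₗ[k] N →ₗ[k] k) (hB : IsChiPairing χ B)

include hLam

omit [Fintype L.ι] in
theorem isDiag_lam02 : IsDiag (E.lam02 M N B hB) := by
  intro v w hvw a b
  rw [hLam.1 M N B hB]
  convert map_zero τ
  rename_i u
  by_cases hu : u = v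
  · subst hu
    rw [Pi.single_eq_of_ne hvw, map_zero]
    rfl
  · rw [Pi.single_eq_of_ne hu, map_zero, LinearMap.zero_apply]
    rfl

omit [Fintype L.ι] in
theorem isDiag_lam11 : IsDiag (E.lam11 M N B hB) := by
  intro v w hvw a b
  rw [hLam.2.1 M N B hB]
  convert map_zero τ
  rename_i u
  by_cases hu : u = v
  · subst hu
    rw [Pi.single_eq_of_ne hvw, map_zero]
    rfl
  · rw [Pi.single_eq_of_ne hu, map_zero, LinearMap.zero_apply]
    rfl

omit [Fintype L.ι] in
theorem isDiag_lam20 : IsDiag (E.lam20 M N B hB) := by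
  intro v w hvw a b
  rw [hLam.2.2 M N B hB]
  convert map_zero τ
  rename_i u
  by_cases hu : u = v
  · subst hu
    rw [Pi.single_eq_of_ne hvw, map_zero]
    rfl
  · rw [Pi.single_eq_of_ne hu, map_zero, LinearMap.zero_apply]
    rfl

end Diag

/-! ### the blocks -/

section Blocks

variable (hLam : LamFormulas τ E) (M N : Rep.{u} k G) [IsDiscrete 𝒰 M] [IsDiscrete 𝒰 N]
  (B : M →ₗ[k] N →ₗ[k] k) (hB : IsChiPairing χ B)

include hLam

omit [Fintype L.ι] in
/-- the `v`-th block of `lam11` is `(a, b) ↦ τ (single v (a ∪ b))` -/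
theorem block_lam11_apply (v : L.ι) (a : Hlc (L.𝒰v v) (Rep.res (L.r v) M) 1)
    (b : Hlc (L.𝒰v v) (Rep.res (L.r v) N) 1) :
    block (E.lam11 M N B hB) v a b =
      τ (Pi.single v (HlcCup (L.𝒰v v) (locB L (toChi χ B) v)
        (equivariant_locB L (equivariant_toChi hB) v) (show 1 + 1 = 2 from rfl) a b)) := by
  rw [block_apply, hLam.2.1 M N B hB]
  congr 1
  funext u
  by_cases hu : u = v
  · subst hu
    rw [Pi.single_eq_same, Pi.single_eq_same, Pi.single_eq_same]
  · rw [Pi.single_eq_of_ne hu, map_zero, LinearMap.zero_apply, Pi.single_eq_of_ne hu]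

omit [Fintype L.ι] in
/-- the `v`-th block of `lam02` -/
theorem block_lam02_apply (v : L.ι) (a : Hlc (L.𝒰v v) (Rep.res (L.r v) M) 0)
    (b : Hlc (L.𝒰v v) (Rep.res (L.r v) N) 2) :
    block (E.lam02 M N B hB) v a b =
      τ (Pi.single v (HlcCup (L.𝒰v v) (locB L (toChi χ B) v)
        (equivariant_locB L (equivariant_toChi hB) v) (show 0 + 2 = 2 from rfl) a b)) := by
  rw [block_apply, hLam.1 M N B hB]
  congr 1
  funext u
  by_cases hu : u = v
  · subst hu
    rw [Pi.single_eq_same, Pi.single_eq_same, Pi.single_eq_same]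
  · rw [Pi.single_eq_of_ne hu, map_zero, LinearMap.zero_apply, Pi.single_eq_of_ne hu]

omit [Fintype L.ι] in
/-- the `v`-th block of `lam20` -/
theorem block_lam20_apply (v : L.ι) (a : Hlc (L.𝒰v v) (Rep.res (L.r v) M) 2)
    (b : Hlc (L.𝒰v v) (Rep.res (L.r v) N) 0) :
    block (E.lam20 M N B hB) v a b =
      τ (Pi.single v (HlcCup (L.𝒰v v) (locB L (toChi χ B) v)
        (equivariant_locB L (equivariant_toChi hB) v) (show 2 + 0 = 2 from rfl) a b)) := by
  rw [block_apply, hLam.2.2 M N B hB]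
  congr 1
  funext u
  by_cases hu : u = v
  · subst hu
    rw [Pi.single_eq_same, Pi.single_eq_same, Pi.single_eq_same]
  · rw [Pi.single_eq_of_ne hu, map_zero, LinearMap.zero_apply, Pi.single_eq_of_ne hu]

end Blocks

/-! ### local Tate duality at each place -/

section LocalDuality

variable (hLam : LamFormulas τ E) {M N : Rep.{u} k G} [IsDiscrete 𝒰 M] [IsDiscrete 𝒰 N]
  {B : M →ₗ[k] N →ₗ[k] k} {hB : IsChiPairing χ B}

include hLam

/-- **local Tate duality in degree `(1,1)` at the place `v`**: the pairing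
`H¹(G_v, M) × H¹(G_v, N) → k`, `(a, b) ↦ τ (single v (a ∪ b))` is non-degenerate on both sides. -/
theorem local_duality_11 (h : GoodPair D M N B hB) (ε : k) (hε : ε ≠ 0)
    (hsym : ∀ (b : ∀ v, Hlc (L.𝒰v v) (Rep.res (L.r v) M) 1)
      (c : ∀ v, Hlc (L.𝒰v v) (Rep.res (L.r v) N) 1),
      E.lam11 N M B.flip hB.flip c b = ε * E.lam11 M N B hB b c) (v : L.ι) :
    Function.Injective (block (E.lam11 M N B hB) v) ∧
      Function.Injective (block (E.lam11 M N B hB) v).flip :=
  ⟨(isDiag_lam11 hLam M N B hB).block_injective (lam11_injective E h ε hε hsym) v,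
    (isDiag_lam11 hLam M N B hB).block_flip_injective (lam11_flip_injective E h ε hε hsym) v⟩

/-- **local Tate duality in degree `(2,0)` at the place `v`** (right non-degeneracy needs
GW-1c). -/
theorem local_duality_20 [FiniteDimensional k N] (h : GoodPair D M N B hB) (ε : k) (hε : ε ≠ 0)
    (hsym : ∀ (b : ∀ v, Hlc (L.𝒰v v) (Rep.res (L.r v) M) 2)
      (c : ∀ v, Hlc (L.𝒰v v) (Rep.res (L.r v) N) 0),
      E.lam02 N M B.flip hB.flip c b = ε * E.lam20 M N B hB b c)
    (h30 : Function.Injective (g30 D M N B hB).flip) (v : L.ι) :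
    Function.Injective (block (E.lam20 M N B hB) v) ∧
      Function.Injective (block (E.lam20 M N B hB) v).flip :=
  ⟨(isDiag_lam20 hLam M N B hB).block_injective (lam20_injective E h ε hε hsym) v,
    (isDiag_lam20 hLam M N B hB).block_flip_injective
      (lam20_flip_injective E h ε hε hsym h30) v⟩

/-- **local Tate duality in degree `(0,2)` at the place `v`** (left non-degeneracy needs
GW-1c for the flipped pair). -/
theorem local_duality_02 [FiniteDimensional k M] (h : GoodPair D M N B hB) (ε : k) (hε : ε ≠ 0)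
    (hsym : ∀ (b : ∀ v, Hlc (L.𝒰v v) (Rep.res (L.r v) M) 0)
      (c : ∀ v, Hlc (L.𝒰v v) (Rep.res (L.r v) N) 2),
      E.lam20 N M B.flip hB.flip c b = ε * E.lam02 M N B hB b c)
    (h30 : Function.Injective (g30 D N M B.flip hB.flip).flip) (v : L.ι) :
    Function.Injective (block (E.lam02 M N B hB) v) ∧
      Function.Injective (block (E.lam02 M N B hB) v).flip :=
  ⟨(isDiag_lam02 hLam M N B hB).block_injective (lam02_injective E h ε hε hsym h30) v,
    (isDiag_lam02 hLam M N B hB).block_flip_injective (lam02_flip_injective E h ε hε hsym) v⟩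

omit [Fintype L.ι] in
/-- `(∏ L_v)^⊥ = ∏ L_v^⊥` for `lam11`. -/
theorem annR_lam11_pi [Fintype L.ι] (M N : Rep.{u} k G) [IsDiscrete 𝒰 M] [IsDiscrete 𝒰 N]
    (B : M →ₗ[k] N →ₗ[k] k) (hB : IsChiPairing χ B)
    (𝓛 : ∀ v, Submodule k (Hlc (L.𝒰v v) (Rep.res (L.r v) M) 1)) :
    annR (E.lam11 M N B hB) (Submodule.pi Set.univ 𝓛) =
      Submodule.pi Set.univ fun v => annR (block (E.lam11 M N B hB) v) (𝓛 v) :=
  (isDiag_lam11 hLam M N B hB).annR_pi 𝓛

end LocalDuality

end Fermat.Agent.GP.GW.NineTerm
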