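/-
GATE-P / S56 [P-GW], node GW-1d (helper19): **nine-term bookkeeping for `PTData S`**
(`G = G_ℚ`, `𝒰 = levelS S`, `L = locDataQ S`, `χ = cycloChar p`), the instance of
`GP/GW/NineTerm{,Block}.lean` consumed by the Greenberg–Wiles formula.

Notation: `M* = M.dualTwist (cycloChar p)`, `Pⁿ(M) = Ploc (locDataQ S) M n = ∏_{v ∈ S} Hⁿ(G_v, M)`,
`lam11 Δ M : P¹(M) × P¹(M*) → k` the sum of the local Tate pairings.

Inputs that are separate leaves of helper59's graph 4002 appear as NAMED hypotheses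
(general definitions in `NineTerm.lean`):
* `CupSymm11 Δ.E M M* ev _` (GW-1a): `lam11 (M*, M, ev.flip) c b = ε · lam11 (M, M*, ev) b c`;
* `CupSymm20 …`, `CupSymm02 …` (GW-1a, the trivial flips);
* `H30Right Δ.D M M* ev _`  (GW-1c): `h30 (M, M*, ev)` is right non-degenerate.
-/
import Mathlib
import Fermat.Agent.GP.GW.PTData
import Fermat.Agent.GP.GW.NineTermBlock

set_option autoImplicit false

open CategoryTheory Module

noncomputable section

namespace Fermat.Agent.GP.GW.NineTermQ

open Fermat.Agent.GC.Prof Fermat.Agent.GC.Prof.Cone Fermat.Agent.GC.PT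
  Fermat.Agent.GC.PT.Triples Fermat.Agent.GC.PT.LocDataQ Fermat.Agent.GC.PT.MainInst
  Fermat.Agent.GC.C0 ExtCitation groupCohomology Fermat.Agent.GP.GW Fermat.Agent.GP.GW.NineTerm
  Fermat.Agent.GP.GW.NineTermAbs Fermat.Agent.GP.GW.SelmerCount

variable {p : ℕ} [Fact p.Prime] {S : Finset Nat.Primes}

/-- `M*` is discrete (instance helper). -/
theorem isDiscrete_dual (hpS : pPrime p ∈ S) (M : Rep (ZMod p) GQ) [FiniteDimensional (ZMod p) M]
    [IsDiscrete (levelS S) M] : IsDiscrete (levelS S) (M.dualTwist (cycloChar p)) :=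
  Fermat.Agent.GC.PT.Triples.isDiscrete_dualTwist (levelS S) (cycloChar p)
    (exists_levelS_cycloChar_eq_one S hpS) M

/-- `M*` is finite-dimensional (instance helper). -/
theorem finiteDimensional_dual (M : Rep (ZMod p) GQ) [FiniteDimensional (ZMod p) M] :
    FiniteDimensional (ZMod p) (M.dualTwist (cycloChar p)) :=
  inferInstanceAs (FiniteDimensional (ZMod p) (Module.Dual (ZMod p) M))

section Main

variable [IsDiscrete (levelS S) (TChi p)] (Δ : PTData (p := p) S) (hpS : pPrime p ∈ S)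
  (M : Rep (ZMod p) GQ) [FiniteDimensional (ZMod p) M] [IsDiscrete (levelS S) M]
  [IsDiscrete (levelS S) (M.dualTwist (cycloChar p))]

include hpS in
/-- **`(M, M*, ev)` is a `GoodPair`** for every finite-dimensional discrete `M`. -/
theorem goodPair : GoodPair Δ.D M (M.dualTwist (cycloChar p)) (evB (cycloChar p) M)
    (isChiPairing_evB (cycloChar p) M) := by
  have := finiteDimensional_dual (p := p) M
  exact goodPair_ev Δ.D (exists_levelS_cycloChar_eq_one S hpS) M (Δ.hPr M)
    (Δ.hPr (M.dualTwist (cycloChar p)))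

/-- the sum of the local Tate pairings `P¹(M) × P¹(M*) → k` -/
abbrev lam11 : Ploc (locDataQ S) M 1 →ₗ[ZMod p]
    Ploc (locDataQ S) (M.dualTwist (cycloChar p)) 1 →ₗ[ZMod p] ZMod p :=
  Δ.E.lam11 M (M.dualTwist (cycloChar p)) (evB (cycloChar p) M) (isChiPairing_evB (cycloChar p) M)

include hpS in
/-- (i) **`lam11` is perfect** (both non-degeneracies), given GW-1a. -/
theorem lam11_perfect
    (h11 : CupSymm11 Δ.E M (M.dualTwist (cycloChar p)) (evB (cycloChar p) M)
      (isChiPairing_evB (cycloChar p) M)) :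
    Function.Injective (lam11 Δ M) ∧ Function.Injective (lam11 Δ M).flip :=
  NineTerm.lam11_perfect Δ.E (goodPair Δ hpS M) h11

include hpS in
/-- (ii) **local Tate duality at every `v ∈ S`** in degree `(1,1)`, given GW-1a. -/
theorem local_duality
    (h11 : CupSymm11 Δ.E M (M.dualTwist (cycloChar p)) (evB (cycloChar p) M)
      (isChiPairing_evB (cycloChar p) M)) (v : (locDataQ S).ι) :
    Function.Injective (block (lam11 Δ M) v) ∧ Function.Injective (block (lam11 Δ M) v).flip := by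
  obtain ⟨ε, hε, hsym⟩ := h11
  exact local_duality_11 Δ.hLam (goodPair Δ hpS M) ε hε hsym v

omit [FiniteDimensional (ZMod p) M] in
/-- (ii) `(∏ L_v)^⊥ = ∏ L_v^⊥`. -/
theorem annR_pi (𝓛 : ∀ v, Submodule (ZMod p)
    (Hlc ((locDataQ S).𝒰v v) (Rep.res ((locDataQ S).r v) M) 1)) :
    annR (lam11 Δ M) (Submodule.pi Set.univ 𝓛) =
      Submodule.pi Set.univ fun v => annR (block (lam11 Δ M) v) (𝓛 v) :=
  annR_lam11_pi Δ.hLam M _ _ _ 𝓛

include hpS in
/-- (iii) **global reciprocity**: `im loc¹_M = (im loc¹_{M*})^⊥`. -/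
theorem hrec (x : Ploc (locDataQ S) M 1) :
    x ∈ LinearMap.range (locRes (locDataQ S) M 1) ↔
      ∀ y' : Hlc (levelS S) (M.dualTwist (cycloChar p)) 1,
        lam11 Δ M x (locRes (locDataQ S) (M.dualTwist (cycloChar p)) 1 y') = 0 :=
  NineTerm.hrec Δ.E (goodPair Δ hpS M) x

include hpS in
/-- (v) **preEuler**: `dim Sel_L(M) + dim P⁰(M) + h¹(M*) = dim Sel_{L^⊥}(M*) + h⁰(M) + dim L +
h²(M*)`, given GW-1a. -/
theorem preEuler
    (h11 : CupSymm11 Δ.E M (M.dualTwist (cycloChar p)) (evB (cycloChar p) M)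
      (isChiPairing_evB (cycloChar p) M))
    (𝓛 : Submodule (ZMod p) (Ploc (locDataQ S) M 1)) :
    finrank (ZMod p) (𝓛.comap (locRes (locDataQ S) M 1)) +
        finrank (ZMod p) (Ploc (locDataQ S) M 0) +
        finrank (ZMod p) (Hlc (levelS S) (M.dualTwist (cycloChar p)) 1) =
      finrank (ZMod p) ((annR (lam11 Δ M) 𝓛).comap
          (locRes (locDataQ S) (M.dualTwist (cycloChar p)) 1)) +
        finrank (ZMod p) (Hlc (levelS S) M 0) + finrank (ZMod p) 𝓛 +
        finrank (ZMod p) (Hlc (levelS S) (M.dualTwist (cycloChar p)) 2) := by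
  have := finiteDimensional_dual (p := p) M
  have : Nonempty (locDataQ S).ι := nonempty_locDataQ S ⟨_, hpS⟩
  exact NineTerm.preEuler' Δ.E (goodPair Δ hpS M) h11 𝓛

include hpS in
/-- (iv) **the nine-term alternating sum**, given GW-1c:
`h⁰(M) + h²(M*) + p¹(M) + h²(M) + h⁰(M*) = p⁰(M) + h¹(M) + h¹(M*) + p²(M)`. -/
theorem nine_term
    (h30 : H30Right Δ.D M (M.dualTwist (cycloChar p)) (evB (cycloChar p) M)
      (isChiPairing_evB (cycloChar p) M)) :
    finrank (ZMod p) (Hlc (levelS S) M 0) +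
        finrank (ZMod p) (Hlc (levelS S) (M.dualTwist (cycloChar p)) 2) +
        finrank (ZMod p) (Ploc (locDataQ S) M 1) + finrank (ZMod p) (Hlc (levelS S) M 2) +
        finrank (ZMod p) (Hlc (levelS S) (M.dualTwist (cycloChar p)) 0) =
      finrank (ZMod p) (Ploc (locDataQ S) M 0) + finrank (ZMod p) (Hlc (levelS S) M 1) +
        finrank (ZMod p) (Hlc (levelS S) (M.dualTwist (cycloChar p)) 1) +
        finrank (ZMod p) (Ploc (locDataQ S) M 2) := by
  have := finiteDimensional_dual (p := p) M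
  have : Nonempty (locDataQ S).ι := nonempty_locDataQ S ⟨_, hpS⟩
  exact NineTerm.nine_term' (goodPair Δ hpS M) h30

include Δ hpS in
/-- (iv) all the groups of the nine-term sequence of `M` are finite-dimensional. -/
theorem finiteDimensional_all :
    FiniteDimensional (ZMod p) (Hlc (levelS S) M 1) ∧
      FiniteDimensional (ZMod p) (Hlc (levelS S) M 2) ∧
      FiniteDimensional (ZMod p) (Ploc (locDataQ S) M 0) ∧
      FiniteDimensional (ZMod p) (Ploc (locDataQ S) M 1) ∧
      FiniteDimensional (ZMod p) (Ploc (locDataQ S) M 2) := by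
  have := finiteDimensional_dual (p := p) M
  have h := goodPair Δ hpS M
  exact ⟨h.fin1, h.fdH2, fdP0 M, h.fdP1, h.fdP2⟩

end Main

end Fermat.Agent.GP.GW.NineTermQ
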