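/-
GATE-P / S56 [P-GW], node GW-1d (iv) EXPORT (helper19): the finiteness / vanishing package that
E-GLUE (helper59 4110 §C) consumes, for EVERY finite-dimensional discrete `N`, with no instance
binder on `N*`:

* `hlc_finite Δ hpS N : (∀ i ≤ 2, FiniteDimensional (Hlc (levelS S) N i)) ∧ ∀ x : Hlc (levelS S) N 3, x = 0`;
* `hlc_finite_of_odd hp2 hpS N` : the same without `Δ` (`nonempty_ptData`);
* `hlc_finiteDimensional`, `hlc_three_eq_zero`, `subsingleton_hlc_three` : the components;
* `ploc_finiteDimensional` : `Pⁱ(N)` f.d. for `i ≤ 2`;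
* generic (any field `k`, group `G`), for a short exact sequence `X` of `Rep k G`:
  `function_exact`, `injective_f`, `surjective_g`, `finrank_additive`, `finiteDimensional_left/right`,
  `finrank_ker_involution_additive` (`c`-invariants are exact for an involution `c`, `2 ≠ 0`);
* **`chi_additive_Q`** : `ChiAdd.chi (levelS S)` is additive on short exact sequences of discrete
  reps with f.d. middle term (E-GLUE (a));
* **`tateDefect_additive_Q`** : so is `χ(N) − dim N^{c=1} + dim N` (`c = complexConjugation`, `p` odd).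
-/
import Mathlib
import Fermat.Agent.GP.GW.ChiAdd
import Fermat.Agent.GP.GW.NineTermQ

set_option autoImplicit false

open CategoryTheory Module

noncomputable section

namespace Fermat.Agent.GP.GW.NineTermExport

open Fermat.Agent.GC.Prof Fermat.Agent.GC.Prof.Cone Fermat.Agent.GC.PT
  Fermat.Agent.GC.PT.Triples Fermat.Agent.GC.PT.LocDataQ Fermat.Agent.GC.PT.MainInst
  Fermat.Agent.GC.C0 ExtCitation groupCohomology Fermat.Agent.GP.GW Fermat.Agent.GP.GW.NineTerm
  Fermat.Agent.GP.GW.NineTermAbs

variable {p : ℕ} [Fact p.Prime] {S : Finset Nat.Primes}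
variable [IsDiscrete (levelS S) (TChi p)]

section WithData

variable (Δ : PTData (p := p) S) (hpS : pPrime p ∈ S)
  (N : Rep (ZMod p) GQ) [FiniteDimensional (ZMod p) N] [IsDiscrete (levelS S) N]

include Δ hpS in
/-- `Hⁱ(G_S, N)` is finite-dimensional for `i ≤ 2`. -/
theorem hlc_finiteDimensional (i : ℕ) (hi : i ≤ 2) :
    FiniteDimensional (ZMod p) (Hlc (levelS S) N i) := by
  have := NineTermQ.isDiscrete_dual hpS N
  have := NineTermQ.finiteDimensional_dual (p := p) N
  have hg := NineTermQ.goodPair Δ hpS N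
  interval_cases i
  · exact fdH0 (𝒰 := levelS S) N
  · exact hg.fin1
  · exact hg.fdH2

include Δ hpS in
/-- `H³(G_S, N) = 0`. -/
theorem subsingleton_hlc_three : Subsingleton (Hlc (levelS S) N 3) := by
  have := NineTermQ.isDiscrete_dual hpS N
  exact ModuleCat.isZero_iff_subsingleton.1 (NineTermQ.goodPair Δ hpS N).zero3

include Δ hpS in
theorem hlc_three_eq_zero (x : Hlc (levelS S) N 3) : x = 0 :=
  (subsingleton_hlc_three Δ hpS N).elim x 0

include Δ hpS in
/-- **the package of helper59 4110 §C.** -/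
theorem hlc_finite :
    (∀ i ≤ 2, FiniteDimensional (ZMod p) (Hlc (levelS S) N i)) ∧
      ∀ x : Hlc (levelS S) N 3, x = 0 :=
  ⟨fun i hi => hlc_finiteDimensional Δ hpS N i hi, hlc_three_eq_zero Δ hpS N⟩

include Δ hpS in
/-- `Pⁱ(N) = ∏_{v ∈ S} Hⁱ(G_v, N)` is finite-dimensional for `i ≤ 2`. -/
theorem ploc_finiteDimensional (i : ℕ) (hi : i ≤ 2) :
    FiniteDimensional (ZMod p) (Ploc (locDataQ S) N i) := by
  have := NineTermQ.isDiscrete_dual hpS N
  have h := NineTermQ.finiteDimensional_all Δ hpS N
  interval_cases i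
  · exact h.2.2.1
  · exact h.2.2.2.1
  · exact h.2.2.2.2

end WithData

/-- the same package with `Δ` chosen inside (`p` odd, `p ∈ S`). -/
theorem hlc_finite_of_odd (hp2 : p ≠ 2) (hpS : pPrime p ∈ S)
    (N : Rep (ZMod p) GQ) [FiniteDimensional (ZMod p) N] [IsDiscrete (levelS S) N] :
    (∀ i ≤ 2, FiniteDimensional (ZMod p) (Hlc (levelS S) N i)) ∧
      ∀ x : Hlc (levelS S) N 3, x = 0 := by
  obtain ⟨Δ⟩ := nonempty_ptData hp2 S hpS
  exact hlc_finite Δ hpS N

/-! ### short exact sequences of representations: dimension counts -/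

section Additive

universe u

variable {k G : Type u} [Field k] [Group G]
variable {X : ShortComplex (Rep.{u} k G)}

theorem exact_elementwise (hX : X.ShortExact) (y : X.X₂) (hy : X.g.hom y = 0) :
    ∃ x : X.X₁, X.f.hom x = y := by
  have h := hX.exact
  rw [← ShortComplex.exact_map_iff_of_faithful X (forget₂ (Rep.{u} k G) (ModuleCat.{u} k)),
    ShortComplex.moduleCat_exact_iff] at h
  exact h y hy

theorem comp_apply_eq_zero (x : X.X₁) : X.g.hom (X.f.hom x) = 0 := by
  have h2 : (X.f ≫ X.g).hom x = (0 : X.X₁ ⟶ X.X₃).hom x := by rw [X.zero]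
  exact h2

theorem function_exact (hX : X.ShortExact) :
    Function.Exact X.f.hom.toLinearMap X.g.hom.toLinearMap := by
  intro y
  constructor
  · intro hy
    obtain ⟨x, hx⟩ := exact_elementwise hX y hy
    exact ⟨x, hx⟩
  · rintro ⟨x, rfl⟩
    exact comp_apply_eq_zero x

theorem injective_f (hX : X.ShortExact) : Function.Injective X.f.hom.toLinearMap :=
  (Rep.mono_iff_injective X.f).1 hX.mono_f

theorem surjective_g (hX : X.ShortExact) : Function.Surjective X.g.hom.toLinearMap :=
  (Rep.epi_iff_surjective X.g).1 hX.epi_g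

/-- `dim X₂ = dim X₁ + dim X₃`. -/
theorem finrank_additive (hX : X.ShortExact) [FiniteDimensional k X.X₂] :
    finrank k X.X₂ = finrank k X.X₁ + finrank k X.X₃ := by
  have h1 := LinearMap.finrank_range_add_finrank_ker X.g.hom.toLinearMap
  have h2 : finrank k (LinearMap.range X.g.hom.toLinearMap) = finrank k X.X₃ := by
    rw [LinearMap.range_eq_top.2 (surjective_g hX), finrank_top]
  have h3 : LinearMap.ker X.g.hom.toLinearMap = LinearMap.range X.f.hom.toLinearMap :=
    (LinearMap.exact_iff.1 (function_exact hX))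
  have h4 : finrank k (LinearMap.range X.f.hom.toLinearMap) = finrank k X.X₁ :=
    LinearMap.finrank_range_of_inj (injective_f hX)
  rw [h2, h3, h4] at h1
  omega

theorem finiteDimensional_left (hX : X.ShortExact) [FiniteDimensional k X.X₂] :
    FiniteDimensional k X.X₁ :=
  Module.Finite.of_injective X.f.hom.toLinearMap (injective_f hX)

theorem finiteDimensional_right (hX : X.ShortExact) [FiniteDimensional k X.X₂] :
    FiniteDimensional k X.X₃ :=
  Module.Finite.of_surjective X.g.hom.toLinearMap (surjective_g hX)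

/-- the `c`-invariants are exact for an involution `c` when `2` is invertible. -/
theorem finrank_ker_involution_additive (h2 : (2 : k) ≠ 0) (hX : X.ShortExact)
    [FiniteDimensional k X.X₂] (c : G) (hc : c * c = 1) :
    finrank k (LinearMap.ker (X.X₂.ρ c - 1)) =
      finrank k (LinearMap.ker (X.X₁.ρ c - 1)) + finrank k (LinearMap.ker (X.X₃.ρ c - 1)) := by
  have := finiteDimensional_left hX
  have := finiteDimensional_right hX
  -- restriction of `g` to the invariants
  let K₁ := LinearMap.ker (X.X₁.ρ c - 1)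
  let K₂ := LinearMap.ker (X.X₂.ρ c - 1)
  let K₃ := LinearMap.ker (X.X₃.ρ c - 1)
  have hmem : ∀ {A : Rep.{u} k G} (a : A), a ∈ LinearMap.ker (A.ρ c - 1) ↔ A.ρ c a = a := by
    intro A a
    rw [LinearMap.mem_ker, LinearMap.sub_apply, Module.End.one_apply, sub_eq_zero]
  let gK : K₂ →ₗ[k] K₃ := X.g.hom.toLinearMap.restrict (p := K₂) (q := K₃) (by
    intro a ha
    rw [hmem] at ha ⊢
    have := Rep.hom_comm_apply X.g c a
    rw [ha] at this
    exact this.symm)
  let fK : K₁ →ₗ[k] K₂ := X.f.hom.toLinearMap.restrict (p := K₁) (q := K₂) (by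
    intro a ha
    rw [hmem] at ha ⊢
    have := Rep.hom_comm_apply X.f c a
    rw [ha] at this
    exact this.symm)
  have hfinj : Function.Injective fK := by
    intro a b hab
    apply Subtype.ext
    apply injective_f hX
    exact congrArg Subtype.val hab
  have hcc : ∀ {A : Rep.{u} k G} (a : A), A.ρ c (A.ρ c a) = a := by
    intro A a
    rw [← Module.End.mul_apply, ← map_mul, hc, map_one, Module.End.one_apply]
  have hgsurj : Function.Surjective gK := by
    rintro ⟨y, hy⟩
    rw [hmem] at hy
    obtain ⟨x, hx⟩ := surjective_g hX y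
    refine ⟨⟨(2 : k)⁻¹ • (x + X.X₂.ρ c x), ?_⟩, ?_⟩
    · rw [hmem, map_smul, map_add, hcc, add_comm]
    · apply Subtype.ext
      change X.g.hom.toLinearMap ((2 : k)⁻¹ • (x + X.X₂.ρ c x)) = y
      have hcomm : X.g.hom.toLinearMap (X.X₂.ρ c x) = X.X₃.ρ c (X.g.hom.toLinearMap x) :=
        Rep.hom_comm_apply X.g c x
      rw [map_smul, map_add, hcomm, hx, hy, ← two_smul k y, smul_smul, inv_mul_cancel₀ h2,
        one_smul]
  have hex : Function.Exact fK gK := by
    rintro ⟨y, hy⟩
    constructor
    · intro h0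
      have h0' : X.g.hom.toLinearMap y = 0 := congrArg Subtype.val h0
      obtain ⟨x, hx⟩ := (function_exact hX y).1 h0'
      have hxinv : x ∈ K₁ := by
        rw [hmem]
        apply injective_f hX
        have hcomm : X.f.hom.toLinearMap (X.X₁.ρ c x) = X.X₂.ρ c (X.f.hom.toLinearMap x) :=
          Rep.hom_comm_apply X.f c x
        rw [hcomm, hx]
        exact (hmem y).1 hy
      exact ⟨⟨x, hxinv⟩, Subtype.ext hx⟩
    · rintro ⟨⟨x, hx⟩, hxy⟩
      apply Subtype.ext
      have : X.f.hom.toLinearMap x = y := congrArg Subtype.val hxy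
      change X.g.hom.toLinearMap y = 0
      rw [← this]
      exact comp_apply_eq_zero x
  have h1 := LinearMap.finrank_range_add_finrank_ker gK
  have h2' : finrank k (LinearMap.range gK) = finrank k K₃ := by
    rw [LinearMap.range_eq_top.2 hgsurj, finrank_top]
  have h3 : LinearMap.ker gK = LinearMap.range fK := LinearMap.exact_iff.1 hex
  have h4 : finrank k (LinearMap.range fK) = finrank k K₁ := LinearMap.finrank_range_of_inj hfinj
  rw [h2', h3, h4] at h1
  change finrank k K₂ = finrank k K₁ + finrank k K₃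
  omega

end Additive

/-! ### the `G_ℚ`-instances (E-GLUE (a)) -/

section QAdditive

variable (Δ : PTData (p := p) S) (hpS : pPrime p ∈ S)
  {X : ShortComplex (Rep (ZMod p) GQ)}
  [IsDiscrete (levelS S) X.X₁] [IsDiscrete (levelS S) X.X₂] [IsDiscrete (levelS S) X.X₃]
  [FiniteDimensional (ZMod p) X.X₂]

include Δ hpS in
/-- **additivity of `χ(G_S, -)`** on short exact sequences with f.d. middle term. -/
theorem chi_additive_Q (hX : X.ShortExact) :
    ChiAdd.chi (levelS S) X.X₂ = ChiAdd.chi (levelS S) X.X₁ + ChiAdd.chi (levelS S) X.X₃ := by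
  have := finiteDimensional_left hX
  have := finiteDimensional_right hX
  exact ChiAdd.chi_additive (levelS S) hX
    (fun i hi => ⟨hlc_finiteDimensional Δ hpS X.X₁ i hi, hlc_finiteDimensional Δ hpS X.X₂ i hi,
      hlc_finiteDimensional Δ hpS X.X₃ i hi⟩)
    (hlc_three_eq_zero Δ hpS X.X₁)

theorem two_ne_zero_of_odd (hp2 : p ≠ 2) : (2 : ZMod p) ≠ 0 := by
  intro h
  have h' : ((2 : ℕ) : ZMod p) = 0 := by exact_mod_cast h
  rw [ZMod.natCast_eq_zero_iff] at h'
  exact hp2 ((Nat.prime_dvd_prime_iff_eq (Fact.out : p.Prime) Nat.prime_two).1 h')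

include Δ hpS in
/-- **additivity of the Tate defect** `χ(N) − dim N^{c = 1} + dim N`. -/
theorem tateDefect_additive_Q (hp2 : p ≠ 2) (hX : X.ShortExact) :
    ChiAdd.chi (levelS S) X.X₂ -
        (finrank (ZMod p) (LinearMap.ker (X.X₂.ρ complexConjugation - 1)) : ℤ) +
        (finrank (ZMod p) X.X₂ : ℤ) =
      (ChiAdd.chi (levelS S) X.X₁ -
        (finrank (ZMod p) (LinearMap.ker (X.X₁.ρ complexConjugation - 1)) : ℤ) +
        (finrank (ZMod p) X.X₁ : ℤ)) +
      (ChiAdd.chi (levelS S) X.X₃ -
        (finrank (ZMod p) (LinearMap.ker (X.X₃.ρ complexConjugation - 1)) : ℤ) +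
        (finrank (ZMod p) X.X₃ : ℤ)) := by
  have h1 := chi_additive_Q Δ hpS hX
  have h2 := finrank_ker_involution_additive (two_ne_zero_of_odd hp2) hX complexConjugation
    complexConjugation_mul_self
  have h3 := finrank_additive hX
  omega

end QAdditive

end Fermat.Agent.GP.GW.NineTermExport
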