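/-
GATE-P (S56 long shot) / node [P-GW], leaf S56-GW-SKILL (helper71): **S-enlargement kills the
`S`-class group.**

For a number field `K` and a finite set `S` of rational primes there is a finite `S'' ⊇ S` such that
for EVERY finite `T ⊇ S''` the `T`-class group `Cl_T(K) = Cl(K)/⟨primes above T⟩` is trivial (class
group finite; put the rational primes under ideal representatives of all classes into `S''`).

Consumers (on the landed GATE-C Kummer lemmas, `K ⊂ ℚ̄` finite, unramified outside `T`):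
* `X(T,K) := Hlc¹(G_{K,T}, O_T^×) = 0` (`GC/Kummer/H1Lim.finite_hlc_one_sUnitsK`);
* `#Hlc¹(G_{K,T}, ℤ/p) = [O_{K,T}^× : (O_{K,T}^×)^p]` exactly (`HlcH1Card.card_hlc_one_zmod`);
* `Ш²(G_{K,T}, ℤ/p) = 0` w.r.t. any family of places covering `T` (`HlcSha2.card_sha2Mu_le` +
  `HlcHasseFinal.hHasse_sUnitsK`).

Design note: board post 4028.  In Tate's global Euler characteristic formula (base case of the
Artin induction) this removes every class-group term: only the Galois structure of the `T`-units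
modulo `p` is left.
-/
import Mathlib
import Fermat.Agent.GC.Kummer.H1Lim
import Fermat.Agent.GC.Kummer.HlcH1Card
import Fermat.Agent.GC.Kummer.HlcSha2
import Fermat.Agent.GC.Kummer.HlcHasseFinal

set_option autoImplicit false

open NumberField IsDedekindDomain nonZeroDivisors

noncomputable section

namespace Fermat.Agent.GP.GW.SKill

open Fermat.Agent.GC.Kummer Fermat.Agent.GC.Capit Fermat.Agent.GC.Global.Adapter

/-! ### Abstract part: number field `K` as a type -/

section Abstract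

variable {K : Type*} [Field K] [NumberField K]

/-- A nonzero natural number lying in a prime ideal has a prime factor lying in it. -/
theorem exists_prime_dvd_of_natCast_mem {R : Type*} [CommRing R] {P : Ideal R} (hP : P.IsPrime)
    {n : ℕ} (hn : n ≠ 0) (h : (n : R) ∈ P) : ∃ q : ℕ, q.Prime ∧ q ∣ n ∧ (q : R) ∈ P := by
  have h1 : ((n.primeFactorsList.map (Nat.cast : ℕ → R) : List R) : Multiset R).prod ∈ P := by
    rw [Multiset.prod_coe, ← Nat.cast_list_prod, Nat.prod_primeFactorsList hn]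
    exact h
  obtain ⟨x, hx, hxP⟩ := (hP.multiset_prod_mem_iff_exists_mem _).1 h1
  rw [Multiset.mem_coe, List.mem_map] at hx
  obtain ⟨q, hq, rfl⟩ := hx
  exact ⟨q, Nat.prime_of_mem_primeFactorsList hq, Nat.dvd_of_mem_primeFactorsList hq, hxP⟩

/-- The rational primes dividing the absolute norm of an ideal. -/
theorem finite_normPrimes (I : Ideal (𝓞 K)) :
    {q : Nat.Primes | (q : ℕ) ∣ Ideal.absNorm I ∧ Ideal.absNorm I ≠ 0}.Finite := by
  refine Set.Finite.of_injOn (f := fun q : Nat.Primes => (q : ℕ))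
    (t := ((Ideal.absNorm I).primeFactors : Set ℕ)) ?_ ?_ (Finset.finite_toSet _)
  · intro q hq
    exact Finset.mem_coe.2 (Nat.mem_primeFactors.2 ⟨q.2, hq.1, hq.2⟩)
  · intro a _ b _ h
    exact Subtype.ext h

def normPrimes (I : Ideal (𝓞 K)) : Finset Nat.Primes := (finite_normPrimes I).toFinset

theorem mem_normPrimes {I : Ideal (𝓞 K)} {q : Nat.Primes} :
    q ∈ normPrimes I ↔ (q : ℕ) ∣ Ideal.absNorm I ∧ Ideal.absNorm I ≠ 0 := by
  unfold normPrimes
  rw [Set.Finite.mem_toFinset]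
  exact Iff.rfl

/-- A nonzero ideal is supported on the primes above the rational primes dividing its norm. -/
theorem supportedOn_normPrimes {I : Ideal (𝓞 K)} (hI : I ≠ ⊥) {T : Finset Nat.Primes}
    (hT : normPrimes I ⊆ T) : SupportedOn (primeSet (primesAbove K T)) I := by
  intro v hv hle
  have hv0 : v ≠ ⊥ := fun h => hI (le_bot_iff.1 (h ▸ hle))
  have hn0 : Ideal.absNorm I ≠ 0 := fun h => hI (Ideal.absNorm_eq_zero_iff.1 h)
  have hmem : ((Ideal.absNorm I : ℕ) : 𝓞 K) ∈ v := hle (Ideal.absNorm_mem I)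
  obtain ⟨q, hq, hqn, hqv⟩ := exists_prime_dvd_of_natCast_mem hv hn0 hmem
  refine ⟨⟨v, hv, hv0⟩, ?_, rfl⟩
  refine mem_primesAbove.2 ⟨⟨q, hq⟩, hT (mem_normPrimes.2 ⟨hqn, hn0⟩), hqv⟩

/-- If `normPrimes` of a representative of every ideal class is in `T`, then `Cl_T(K)` is
trivial. -/
theorem sClasses_eq_top_of_reps {T : Finset Nat.Primes}
    (hT : ∀ c : ClassGroup (𝓞 K), ∃ I : (Ideal (𝓞 K))⁰, ClassGroup.mk0 I = c ∧
      normPrimes (I : Ideal (𝓞 K)) ⊆ T) :
    sClasses (primeSet (primesAbove K T)) = ⊤ := by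
  rw [eq_top_iff]
  intro c _
  obtain ⟨I, hIc, hIT⟩ := hT c
  have hI0 : (I : Ideal (𝓞 K)) ≠ ⊥ := mem_nonZeroDivisors_iff_ne_zero.1 I.2
  have h := mk0_mem_sClasses (primeSet (primesAbove K T)) (I : Ideal (𝓞 K))
    (supportedOn_normPrimes hI0 hIT) I.2
  rw [← hIc]
  exact h

/-- **S-enlargement.**  There is a finite `S'' ⊇ S` such that `Cl_T(K)` is trivial for every
finite `T ⊇ S''`. -/
theorem exists_sClasses_eq_top (S : Finset Nat.Primes) :
    ∃ S'' : Finset Nat.Primes, S ⊆ S'' ∧ ∀ T : Finset Nat.Primes, S'' ⊆ T →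
      sClasses (K := K) (primeSet (primesAbove K T)) = ⊤ := by
  classical
  choose I hI using fun c : ClassGroup (𝓞 K) => ClassGroup.mk0_surjective c
  have : Fintype (ClassGroup (𝓞 K)) := Fintype.ofFinite _
  refine ⟨S ∪ Finset.univ.biUnion fun c => normPrimes (I c : Ideal (𝓞 K)),
    Finset.subset_union_left, fun T hT => sClasses_eq_top_of_reps fun c => ⟨I c, hI c, ?_⟩⟩
  refine Finset.Subset.trans ?_ hT
  refine Finset.Subset.trans ?_ Finset.subset_union_right
  exact Finset.subset_biUnion_of_mem (fun c => normPrimes (I c : Ideal (𝓞 K))) (Finset.mem_univ c)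

/-- The `T`-class group is trivial when `sClasses = ⊤`. -/
theorem card_clS_eq_one {T : Finset Nat.Primes}
    (h : sClasses (K := K) (primeSet (primesAbove K T)) = ⊤) :
    Nat.card (ClS (primesAbove K T)) = 1 := by
  have : Subsingleton (ClS (primesAbove K T)) := by
    show Subsingleton (ClassGroup (𝓞 K) ⧸ sClasses (primeSet (primesAbove K T)))
    rw [h]
    exact QuotientGroup.subsingleton_quotient_top
  exact Nat.card_unique

/-- **S-enlargement, cardinality form.** -/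
theorem exists_card_clS_eq_one (S : Finset Nat.Primes) :
    ∃ S'' : Finset Nat.Primes, S ⊆ S'' ∧ ∀ T : Finset Nat.Primes, S'' ⊆ T →
      Nat.card (ClS (primesAbove K T)) = 1 := by
  obtain ⟨S'', hS, h⟩ := exists_sClasses_eq_top (K := K) S
  exact ⟨S'', hS, fun T hT => card_clS_eq_one (h T hT)⟩

end Abstract

/-! ### Consumers: `K ⊂ ℚ̄` finite, in the GATE-C language -/

section Concrete

open Fermat.Agent.GC.Prof Fermat.Agent.GC.C0 Fermat.Agent.GC.Places Fermat.Agent.GC.KumH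
  Fermat.Agent.GC.KumXF groupCohomology

local notation "Qb" => AlgebraicClosure ℚ
local notation "GQ" => (AlgebraicClosure ℚ ≃ₐ[ℚ] AlgebraicClosure ℚ)

variable {T : Finset Nat.Primes} (K : IntermediateField ℚ Qb) [FiniteDimensional ℚ K]

/-- **`X(T,K) = Hlc¹(G_{K,T}, O_T^×)` vanishes when `Cl_T(K)` is trivial.** -/
theorem subsingleton_hlc_one_sUnitsK (hK : K.IsUnramifiedOutside T)
    (hcl : Nat.card (ClS (primesAbove ↥K T)) = 1) :
    Subsingleton (Hlc (levelK T K) (sUnitsK T K) 1) := by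
  obtain ⟨hfin, hle⟩ := finite_hlc_one_sUnitsK (S := T) (K := K) hK
  rw [hcl] at hle
  exact Finite.card_le_one_iff_subsingleton.1 hle

/-- **S-enlargement for `K ⊂ ℚ̄`**: a finite `S'' ⊇ S` such that for every finite `T ⊇ S''` (with
`K` unramified outside `T`, automatic if `K` is unramified outside `S`) the group
`Hlc¹(G_{K,T}, O_T^×)` is trivial. -/
theorem exists_subsingleton_hlc_one_sUnitsK (S : Finset Nat.Primes) :
    ∃ S'' : Finset Nat.Primes, S ⊆ S'' ∧ ∀ T : Finset Nat.Primes, S'' ⊆ T →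
      K.IsUnramifiedOutside T → Subsingleton (Hlc (levelK T K) (sUnitsK T K) 1) := by
  obtain ⟨S'', hS, h⟩ := exists_card_clS_eq_one (K := ↥K) S
  exact ⟨S'', hS, fun T hT hK => subsingleton_hlc_one_sUnitsK K hK (h T hT)⟩

variable {p : ℕ} [NeZero p] {ζ : Qbˣ} (hζ : IsPrimitiveRoot ζ p) (hζS : ζ ∈ sUnitsQS T)
  (hζK : ((ζ : Qbˣ) : Qb) ∈ K)

include hζ hζS hζK in
/-- **`#Hlc¹(G_{K,T}, ℤ/p) = [O_{K,T}^× : (O_{K,T}^×)^p]` exactly**, when `X(T,K) = 0`. -/
theorem card_hlc_one_zmod_eq_index (hK : K.IsUnramifiedOutside T) (hp : p.Prime)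
    (hpT : (⟨p, hp⟩ : Nat.Primes) ∈ T)
    [Subsingleton (Hlc (levelK T K) (sUnitsK T K) 1)] :
    Nat.card (Hlc (levelK T K) (Rep.trivial ℤ K.fixingSubgroup (ZMod p)) 1) =
      (powMonoidHom p : (sPlaces T K).unit K →* (sPlaces T K).unit K).range.index := by
  have : NumberField K := ⟨⟩
  rw [card_hlc_one_zmod K hζ hζS hζK hK hp hpT]
  have : Nat.card {x : Hlc (levelK T K) (sUnitsK T K) 1 // p • x = 0} = 1 := by
    have : Subsingleton {x : Hlc (levelK T K) (sUnitsK T K) 1 // p • x = 0} :=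
      ⟨fun a b => Subtype.ext (Subsingleton.elim _ _)⟩
    have : Nonempty {x : Hlc (levelK T K) (sUnitsK T K) 1 // p • x = 0} := ⟨⟨0, smul_zero _⟩⟩
    exact Nat.card_unique
  rw [this, mul_one]

include hζ hζS hζK in
/-- **`Ш²(G_{K,T}, ℤ/p) = 0`** (w.r.t. any family of places under the Hasse principle for
`Hlc²(G_{K,T}, O_T^×)[p]`), when `X(T,K) = 0`. -/
theorem sha2Mu_eq_bot (hp : p.Prime) (hpT : (⟨p, hp⟩ : Nat.Primes) ∈ T)
    {ι : Type*} (qs : ι → ℕ) [hq : ∀ i, Fact (qs i).Prime] (ss : ι → GQ)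
    (hHasse : ∀ z : Hlc (levelK T K) (sUnitsK T K) 2, (p : ℤ) • z = 0 →
      (∀ i, HlcPull (isContHom_locHomAlg T (qs i) K (ss i))
        (locSUnitsHom T (qs i) K (ss i)) 2 z = 0) → z = 0)
    [Subsingleton (Hlc (levelK T K) (sUnitsK T K) 1)] :
    sha2Mu K hζ hζS hζK qs ss = ⊥ := by
  refine (AddSubgroup.eq_bot_iff_forall _).2 fun y hy => ?_
  obtain ⟨x, hx⟩ := exists_δ_eq_of_loc_eq_zero K hζ hζS hζK hp hpT qs ss hHasse y
    ((mem_sha2Mu_iff K hζ hζS hζK qs ss y).1 hy)
  rw [← hx, Subsingleton.elim x 0, map_zero]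

include hζ hζS hζK in
/-- **`Ш²(G_{K,T}, ℤ/p) = 0`, unconditional form** (`p` odd, `p ∈ T`, `ζ_p ∈ K`, the family of
places covers all places of `K` above `T`), when `X(T,K) = 0`. -/
theorem sha2Mu_eq_bot_of_cover (hp : p.Prime) (hp2 : p ≠ 2) (hpT : (⟨p, hp⟩ : Nat.Primes) ∈ T)
    (hK : K.IsUnramifiedOutside T)
    {ι : Type*} (qs : ι → ℕ) [hq : ∀ i, Fact (qs i).Prime] (ss : ι → GQ)
    (hcover : ∀ (q : T) (w : placeIdx ((q : Nat.Primes) : ℕ) K),
      ∃ i, qs i = ((q : Nat.Primes) : ℕ) ∧ ss i = placeRep ((q : Nat.Primes) : ℕ) K w)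
    [Subsingleton (Hlc (levelK T K) (sUnitsK T K) 1)] :
    sha2Mu K hζ hζS hζK qs ss = ⊥ :=
  sha2Mu_eq_bot K hζ hζS hζK hp hpT qs ss
    (hHasse_sUnitsK T K hp hp2 hpT hK (IsPrimitiveRoot.coe_units_iff.2 hζ) hζK qs ss hcover)

end Concrete

end Fermat.Agent.GP.GW.SKill
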