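/-
GATE-P (S56 long shot) / node [P-GW], leaf S56-GW-SKILL-TOP (helper71): **the one-call top-level
binder** of the S-enlargement (design note 4028, GRAPH v1.2 (4)).

Input: a monoid hom `R : G_ℚ →* M` of finite level (`GaloisFactorsThroughFiniteLevel`, e.g.
`toMatRes ρbar b`), trivial on the inertia groups at the primes outside `S₀ ∋ p`.
Output: ONE finite Galois `F ⊂ ℚ̄` (`= ℚ(ρ̄, ζ_p)`), unramified outside `S₀`, with `R` and
`cycloChar p` trivial on `G_F = F.fixingSubgroup` (normal), `ζ_p ∈ F`, and ONE finite `Σ ⊇ S₀ ∪ S`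
such that for every finite `T ⊇ Σ`: `Hlc¹(G_{F,T}, O_T^×) = 0` (hence, by `ShaVanish`,
`Ш²(G_{ℚ,T}, coind_{G_F} ℤ/p) = 0`).  `F` and `Σ` do not depend on `T` (`T = Σ ∪ Q_n` in S56).
-/
import Mathlib
import Fermat.Agent.GP.GW.SKill
import Fermat.Agent.GC.C0.Dual
import Fermat.Agent.GC.C0.ZetaMem

set_option autoImplicit false

noncomputable section

namespace Fermat.Agent.GP.GW.SKillTop

open Fermat.Agent.GC.Prof Fermat.Agent.GC.C0 Fermat.Agent.GC.Places Fermat.Agent.GC.KumH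
  ExtCitation

local notation "Qb" => AlgebraicClosure ℚ
local notation "GQ" => (AlgebraicClosure ℚ ≃ₐ[ℚ] AlgebraicClosure ℚ)

variable {p : ℕ} [Fact p.Prime] {M : Type} [Monoid M]

/-- The subgroup of `G_ℚ` on which `R` and the mod `p` cyclotomic character are trivial. -/
def kerBoth (R : GQ →* M) : Subgroup GQ where
  carrier := {g | R g = 1 ∧ cycloChar p g = 1}
  one_mem' := ⟨map_one R, map_one _⟩
  mul_mem' := fun {a b} ha hb => ⟨by rw [map_mul, ha.1, hb.1, one_mul],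
    by rw [map_mul, ha.2, hb.2, one_mul]⟩
  inv_mem' := fun {a} ha => by
    refine ⟨?_, by rw [map_inv, ha.2, inv_one]⟩
    have h1 : R a⁻¹ * R a = 1 := by rw [← map_mul, inv_mul_cancel, map_one]
    rwa [ha.1, mul_one] at h1

theorem mem_kerBoth {R : GQ →* M} {g : GQ} :
    g ∈ kerBoth (p := p) R ↔ R g = 1 ∧ cycloChar p g = 1 := Iff.rfl

instance kerBoth_normal (R : GQ →* M) : (kerBoth (p := p) R).Normal where
  conj_mem := fun n hn g => by
    refine ⟨?_, ?_⟩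
    · have h1 : R g * R g⁻¹ = 1 := by rw [← map_mul, mul_inv_cancel, map_one]
      rw [map_mul, map_mul, hn.1, mul_one, h1]
    · rw [map_mul, map_mul, hn.2, mul_one, ← map_mul, mul_inv_cancel, map_one]

/-- **The field `F = ℚ(R, ζ_p)`**: finite, Galois (normal fixing subgroup), unramified outside `S₀`,
with `R` and `cycloChar p` trivial on `G_F`. -/
theorem exists_field (R : GQ →* M) (hR : GaloisFactorsThroughFiniteLevel R)
    (S₀ : Finset Nat.Primes) (hpS₀ : pPrime p ∈ S₀)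
    (hRur : ∀ q : Nat.Primes, q ∉ S₀ → ∀ A : ValuationSubring Qb,
      A.LiesOverPrime (q : ℕ) → ∀ g ∈ A.inertiaSubgroupIn ℚ, R g = 1) :
    ∃ F : IntermediateField ℚ Qb, FiniteDimensional ℚ F ∧ F.IsUnramifiedOutside S₀ ∧
      F.fixingSubgroup = kerBoth (p := p) R := by
  obtain ⟨L₁, hL₁, h₁⟩ := hR
  obtain ⟨L₂, hL₂, h₂⟩ := cycloChar_finiteLevel (p := p)
  have hfd : FiniteDimensional ℚ (L₁ ⊔ L₂ : IntermediateField ℚ Qb) :=
    IntermediateField.finiteDimensional_sup _ _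
  have hle : (L₁ ⊔ L₂).fixingSubgroup ≤ kerBoth (p := p) R := by
    intro s hs
    refine ⟨h₁ s fun x hx => ?_, h₂ s ?_⟩
    · exact (IntermediateField.mem_fixingSubgroup_iff _ s).1 hs x
        ((le_sup_left : L₁ ≤ L₁ ⊔ L₂) hx)
    · exact (IntermediateField.mem_fixingSubgroup_iff _ s).2 fun x hx =>
        (IntermediateField.mem_fixingSubgroup_iff _ s).1 hs x
          ((le_sup_right : L₂ ≤ L₁ ⊔ L₂) hx)
  have hopen : IsOpen ((kerBoth (p := p) R : Subgroup GQ) : Set GQ) :=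
    Subgroup.isOpen_mono hle ((InfiniteGalois.isOpen_iff_finite (L₁ ⊔ L₂)).2 hfd)
  have hmem : kerBoth (p := p) R ∈ (levelS S₀).sets := by
    refine mem_levelS_of_isOpen_of_inertia_le S₀ _ hopen fun q hq A hA g hg => ?_
    refine ⟨hRur q hq A hA g hg, ?_⟩
    have hne : (q : ℕ) ≠ p := by
      intro h
      apply hq
      have : q = pPrime p := Subtype.ext h
      rwa [this]
    exact cycloChar_inertia q.2 hne hA hg
  obtain ⟨F, hF, hFeq⟩ := (mem_levelS_iff S₀ _).1 hmem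
  exact ⟨F, hF.1, hF, hFeq.symm⟩

/-- **The one-call top binder.**  `F` and `Σ` are chosen once; `T ⊇ Σ` is arbitrary. -/
theorem exists_field_sigma (R : GQ →* M) (hR : GaloisFactorsThroughFiniteLevel R)
    (S₀ : Finset Nat.Primes) (hpS₀ : pPrime p ∈ S₀)
    (hRur : ∀ q : Nat.Primes, q ∉ S₀ → ∀ A : ValuationSubring Qb,
      A.LiesOverPrime (q : ℕ) → ∀ g ∈ A.inertiaSubgroupIn ℚ, R g = 1)
    (S : Finset Nat.Primes) :
    ∃ (F : IntermediateField ℚ Qb) (_ : FiniteDimensional ℚ F) (Sg : Finset Nat.Primes),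
      F.IsUnramifiedOutside S₀ ∧ F.fixingSubgroup.Normal ∧
      (∀ g ∈ F.fixingSubgroup, R g = 1 ∧ cycloChar p g = 1) ∧
      (∀ g : GQ, R g = 1 → cycloChar p g = 1 → g ∈ F.fixingSubgroup) ∧
      (∀ ζ : Qb, IsPrimitiveRoot ζ p → ζ ∈ F) ∧
      S₀ ∪ S ⊆ Sg ∧
      ∀ T : Finset Nat.Primes, Sg ⊆ T →
        F.IsUnramifiedOutside T ∧ Subsingleton (Hlc (levelK T F) (sUnitsK T F) 1) := by
  obtain ⟨F, hfd, hF, hFeq⟩ := exists_field (p := p) R hR S₀ hpS₀ hRur
  obtain ⟨Sg, hSg, hX⟩ := SKill.exists_subsingleton_hlc_one_sUnitsK F (S₀ ∪ S)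
  refine ⟨F, hfd, Sg, hF, ?_, ?_, ?_, ?_, hSg, fun T hT => ?_⟩
  · rw [hFeq]
    infer_instance
  · intro g hg
    rw [hFeq] at hg
    exact hg
  · intro g h1 h2
    rw [hFeq]
    exact ⟨h1, h2⟩
  · intro ζ hζ
    refine primitiveRoot_mem_of_cycloChar_eq_one F (fun g hg => ?_) hζ
    rw [hFeq] at hg
    exact hg.2
  · have hFT : F.IsUnramifiedOutside T :=
      hF.mono ((Finset.subset_union_left.trans hSg).trans hT)
    exact ⟨hFT, hX T hT hFT⟩

end Fermat.Agent.GP.GW.SKillTop
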