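/-
GATE-P / S56 [P-GW] node GW-1a (helper78): **graded commutativity of the level-constant cup
product** in total degree `2`, and its consequences for the local pairings `lam02 / lam11 / lam20`
of a `ConeBdryData` satisfying helper74's `LamFormulas`.

For discrete representations `M N P` of `G`, an equivariant bilinear map `B : M × N → P` and its
flip `B.flip : N × M → P`:
* `HlcCup_comm_one_one`  : `x ∪_B y = - (y ∪_{B.flip} x)` for `x ∈ Hlc¹(M)`, `y ∈ Hlc¹(N)`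
  [cochain `c g = B (a g) (b g)`: `d c = - (a ∪ b) - (b ∪ a)`];
* `HlcCup_comm_zero_two` : `x ∪_B y = y ∪_{B.flip} x` for `x ∈ Hlc⁰(M)`, `y ∈ Hlc²(N)`;
* `HlcCup_comm_two_zero` : `x ∪_B y = y ∪_{B.flip} x` for `x ∈ Hlc²(M)`, `y ∈ Hlc⁰(N)`.
Consequences (`hLam : LamFormulas τ E`):
* `lam11_flip` : `E.lam11 N M B.flip hB.flip y x = - E.lam11 M N B hB x y`;
* `lam20_flip` : `E.lam20 N M B.flip hB.flip c b = E.lam02 M N B hB b c`;
* `lam02_flip` : `E.lam02 N M B.flip hB.flip c b = E.lam20 M N B hB b c`.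
-/
import Fermat.Agent.GC.Local.Hilbert.CupLow
import Fermat.Agent.GC.PT.MainFinal

set_option autoImplicit false
set_option linter.unusedSectionVars false

open CategoryTheory

noncomputable section

namespace Fermat.Agent.GP.GW.CupComm

open groupCohomology Rep Fermat.Agent.GC.Prof Fermat.Agent.GC.Local.Hilbert
open Fermat.Agent.GC.Prof.Cup (Equivariant)

universe u

section Generic

variable {k G : Type u} [CommRing k] [Group G] (𝒰 : LevelSystem G)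
variable {M N P : Rep.{u} k G} [IsDiscrete 𝒰 M] [IsDiscrete 𝒰 N] [IsDiscrete 𝒰 P]
  {B : M →ₗ[k] N →ₗ[k] P}

omit [IsDiscrete 𝒰 M] [IsDiscrete 𝒰 N] [IsDiscrete 𝒰 P] in
/-- the flip of an equivariant bilinear map is equivariant. -/
theorem equivariant_flip (hB : Equivariant M.ρ N.ρ P.ρ B) : Equivariant N.ρ M.ρ P.ρ B.flip :=
  fun g n m => hB g m n

/-- the diagonal cochain `g ↦ B (a g) (b g)`. -/
def diagFn (B : M →ₗ[k] N →ₗ[k] P) (a : G → M) (b : G → N) : G → P := fun g => B (a g) (b g)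

omit [IsDiscrete 𝒰 M] [IsDiscrete 𝒰 N] [IsDiscrete 𝒰 P] in
theorem isLC₁_diagFn {a : G → M} {b : G → N} (ha : IsLC₁ 𝒰 a) (hb : IsLC₁ 𝒰 b) :
    IsLC₁ 𝒰 (diagFn B a b) := by
  obtain ⟨U, hU, hUa⟩ := ha
  obtain ⟨V, hV, hVb⟩ := hb
  obtain ⟨W, hW, hWU, hWV, -, -⟩ := 𝒰.exists_normal_le_inf hU hV
  refine ⟨W, hW, fun g s hs => ?_⟩
  unfold diagFn
  rw [hUa g s (hWU hs), hVb g s (hWV hs)]

omit [IsDiscrete 𝒰 M] [IsDiscrete 𝒰 N] [IsDiscrete 𝒰 P] in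
/-- `d (g ↦ B (a g) (b g)) = - (a ∪ b) - (b ∪ a)` for `1`-cocycles `a`, `b`. -/
theorem d₁₂_diagFn (hB : Equivariant M.ρ N.ρ P.ρ B) {a : G → M} {b : G → N}
    (ha : a ∈ cocycles₁ M) (hb : b ∈ cocycles₁ N) :
    (d₁₂ P).hom (diagFn B a b) = - (cupFn₁₁ B a b + cupFn₁₁ B.flip b a) := by
  funext ⟨g, h⟩
  have ha' := (mem_cocycles₁_iff a).1 ha g h
  have hb' := (mem_cocycles₁_iff b).1 hb g h
  simp only [d₁₂_hom_apply, diagFn, cupFn₁₁, Pi.neg_apply, Pi.add_apply, LinearMap.flip_apply]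
  rw [ha', hb', ← hB g (a h) (b h)]
  simp only [map_add, LinearMap.add_apply]
  abel

/-- **graded commutativity in bidegree `(1,1)`.** -/
theorem HlcCup_comm_one_one (hB : Equivariant M.ρ N.ρ P.ρ B)
    (hBf : Equivariant N.ρ M.ρ P.ρ B.flip) (x : Hlc 𝒰 M 1) (y : Hlc 𝒰 N 1) :
    HlcCup 𝒰 B hB (rfl : 1 + 1 = 2) x y = - HlcCup 𝒰 B.flip hBf (rfl : 1 + 1 = 2) y x := by
  obtain ⟨a, rfl⟩ := Hlc1π_surjective 𝒰 M x
  obtain ⟨b, rfl⟩ := Hlc1π_surjective 𝒰 N y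
  rw [HlcCup_one_one, HlcCup_one_one, eq_neg_iff_add_eq_zero, ← map_add, Hlc2π_eq_zero_iff,
    mem_lcCoboundaries₂_iff]
  refine ⟨- diagFn B (a : G → M) (b : G → N), ?_, ?_⟩
  · obtain ⟨U, hU, h⟩ := isLC₁_diagFn 𝒰 (B := B) a.2.2 b.2.2
    exact ⟨U, hU, fun g s hs => by simp only [Pi.neg_apply, h g s hs]⟩
  · rw [map_neg, d₁₂_diagFn hB a.2.1 b.2.1, neg_neg]
    rfl

/-- **commutativity in bidegrees `(0,2)` / `(2,0)`.** -/
theorem HlcCup_comm_zero_two (hB : Equivariant M.ρ N.ρ P.ρ B)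
    (hBf : Equivariant N.ρ M.ρ P.ρ B.flip) (x : Hlc 𝒰 M 0) (y : Hlc 𝒰 N 2) :
    HlcCup 𝒰 B hB (rfl : 0 + 2 = 2) x y = HlcCup 𝒰 B.flip hBf (rfl : 2 + 0 = 2) y x := by
  obtain ⟨m, rfl⟩ := (Hlc0Equiv 𝒰 M).symm.surjective x
  obtain ⟨z, rfl⟩ := Hlc2π_surjective 𝒰 N y
  rw [HlcCup_zero_two, HlcCup_two_zero]
  congr 1
  apply Subtype.ext
  funext ⟨g, h⟩
  simp only [cupFn₀₂, cupFn₂₀, LinearMap.flip_apply]
  rw [m.2 (g * h)]

/-- **commutativity in bidegrees `(2,0)` / `(0,2)`.** -/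
theorem HlcCup_comm_two_zero (hB : Equivariant M.ρ N.ρ P.ρ B)
    (hBf : Equivariant N.ρ M.ρ P.ρ B.flip) (x : Hlc 𝒰 M 2) (y : Hlc 𝒰 N 0) :
    HlcCup 𝒰 B hB (rfl : 2 + 0 = 2) x y = HlcCup 𝒰 B.flip hBf (rfl : 0 + 2 = 2) y x :=
  (HlcCup_comm_zero_two 𝒰 (B := B.flip) hBf hB y x).symm

end Generic

/-! ### consequences for the local pairings of a `ConeBdryData` -/

section Lam

open Fermat.Agent.GC.PT Fermat.Agent.GC.PT.MainInst Fermat.Agent.GC.Prof.Cone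

variable {k G : Type u} [Field k] [Group G] {𝒰 : LevelSystem G}
variable {L : LocalData 𝒰} {χ : G →* kˣ} [IsDiscrete 𝒰 (chiRep χ)]
variable {τ : (∀ v, Hlc (L.𝒰v v) (Rep.res (L.r v) (chiRep χ)) 2) →ₗ[k] k}
  {D : ConePairingData L χ} {E : ConeBdryData D}

/-- **`lam11` is graded-commutative**: `lam11 (N, M, B.flip) y x = - lam11 (M, N, B) x y`. -/
theorem lam11_flip (hLam : LamFormulas τ E) (M N : Rep.{u} k G) [IsDiscrete 𝒰 M]
    [IsDiscrete 𝒰 N] (B : M →ₗ[k] N →ₗ[k] k) (hB : IsChiPairing χ B)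
    (x : ∀ v, Hlc (L.𝒰v v) (Rep.res (L.r v) M) 1)
    (y : ∀ v, Hlc (L.𝒰v v) (Rep.res (L.r v) N) 1) :
    E.lam11 N M B.flip hB.flip y x = - E.lam11 M N B hB x y := by
  rw [hLam.2.1 N M B.flip hB.flip y x, hLam.2.1 M N B hB x y, ← map_neg]
  congr 1
  funext v
  rw [Pi.neg_apply]
  have h := HlcCup_comm_one_one (L.𝒰v v) (B := locB L (toChi χ B) v)
    (equivariant_locB L (equivariant_toChi hB) v)
    (equivariant_locB L (equivariant_toChi hB.flip) v) (x v) (y v)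
  rw [h, neg_neg]
  rfl

/-- `lam20 (N, M, B.flip) c b = lam02 (M, N, B) b c`. -/
theorem lam20_flip (hLam : LamFormulas τ E) (M N : Rep.{u} k G) [IsDiscrete 𝒰 M]
    [IsDiscrete 𝒰 N] (B : M →ₗ[k] N →ₗ[k] k) (hB : IsChiPairing χ B)
    (b : ∀ v, Hlc (L.𝒰v v) (Rep.res (L.r v) M) 0)
    (c : ∀ v, Hlc (L.𝒰v v) (Rep.res (L.r v) N) 2) :
    E.lam20 N M B.flip hB.flip c b = E.lam02 M N B hB b c := by
  rw [hLam.2.2 N M B.flip hB.flip c b, hLam.1 M N B hB b c]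
  congr 1
  funext v
  exact (HlcCup_comm_zero_two (L.𝒰v v) (B := locB L (toChi χ B) v)
    (equivariant_locB L (equivariant_toChi hB) v)
    (equivariant_locB L (equivariant_toChi hB.flip) v) (b v) (c v)).symm

/-- `lam02 (N, M, B.flip) c b = lam20 (M, N, B) b c`. -/
theorem lam02_flip (hLam : LamFormulas τ E) (M N : Rep.{u} k G) [IsDiscrete 𝒰 M]
    [IsDiscrete 𝒰 N] (B : M →ₗ[k] N →ₗ[k] k) (hB : IsChiPairing χ B)
    (b : ∀ v, Hlc (L.𝒰v v) (Rep.res (L.r v) M) 2)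
    (c : ∀ v, Hlc (L.𝒰v v) (Rep.res (L.r v) N) 0) :
    E.lam02 N M B.flip hB.flip c b = E.lam20 M N B hB b c := by
  rw [hLam.1 N M B.flip hB.flip c b, hLam.2.2 M N B hB b c]
  congr 1
  funext v
  exact (HlcCup_comm_two_zero (L.𝒰v v) (B := locB L (toChi χ B) v)
    (equivariant_locB L (equivariant_toChi hB) v)
    (equivariant_locB L (equivariant_toChi hB.flip) v) (b v) (c v)).symm

end Lam

end Fermat.Agent.GP.GW.CupComm
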