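/-
GATE-P / S56 [P-GW], node GW-1d FINAL (helper19): **the nine-term bookkeeping, unconditional,
in the pinned Selmer model of `GP/GW/Model.lean`.**

Inputs: `GP/GW/NineTermQ.lean` (GW-1d, hypothesis form), `GP/GW/CupComm.lean` (GW-1a, helper78:
graded commutativity of the cup product ⟹ `CupSymm11/20/02` with `ε = -1, 1, 1`),
`GP/GW/Model.lean` (helper59: `Hloc`, `selmerGrp`, `locPair`, `perpLoc`, `dualSelmerGrp`, `PreEuler`).

Everything is for `Δ : PTData S`, `p ∈ S`, `M` a finite-dimensional discrete `F_p[G_ℚ]`-module.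

* `cupSymm11 / cupSymm20 / cupSymm02` : GW-1a in the named form of `NineTerm.lean`;
* `lam11_perfect`                      : the sum of the local Tate pairings is perfect;
* `block_lam11_eq_locPair`             : the `v`-th block of `lam11` is `Model.locPair M Δ v`;
* `locPair_injective / locPair_flip_injective / locPair_left_nondeg / locPair_right_nondeg` :
  **LOCAL TATE DUALITY in degree `(1,1)` at every `v ∈ S`** for the pairing of the model;
* `finiteDimensional_Hloc_zero/one/two`, `finrank_Hloc_one_dual`, `finrank_perpLoc`,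
  `perpLoc_top`, `perpLoc_bot`, `perpLoc_perpLoc'`;
* `hrec`                               : global reciprocity `im loc¹_M = (im loc¹_{M*})^⊥`;
* **`preEuler_holds : PreEuler M Δ L`** for EVERY family of local conditions `L` (the `(PRE)`
  input of `Model.selmer_le_of_preEuler_tate`), hence `selmer_le_of_tate`, `selmer_le_of_tate_bot`:
  the consumer forms with `(TATE)` (GW-E) as the only remaining hypothesis;
* `nine_term_of_h30`                   : the full nine-term alternating sum from GW-1c alone.
-/
import Mathlib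
import Fermat.Agent.GP.GW.Model
import Fermat.Agent.GP.GW.CupComm
import Fermat.Agent.GP.GW.NineTermQ

set_option autoImplicit false

open CategoryTheory Module

noncomputable section

namespace Fermat.Agent.GP.GW.NineTermFinal

open Fermat.Agent.GC.Prof Fermat.Agent.GC.Prof.Cone Fermat.Agent.GC.PT
  Fermat.Agent.GC.PT.Triples Fermat.Agent.GC.PT.LocDataQ Fermat.Agent.GC.PT.MainInst
  Fermat.Agent.GC.C0 ExtCitation groupCohomology Fermat.Agent.GP.GW Fermat.Agent.GP.GW.NineTerm
  Fermat.Agent.GP.GW.NineTermAbs Fermat.Agent.GP.GW.SelmerCount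

variable {p : ℕ} [Fact p.Prime] {S : Finset Nat.Primes}

/-- a factor of a finite-dimensional product is finite-dimensional -/
theorem finiteDimensional_factor {ι : Type*} {k : Type*} [Field k] {V : ι → Type*}
    [∀ i, AddCommGroup (V i)] [∀ i, Module k (V i)] [FiniteDimensional k (∀ i, V i)] (i : ι) :
    FiniteDimensional k (V i) := by
  classical
  refine Module.Finite.of_injective (LinearMap.single k V i) fun a b hab => ?_
  have h := congrFun hab i
  simpa using h

/-! ### GW-1a in named form -/

section Symm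

variable [IsDiscrete (levelS S) (TChi p)] (Δ : PTData (p := p) S)
  (M N : Rep (ZMod p) GQ) [IsDiscrete (levelS S) M] [IsDiscrete (levelS S) N]
  (B : M →ₗ[ZMod p] N →ₗ[ZMod p] ZMod p) (hB : IsChiPairing (cycloChar p) B)

/-- GW-1a, degree `(1,1)`: `ε = -1`. -/
theorem cupSymm11 : CupSymm11 Δ.E M N B hB :=
  ⟨-1, neg_ne_zero.2 one_ne_zero, fun b c => by
    rw [CupComm.lam11_flip Δ.hLam M N B hB b c, neg_one_mul]⟩

/-- GW-1a, degrees `(2,0)/(0,2)`: `ε = 1`. -/
theorem cupSymm20 : CupSymm20 Δ.E M N B hB :=
  ⟨1, one_ne_zero, fun b c => by rw [CupComm.lam02_flip Δ.hLam M N B hB b c, one_mul]⟩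

/-- GW-1a, degrees `(0,2)/(2,0)`: `ε = 1`. -/
theorem cupSymm02 : CupSymm02 Δ.E M N B hB :=
  ⟨1, one_ne_zero, fun b c => by rw [CupComm.lam20_flip Δ.hLam M N B hB b c, one_mul]⟩

end Symm

section Main

variable [IsDiscrete (levelS S) (TChi p)] (Δ : PTData (p := p) S) (hpS : pPrime p ∈ S)
  (M : Rep (ZMod p) GQ) [FiniteDimensional (ZMod p) M] [IsDiscrete (levelS S) M]
  [IsDiscrete (levelS S) (M.dualTwist (cycloChar p))]

include hpS in
/-- **the sum of the local Tate pairings `P¹(M) × P¹(M*) → F_p` is perfect.** -/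
theorem lam11_perfect :
    Function.Injective (NineTermQ.lam11 Δ M) ∧ Function.Injective (NineTermQ.lam11 Δ M).flip :=
  NineTermQ.lam11_perfect Δ hpS M (cupSymm11 Δ M _ _ _)

omit [FiniteDimensional (ZMod p) M] in
/-- the `v`-th block of `lam11` is the local Tate pairing `locPair M Δ v` of the model. -/
theorem block_lam11_eq_locPair (v : (locDataQ S).ι) :
    block (NineTermQ.lam11 Δ M) v = locPair M Δ v := by
  refine LinearMap.ext fun a => LinearMap.ext fun b => ?_
  exact block_lam11_apply Δ.hLam M (M.dualTwist (cycloChar p)) (evB (cycloChar p) M)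
    (isChiPairing_evB (cycloChar p) M) v a b

include hpS in
/-- **local Tate duality at `v`, left non-degeneracy** (`H¹_v(M) ↪ H¹_v(M*)^∨`). -/
theorem locPair_injective (v : (locDataQ S).ι) : Function.Injective (locPair M Δ v) := by
  rw [← block_lam11_eq_locPair]
  exact (NineTermQ.local_duality Δ hpS M (cupSymm11 Δ M _ _ _) v).1

include hpS in
/-- **local Tate duality at `v`, right non-degeneracy** (`H¹_v(M*) ↪ H¹_v(M)^∨`). -/
theorem locPair_flip_injective (v : (locDataQ S).ι) :
    Function.Injective (locPair M Δ v).flip := by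
  rw [← block_lam11_eq_locPair]
  exact (NineTermQ.local_duality Δ hpS M (cupSymm11 Δ M _ _ _) v).2

include hpS in
/-- left non-degeneracy, elementwise. -/
theorem locPair_left_nondeg (v : (locDataQ S).ι) (x : Hloc S M v 1)
    (h : ∀ y, locPair M Δ v x y = 0) : x = 0 := by
  apply locPair_injective Δ hpS M v
  rw [map_zero]
  exact LinearMap.ext fun y => by rw [h y, LinearMap.zero_apply]

include hpS in
/-- **right non-degeneracy, elementwise** (the binder `hnd` of `PerpIndep` / `TWKill`). -/
theorem locPair_right_nondeg (v : (locDataQ S).ι)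
    (y : Hloc S (M.dualTwist (cycloChar p)) v 1) (h : ∀ x, locPair M Δ v x y = 0) : y = 0 := by
  apply locPair_flip_injective Δ hpS M v
  rw [map_zero]
  exact LinearMap.ext fun x => by rw [LinearMap.flip_apply, h x, LinearMap.zero_apply]

/-! ### finiteness of the local groups -/

include Δ hpS in
theorem finiteDimensional_Hloc_zero (v : (locDataQ S).ι) :
    FiniteDimensional (ZMod p) (Hloc S M v 0) := by
  have := (NineTermQ.finiteDimensional_all Δ hpS M).2.2.1
  exact finiteDimensional_factor (V := fun w => Hloc S M w 0) v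

include Δ hpS in
theorem finiteDimensional_Hloc_one (v : (locDataQ S).ι) :
    FiniteDimensional (ZMod p) (Hloc S M v 1) := by
  have := (NineTermQ.finiteDimensional_all Δ hpS M).2.2.2.1
  exact finiteDimensional_factor (V := fun w => Hloc S M w 1) v

include Δ hpS in
theorem finiteDimensional_Hloc_two (v : (locDataQ S).ι) :
    FiniteDimensional (ZMod p) (Hloc S M v 2) := by
  have := (NineTermQ.finiteDimensional_all Δ hpS M).2.2.2.2
  exact finiteDimensional_factor (V := fun w => Hloc S M w 2) v

include Δ hpS in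
theorem finiteDimensional_Hloc_one_dual (v : (locDataQ S).ι) :
    FiniteDimensional (ZMod p) (Hloc S (M.dualTwist (cycloChar p)) v 1) := by
  have := finiteDimensional_Hloc_one Δ hpS M v
  exact finiteDimensional_of_injective_pairing (locPair M Δ v).flip
    (locPair_flip_injective Δ hpS M v)

/-! ### annihilators of local conditions -/

omit [FiniteDimensional (ZMod p) M] in
/-- `perpLoc` is the `SelmerCount` annihilator for `locPair`. -/
theorem perpLoc_eq_annR (v : (locDataQ S).ι) (Lv : Submodule (ZMod p) (Hloc S M v 1)) :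
    perpLoc M Δ v Lv = annR (locPair M Δ v) Lv := rfl

include Δ hpS in
/-- `h¹_v(M) = h¹_v(M*)`. -/
theorem finrank_Hloc_one_dual (v : (locDataQ S).ι) :
    finrank (ZMod p) (Hloc S M v 1) = finrank (ZMod p) (Hloc S (M.dualTwist (cycloChar p)) v 1) := by
  have := finiteDimensional_Hloc_one Δ hpS M v
  have := finiteDimensional_Hloc_one_dual Δ hpS M v
  exact SelmerCount.finrank_eq (locPair M Δ v) (locPair_left_nondeg Δ hpS M v)
    (locPair_right_nondeg Δ hpS M v)

include hpS in
/-- `dim L_v + dim L_v^⊥ = h¹_v(M)`. -/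
theorem finrank_perpLoc (v : (locDataQ S).ι) (Lv : Submodule (ZMod p) (Hloc S M v 1)) :
    finrank (ZMod p) Lv + finrank (ZMod p) (perpLoc M Δ v Lv) = finrank (ZMod p) (Hloc S M v 1) := by
  have := finiteDimensional_Hloc_one Δ hpS M v
  have := finiteDimensional_Hloc_one_dual Δ hpS M v
  exact SelmerCount.finrank_annR (locPair M Δ v) (locPair_left_nondeg Δ hpS M v)
    (locPair_right_nondeg Δ hpS M v) Lv

include hpS in
/-- `⊤^⊥ = ⊥`. -/
theorem perpLoc_top (v : (locDataQ S).ι) : perpLoc M Δ v ⊤ = ⊥ := by
  rw [eq_bot_iff]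
  intro y hy
  rw [Submodule.mem_bot]
  exact locPair_right_nondeg Δ hpS M v y fun x => hy x Submodule.mem_top

omit [FiniteDimensional (ZMod p) M] in
/-- `⊥^⊥ = ⊤`. -/
theorem perpLoc_bot (v : (locDataQ S).ι) : perpLoc M Δ v ⊥ = ⊤ := by
  rw [eq_top_iff]
  intro y _ x hx
  rw [(Submodule.mem_bot _).1 hx, map_zero, LinearMap.zero_apply]

omit [FiniteDimensional (ZMod p) M] in
/-- `L_v ≤ L_v'` implies `L_v'^⊥ ≤ L_v^⊥`. -/
theorem perpLoc_anti (v : (locDataQ S).ι) {Lv Lv' : Submodule (ZMod p) (Hloc S M v 1)}
    (h : Lv ≤ Lv') : perpLoc M Δ v Lv' ≤ perpLoc M Δ v Lv :=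
  fun _ hy x hx => hy x (h hx)

include hpS in
/-- the double annihilator: `x ∈ L_v` iff `x` pairs to zero with `L_v^⊥`. -/
theorem mem_iff_forall_perpLoc (v : (locDataQ S).ι) (Lv : Submodule (ZMod p) (Hloc S M v 1))
    (x : Hloc S M v 1) : x ∈ Lv ↔ ∀ y ∈ perpLoc M Δ v Lv, locPair M Δ v x y = 0 := by
  have := finiteDimensional_Hloc_one Δ hpS M v
  have := finiteDimensional_Hloc_one_dual Δ hpS M v
  have h := SelmerCount.annR_annL (locPair M Δ v).flip
    (fun y hy => locPair_right_nondeg Δ hpS M v y fun x => by simpa using hy x)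
    (fun x hx => locPair_left_nondeg Δ hpS M v x fun y => by simpa using hx y) Lv
  constructor
  · intro hx y hy
    exact hy x hx
  · intro hx
    rw [← h]
    intro y hy
    rw [LinearMap.flip_apply]
    apply hx
    intro x' hx'
    have := hy x' hx'
    rwa [LinearMap.flip_apply] at this

/-! ### global statements -/

include hpS in
/-- **global reciprocity**: `im loc¹_M = (im loc¹_{M*})^⊥` for the sum of the `locPair`s. -/
theorem hrec (x : ∀ v, Hloc S M v 1) :
    x ∈ LinearMap.range (locRes (locDataQ S) M 1) ↔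
      ∀ y' : Hlc (levelS S) (M.dualTwist (cycloChar p)) 1,
        ∑ v, locPair M Δ v (x v)
          (locRes (locDataQ S) (M.dualTwist (cycloChar p)) 1 y' v) = 0 := by
  rw [NineTermQ.hrec Δ hpS M x]
  refine forall_congr' fun y' => ?_
  rw [← lam11_eq_sum]

include hpS in
/-- **`(PRE)` holds**: the GW-1d input of `Model.selmer_le_of_preEuler_tate`, for every family
of local conditions. -/
theorem preEuler_holds (L : ∀ v, Submodule (ZMod p) (Hloc S M v 1)) : PreEuler M Δ L := by
  have hgp := NineTermQ.goodPair Δ hpS M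
  have : Nonempty (locDataQ S).ι := nonempty_locDataQ S ⟨_, hpS⟩
  refine ⟨hgp.fin1, hgp.fin1', hgp.fdH2', fun v => finiteDimensional_Hloc_one Δ hpS M v, ?_⟩
  rw [dualSelmerGrp_eq_comap]
  exact NineTermQ.preEuler Δ hpS M (cupSymm11 Δ M _ _ _) (Submodule.pi Set.univ L)

include hpS in
/-- **Greenberg–Wiles inequality, with `(TATE)` for `M*` as the only hypothesis.** -/
theorem selmer_le_of_tate (L : ∀ v, Submodule (ZMod p) (Hloc S M v 1))
    (htate : TateLe S (M.dualTwist (cycloChar p))) :
    FiniteDimensional (ZMod p) (selmerGrp S M L) ∧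
    finrank (ZMod p) (selmerGrp S M L) + finrank (ZMod p) (∀ v, Hloc S M v 0) +
        finrank (ZMod p) (Hlc (levelS S) (M.dualTwist (cycloChar p)) 0) +
        finrank (ZMod p) (M.dualTwist (cycloChar p)) ≤
      finrank (ZMod p) (dualSelmerGrp M Δ L) + finrank (ZMod p) (Hlc (levelS S) M 0) +
        finrank (ZMod p) (Submodule.pi Set.univ L) +
        finrank (ZMod p) (LinearMap.ker
          ((M.dualTwist (cycloChar p)).ρ complexConjugation - 1)) :=
  selmer_le_of_preEuler_tate M Δ L (preEuler_holds Δ hpS M L) htate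

include hpS in
/-- the same when the dual Selmer group vanishes. -/
theorem selmer_le_of_tate_bot (L : ∀ v, Submodule (ZMod p) (Hloc S M v 1))
    (htate : TateLe S (M.dualTwist (cycloChar p))) (hdual : dualSelmerGrp M Δ L = ⊥) :
    finrank (ZMod p) (selmerGrp S M L) + finrank (ZMod p) (∀ v, Hloc S M v 0) +
        finrank (ZMod p) (Hlc (levelS S) (M.dualTwist (cycloChar p)) 0) +
        finrank (ZMod p) (M.dualTwist (cycloChar p)) ≤
      finrank (ZMod p) (Hlc (levelS S) M 0) + finrank (ZMod p) (Submodule.pi Set.univ L) +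
        finrank (ZMod p) (LinearMap.ker
          ((M.dualTwist (cycloChar p)).ρ complexConjugation - 1)) :=
  selmer_le_of_dual_eq_bot M Δ L (preEuler_holds Δ hpS M L) htate hdual

include hpS in
/-- **the nine-term alternating sum from GW-1c alone.** -/
theorem nine_term_of_h30
    (h30 : H30Right Δ.D M (M.dualTwist (cycloChar p)) (evB (cycloChar p) M)
      (isChiPairing_evB (cycloChar p) M)) :
    finrank (ZMod p) (Hlc (levelS S) M 0) +
        finrank (ZMod p) (Hlc (levelS S) (M.dualTwist (cycloChar p)) 2) +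
        finrank (ZMod p) (∀ v, Hloc S M v 1) + finrank (ZMod p) (Hlc (levelS S) M 2) +
        finrank (ZMod p) (Hlc (levelS S) (M.dualTwist (cycloChar p)) 0) =
      finrank (ZMod p) (∀ v, Hloc S M v 0) + finrank (ZMod p) (Hlc (levelS S) M 1) +
        finrank (ZMod p) (Hlc (levelS S) (M.dualTwist (cycloChar p)) 1) +
        finrank (ZMod p) (∀ v, Hloc S M v 2) :=
  NineTermQ.nine_term Δ hpS M h30

end Main

end Fermat.Agent.GP.GW.NineTermFinal
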