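/-
GATE-P / S56 TW-INFL, part 0 (helper31): the places of `ℚ̄` over a prime `q` are Galois conjugate.

`exists_smul_eq_of_liesOverPrime : A.LiesOverPrime q → B.LiesOverPrime q → ∃ g : G_ℚ, B = g • A`
(Mathlib's profinite transitivity `Algebra.IsInvariant.exists_smul_of_under_eq_of_profinite` on the
centres in `ℤ̄` + helper26's `eq_of_centerIdeal_eq`), and the consequence used by TW-INFL:
every inertia group over `q` is a conjugate of the inertia group of `padicPlace q`.
-/
import Fermat.Agent.GL.Local.InertiaHensel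
import Fermat.Agent.GC.C0.Level
import Fermat.Agent.GC.Local.KrasnerDec

set_option autoImplicit false

open scoped Pointwise
open Fermat.Agent.Common_helper32

namespace Fermat.Agent.GP.GW.TWInfl

attribute [local instance] topZb discreteTopology_Zb continuousSMul_Zb

/-- The centre on `ℤ̄` of a conjugate place. -/
theorem centerIdeal_smul (g : GQ) (A : ValuationSubring Qb) :
    centerIdeal (g • A) = g • centerIdeal A := by
  ext b
  rw [Ideal.mem_pointwise_smul_iff_inv_smul_mem, mem_centerIdeal, mem_centerIdeal,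
    Fermat.Agent.GC.C0.mem_nonunits_smul_iff]
  rfl

/-- The centre of a place over `q` lies over `qℤ`. -/
theorem under_centerIdeal {q : ℕ} (hq : q.Prime) {A : ValuationSubring Qb}
    (hA : A.LiesOverPrime q) : (centerIdeal A).under ℤ = Ideal.span {(q : ℤ)} := by
  ext n
  rw [Ideal.under_def, Ideal.mem_comap, mem_centerIdeal, Ideal.mem_span_singleton]
  have : ((algebraMap ℤ Zb n : Zb) : Qb) = (n : Qb) := by simp
  rw [this]
  exact Fermat.Agent.S05.intCast_mem_nonunits_iff hq hA n

/-- **The places of `ℚ̄` over a prime `q` are conjugate under `G_ℚ`.** -/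
theorem exists_smul_eq_of_liesOverPrime {q : ℕ} (hq : q.Prime) {A B : ValuationSubring Qb}
    (hA : A.LiesOverPrime q) (hB : B.LiesOverPrime q) : ∃ g : GQ, B = g • A := by
  have hunder : (centerIdeal A).under ℤ = (centerIdeal B).under ℤ := by
    rw [under_centerIdeal hq hA, under_centerIdeal hq hB]
  obtain ⟨g, hg⟩ := Algebra.IsInvariant.exists_smul_of_under_eq_of_profinite
    (A := ℤ) (B := Zb) (G := GQ) (centerIdeal A) (centerIdeal B) hunder
  refine ⟨g, ?_⟩
  have hgA : (g • A).LiesOverPrime q := (Fermat.Agent.GC.C0.liesOverPrime_smul_iff g A q).2 hA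
  exact Fermat.Agent.GL.Local.InertiaField.eq_of_centerIdeal_eq (g • A) hq hgA B hB
    (by rw [hg, centerIdeal_smul])

/-- Every inertia group over `q` is a conjugate of the inertia group of `A`. -/
theorem exists_conj_mem_inertiaSubgroupIn {q : ℕ} (hq : q.Prime) {A B : ValuationSubring Qb}
    (hA : A.LiesOverPrime q) (hB : B.LiesOverPrime q) :
    ∃ g : GQ, ∀ σ ∈ B.inertiaSubgroupIn ℚ, g⁻¹ * σ * g ∈ A.inertiaSubgroupIn ℚ := by
  obtain ⟨g, rfl⟩ := exists_smul_eq_of_liesOverPrime hq hA hB
  refine ⟨g, fun σ hσ => ?_⟩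
  have h := Fermat.Agent.GC.C0.conj_mem_inertiaSubgroupIn g⁻¹ hσ
  rwa [inv_smul_smul, inv_inv] at h

end Fermat.Agent.GP.GW.TWInfl
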