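/-
GATE-P / S56 TW-INFL (helper31) = the flag of helper59's [P-GW] GRAPH v0 (board 4002, section 5).

"A class of `H¹(G_{ℚ,T'}, N)` which is unramified at every prime of `T' ∖ T` comes from
`H¹(G_{ℚ,T}, N)`" (`N` discrete for `levelS T`), in the level-constant cochain model of GC/Prof:

* `isLC₁_of_unramified` (cocycle level, the core): a `levelS T'`-level-constant `1`-cocycle `z` with
  values in a `levelS T`-discrete module which is a coboundary on the inertia group of
  `padicPlace q` for every `q ∈ T' ∖ T` is `levelS T`-level-constant.  Proof: `V ⊴ G_ℚ` a level of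
  `T` fixing the (finitely many) values of `z` and the local primitives `m_q`; `z|_V` is a
  homomorphism whose kernel `W` is open and contains every inertia group at `q ∉ T` (conjugacy of
  the places over `q` + `z (g⁻¹ σ g) = g⁻¹ • z σ` on `V`), so `W ∈ levelS T`, and `z` is right
  `W`-invariant.
* `isLC₁_of_locally_trivial` : the same when the restriction of `z` to `G_{ℚ_q}`
  (along `localGaloisToGlobal q`) is a coboundary, `q ∈ T' ∖ T`.
* `exists_HlcChange_eq_of_unramified`, `exists_HlcChange_eq_of_locRes_eq_zero` : the statements on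
  `Hlc`: `y ∈ Hlc (levelS T') N 1` with `HlcRes (G_{ℚ_q} → G_ℚ) y = 0` for all `q ∈ T' ∖ T` is
  `HlcChange` of some `y₀ ∈ Hlc (levelS T) N 1`; `range_HlcChange_one` is the `iff` form.
* `HlcChange_one_injective` : inflation `Hlc (levelS T) N 1 → Hlc (levelS T') N 1` is injective.
* `HlcRes_HlcChange` : compatibility of the local restrictions with `HlcChange`.
-/
import Fermat.Agent.GP.GW.TWInflPlaces
import Fermat.Agent.GC.PT.LocDataQ
import Fermat.Agent.GC.Prof.LevelEquiv
import Fermat.Agent.GC.Prof.LowMap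

set_option autoImplicit false

open CategoryTheory groupCohomology
open scoped Pointwise
open Fermat.Agent.GC.Prof Fermat.Agent.GC.C0 Fermat.Agent.GC.Places Fermat.Agent.GC.Local.KR

noncomputable section

namespace Fermat.Agent.GP.GW.TWInfl

local notation "Qb" => AlgebraicClosure ℚ
local notation "GQ" => (AlgebraicClosure ℚ ≃ₐ[ℚ] AlgebraicClosure ℚ)

local instance factPrimeOfPrimes' (q : Nat.Primes) : Fact ((q : ℕ).Prime) := ⟨q.2⟩

/-! ### Small facts on `levelS` and `padicPlace` -/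

/-- Members of `levelS S` are open subgroups of `G_ℚ`. -/
theorem isOpen_of_mem_levelS {S : Finset Nat.Primes} {U : Subgroup GQ}
    (hU : U ∈ (levelS S).sets) : IsOpen (U : Set GQ) := by
  obtain ⟨F, hF, rfl⟩ := hU
  exact (InfiniteGalois.isOpen_iff_finite F).2 hF.1

/-- Members of `levelS S` contain the inertia groups at the primes outside `S`. -/
theorem inertia_le_of_mem_levelS {S : Finset Nat.Primes} {U : Subgroup GQ}
    (hU : U ∈ (levelS S).sets) {q : Nat.Primes} (hq : q ∉ S) {A : ValuationSubring Qb}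
    (hA : A.LiesOverPrime (q : ℕ)) : A.inertiaSubgroupIn ℚ ≤ U := by
  obtain ⟨F, hF, rfl⟩ := hU
  exact hF.2 q hq A hA

/-- `levelS` is monotone in the set of primes. -/
theorem levelS_sets_mono {T T' : Finset Nat.Primes} (h : T ⊆ T') :
    (levelS T).sets ⊆ (levelS T').sets := by
  rintro _ ⟨F, hF, rfl⟩
  exact ⟨F, hF.mono h, rfl⟩

/-- The identity of `G_ℚ` is continuous from the finer system `levelS T'` to `levelS T`. -/
theorem isContHom_levelS_of_subset {T T' : Finset Nat.Primes} (h : T ⊆ T') :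
    IsContHom (levelS T') (levelS T) (MonoidHom.id GQ) :=
  IsContHom.of_subset (levelS_sets_mono h)

/-- `padicPlace q` lies over `q`. -/
theorem liesOverPrime_padicPlace (q : ℕ) [hq : Fact q.Prime] : (padicPlace q).LiesOverPrime q := by
  have hq0 : (q : Qb) ≠ 0 := by exact_mod_cast hq.out.ne_zero
  show (q : Qb) ∈ (padicPlace q).nonunits
  rw [Fermat.Agent.S05.mem_nonunits_iff_inv_notMem hq0, mem_padicPlace_iff_norm, map_inv₀,
    map_natCast, norm_inv, norm_natCast_self, inv_inv, not_le]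
  exact_mod_cast hq.out.one_lt

/-- The inertia group of `padicPlace q` lies in the image of `G_{ℚ_q}`. -/
theorem exists_localGaloisToGlobal_eq_of_mem_inertia (q : ℕ) [Fact q.Prime] {σ : GQ}
    (hσ : σ ∈ (padicPlace q).inertiaSubgroupIn ℚ) : ∃ τ : Gq q, localGaloisToGlobal q τ = σ :=
  (mem_decompositionSubgroup_iff q σ).1
    (Fermat.Agent.S05.mem_decompositionSubgroup_of_mem_inertiaSubgroupIn hσ)

/-! ### The cocycle-level core -/

section Core

variable {k : Type} [CommRing k]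

/-- **TW-INFL, cocycle level.**  A `1`-cocycle of `G_ℚ` which is level-constant for `levelS T'`,
takes values in a `levelS T`-discrete module and is a coboundary on the inertia group of
`padicPlace q` for every `q ∈ T' ∖ T`, is level-constant for `levelS T`. -/
theorem isLC₁_of_unramified (T T' : Finset Nat.Primes) (N : Rep k GQ) [IsDiscrete (levelS T) N]
    (z : GQ → N) (hz : z ∈ cocycles₁ N) (hlc : IsLC₁ (levelS T') z)
    (hloc : ∀ q : Nat.Primes, q ∈ T' → q ∉ T → ∃ m : N,
      ∀ σ ∈ (padicPlace (q : ℕ)).inertiaSubgroupIn ℚ, z σ = N.ρ σ m - m) :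
    IsLC₁ (levelS T) z := by
  classical
  rw [mem_cocycles₁_iff] at hz
  have hz1 : z 1 = 0 := by
    have h := hz 1 1
    rw [mul_one, map_one, Module.End.one_apply] at h
    exact left_eq_add.1 h
  have hfin : (Set.range z).Finite := by
    have := ((isLC₁_iff' z).1 hlc).finite_range
    refine this.subset ?_
    rintro _ ⟨g, rfl⟩
    exact ⟨fun _ => g, rfl⟩
  obtain ⟨U, hU, hzU⟩ := hlc
  have hzU0 : ∀ s ∈ U, z s = 0 := by
    intro s hs
    have := hzU 1 s hs
    rwa [one_mul, hz1] at this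
  choose! m hm using hloc
  -- a normal level `V` of `T` fixing the values of `z` and the local primitives
  have hfin' : (Set.range z ∪ m '' (T' : Set Nat.Primes)).Finite :=
    hfin.union (T'.finite_toSet.image m)
  choose Wv hWv hWvfix using fun v : N => IsDiscrete.exists_fix (𝒰 := levelS T) (M := N) v
  obtain ⟨V, hV, hle, hVn, -⟩ :=
    (levelS T).exists_normal_le_finite _ hfin' Wv (fun v _ => hWv v)
  have hVz : ∀ s ∈ V, ∀ g, N.ρ s (z g) = z g := fun s hs g =>
    hWvfix (z g) s (hle (z g) (Or.inl ⟨g, rfl⟩) hs)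
  have hVm : ∀ s ∈ V, ∀ q ∈ T', N.ρ s (m q) = m q := fun s hs q hq =>
    hWvfix (m q) s (hle (m q) (Or.inr ⟨q, hq, rfl⟩) hs)
  -- conjugation formula on `V`
  have hconj : ∀ g : GQ, ∀ s ∈ V, z (g⁻¹ * s * g) = N.ρ g⁻¹ (z s) := by
    intro g s hs
    have h1 : z (s * g) = z g + z s := by rw [hz s g, hVz s hs g]
    have h2 : N.ρ g⁻¹ (z g) + z g⁻¹ = 0 := by
      have := hz g⁻¹ g
      rw [inv_mul_cancel, hz1] at this
      exact this.symm
    rw [mul_assoc, hz g⁻¹ (s * g), h1, map_add]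
    calc N.ρ g⁻¹ (z g) + N.ρ g⁻¹ (z s) + z g⁻¹
        = N.ρ g⁻¹ (z s) + (N.ρ g⁻¹ (z g) + z g⁻¹) := by abel
      _ = N.ρ g⁻¹ (z s) := by rw [h2, add_zero]
  -- the kernel of `z|_V`
  let W : Subgroup GQ :=
    { carrier := {s | s ∈ V ∧ z s = 0}
      mul_mem' := by
        rintro s t ⟨hs, hs0⟩ ⟨ht, ht0⟩
        refine ⟨V.mul_mem hs ht, ?_⟩
        rw [hz s t, ht0, hs0, map_zero, add_zero]
      one_mem' := ⟨V.one_mem, hz1⟩
      inv_mem' := by
        rintro s ⟨hs, hs0⟩
        refine ⟨V.inv_mem hs, ?_⟩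
        have := hz s⁻¹ s
        rw [inv_mul_cancel, hz1, hs0, map_zero, zero_add] at this
        exact this.symm }
  have hWmem : ∀ s, s ∈ W ↔ s ∈ V ∧ z s = 0 := fun _ => Iff.rfl
  have hUVW : U ⊓ V ≤ W := fun s hs => (hWmem s).2 ⟨hs.2, hzU0 s hs.1⟩
  have hopen : IsOpen (W : Set GQ) := by
    have h1 : IsOpen ((U ⊓ V : Subgroup GQ) : Set GQ) := by
      rw [Subgroup.coe_inf]
      exact (isOpen_of_mem_levelS hU).inter (isOpen_of_mem_levelS hV)
    exact Subgroup.isOpen_mono hUVW h1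
  have hWT : W ∈ (levelS T).sets := by
    refine mem_levelS_of_isOpen_of_inertia_le T W hopen (fun q hq A hA σ hσ => ?_)
    have hσV : σ ∈ V := inertia_le_of_mem_levelS hV hq hA hσ
    refine (hWmem σ).2 ⟨hσV, ?_⟩
    by_cases hqT' : q ∈ T'
    · obtain ⟨g, hg⟩ := exists_conj_mem_inertiaSubgroupIn q.2
        (liesOverPrime_padicPlace (q : ℕ)) hA
      have hmem := hg σ hσ
      have hV' : g⁻¹ * σ * g ∈ V := by
        have := hVn.conj_mem σ hσV g⁻¹
        rwa [inv_inv] at this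
      have h1 : z (g⁻¹ * σ * g) = 0 := by
        rw [hm q hqT' hq _ hmem, hVm _ hV' q hqT', sub_self]
      rw [hconj g σ hσV] at h1
      have h2 : N.ρ g (N.ρ g⁻¹ (z σ)) = z σ := by
        rw [← Module.End.mul_apply, ← map_mul, mul_inv_cancel, map_one, Module.End.one_apply]
      rw [← h2, h1, map_zero]
    · exact hzU0 σ (inertia_le_of_mem_levelS hU hqT' hA hσ)
  refine ⟨W, hWT, fun g s hs => ?_⟩
  rw [hz g s, ((hWmem s).1 hs).2, map_zero, zero_add]

/-- **TW-INFL, cocycle level, local form.**  The same when the restriction of `z` to `G_{ℚ_q}` is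
a coboundary for every `q ∈ T' ∖ T`. -/
theorem isLC₁_of_locally_trivial (T T' : Finset Nat.Primes) (N : Rep k GQ)
    [IsDiscrete (levelS T) N] (z : GQ → N) (hz : z ∈ cocycles₁ N) (hlc : IsLC₁ (levelS T') z)
    (hloc : ∀ q : Nat.Primes, q ∈ T' → q ∉ T → ∃ m : N, ∀ τ : Gq (q : ℕ),
      z (localGaloisToGlobal (q : ℕ) τ) = N.ρ (localGaloisToGlobal (q : ℕ) τ) m - m) :
    IsLC₁ (levelS T) z := by
  refine isLC₁_of_unramified T T' N z hz hlc (fun q hq hqT => ?_)
  obtain ⟨m, hm⟩ := hloc q hq hqT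
  refine ⟨m, fun σ hσ => ?_⟩
  obtain ⟨τ, rfl⟩ := exists_localGaloisToGlobal_eq_of_mem_inertia (q : ℕ) hσ
  exact hm τ

end Core

/-! ### The statements on `Hlc` -/

section Hlc

variable {k : Type} [CommRing k] {T T' : Finset Nat.Primes} (hTT' : T ⊆ T')
  (N : Rep k GQ) [IsDiscrete (levelS T) N] [IsDiscrete (levelS T') N]

omit [IsDiscrete (levelS T) N] [IsDiscrete (levelS T') N] in
include hTT' in
/-- Level-constancy for `levelS T` implies level-constancy for the finer `levelS T'`. -/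
theorem isLC₁_mono {X : Type*} {z : GQ → X} (h : IsLC₁ (levelS T) z) : IsLC₁ (levelS T') z := by
  obtain ⟨U, hU, hz⟩ := h
  exact ⟨U, levelS_sets_mono hTT' hU, hz⟩

omit [IsDiscrete (levelS T) N] [IsDiscrete (levelS T') N] in
include hTT' in
theorem mem_lcCocycles₁_mono {z : GQ → N} (h : z ∈ lcCocycles₁ (levelS T) N) :
    z ∈ lcCocycles₁ (levelS T') N :=
  ⟨h.1, isLC₁_mono hTT' h.2⟩

/-- `HlcChange` (inflation from `G_{ℚ,T}` to `G_{ℚ,T'}`) on `Hlc1π` representatives is the
identity on the cocycle. -/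
theorem HlcChange_Hlc1π (z : lcCocycles₁ (levelS T) N) :
    HlcChange N (isContHom_levelS_of_subset hTT') 1 (Hlc1π (levelS T) N z) =
      Hlc1π (levelS T') N ⟨z.1, mem_lcCocycles₁_mono hTT' N z.2⟩ := by
  unfold HlcChange
  rw [HlcPull_Hlc1π]
  rfl

/-- **Inflation `Hlc (levelS T) N 1 → Hlc (levelS T') N 1` is injective.** -/
theorem HlcChange_one_injective :
    Function.Injective (HlcChange N (isContHom_levelS_of_subset hTT') 1) := by
  rw [injective_iff_map_eq_zero]
  intro y hy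
  obtain ⟨z, rfl⟩ := Hlc1π_surjective (levelS T) N y
  rw [HlcChange_Hlc1π hTT' N z, Hlc1π_eq_zero_iff] at hy
  rw [Hlc1π_eq_zero_iff]
  exact hy

/-- **TW-INFL on `Hlc`, cocycle hypothesis.**  A class represented by a cocycle which is a
coboundary on the inertia group of `padicPlace q` for every `q ∈ T' ∖ T` is inflated from
`levelS T`. -/
theorem exists_HlcChange_eq_of_unramified (z : lcCocycles₁ (levelS T') N)
    (hloc : ∀ q : Nat.Primes, q ∈ T' → q ∉ T → ∃ m : N,
      ∀ σ ∈ (padicPlace (q : ℕ)).inertiaSubgroupIn ℚ, (z : GQ → N) σ = N.ρ σ m - m) :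
    ∃ y₀ : Hlc (levelS T) N 1,
      HlcChange N (isContHom_levelS_of_subset hTT') 1 y₀ = Hlc1π (levelS T') N z := by
  have hlc : IsLC₁ (levelS T) (z : GQ → N) :=
    isLC₁_of_unramified T T' N z.1 z.2.1 z.2.2 hloc
  refine ⟨Hlc1π (levelS T) N ⟨z.1, z.2.1, hlc⟩, ?_⟩
  rw [HlcChange_Hlc1π hTT' N]

/-- **TW-INFL on `Hlc`.**  A class of `Hlc (levelS T') N 1` whose localisation at every
`q ∈ T' ∖ T` vanishes is inflated from `Hlc (levelS T) N 1`. -/
theorem exists_HlcChange_eq_of_locRes_eq_zero (y : Hlc (levelS T') N 1)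
    (hy : ∀ v : ↥T', (v : Nat.Primes) ∉ T →
      Cone.locRes (Fermat.Agent.GC.PT.LocDataQ.locDataQ T') N 1 y v = 0) :
    ∃ y₀ : Hlc (levelS T) N 1, HlcChange N (isContHom_levelS_of_subset hTT') 1 y₀ = y := by
  obtain ⟨z, rfl⟩ := Hlc1π_surjective (levelS T') N y
  refine exists_HlcChange_eq_of_unramified hTT' N z (fun q hq hqT => ?_)
  have h := hy ⟨q, hq⟩ hqT
  have : IsDiscrete (levelQ (q : ℕ)) (Rep.res (localGaloisToGlobal (q : ℕ)) N) :=
    isDiscrete_res_localGaloisToGlobal T' (q : ℕ) N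
  have h' : HlcPull (isContHom_localGaloisToGlobal T' (q : ℕ))
      (𝟙 (Rep.res (localGaloisToGlobal (q : ℕ)) N)) 1 (Hlc1π (levelS T') N z) = 0 := h
  rw [HlcPull_Hlc1π, Hlc1π_eq_zero_iff] at h'
  obtain ⟨m, hm⟩ := h'
  refine ⟨m, fun σ hσ => ?_⟩
  obtain ⟨τ, rfl⟩ := exists_localGaloisToGlobal_eq_of_mem_inertia (q : ℕ) hσ
  have := congrFun hm τ
  rw [d₀₁_hom_apply] at this
  exact this.symm

/-- Membership in the range of inflation, `iff` form. -/
theorem mem_range_HlcChange_one_iff (y : Hlc (levelS T') N 1) :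
    (∃ y₀ : Hlc (levelS T) N 1, HlcChange N (isContHom_levelS_of_subset hTT') 1 y₀ = y) ↔
      ∃ z : lcCocycles₁ (levelS T') N, Hlc1π (levelS T') N z = y ∧
        IsLC₁ (levelS T) (z : GQ → N) := by
  constructor
  · rintro ⟨y₀, rfl⟩
    obtain ⟨z, rfl⟩ := Hlc1π_surjective (levelS T) N y₀
    exact ⟨⟨z.1, mem_lcCocycles₁_mono hTT' N z.2⟩, (HlcChange_Hlc1π hTT' N z).symm, z.2.2⟩
  · rintro ⟨z, rfl, hlc⟩
    exact ⟨Hlc1π (levelS T) N ⟨z.1, z.2.1, hlc⟩, HlcChange_Hlc1π hTT' N _⟩

/-- Inflation is compatible with the restriction to `G_{ℚ_q}`, for every prime `q` and in every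
degree. -/
theorem HlcRes_HlcChange (q : ℕ) [Fact q.Prime]
    [IsDiscrete (levelQ q) (Rep.res (localGaloisToGlobal q) N)] (n : ℕ)
    (y₀ : Hlc (levelS T) N n) :
    HlcRes (isContHom_localGaloisToGlobal T' q) N n
        (HlcChange N (isContHom_levelS_of_subset hTT') n y₀) =
      HlcRes (isContHom_localGaloisToGlobal T q) N n y₀ := by
  have h := HlcChange_comp_HlcRes (isContHom_localGaloisToGlobal T' q)
    (isContHom_localGaloisToGlobal T q) (IsContHom.id (levelQ q))
    (isContHom_levelS_of_subset hTT') N n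
  rw [HlcChange_self, Category.comp_id] at h
  exact congr($h y₀)

/-- Inflation is compatible with the localisation maps of `locDataQ`: at the places of `T`. -/
theorem locRes_HlcChange (n : ℕ) (y₀ : Hlc (levelS T) N n) (v : ↥T) :
    Cone.locRes (Fermat.Agent.GC.PT.LocDataQ.locDataQ T') N n
        (HlcChange N (isContHom_levelS_of_subset hTT') n y₀) ⟨v.1, hTT' v.2⟩ =
      Cone.locRes (Fermat.Agent.GC.PT.LocDataQ.locDataQ T) N n y₀ v :=
  haveI : IsDiscrete (levelQ ((v : Nat.Primes) : ℕ))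
      (Rep.res (localGaloisToGlobal ((v : Nat.Primes) : ℕ)) N) :=
    isDiscrete_res_localGaloisToGlobal T ((v : Nat.Primes) : ℕ) N
  HlcRes_HlcChange hTT' N ((v : Nat.Primes) : ℕ) n y₀

/-- **TW-INFL, Selmer form.**  A class for `T'` which is locally trivial at the places of
`T' ∖ T` is the inflation of a class `y₀` for `T`; `y₀` has the same localisations at the places
of `T`, and its restriction to `G_{ℚ_q}` vanishes for `q ∈ T' ∖ T`. -/
theorem exists_inflation_of_locRes_eq_zero (y : Hlc (levelS T') N 1)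
    (hy : ∀ v : ↥T', (v : Nat.Primes) ∉ T →
      Cone.locRes (Fermat.Agent.GC.PT.LocDataQ.locDataQ T') N 1 y v = 0) :
    ∃ y₀ : Hlc (levelS T) N 1, HlcChange N (isContHom_levelS_of_subset hTT') 1 y₀ = y ∧
      (∀ v : ↥T, Cone.locRes (Fermat.Agent.GC.PT.LocDataQ.locDataQ T) N 1 y₀ v =
        Cone.locRes (Fermat.Agent.GC.PT.LocDataQ.locDataQ T') N 1 y ⟨v.1, hTT' v.2⟩) ∧
      ∀ (q : Nat.Primes) (_ : q ∈ T') (_ : q ∉ T)
        [IsDiscrete (levelQ (q : ℕ)) (Rep.res (localGaloisToGlobal (q : ℕ)) N)],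
        HlcRes (isContHom_localGaloisToGlobal T (q : ℕ)) N 1 y₀ = 0 := by
  obtain ⟨y₀, rfl⟩ := exists_HlcChange_eq_of_locRes_eq_zero hTT' N y hy
  refine ⟨y₀, rfl, fun v => (locRes_HlcChange hTT' N 1 y₀ v).symm, fun q hq hqT _ => ?_⟩
  rw [← HlcRes_HlcChange hTT' N (q : ℕ) 1 y₀]
  exact hy ⟨q, hq⟩ hqT

end Hlc

end Fermat.Agent.GP.GW.TWInfl
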