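/-
GATE-P (S56) / [P-GW]–[CORE] glue S56-GW-PERPINDEP (helper97).

`Model.perpLoc M Δ v Lv` (the annihilator of a local condition under the local Tate pairing
`(x, y) ↦ Δ.τ (single_v (x ∪ y))`) is defined with the trace functional `Δ.τ` of a Poitou–Tate
package `Δ : PTData S`, hence a priori depends on `Δ` and on `S`.  It does not:

* `locPair_eq_zero_iff` : `locPair M Δ v x y = 0 ↔ x ∪_v y = 0` (`Δ.hI v`: `τ ∘ single_v` is
  injective);  `mem_perpLoc_iff_cup`;
* `perpLoc_congr`   : `perpLoc M Δ v Lv = perpLoc M Δ' v Lv` for two packages on the same `S`;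
* `perpLoc_subset`  : the same for `T ⊆ T'`, `Δ : PTData T`, `Δ' : PTData T'`, `v ∈ T`
  (the local objects at `v` are definitionally the same for `T` and `T'`);
* `perpLoc_top`     : `⊤^⊥ = ⊥` from right non-degeneracy of the local pairing at `v`;
* `dualSelmerGrp_eq_bot_of_kill` : **the dual Selmer group for `T' = T ∪ Q` vanishes** as soon as
  the local conditions at the primes of `T` are unchanged, the conditions at the new primes are
  `⊤` (Taylor–Wiles primes: no condition), the local pairings at the new primes are right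
  non-degenerate, and every class of the dual Selmer group for `T` which is locally trivial at
  the new primes is `0` (= the choice of the Taylor–Wiles primes).  Uses helper31's
  `TWInfl.exists_inflation_of_locRes_eq_zero`.
* `finrank_dualSelmerGrp_le` : more generally the dual Selmer group for `T'` injects into the
  subspace of the dual Selmer group for `T` of classes locally trivial at the new primes.
-/
import Fermat.Agent.GP.GW.Model
import Fermat.Agent.GP.GW.TWInfl

set_option autoImplicit false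

namespace Fermat.Agent.GP.GW.PerpIndep

open Fermat.Agent.GC.Prof Fermat.Agent.GC.Prof.Cone Fermat.Agent.GC.PT
  Fermat.Agent.GC.PT.LocDataQ Fermat.Agent.GC.PT.MainInst groupCohomology CategoryTheory
  ExtCitation Module Fermat.Agent.GC.C0 Fermat.Agent.GC.PT.Triples Fermat.Agent.GP.GW
  Fermat.Agent.GC.Places Fermat.Agent.GC.Local.KR

noncomputable section

variable {p : ℕ} [Fact p.Prime]

section One

variable {S : Finset Nat.Primes} [IsDiscrete (levelS S) (TChi p)]
variable (M : Rep (ZMod p) GQ) [IsDiscrete (levelS S) M]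
variable [IsDiscrete (levelS S) (M.dualTwist (cycloChar p))]

/-- The local cup product `H¹_v(M) × H¹_v(M*) → H²_v(k(χ))` used by `Model.locPair`. -/
def locCup (v : (locDataQ S).ι) :
    Hloc S M v 1 →ₗ[ZMod p] Hloc S (M.dualTwist (cycloChar p)) v 1 →ₗ[ZMod p]
      Hloc S (TChi p) v 2 :=
  HlcCup ((locDataQ S).𝒰v v)
    (locB (locDataQ S) (toChi (cycloChar p) (evB (cycloChar p) M)) v)
    (equivariant_locB (locDataQ S) (equivariant_toChi (isChiPairing_evB (cycloChar p) M)) v)
    (show 1 + 1 = 2 from rfl)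

theorem locPair_apply (Δ : PTData (p := p) S) (v : (locDataQ S).ι) (x : Hloc S M v 1)
    (y : Hloc S (M.dualTwist (cycloChar p)) v 1) :
    locPair M Δ v x y = Δ.τ (Pi.single v (locCup M v x y)) := rfl

/-- **The local Tate pairing vanishes iff the cup product does** (`Δ.hI v`). -/
theorem locPair_eq_zero_iff (Δ : PTData (p := p) S) (v : (locDataQ S).ι) (x : Hloc S M v 1)
    (y : Hloc S (M.dualTwist (cycloChar p)) v 1) :
    locPair M Δ v x y = 0 ↔ locCup M v x y = 0 := by
  rw [locPair_apply]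
  constructor
  · intro h
    have h0 : Δ.τ (Pi.single v (0 : Hloc S (TChi p) v 2)) = 0 := by
      rw [Pi.single_zero, map_zero]
    exact Δ.hI v (h.trans h0.symm)
  · intro h
    rw [h, Pi.single_zero, map_zero]

/-- `perpLoc` is the annihilator for the cup product: no trace functional involved. -/
theorem mem_perpLoc_iff_cup (Δ : PTData (p := p) S) (v : (locDataQ S).ι)
    (Lv : Submodule (ZMod p) (Hloc S M v 1)) (y : Hloc S (M.dualTwist (cycloChar p)) v 1) :
    y ∈ perpLoc M Δ v Lv ↔ ∀ x ∈ Lv, locCup M v x y = 0 := by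
  rw [mem_perpLoc]
  exact forall₂_congr fun x _ => locPair_eq_zero_iff M Δ v x y

/-- **`perpLoc` does not depend on the Poitou–Tate package.** -/
theorem perpLoc_congr (Δ Δ' : PTData (p := p) S) (v : (locDataQ S).ι)
    (Lv : Submodule (ZMod p) (Hloc S M v 1)) : perpLoc M Δ v Lv = perpLoc M Δ' v Lv := by
  ext y
  rw [mem_perpLoc_iff_cup, mem_perpLoc_iff_cup]

/-- `dualSelmerGrp` does not depend on the Poitou–Tate package. -/
theorem dualSelmerGrp_congr (Δ Δ' : PTData (p := p) S)
    (L : ∀ v, Submodule (ZMod p) (Hloc S M v 1)) :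
    dualSelmerGrp M Δ L = dualSelmerGrp M Δ' L := by
  unfold dualSelmerGrp
  congr 1
  funext v
  exact perpLoc_congr M Δ Δ' v (L v)

/-- `⊤^⊥ = ⊥` when the local pairing at `v` is right non-degenerate (GW-1d (ii)). -/
theorem perpLoc_top (Δ : PTData (p := p) S) (v : (locDataQ S).ι)
    (hnd : ∀ y : Hloc S (M.dualTwist (cycloChar p)) v 1,
      (∀ x : Hloc S M v 1, locPair M Δ v x y = 0) → y = 0) :
    perpLoc M Δ v ⊤ = ⊥ := by
  rw [eq_bot_iff]
  intro y hy
  rw [Submodule.mem_bot]
  exact hnd y fun x => hy x Submodule.mem_top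

/-- the same with the cup product itself -/
theorem perpLoc_top_of_cup (Δ : PTData (p := p) S) (v : (locDataQ S).ι)
    (hnd : ∀ y : Hloc S (M.dualTwist (cycloChar p)) v 1,
      (∀ x : Hloc S M v 1, locCup M v x y = 0) → y = 0) :
    perpLoc M Δ v ⊤ = ⊥ :=
  perpLoc_top M Δ v fun y hy => hnd y fun x => (locPair_eq_zero_iff M Δ v x y).1 (hy x)

/-- `perpLoc` is antitone in the local condition. -/
theorem perpLoc_anti (Δ : PTData (p := p) S) (v : (locDataQ S).ι)
    {Lv Lv' : Submodule (ZMod p) (Hloc S M v 1)} (h : Lv ≤ Lv') :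
    perpLoc M Δ v Lv' ≤ perpLoc M Δ v Lv :=
  fun _ hy x hx => hy x (h hx)

/-- The dual Selmer group is antitone in the family of local conditions. -/
theorem dualSelmerGrp_anti (Δ : PTData (p := p) S)
    {L L' : ∀ v, Submodule (ZMod p) (Hloc S M v 1)} (h : ∀ v, L v ≤ L' v) :
    dualSelmerGrp M Δ L' ≤ dualSelmerGrp M Δ L := by
  intro y hy
  rw [dualSelmerGrp, mem_selmerGrp] at hy ⊢
  exact fun v => perpLoc_anti M Δ v (h v) (hy v)

/-- membership in the dual Selmer group, unfolded -/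
theorem mem_dualSelmerGrp (Δ : PTData (p := p) S) (L : ∀ v, Submodule (ZMod p) (Hloc S M v 1))
    (y : Hlc (levelS S) (M.dualTwist (cycloChar p)) 1) :
    y ∈ dualSelmerGrp M Δ L ↔
      ∀ v, locRes (locDataQ S) (M.dualTwist (cycloChar p)) 1 y v ∈ perpLoc M Δ v (L v) :=
  mem_selmerGrp S (M.dualTwist (cycloChar p)) _ y

end One

/-! ### Change of the set of primes -/

section Two

local instance factPrimeOfPrimes'' (q : Nat.Primes) : Fact ((q : ℕ).Prime) := ⟨q.2⟩

variable {T T' : Finset Nat.Primes} (hTT' : T ⊆ T')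
variable [IsDiscrete (levelS T) (TChi p)] [IsDiscrete (levelS T') (TChi p)]
variable (M : Rep (ZMod p) GQ) [IsDiscrete (levelS T) M] [IsDiscrete (levelS T') M]
variable [IsDiscrete (levelS T) (M.dualTwist (cycloChar p))]
  [IsDiscrete (levelS T') (M.dualTwist (cycloChar p))]

/-- the local cup products at a place of `T` computed in `locDataQ T` and in `locDataQ T'`
coincide (definitionally). -/
theorem locCup_subset (v : ↥T) (x : Hloc T M v 1)
    (y : Hloc T (M.dualTwist (cycloChar p)) v 1) :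
    locCup (S := T') M ⟨v.1, hTT' v.2⟩ x y = locCup (S := T) M v x y := rfl

/-- **`perpLoc` does not depend on the set of primes**: membership form. -/
theorem mem_perpLoc_subset (Δ : PTData (p := p) T) (Δ' : PTData (p := p) T') (v : ↥T)
    (Lv : Submodule (ZMod p) (Hloc T M v 1)) (y : Hloc T (M.dualTwist (cycloChar p)) v 1) :
    y ∈ perpLoc (S := T') M Δ' ⟨v.1, hTT' v.2⟩ Lv ↔ y ∈ perpLoc (S := T) M Δ v Lv := by
  exact (mem_perpLoc_iff_cup (S := T') M Δ' ⟨v.1, hTT' v.2⟩ Lv y).trans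
    (mem_perpLoc_iff_cup (S := T) M Δ v Lv y).symm

/-- membership form with both the condition and the class transported -/
theorem mem_perpLoc_subset' (Δ : PTData (p := p) T) (Δ' : PTData (p := p) T') (v : ↥T)
    (Lv : Submodule (ZMod p) (Hloc T M v 1))
    (Lv' : Submodule (ZMod p) (Hloc T' M ⟨v.1, hTT' v.2⟩ 1)) (hLv : Lv' = Lv)
    (y : Hloc T (M.dualTwist (cycloChar p)) v 1)
    (y' : Hloc T' (M.dualTwist (cycloChar p)) ⟨v.1, hTT' v.2⟩ 1) (hy : y' = y) :
    y' ∈ perpLoc (S := T') M Δ' ⟨v.1, hTT' v.2⟩ Lv' ↔ y ∈ perpLoc (S := T) M Δ v Lv := by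
  subst hLv
  subst hy
  exact mem_perpLoc_subset hTT' M Δ Δ' v _ _

/-- **`perpLoc` does not depend on the set of primes.** -/
theorem perpLoc_subset (Δ : PTData (p := p) T) (Δ' : PTData (p := p) T') (v : ↥T)
    (Lv : Submodule (ZMod p) (Hloc T M v 1)) :
    perpLoc (S := T') M Δ' ⟨v.1, hTT' v.2⟩ Lv = perpLoc (S := T) M Δ v Lv := by
  ext y
  exact mem_perpLoc_subset hTT' M Δ Δ' v Lv y

/-- the inflation `Hlc (levelS T) M* 1 → Hlc (levelS T') M* 1` -/
abbrev infl : Hlc (levelS T) (M.dualTwist (cycloChar p)) 1 ⟶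
    Hlc (levelS T') (M.dualTwist (cycloChar p)) 1 :=
  HlcChange (M.dualTwist (cycloChar p)) (TWInfl.isContHom_levelS_of_subset hTT') 1

/-- **The dual Selmer group for `T' ⊇ T`** (conditions unchanged at `T`, no condition at the new
primes, local pairings right non-degenerate at the new primes) **is the inflation of the classes
of the dual Selmer group for `T` which are locally trivial at the new primes.** -/
theorem mem_dualSelmerGrp_subset_iff (Δ : PTData (p := p) T) (Δ' : PTData (p := p) T')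
    (L : ∀ v : ↥T, Submodule (ZMod p) (Hloc T M v 1))
    (L' : ∀ v : ↥T', Submodule (ZMod p) (Hloc T' M v 1))
    (hL : ∀ v : ↥T, L' ⟨v.1, hTT' v.2⟩ = L v)
    (hQ : ∀ v : ↥T', (v : Nat.Primes) ∉ T → L' v = ⊤)
    (hnd : ∀ v : ↥T', (v : Nat.Primes) ∉ T →
      ∀ y : Hloc T' (M.dualTwist (cycloChar p)) v 1,
        (∀ x : Hloc T' M v 1, locPair M Δ' v x y = 0) → y = 0)
    (y : Hlc (levelS T') (M.dualTwist (cycloChar p)) 1) :
    y ∈ dualSelmerGrp M Δ' L' ↔
      ∃ y₀ ∈ dualSelmerGrp M Δ L, infl hTT' M y₀ = y ∧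
        ∀ (q : Nat.Primes) (_ : q ∈ T') (_ : q ∉ T)
          [IsDiscrete (levelQ (q : ℕ))
            (Rep.res (localGaloisToGlobal (q : ℕ)) (M.dualTwist (cycloChar p)))],
          HlcRes (isContHom_localGaloisToGlobal T (q : ℕ)) (M.dualTwist (cycloChar p)) 1 y₀ = 0 := by
  constructor
  · intro hy
    rw [mem_dualSelmerGrp] at hy
    have hy0 : ∀ v : ↥T', (v : Nat.Primes) ∉ T →
        locRes (locDataQ T') (M.dualTwist (cycloChar p)) 1 y v = 0 := by
      intro v hv
      have h1 := hy v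
      rw [hQ v hv, perpLoc_top M Δ' v (hnd v hv), Submodule.mem_bot] at h1
      exact h1
    obtain ⟨y₀, hy₀, hloc, hres⟩ :=
      TWInfl.exists_inflation_of_locRes_eq_zero hTT' (M.dualTwist (cycloChar p)) y hy0
    refine ⟨y₀, ?_, hy₀, hres⟩
    rw [mem_dualSelmerGrp]
    intro v
    rw [hloc v, ← mem_perpLoc_subset hTT' M Δ Δ' v (L v), ← hL v]
    exact hy ⟨v.1, hTT' v.2⟩
  · rintro ⟨y₀, hy₀, rfl, hres⟩
    rw [mem_dualSelmerGrp] at hy₀ ⊢
    rintro ⟨q, hq'⟩
    by_cases hv : q ∈ T
    · exact (mem_perpLoc_subset' hTT' M Δ Δ' ⟨q, hv⟩ (L ⟨q, hv⟩) (L' ⟨q, hq'⟩) (hL ⟨q, hv⟩) _ _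
        (TWInfl.locRes_HlcChange hTT' (M.dualTwist (cycloChar p)) 1 y₀ ⟨q, hv⟩)).2 (hy₀ ⟨q, hv⟩)
    · have : IsDiscrete (levelQ (q : ℕ))
          (Rep.res (localGaloisToGlobal (q : ℕ)) (M.dualTwist (cycloChar p))) :=
        isDiscrete_res_localGaloisToGlobal T' (q : ℕ) (M.dualTwist (cycloChar p))
      have h1 := TWInfl.HlcRes_HlcChange hTT' (M.dualTwist (cycloChar p)) (q : ℕ) 1 y₀
      have h2 : locRes (locDataQ T') (M.dualTwist (cycloChar p)) 1
          (infl hTT' M y₀) ⟨q, hq'⟩ = 0 := by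
        rw [locRes_apply]
        exact h1.trans (hres q hq' hv)
      rw [h2]
      exact zero_mem _

/-- **The dual Selmer group for `T' = T ∪ Q` vanishes** when every class of the dual Selmer group
for `T` which is locally trivial at the primes of `T' ∖ T` is zero (the defining property of a
Taylor–Wiles set `Q`). -/
theorem dualSelmerGrp_eq_bot_of_kill (Δ : PTData (p := p) T) (Δ' : PTData (p := p) T')
    (L : ∀ v : ↥T, Submodule (ZMod p) (Hloc T M v 1))
    (L' : ∀ v : ↥T', Submodule (ZMod p) (Hloc T' M v 1))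
    (hL : ∀ v : ↥T, L' ⟨v.1, hTT' v.2⟩ = L v)
    (hQ : ∀ v : ↥T', (v : Nat.Primes) ∉ T → L' v = ⊤)
    (hnd : ∀ v : ↥T', (v : Nat.Primes) ∉ T →
      ∀ y : Hloc T' (M.dualTwist (cycloChar p)) v 1,
        (∀ x : Hloc T' M v 1, locPair M Δ' v x y = 0) → y = 0)
    (hkill : ∀ y₀ ∈ dualSelmerGrp M Δ L,
      (∀ (q : Nat.Primes) (_ : q ∈ T') (_ : q ∉ T)
          [IsDiscrete (levelQ (q : ℕ))
            (Rep.res (localGaloisToGlobal (q : ℕ)) (M.dualTwist (cycloChar p)))],
          HlcRes (isContHom_localGaloisToGlobal T (q : ℕ)) (M.dualTwist (cycloChar p)) 1 y₀ = 0) →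
        y₀ = 0) :
    dualSelmerGrp M Δ' L' = ⊥ := by
  rw [eq_bot_iff]
  intro y hy
  obtain ⟨y₀, hy₀, rfl, hres⟩ :=
    (mem_dualSelmerGrp_subset_iff hTT' M Δ Δ' L L' hL hQ hnd y).1 hy
  rw [hkill y₀ hy₀ hres, Submodule.mem_bot, map_zero]

end Two

end

end Fermat.Agent.GP.GW.PerpIndep
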