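/-
GATE-P / S56 [P-GW] leaf S56-GW-HERBRANDQ (helper9): **Herbrand-type additivity in additive-function
form** (Mathlib only, orphan).

`R` any ring (think `ℤ[C]`, `ℤ_p[C]`, `MonoidAlgebra ℤ G`), `p : ℕ`, and `Φ : AddFun R p Z` an
"additive function": a `Z`-valued function on `R`-modules (in a fixed universe) which is
isomorphism invariant and additive in short exact sequences of FINITE modules KILLED BY `p` (these
are the only modules ever fed to it).  For an `R`-module `A` put `A[p] = tors p A = ker (p • ·)`,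
`A/p = quo p A = A ⧸ range (p • ·)` and, when both are finite (`HQFin p A`),
  `Φ.q A = Φ.φ (A/p) - Φ.φ (A[p])`      (the class `[A/p] - [A[p]]` of `K₀`, seen through `Φ`).
Main results:
* `AddFun.q_add`        : `0 → A → B → C → 0` exact  ⟹  `q B = q A + q C`   (snake lemma, six terms);
* `HQFin.of_exact` etc. : two-out-of-three for `HQFin`;
* `AddFun.q_finite`     : `A` finite ⟹ `q A = 0`, i.e. `φ (A/p) = φ (A[p])`  (`[Cl[p]] = [Cl/p]`);
* `AddFun.q_torsionFree`: no `p`-torsion ⟹ `q A = φ (A/p)`;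
* `AddFun.q_of_finite_quotient` : `A ≤ B` of finite index ⟹ `q A = q B` (commensurable lattices have
  the same reduction class);
* `AddFun.q_exact_four`, `AddFun.q_exact_five` : alternating sums along longer exact sequences
  (units → `S`-units → `ℤ[S_f]` → `Cl` → `Cl_S`).
-/
import Mathlib

set_option autoImplicit false

namespace Fermat.Agent.GP.GW.HerbrandAdd

open Function

universe u uR uZ

section Basics

variable {R : Type uR} [Ring R] (p : ℕ)

/-- multiplication by `p` as an `R`-linear endomorphism (no commutativity needed) -/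
def mulP (A : Type*) [AddCommGroup A] [Module R A] : A →ₗ[R] A where
  toFun a := p • a
  map_add' := smul_add p
  map_smul' r a := by
    simp only [RingHom.id_apply]
    exact smul_comm p r a

@[simp] theorem mulP_apply {A : Type*} [AddCommGroup A] [Module R A] (a : A) :
    mulP (R := R) p A a = p • a := rfl

/-- `A[p]` -/
def tors (A : Type*) [AddCommGroup A] [Module R A] : Submodule R A :=
  LinearMap.ker (mulP (R := R) p A)

/-- `pA` -/
def pRange (A : Type*) [AddCommGroup A] [Module R A] : Submodule R A :=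
  LinearMap.range (mulP (R := R) p A)

/-- `A/pA` -/
abbrev quo (A : Type*) [AddCommGroup A] [Module R A] : Type _ := A ⧸ pRange (R := R) p A

theorem mem_tors {A : Type*} [AddCommGroup A] [Module R A] {a : A} :
    a ∈ tors (R := R) p A ↔ p • a = 0 := Iff.rfl

theorem mem_pRange {A : Type*} [AddCommGroup A] [Module R A] {a : A} :
    a ∈ pRange (R := R) p A ↔ ∃ b : A, p • b = a := Iff.rfl

theorem tors_killed {A : Type*} [AddCommGroup A] [Module R A] (x : tors (R := R) p A) :
    p • x = 0 := by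
  apply Subtype.ext
  rw [Submodule.coe_smul_of_tower]
  exact x.2

theorem quo_killed {A : Type*} [AddCommGroup A] [Module R A] (x : quo (R := R) p A) :
    p • x = 0 := by
  obtain ⟨a, rfl⟩ := Submodule.mkQ_surjective _ x
  rw [← map_nsmul, Submodule.mkQ_apply, Submodule.Quotient.mk_eq_zero]
  exact ⟨a, rfl⟩

end Basics


section Maps

variable {R : Type uR} [Ring R] (p : ℕ)
variable {A B C : Type*} [AddCommGroup A] [Module R A] [AddCommGroup B] [Module R B]
  [AddCommGroup C] [Module R C]

/-- `A[p] → B[p]` -/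
def torsMap (f : A →ₗ[R] B) : tors (R := R) p A →ₗ[R] tors (R := R) p B :=
  (f.comp (tors (R := R) p A).subtype).codRestrict _ (by
    intro x
    rw [mem_tors, LinearMap.comp_apply, ← map_nsmul, Submodule.subtype_apply]
    rw [(mem_tors p).1 x.2, map_zero])

@[simp] theorem torsMap_coe (f : A →ₗ[R] B) (x : tors (R := R) p A) :
    ((torsMap p f x : tors (R := R) p B) : B) = f x := rfl

/-- `A/p → B/p` -/
def quoMap (f : A →ₗ[R] B) : quo (R := R) p A →ₗ[R] quo (R := R) p B :=
  Submodule.mapQ _ _ f (by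
    rintro _ ⟨a, rfl⟩
    exact ⟨f a, by simp⟩)

@[simp] theorem quoMap_mk (f : A →ₗ[R] B) (a : A) :
    quoMap p f (Submodule.Quotient.mk a) = Submodule.Quotient.mk (f a) := rfl

theorem torsMap_injective {f : A →ₗ[R] B} (hf : Injective f) : Injective (torsMap p f) := by
  intro x y h
  apply Subtype.ext
  apply hf
  exact congrArg Subtype.val h

theorem quoMap_surjective {g : B →ₗ[R] C} (hg : Surjective g) : Surjective (quoMap p g) := by
  intro x
  obtain ⟨c, rfl⟩ := Submodule.mkQ_surjective _ x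
  obtain ⟨b, rfl⟩ := hg c
  exact ⟨Submodule.Quotient.mk b, rfl⟩

/-- exactness of `A[p] → B[p] → C[p]` at `B[p]` (needs `f` injective) -/
theorem exact_torsMap {f : A →ₗ[R] B} {g : B →ₗ[R] C} (hf : Injective f) (hfg : Exact f g) :
    Exact (torsMap p f) (torsMap p g) := by
  intro x
  constructor
  · intro hx
    have h0 : g (x : B) = 0 := congrArg Subtype.val hx
    obtain ⟨a, ha⟩ := (hfg _).1 h0
    have hpa : p • a = 0 := by
      apply hf
      rw [map_nsmul, ha, map_zero]
      exact x.2
    exact ⟨⟨a, hpa⟩, Subtype.ext ha⟩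
  · rintro ⟨a, rfl⟩
    apply Subtype.ext
    exact hfg.apply_apply_eq_zero _

/-- exactness of `A/p → B/p → C/p` at `B/p` (needs `g` surjective) -/
theorem exact_quoMap {f : A →ₗ[R] B} {g : B →ₗ[R] C} (hg : Surjective g) (hfg : Exact f g) :
    Exact (quoMap p f) (quoMap p g) := by
  intro x
  obtain ⟨b, rfl⟩ := Submodule.mkQ_surjective _ x
  constructor
  · intro hx
    rw [Submodule.mkQ_apply, quoMap_mk, Submodule.Quotient.mk_eq_zero] at hx
    obtain ⟨c, hc⟩ := hx
    obtain ⟨b', rfl⟩ := hg c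
    have : g (b - p • b') = 0 := by
      rw [map_sub, map_nsmul]
      exact sub_eq_zero.2 hc.symm
    obtain ⟨a, ha⟩ := (hfg _).1 this
    refine ⟨Submodule.Quotient.mk a, ?_⟩
    rw [quoMap_mk, ha, Submodule.mkQ_apply, Submodule.Quotient.eq]
    exact ⟨-b', by simp⟩
  · rintro ⟨y, hy⟩
    obtain ⟨a, rfl⟩ := Submodule.mkQ_surjective _ y
    rw [← hy, Submodule.mkQ_apply, quoMap_mk, quoMap_mk, hfg.apply_apply_eq_zero]
    rfl

end Maps


section Snake

variable {R : Type uR} [Ring R] (p : ℕ)
variable {A B C : Type*} [AddCommGroup A] [Module R A] [AddCommGroup B] [Module R B]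
  [AddCommGroup C] [Module R C]
variable {f : A →ₗ[R] B} {g : B →ₗ[R] C}

/-- well-definedness of the connecting map -/
theorem snake_wd (hf : Injective f) (hfg : Exact f g) {b b' : B} {a a' : A}
    (hb : g b = g b') (ha : f a = p • b) (ha' : f a' = p • b') :
    (Submodule.Quotient.mk a : quo (R := R) p A) = Submodule.Quotient.mk a' := by
  have h0 : g (b - b') = 0 := by rw [map_sub, hb, sub_self]
  obtain ⟨a₀, ha₀⟩ := (hfg _).1 h0
  rw [Submodule.Quotient.eq]
  refine ⟨a₀, hf ?_⟩
  rw [mulP_apply, map_nsmul, ha₀, map_sub, ha, ha', smul_sub]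

theorem snake_exists (hg : Surjective g) (hfg : Exact f g) (c : tors (R := R) p C) :
    ∃ ba : B × A, g ba.1 = c ∧ f ba.2 = p • ba.1 := by
  obtain ⟨b, hb⟩ := hg c
  have : g (p • b) = 0 := by
    rw [map_nsmul, hb]
    exact c.2
  obtain ⟨a, ha⟩ := (hfg _).1 this
  exact ⟨(b, a), hb, ha⟩

/-- the connecting map `C[p] → A/p` of the snake lemma for multiplication by `p` -/
noncomputable def snake (hf : Injective f) (hg : Surjective g) (hfg : Exact f g) :
    tors (R := R) p C →ₗ[R] quo (R := R) p A where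
  toFun c := Submodule.Quotient.mk (Classical.choose (snake_exists p hg hfg c)).2
  map_add' c c' := by
    obtain ⟨h1, h2⟩ := Classical.choose_spec (snake_exists p hg hfg c)
    obtain ⟨h1', h2'⟩ := Classical.choose_spec (snake_exists p hg hfg c')
    obtain ⟨h1'', h2''⟩ := Classical.choose_spec (snake_exists p hg hfg (c + c'))
    rw [← Submodule.Quotient.mk_add]
    refine snake_wd p hf hfg (b := (Classical.choose (snake_exists p hg hfg (c + c'))).1)
      (b' := (Classical.choose (snake_exists p hg hfg c)).1 +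
        (Classical.choose (snake_exists p hg hfg c')).1) ?_ h2'' ?_
    · rw [h1'', map_add, h1, h1']
      rfl
    · rw [map_add, h2, h2', smul_add]
  map_smul' r c := by
    obtain ⟨h1, h2⟩ := Classical.choose_spec (snake_exists p hg hfg c)
    obtain ⟨h1'', h2''⟩ := Classical.choose_spec (snake_exists p hg hfg (r • c))
    rw [RingHom.id_apply, ← Submodule.Quotient.mk_smul]
    refine snake_wd p hf hfg (b := (Classical.choose (snake_exists p hg hfg (r • c))).1)
      (b' := r • (Classical.choose (snake_exists p hg hfg c)).1) ?_ h2'' ?_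
    · rw [h1'', map_smul, h1]
      rfl
    · rw [map_smul, h2, smul_comm]

theorem snake_eq (hf : Injective f) (hg : Surjective g) (hfg : Exact f g)
    (c : tors (R := R) p C) {b : B} {a : A} (hb : g b = c) (ha : f a = p • b) :
    snake p hf hg hfg c = Submodule.Quotient.mk a := by
  obtain ⟨h1, h2⟩ := Classical.choose_spec (snake_exists p hg hfg c)
  exact snake_wd p hf hfg (h1.trans hb.symm) h2 ha

/-- exactness of `B[p] → C[p] → A/p` -/
theorem exact_torsMap_snake (hf : Injective f) (hg : Surjective g) (hfg : Exact f g) :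
    Exact (torsMap p g) (snake p hf hg hfg) := by
  intro c
  obtain ⟨⟨b, a⟩, hb, ha⟩ := snake_exists p hg hfg c
  simp only at hb ha
  rw [snake_eq p hf hg hfg c hb ha]
  constructor
  · intro h
    rw [Submodule.Quotient.mk_eq_zero] at h
    obtain ⟨a₀, rfl⟩ := h
    have hb' : p • (b - f a₀) = 0 := by
      rw [smul_sub, ← ha, mulP_apply, map_nsmul, sub_self]
    refine ⟨⟨b - f a₀, hb'⟩, Subtype.ext ?_⟩
    rw [torsMap_coe]
    simp only
    rw [map_sub, hfg.apply_apply_eq_zero, sub_zero, hb]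
  · rintro ⟨x, rfl⟩
    have hx : g (x : B) = g b := by
      rw [hb]
      rfl
    have : (Submodule.Quotient.mk a : quo (R := R) p A) = Submodule.Quotient.mk (0 : A) :=
      snake_wd p hf hfg hx.symm ha (by rw [map_zero]; exact x.2.symm)
    rw [this]
    rfl

/-- exactness of `C[p] → A/p → B/p` -/
theorem exact_snake_quoMap (hf : Injective f) (hg : Surjective g) (hfg : Exact f g) :
    Exact (snake p hf hg hfg) (quoMap p f) := by
  intro y
  obtain ⟨a, rfl⟩ := Submodule.mkQ_surjective _ y
  rw [Submodule.mkQ_apply, quoMap_mk, Submodule.Quotient.mk_eq_zero]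
  constructor
  · rintro ⟨b, hb⟩
    rw [mulP_apply] at hb
    have hc : p • g b = 0 := by
      rw [← map_nsmul, hb, hfg.apply_apply_eq_zero]
    exact ⟨⟨g b, hc⟩, snake_eq p hf hg hfg ⟨g b, hc⟩ rfl hb.symm⟩
  · rintro ⟨c, hc⟩
    obtain ⟨⟨b, a'⟩, hb, ha'⟩ := snake_exists p hg hfg c
    simp only at hb ha'
    rw [snake_eq p hf hg hfg c hb ha', Submodule.Quotient.eq] at hc
    obtain ⟨a₀, ha₀⟩ := hc
    refine ⟨b - f a₀, ?_⟩
    rw [mulP_apply, smul_sub, ← ha', ← map_nsmul, ← map_sub]
    congr 1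
    rw [mulP_apply] at ha₀
    rw [ha₀]
    abel

end Snake


section Finiteness

/-- a group with finite kernel and finite image of a hom is finite -/
theorem finite_of_exact {X Y Z : Type*} [AddCommGroup X] [AddCommGroup Y] [AddCommGroup Z]
    [Finite X] [Finite Z] (f : X →+ Y) (g : Y →+ Z) (h : Exact f g) : Finite Y := by
  classical
  have hs : ∀ y : Y, ∃ x : X, f x = y - Function.invFun g (g y) := by
    intro y
    apply (h _).1
    rw [map_sub, Function.apply_invFun_apply (f := g) (a := y), sub_self]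
  choose s hs using hs
  refine Finite.of_injective (fun y => (g y, s y)) ?_
  intro y y' hyy'
  simp only [Prod.mk.injEq] at hyy'
  have h1 := hs y
  have h2 := hs y'
  rw [hyy'.1, hyy'.2] at h1
  have := h1.symm.trans h2
  exact sub_left_injective this

end Finiteness

section AddFun

variable (R : Type uR) [Ring R] (p : ℕ) (Z : Type uZ) [AddCommGroup Z]

/-- An **additive function** on finite `R`-modules killed by `p` (the values on other modules are
irrelevant): isomorphism invariant and additive in short exact sequences. -/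
structure AddFun where
  /-- the function -/
  φ : ∀ (M : Type u) [AddCommGroup M] [Module R M], Z
  /-- isomorphism invariance -/
  iso : ∀ {M N : Type u} [AddCommGroup M] [Module R M] [AddCommGroup N] [Module R N] [Finite M],
    (∀ m : M, p • m = 0) → (M ≃ₗ[R] N) → φ M = φ N
  /-- additivity -/
  add : ∀ {M : Type u} [AddCommGroup M] [Module R M] [Finite M], (∀ m : M, p • m = 0) →
    ∀ W : Submodule R M, φ M = φ W + φ (M ⧸ W)

/-- `A[p]` and `A/p` are finite -/
structure HQFin (A : Type*) [AddCommGroup A] [Module R A] : Prop where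
  tors : Finite (tors (R := R) p A)
  quo : Finite (quo (R := R) p A)

end AddFun

namespace AddFun

variable {R : Type uR} [Ring R] {p : ℕ} {Z : Type uZ} [AddCommGroup Z] (Φ : AddFun.{u} R p Z)

/-- the value on a trivial module is `0` -/
theorem phi_subsingleton (M : Type u) [AddCommGroup M] [Module R M] [Subsingleton M] :
    Φ.φ M = 0 := by
  have hk : ∀ m : M, p • m = 0 := fun m => Subsingleton.elim _ _
  have h := Φ.add hk (⊤ : Submodule R M)
  have e1 : Φ.φ M = Φ.φ (⊤ : Submodule R M) :=
    Φ.iso hk (LinearEquiv.ofTop ⊤ rfl).symm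
  have hk' : ∀ m : (M ⧸ (⊤ : Submodule R M)), p • m = 0 := fun m => Subsingleton.elim _ _
  have e2 : Φ.φ (M ⧸ (⊤ : Submodule R M)) = Φ.φ M :=
    Φ.iso hk' (LinearEquiv.ofSubsingleton _ _)
  rw [← e1, e2] at h
  exact (add_eq_left.1 h.symm)

/-- additivity along a short exact sequence of finite `p`-killed modules -/
theorem phi_exact {M' M M'' : Type u} [AddCommGroup M'] [Module R M'] [AddCommGroup M]
    [Module R M] [AddCommGroup M''] [Module R M''] [Finite M] (hk : ∀ m : M, p • m = 0)
    (f : M' →ₗ[R] M) (g : M →ₗ[R] M'') (hf : Injective f) (hg : Surjective g) (hfg : Exact f g) :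
    Φ.φ M = Φ.φ M' + Φ.φ M'' := by
  have h := Φ.add hk (LinearMap.range f)
  have hkW : ∀ m : LinearMap.range f, p • m = 0 := fun m => Subtype.ext (by
    rw [Submodule.coe_smul_of_tower]; exact hk _)
  have e1 : Φ.φ (LinearMap.range f) = Φ.φ M' := Φ.iso hkW (LinearEquiv.ofInjective f hf).symm
  have hkQ : ∀ m : M ⧸ LinearMap.range f, p • m = 0 := by
    intro m
    obtain ⟨x, rfl⟩ := Submodule.mkQ_surjective _ m
    rw [← map_nsmul, hk, map_zero]
  have hker : LinearMap.ker g = LinearMap.range f := hfg.linearMap_ker_eq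
  have : Finite (M ⧸ LinearMap.range f) :=
    Finite.of_surjective _ (Submodule.mkQ_surjective (LinearMap.range f))
  have e2 : Φ.φ (M ⧸ LinearMap.range f) = Φ.φ M'' :=
    Φ.iso hkQ ((Submodule.quotEquivOfEq _ _ hker.symm).trans (g.quotKerEquivOfSurjective hg))
  rw [h, e1, e2]

/-- "rank–nullity" for `Φ` -/
theorem phi_ker_coker {M N : Type u} [AddCommGroup M] [Module R M] [AddCommGroup N]
    [Module R N] [Finite M] [Finite N] (hM : ∀ m : M, p • m = 0) (hN : ∀ n : N, p • n = 0)
    (h : M →ₗ[R] N) :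
    Φ.φ M + Φ.φ (N ⧸ LinearMap.range h) = Φ.φ N + Φ.φ (LinearMap.ker h) := by
  have h1 := Φ.add hM (LinearMap.ker h)
  have h2 := Φ.add hN (LinearMap.range h)
  have hkQ : ∀ m : M ⧸ LinearMap.ker h, p • m = 0 := by
    intro m
    obtain ⟨x, rfl⟩ := Submodule.mkQ_surjective _ m
    rw [← map_nsmul, hM, map_zero]
  have : Finite (M ⧸ LinearMap.ker h) :=
    Finite.of_surjective _ (Submodule.mkQ_surjective (LinearMap.ker h))
  have e : Φ.φ (M ⧸ LinearMap.ker h) = Φ.φ (LinearMap.range h) :=
    Φ.iso hkQ h.quotKerEquivRange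
  rw [h1, h2, e]
  abel

/-- the Herbrand-type invariant `φ(A/p) - φ(A[p])` -/
def q (A : Type u) [AddCommGroup A] [Module R A] : Z :=
  Φ.φ (quo (R := R) p A) - Φ.φ (tors (R := R) p A)

end AddFun


section TwoOutOfThree

variable {R : Type uR} [Ring R] {p : ℕ}
variable {A B C : Type*} [AddCommGroup A] [Module R A] [AddCommGroup B] [Module R B]
  [AddCommGroup C] [Module R C]
variable {f : A →ₗ[R] B} {g : B →ₗ[R] C}

/-- `A`, `C` have finite `[p]` and `/p` ⟹ so has `B` -/
theorem HQFin.of_exact (hA : HQFin R p A) (hC : HQFin R p C) (hf : Injective f)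
    (hg : Surjective g) (hfg : Exact f g) : HQFin R p B := by
  have := hA.tors
  have := hA.quo
  have := hC.tors
  have := hC.quo
  exact ⟨finite_of_exact (torsMap p f).toAddMonoidHom (torsMap p g).toAddMonoidHom
      (exact_torsMap p hf hfg),
    finite_of_exact (quoMap p f).toAddMonoidHom (quoMap p g).toAddMonoidHom
      (exact_quoMap p hg hfg)⟩

/-- `A`, `B` have finite `[p]` and `/p` ⟹ so has `C` -/
theorem HQFin.of_exact_left (hA : HQFin R p A) (hB : HQFin R p B) (hf : Injective f)
    (hg : Surjective g) (hfg : Exact f g) : HQFin R p C := by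
  have := hA.tors
  have := hA.quo
  have := hB.tors
  have := hB.quo
  exact ⟨finite_of_exact (torsMap p g).toAddMonoidHom (snake p hf hg hfg).toAddMonoidHom
      (exact_torsMap_snake p hf hg hfg),
    Finite.of_surjective _ (quoMap_surjective p hg)⟩

/-- `B`, `C` have finite `[p]` and `/p` ⟹ so has `A` -/
theorem HQFin.of_exact_right (hB : HQFin R p B) (hC : HQFin R p C) (hf : Injective f)
    (hg : Surjective g) (hfg : Exact f g) : HQFin R p A := by
  have := hB.tors
  have := hB.quo
  have := hC.tors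
  have := hC.quo
  exact ⟨Finite.of_injective _ (torsMap_injective p hf),
    finite_of_exact (snake p hf hg hfg).toAddMonoidHom (quoMap p f).toAddMonoidHom
      (exact_snake_quoMap p hf hg hfg)⟩

theorem HQFin.of_finite [Finite A] : HQFin R p A :=
  ⟨inferInstance, Finite.of_surjective _ (Submodule.mkQ_surjective _)⟩

theorem HQFin.of_equiv (e : A ≃ₗ[R] B) (hA : HQFin R p A) : HQFin R p B := by
  have := hA.tors
  have := hA.quo
  exact ⟨Finite.of_injective _ (torsMap_injective p (f := (e.symm : B →ₗ[R] A)) e.symm.injective),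
    Finite.of_surjective _ (quoMap_surjective p (g := (e : A →ₗ[R] B)) e.surjective)⟩

end TwoOutOfThree

namespace AddFun

variable {R : Type uR} [Ring R] {p : ℕ} {Z : Type uZ} [AddCommGroup Z] (Φ : AddFun.{u} R p Z)
variable {A B C : Type u} [AddCommGroup A] [Module R A] [AddCommGroup B] [Module R B]
  [AddCommGroup C] [Module R C]

/-- **Additivity of the Herbrand-type invariant** `q = φ(·/p) - φ(·[p])` in short exact
sequences. -/
theorem q_add (hA : HQFin R p A) (hC : HQFin R p C) {f : A →ₗ[R] B} {g : B →ₗ[R] C}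
    (hf : Injective f) (hg : Surjective g) (hfg : Exact f g) :
    Φ.q B = Φ.q A + Φ.q C := by
  have hB : HQFin R p B := HQFin.of_exact hA hC hf hg hfg
  have := hA.tors
  have := hA.quo
  have := hB.tors
  have := hB.quo
  have := hC.tors
  have := hC.quo
  -- rank–nullity for `B[p] → C[p]` and `A/p → B/p`
  have h1 := Φ.phi_ker_coker (tors_killed p) (tors_killed p) (torsMap p g)
  have h2 := Φ.phi_ker_coker (quo_killed p) (quo_killed p) (quoMap p f)
  -- `ker (B[p] → C[p]) ≅ A[p]`
  have hk1 : LinearMap.ker (torsMap p g) = LinearMap.range (torsMap p f) :=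
    (exact_torsMap p hf hfg).linearMap_ker_eq
  have e1 : Φ.φ (tors (R := R) p A) = Φ.φ (LinearMap.ker (torsMap p g)) :=
    Φ.iso (tors_killed p) ((LinearEquiv.ofInjective (torsMap p f) (torsMap_injective p hf)).trans
      (LinearEquiv.ofEq _ _ hk1.symm))
  -- `coker (A/p → B/p) ≅ C/p`
  have hk2 : LinearMap.ker (quoMap p g) = LinearMap.range (quoMap p f) :=
    (exact_quoMap p hg hfg).linearMap_ker_eq
  have hkQ : ∀ m : quo (R := R) p B ⧸ LinearMap.range (quoMap p f), p • m = 0 := by
    intro m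
    obtain ⟨x, rfl⟩ := Submodule.mkQ_surjective _ m
    rw [← map_nsmul, quo_killed, map_zero]
  have : Finite (quo (R := R) p B ⧸ LinearMap.range (quoMap p f)) :=
    Finite.of_surjective _ (Submodule.mkQ_surjective _)
  have e2 : Φ.φ (quo (R := R) p B ⧸ LinearMap.range (quoMap p f)) = Φ.φ (quo (R := R) p C) :=
    Φ.iso hkQ ((Submodule.quotEquivOfEq _ _ hk2.symm).trans
      ((quoMap p g).quotKerEquivOfSurjective (quoMap_surjective p hg)))
  -- `coker (B[p] → C[p]) ≅ ker (A/p → B/p)` via the connecting map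
  have hk3 : LinearMap.ker (snake p hf hg hfg) = LinearMap.range (torsMap p g) :=
    (exact_torsMap_snake p hf hg hfg).linearMap_ker_eq
  have hk4 : LinearMap.ker (quoMap p f) = LinearMap.range (snake p hf hg hfg) :=
    (exact_snake_quoMap p hf hg hfg).linearMap_ker_eq
  have hkT : ∀ m : tors (R := R) p C ⧸ LinearMap.range (torsMap p g), p • m = 0 := by
    intro m
    obtain ⟨x, rfl⟩ := Submodule.mkQ_surjective _ m
    rw [← map_nsmul, tors_killed, map_zero]
  have : Finite (tors (R := R) p C ⧸ LinearMap.range (torsMap p g)) :=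
    Finite.of_surjective _ (Submodule.mkQ_surjective _)
  have e3 : Φ.φ (tors (R := R) p C ⧸ LinearMap.range (torsMap p g)) =
      Φ.φ (LinearMap.ker (quoMap p f)) :=
    Φ.iso hkT ((Submodule.quotEquivOfEq _ _ hk3.symm).trans
      ((snake p hf hg hfg).quotKerEquivRange.trans (LinearEquiv.ofEq _ _ hk4.symm)))
  rw [e3, ← e1] at h1
  rw [e2] at h2
  unfold q
  -- h1 : φ B[p] + X = φ C[p] + φ A[p];  h2 : φ A/p + φ C/p = φ B/p + X
  have h1' : Φ.φ (tors (R := R) p B) =
      Φ.φ (tors (R := R) p C) + Φ.φ (tors (R := R) p A) - Φ.φ (LinearMap.ker (quoMap p f)) :=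
    eq_sub_of_add_eq h1
  have h2' : Φ.φ (quo (R := R) p B) =
      Φ.φ (quo (R := R) p A) + Φ.φ (quo (R := R) p C) - Φ.φ (LinearMap.ker (quoMap p f)) :=
    eq_sub_of_add_eq h2.symm
  rw [h1', h2']
  abel

end AddFun


namespace AddFun

variable {R : Type uR} [Ring R] {p : ℕ} {Z : Type uZ} [AddCommGroup Z] (Φ : AddFun.{u} R p Z)
variable {A B C : Type u} [AddCommGroup A] [Module R A] [AddCommGroup B] [Module R B]
  [AddCommGroup C] [Module R C]

theorem q_subsingleton [Subsingleton A] : Φ.q A = 0 := by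
  unfold q
  rw [Φ.phi_subsingleton, Φ.phi_subsingleton, sub_zero]

/-- `q` is isomorphism invariant -/
theorem q_congr (hA : HQFin R p A) (e : A ≃ₗ[R] B) : Φ.q A = Φ.q B := by
  have hfg : Exact (e : A →ₗ[R] B) (0 : B →ₗ[R] PUnit.{u + 1}) := by
    intro b
    simp only [LinearMap.zero_apply, true_iff]
    exact ⟨e.symm b, e.apply_symm_apply b⟩
  have h := Φ.q_add hA (HQFin.of_finite (R := R) (p := p) (A := PUnit.{u + 1}))
    (f := (e : A →ₗ[R] B)) (g := (0 : B →ₗ[R] PUnit.{u + 1})) e.injective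
    (fun _ => ⟨0, Subsingleton.elim _ _⟩) hfg
  rw [h, Φ.q_subsingleton (A := PUnit.{u + 1}), add_zero]

/-- a finite module killed by `p` has `q = 0` -/
theorem q_of_killed [Finite A] (hk : ∀ a : A, p • a = 0) : Φ.q A = 0 := by
  have ht : tors (R := R) p A = ⊤ := by
    rw [eq_top_iff]
    intro a _
    exact hk a
  have hr : pRange (R := R) p A = ⊥ := by
    rw [eq_bot_iff]
    rintro _ ⟨a, rfl⟩
    rw [mulP_apply, hk]
    exact Submodule.zero_mem _
  have e1 : Φ.φ A = Φ.φ (tors (R := R) p A) :=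
    Φ.iso hk (LinearEquiv.ofTop _ ht).symm
  have e2 : Φ.φ A = Φ.φ (quo (R := R) p A) :=
    Φ.iso hk ((Submodule.quotEquivOfEqBot _ hr).symm)
  unfold q
  rw [← e1, ← e2, sub_self]

/-- **`[A/p] = [A[p]]` for finite `A`** -/
theorem q_finite [Finite A] : Φ.q A = 0 := by
  -- strong induction on the cardinality
  suffices H : ∀ n : ℕ, ∀ (A : Type u) [AddCommGroup A] [Module R A] [Finite A],
      Nat.card A = n → Φ.q A = 0 from H _ A rfl
  intro n
  induction n using Nat.strong_induction_on with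
  | _ n ih =>
    intro A _ _ _ hn
    by_cases htop : pRange (R := R) p A = ⊤
    · -- multiplication by `p` is surjective, hence bijective
      have hsurj : Surjective (mulP (R := R) p A) := LinearMap.range_eq_top.1 htop
      have hinj : Injective (mulP (R := R) p A) := Finite.injective_iff_surjective.2 hsurj
      have : Subsingleton (tors (R := R) p A) := by
        refine ⟨fun x y => Subtype.ext (hinj ?_)⟩
        rw [mulP_apply, mulP_apply]
        exact ((mem_tors p).1 x.2).trans ((mem_tors p).1 y.2).symm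
      have : Subsingleton (quo (R := R) p A) := by
        unfold quo
        rw [htop]
        infer_instance
      unfold q
      rw [Φ.phi_subsingleton, Φ.phi_subsingleton, sub_zero]
    · -- `0 → pA → A → A/pA → 0`
      have hlt : Nat.card (pRange (R := R) p A) < n := by
        rw [← hn]
        have hne : ((pRange (R := R) p A : Submodule R A) : Set A) ≠ Set.univ := by
          intro h
          apply htop
          rw [eq_top_iff]
          intro a _
          have : a ∈ ((pRange (R := R) p A : Submodule R A) : Set A) := by rw [h]; trivial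
          exact this
        have hss : ((pRange (R := R) p A : Submodule R A) : Set A) ⊂ Set.univ :=
          (Set.ssubset_univ_iff).2 hne
        have := Set.ncard_lt_ncard hss (Set.toFinite _)
        rwa [Set.ncard_univ, ← Nat.card_coe_set_eq] at this
      have h0 := ih _ hlt (pRange (R := R) p A) rfl
      have : Finite (quo (R := R) p A) := Finite.of_surjective _ (Submodule.mkQ_surjective _)
      have hadd := Φ.q_add (HQFin.of_finite (R := R) (p := p) (A := pRange (R := R) p A))
        (HQFin.of_finite (R := R) (p := p) (A := quo (R := R) p A))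
        (f := (pRange (R := R) p A).subtype) (g := (pRange (R := R) p A).mkQ)
        (Submodule.injective_subtype _) (Submodule.mkQ_surjective _)
        (LinearMap.exact_subtype_mkQ _)
      rw [hadd, h0, Φ.q_of_killed (A := quo (R := R) p A) (quo_killed p), add_zero]

/-- in particular `φ(A/p) = φ(A[p])` for finite `A` (`[Cl[p]] = [Cl/p]`) -/
theorem phi_quo_eq_phi_tors [Finite A] : Φ.φ (quo (R := R) p A) = Φ.φ (tors (R := R) p A) :=
  sub_eq_zero.1 (Φ.q_finite (A := A))

/-- no `p`-torsion ⟹ `q A = φ(A/p)` -/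
theorem q_torsionFree (h : ∀ a : A, p • a = 0 → a = 0) : Φ.q A = Φ.φ (quo (R := R) p A) := by
  have : Subsingleton (tors (R := R) p A) :=
    ⟨fun x y => Subtype.ext ((h _ x.2).trans (h _ y.2).symm)⟩
  unfold q
  rw [Φ.phi_subsingleton (tors (R := R) p A), sub_zero]

/-- **finite-index submodules have the same `q`** -/
theorem q_of_finite_quotient (W : Submodule R B) [Finite (B ⧸ W)] (hW : HQFin R p W) :
    Φ.q B = Φ.q W := by
  have h := Φ.q_add hW (HQFin.of_finite (R := R) (p := p) (A := B ⧸ W))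
    (f := W.subtype) (g := W.mkQ) (Submodule.injective_subtype _) (Submodule.mkQ_surjective _)
    (LinearMap.exact_subtype_mkQ _)
  rw [h, Φ.q_finite (A := B ⧸ W), add_zero]

/-- the same, knowing finiteness for the big module -/
theorem q_of_finite_quotient' (W : Submodule R B) [Finite (B ⧸ W)] (hB : HQFin R p B) :
    Φ.q B = Φ.q W :=
  Φ.q_of_finite_quotient W (HQFin.of_exact_right hB
    (HQFin.of_finite (R := R) (p := p) (A := B ⧸ W)) (f := W.subtype) (g := W.mkQ)
    (Submodule.injective_subtype _) (Submodule.mkQ_surjective _) (LinearMap.exact_subtype_mkQ _))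

/-- commensurable lattices: `φ(Λ/p) = φ(Λ'/p)` for `Λ' ≤ Λ` of finite index, `Λ` without
`p`-torsion -/
theorem phi_quo_of_finite_quotient (W : Submodule R B) [Finite (B ⧸ W)] (hB : HQFin R p B)
    (h : ∀ b : B, p • b = 0 → b = 0) :
    Φ.φ (quo (R := R) p B) = Φ.φ (quo (R := R) p W) := by
  rw [← Φ.q_torsionFree h, Φ.q_of_finite_quotient' W hB, Φ.q_torsionFree]
  intro w hw
  apply Subtype.ext
  apply h
  have := congrArg Subtype.val hw
  rwa [Submodule.coe_smul_of_tower] at this

end AddFun


namespace AddFun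

variable {R : Type uR} [Ring R] {p : ℕ} {Z : Type uZ} [AddCommGroup Z] (Φ : AddFun.{u} R p Z)
variable {A₁ A₂ A₃ A₄ A₅ : Type u} [AddCommGroup A₁] [Module R A₁] [AddCommGroup A₂] [Module R A₂]
  [AddCommGroup A₃] [Module R A₃] [AddCommGroup A₄] [Module R A₄] [AddCommGroup A₅] [Module R A₅]

/-- `q (A × B) = q A + q B` -/
theorem q_prod (h₁ : HQFin R p A₁) (h₂ : HQFin R p A₂) :
    HQFin R p (A₁ × A₂) ∧ Φ.q (A₁ × A₂) = Φ.q A₁ + Φ.q A₂ :=
  ⟨HQFin.of_exact h₁ h₂ (f := LinearMap.inl R A₁ A₂) (g := LinearMap.snd R A₁ A₂)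
      LinearMap.inl_injective LinearMap.snd_surjective Function.Exact.inl_snd,
    Φ.q_add h₁ h₂ (f := LinearMap.inl R A₁ A₂) (g := LinearMap.snd R A₁ A₂)
      LinearMap.inl_injective LinearMap.snd_surjective Function.Exact.inl_snd⟩

/-- four-term exact sequences `0 → A₁ → A₂ → A₃ → A₄ → 0` -/
theorem q_exact_four (h₁ : HQFin R p A₁) (h₂ : HQFin R p A₂) (h₃ : HQFin R p A₃)
    {f₁ : A₁ →ₗ[R] A₂} {f₂ : A₂ →ₗ[R] A₃} {f₃ : A₃ →ₗ[R] A₄}
    (hinj : Injective f₁) (hsurj : Surjective f₃) (e₂ : Exact f₁ f₂) (e₃ : Exact f₂ f₃) :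
    HQFin R p A₄ ∧ Φ.q A₁ + Φ.q A₃ = Φ.q A₂ + Φ.q A₄ := by
  -- `I = range f₂`
  have ex1 : Exact f₁ f₂.rangeRestrict := by
    intro x
    rw [← e₂ x]
    constructor
    · intro h
      exact congrArg Subtype.val h
    · intro h
      exact Subtype.ext h
  have ex2 : Exact (LinearMap.range f₂).subtype f₃ := by
    intro y
    rw [e₃ y]
    constructor
    · rintro ⟨x, rfl⟩
      exact ⟨⟨f₂ x, x, rfl⟩, rfl⟩
    · rintro ⟨⟨_, x, rfl⟩, rfl⟩
      exact ⟨x, rfl⟩
  have hI : HQFin R p (LinearMap.range f₂) :=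
    HQFin.of_exact_left h₁ h₂ hinj f₂.surjective_rangeRestrict ex1
  have h₄ : HQFin R p A₄ :=
    HQFin.of_exact_left hI h₃ (Submodule.injective_subtype _) hsurj ex2
  refine ⟨h₄, ?_⟩
  have a1 := Φ.q_add h₁ hI hinj f₂.surjective_rangeRestrict ex1
  have a2 := Φ.q_add hI h₄ (Submodule.injective_subtype _) hsurj ex2
  rw [a1, a2]
  abel

/-- five-term exact sequences `0 → A₁ → A₂ → A₃ → A₄ → A₅ → 0`
(units → `S`-units → `ℤ[S_f]` → `Cl` → `Cl_S`) -/
theorem q_exact_five (h₁ : HQFin R p A₁) (h₂ : HQFin R p A₂) (h₃ : HQFin R p A₃)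
    (h₄ : HQFin R p A₄)
    {f₁ : A₁ →ₗ[R] A₂} {f₂ : A₂ →ₗ[R] A₃} {f₃ : A₃ →ₗ[R] A₄} {f₄ : A₄ →ₗ[R] A₅}
    (hinj : Injective f₁) (hsurj : Surjective f₄) (e₂ : Exact f₁ f₂) (e₃ : Exact f₂ f₃)
    (e₄ : Exact f₃ f₄) :
    HQFin R p A₅ ∧ Φ.q A₁ + Φ.q A₃ + Φ.q A₅ = Φ.q A₂ + Φ.q A₄ := by
  have ex1 : Exact f₂ f₃.rangeRestrict := by
    intro x
    rw [← e₃ x]
    constructor
    · intro h
      exact congrArg Subtype.val h
    · intro h
      exact Subtype.ext h
  have ex2 : Exact (LinearMap.range f₃).subtype f₄ := by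
    intro y
    rw [e₄ y]
    constructor
    · rintro ⟨x, rfl⟩
      exact ⟨⟨f₃ x, x, rfl⟩, rfl⟩
    · rintro ⟨⟨_, x, rfl⟩, rfl⟩
      exact ⟨x, rfl⟩
  obtain ⟨hI, a1⟩ := Φ.q_exact_four h₁ h₂ h₃ hinj f₃.surjective_rangeRestrict e₂ ex1
  have h₅ : HQFin R p A₅ :=
    HQFin.of_exact_left hI h₄ (Submodule.injective_subtype _) hsurj ex2
  refine ⟨h₅, ?_⟩
  have a2 := Φ.q_add hI h₅ (Submodule.injective_subtype _) hsurj ex2
  rw [a2, a1]
  abel

/-- the `S`-unit shape: in `0 → U → U_S → L → Cl → Cl_S → 0` with `Cl`, `Cl_S` finite and `L`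
without `p`-torsion: `q U_S = q U + φ(L/p)` -/
theorem q_sunit_shape (h₁ : HQFin R p A₁) (h₂ : HQFin R p A₂) (h₃ : HQFin R p A₃)
    [Finite A₄] [Finite A₅] (htf : ∀ a : A₃, p • a = 0 → a = 0)
    {f₁ : A₁ →ₗ[R] A₂} {f₂ : A₂ →ₗ[R] A₃} {f₃ : A₃ →ₗ[R] A₄} {f₄ : A₄ →ₗ[R] A₅}
    (hinj : Injective f₁) (hsurj : Surjective f₄) (e₂ : Exact f₁ f₂) (e₃ : Exact f₂ f₃)
    (e₄ : Exact f₃ f₄) :
    Φ.q A₂ = Φ.q A₁ + Φ.φ (quo (R := R) p A₃) := by
  obtain ⟨-, h⟩ := Φ.q_exact_five h₁ h₂ h₃ (HQFin.of_finite (R := R) (p := p) (A := A₄))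
    hinj hsurj e₂ e₃ e₄
  rw [Φ.q_finite (A := A₄), Φ.q_finite (A := A₅), add_zero, add_zero, Φ.q_torsionFree htf] at h
  exact h.symm

end AddFun


section Example

variable (R : Type uR) [Ring R] (p : ℕ)

/-- sanity check / classical case: `φ(M) = v_p(#M)` is an additive function, and then `q` is the
logarithm of the classical Herbrand quotient of multiplication by `p`. -/
noncomputable def logCard : AddFun.{u} R p ℤ where
  φ M _ _ := ((Nat.card M).factorization p : ℤ)
  iso _ e := by rw [Nat.card_congr e.toEquiv]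
  add {M} _ _ _ _ W := by
    have : Finite (M ⧸ W) := Finite.of_surjective _ (Submodule.mkQ_surjective W)
    rw [Submodule.card_eq_card_quotient_mul_card W,
      Nat.factorization_mul Nat.card_pos.ne' Nat.card_pos.ne']
    simp

end Example

end Fermat.Agent.GP.GW.HerbrandAdd
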