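/-
GATE-P / S56 [P-GW] (helper74): the BRAUER–NESBITT LATTICE LEMMA in "additive function" form.

`R` any ring (think `R = ℤ[G]`), `p` a natural number, `φ` a function on `R`-modules which is
invariant under isomorphisms and additive on short exact sequences of FINITE modules killed by `p`.
For an `R`-module `A` put `Red p A = A / pA`.  If `A` has no `p`-torsion, `A' ≤ A` is a submodule
with `m A ≤ A'` for some `m > 0`, and `A / pA` is finite, then `A' / pA'` is finite and
  `φ (A / pA) = φ (A' / pA')`.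
(Two `G`-lattices in the same rational representation have mod-`p` reductions with the same
composition factors.)  This is step (c) of the cyclic-induction lemma (K) needed for the Euler
characteristic formulas.  Mathlib only.
-/
import Mathlib

set_option autoImplicit false

namespace Fermat.Agent.GP.GW.LatticeRed

universe u v

variable {R : Type v} [Ring R] (p : ℕ)

/-- `pA` as a submodule of `A` -/
def pSub (A : Type u) [AddCommGroup A] [Module R A] : Submodule R A :=
  LinearMap.range ((p : ℕ) • (LinearMap.id : A →ₗ[R] A))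

theorem mem_pSub {A : Type u} [AddCommGroup A] [Module R A] {x : A} :
    x ∈ pSub (R := R) p A ↔ ∃ y : A, p • y = x := by
  unfold pSub
  rw [LinearMap.mem_range]
  simp only [LinearMap.smul_apply, LinearMap.id_coe, id_eq]

/-- the reduction `A / pA` -/
abbrev Red (A : Type u) [AddCommGroup A] [Module R A] : Type u := A ⧸ pSub (R := R) p A

theorem red_smul_eq_zero {A : Type u} [AddCommGroup A] [Module R A] (x : Red (R := R) p A) :
    p • x = 0 := by
  obtain ⟨a, rfl⟩ := Submodule.Quotient.mk_surjective _ x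
  rw [← Submodule.Quotient.mk_smul, Submodule.Quotient.mk_eq_zero]
  exact (mem_pSub p).2 ⟨a, rfl⟩

/-- additive functions on `R`-modules (values in an additive group `Z`): invariant under
isomorphisms, additive on short exact sequences of finite modules killed by `p` -/
structure IsAddFun {Z : Type*} [AddCommGroup Z]
    (φ : ∀ (A : Type u) [AddCommGroup A] [Module R A], Z) : Prop where
  iso : ∀ (A B : Type u) [AddCommGroup A] [Module R A] [AddCommGroup B] [Module R B],
    (A ≃ₗ[R] B) → φ A = φ B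
  add : ∀ (A B C : Type u) [AddCommGroup A] [Module R A] [AddCommGroup B] [Module R B]
    [AddCommGroup C] [Module R C] (f : A →ₗ[R] B) (g : B →ₗ[R] C),
    Function.Injective f → Function.Surjective g → Function.Exact f g → Finite B →
    (∀ b : B, p • b = 0) → φ B = φ A + φ C

section Step

variable {p}
variable {A : Type u} [AddCommGroup A] [Module R A]

/-- finiteness of the middle term of an exact sequence -/
theorem finite_of_exact {U Y V : Type*} [AddCommGroup U] [AddCommGroup Y] [AddCommGroup V]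
    [Module R U] [Module R Y] [Module R V] (f : U →ₗ[R] Y) (g : Y →ₗ[R] V)
    (hfg : Function.Exact f g) [Finite U] [Finite V] : Finite Y := by
  have h1 : Finite (LinearMap.ker g) := by
    have : LinearMap.ker g = LinearMap.range f := (LinearMap.exact_iff.1 hfg)
    rw [this]
    exact Finite.of_surjective (fun u : U => (⟨f u, ⟨u, rfl⟩⟩ : LinearMap.range f))
      (by rintro ⟨_, u, rfl⟩; exact ⟨u, rfl⟩)
  have h2 : Finite (Y ⧸ LinearMap.ker g) :=
    Finite.of_injective (g.quotKerEquivRange) (g.quotKerEquivRange).injective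
  have h1' : Finite (LinearMap.ker g).toAddSubgroup := h1
  have h2' : Finite (Y ⧸ (LinearMap.ker g).toAddSubgroup) := h2
  exact Finite.of_addSubgroup_quotient (LinearMap.ker g).toAddSubgroup

variable (A' : Submodule R A)

/-- `V = A' / pA` -/
abbrev VQ : Type u := ↥A' ⧸ ((pSub (R := R) p A).comap A'.subtype)

/-- `V → X = A / pA`, induced by the inclusion -/
def vToX : VQ (p := p) A' →ₗ[R] Red (R := R) p A :=
  Submodule.mapQ _ _ A'.subtype le_rfl

theorem vToX_injective : Function.Injective (vToX (p := p) A') := by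
  rw [← LinearMap.ker_eq_bot, vToX, Submodule.ker_mapQ, Submodule.mkQ_map_self]

variable (hA' : pSub (R := R) p A ≤ A')

/-- `X = A / pA → U = A / A'` -/
def xToU : Red (R := R) p A →ₗ[R] A ⧸ A' :=
  Submodule.mapQ _ _ LinearMap.id (by simpa using hA')

theorem xToU_surjective : Function.Surjective (xToU A' hA') := by
  intro u
  obtain ⟨a, rfl⟩ := Submodule.Quotient.mk_surjective _ u
  exact ⟨Submodule.Quotient.mk a, rfl⟩

theorem exact_vToX_xToU : Function.Exact (vToX (p := p) A') (xToU A' hA') := by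
  intro x
  obtain ⟨a, rfl⟩ := Submodule.Quotient.mk_surjective _ x
  constructor
  · intro h
    have ha : a ∈ A' := by
      have : (Submodule.Quotient.mk a : A ⧸ A') = 0 := h
      exact (Submodule.Quotient.mk_eq_zero _).1 this
    exact ⟨Submodule.Quotient.mk ⟨a, ha⟩, rfl⟩
  · rintro ⟨v, hv⟩
    obtain ⟨a', rfl⟩ := Submodule.Quotient.mk_surjective _ v
    rw [← hv]
    show (Submodule.Quotient.mk (a' : A) : A ⧸ A') = 0
    exact (Submodule.Quotient.mk_eq_zero _).2 a'.2

/-- multiplication by `p` as a map `A → A'` -/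
def mulP : A →ₗ[R] ↥A' :=
  LinearMap.codRestrict A' ((p : ℕ) • (LinearMap.id : A →ₗ[R] A))
    (fun a => hA' ((mem_pSub p).2 ⟨a, by simp⟩))

theorem mulP_coe (a : A) : ((mulP A' hA' a : ↥A') : A) = p • a := by
  simp [mulP]

/-- `U = A / A' → Y = A' / pA'`, `a ↦ [p a]` -/
def uToY : A ⧸ A' →ₗ[R] Red (R := R) p ↥A' :=
  Submodule.liftQ A' ((Submodule.mkQ _).comp (mulP A' hA')) (by
    intro a ha
    rw [LinearMap.mem_ker, LinearMap.comp_apply, Submodule.mkQ_apply,
      Submodule.Quotient.mk_eq_zero]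
    refine (mem_pSub p).2 ⟨⟨a, ha⟩, ?_⟩
    apply Subtype.ext
    rw [mulP_coe]
    simp)

/-- `Y = A' / pA' → V = A' / pA` -/
def yToV : Red (R := R) p ↥A' →ₗ[R] VQ (p := p) A' :=
  Submodule.mapQ _ _ LinearMap.id (by
    intro x hx
    obtain ⟨y, rfl⟩ := (mem_pSub p).1 hx
    show A'.subtype (p • y) ∈ pSub p A
    exact (mem_pSub p).2 ⟨(y : A), by simp⟩)

theorem yToV_surjective : Function.Surjective (yToV (p := p) A') := by
  intro v
  obtain ⟨a, rfl⟩ := Submodule.Quotient.mk_surjective _ v
  exact ⟨Submodule.Quotient.mk a, rfl⟩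

theorem uToY_injective (htf : ∀ x : A, p • x = 0 → x = 0) :
    Function.Injective (uToY A' hA') := by
  rw [← LinearMap.ker_eq_bot, LinearMap.ker_eq_bot']
  intro u hu
  obtain ⟨a, rfl⟩ := Submodule.Quotient.mk_surjective _ u
  have h1 : (Submodule.Quotient.mk (mulP A' hA' a) : Red (R := R) p ↥A') = 0 := hu
  rw [Submodule.Quotient.mk_eq_zero] at h1
  obtain ⟨y, hy⟩ := (mem_pSub p).1 h1
  have h2 : p • ((y : A) - a) = 0 := by
    have := congrArg (Subtype.val) hy
    rw [mulP_coe] at this
    rw [smul_sub, ← this]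
    simp
  have h3 : (y : A) = a := sub_eq_zero.1 (htf _ h2)
  rw [Submodule.Quotient.mk_eq_zero, ← h3]
  exact y.2

theorem exact_uToY_yToV : Function.Exact (uToY A' hA') (yToV (p := p) A') := by
  intro y
  obtain ⟨a', rfl⟩ := Submodule.Quotient.mk_surjective _ y
  constructor
  · intro h
    have h1 : (Submodule.Quotient.mk a' : VQ (p := p) A') = 0 := h
    rw [Submodule.Quotient.mk_eq_zero] at h1
    obtain ⟨b, hb⟩ := (mem_pSub p).1 h1
    refine ⟨Submodule.Quotient.mk b, ?_⟩
    show (Submodule.Quotient.mk (mulP A' hA' b) : Red (R := R) p ↥A') = _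
    congr 1
    apply Subtype.ext
    rw [mulP_coe, hb]
    rfl
  · rintro ⟨u, hu⟩
    obtain ⟨b, rfl⟩ := Submodule.Quotient.mk_surjective _ u
    rw [← hu]
    show (Submodule.Quotient.mk (mulP A' hA' b) : VQ (p := p) A') = 0
    rw [Submodule.Quotient.mk_eq_zero]
    show A'.subtype (mulP A' hA' b) ∈ pSub p A
    rw [Submodule.subtype_apply, mulP_coe]
    exact (mem_pSub p).2 ⟨b, rfl⟩

variable {Z : Type*} [AddCommGroup Z]
  {φ : ∀ (A : Type u) [AddCommGroup A] [Module R A], Z}

include hA' in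
/-- **one step**: `A ⊇ A' ⊇ pA` -/
theorem step (hφ : IsAddFun (R := R) p φ) (htf : ∀ x : A, p • x = 0 → x = 0)
    [Finite (Red (R := R) p A)] :
    Finite (Red (R := R) p ↥A') ∧ φ (Red (R := R) p A) = φ (Red (R := R) p ↥A') := by
  have fV : Finite (VQ (p := p) A') := Finite.of_injective _ (vToX_injective (p := p) A')
  have fU : Finite (A ⧸ A') := Finite.of_surjective _ (xToU_surjective A' hA')
  have fY : Finite (Red (R := R) p ↥A') :=
    finite_of_exact (uToY A' hA') (yToV (p := p) A') (exact_uToY_yToV A' hA')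
  refine ⟨fY, ?_⟩
  have e1 := hφ.add _ _ _ (vToX (p := p) A') (xToU A' hA') (vToX_injective A')
    (xToU_surjective A' hA') (exact_vToX_xToU A' hA') inferInstance (red_smul_eq_zero p)
  have e2 := hφ.add _ _ _ (uToY A' hA') (yToV (p := p) A') (uToY_injective A' hA' htf)
    (yToV_surjective A') (exact_uToY_yToV A' hA') fY (red_smul_eq_zero p)
  rw [e1, e2, add_comm]

end Step

section Chain

variable {p}
variable {Z : Type*} [AddCommGroup Z]
  {φ : ∀ (A : Type u) [AddCommGroup A] [Module R A], Z}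

/-- reductions of isomorphic modules are isomorphic -/
def redCongr {A B : Type u} [AddCommGroup A] [Module R A] [AddCommGroup B] [Module R B]
    (e : A ≃ₗ[R] B) : Red (R := R) p A ≃ₗ[R] Red (R := R) p B :=
  Submodule.Quotient.equiv _ _ e (by
    ext b
    constructor
    · rintro ⟨a, ha, rfl⟩
      obtain ⟨y, rfl⟩ := (mem_pSub p).1 ha
      exact (mem_pSub p).2 ⟨e y, by rw [map_nsmul]; rfl⟩
    · intro hb
      obtain ⟨y, rfl⟩ := (mem_pSub p).1 hb
      exact ⟨p • e.symm y, (mem_pSub p).2 ⟨_, rfl⟩, by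
        rw [map_nsmul]
        show p • e (e.symm y) = p • y
        rw [e.apply_symm_apply]⟩)

/-- **`p`-power index** -/
theorem pow_chain (hφ : IsAddFun (R := R) p φ) (n : ℕ) :
    ∀ (A : Type u) [AddCommGroup A] [Module R A] (_ : ∀ x : A, p • x = 0 → x = 0)
      (A' : Submodule R A) (_ : ∀ a : A, p ^ n • a ∈ A') [Finite (Red (R := R) p A)],
      Finite (Red (R := R) p ↥A') ∧ φ (Red (R := R) p A) = φ (Red (R := R) p ↥A') := by
  induction n with
  | zero =>
    intro A _ _ htf A' h _
    have htop : A' = ⊤ := by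
      rw [eq_top_iff]
      intro a _
      simpa using h a
    subst htop
    have e : Red (R := R) p ↥(⊤ : Submodule R A) ≃ₗ[R] Red (R := R) p A :=
      redCongr Submodule.topEquiv
    exact ⟨Finite.of_injective e e.injective, (hφ.iso _ _ e).symm⟩
  | succ n ih =>
    intro A _ _ htf A' h _
    set A₁ : Submodule R A := A' ⊔ pSub (R := R) p A with hA₁
    have hle : pSub (R := R) p A ≤ A₁ := le_sup_right
    have hle' : A' ≤ A₁ := le_sup_left
    obtain ⟨f1, e1⟩ := step A₁ hle hφ htf
    have htf1 : ∀ x : ↥A₁, p • x = 0 → x = 0 := by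
      intro x hx
      apply Subtype.ext
      apply htf
      have := congrArg Subtype.val hx
      simpa using this
    set A'' : Submodule R ↥A₁ := A'.comap A₁.subtype with hA''
    have h'' : ∀ b : ↥A₁, p ^ n • b ∈ A'' := by
      rintro ⟨b, hb⟩
      obtain ⟨a', ha', c, hc, rfl⟩ := Submodule.mem_sup.1 hb
      obtain ⟨a, rfl⟩ := (mem_pSub p).1 hc
      show p ^ n • (a' + p • a) ∈ A'
      rw [smul_add, smul_smul, ← pow_succ]
      exact A'.add_mem (A'.smul_of_tower_mem _ ha') (h a)
    obtain ⟨f2, e2⟩ := ih ↥A₁ htf1 A'' h''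
    have e : ↥A'' ≃ₗ[R] ↥A' := Submodule.comapSubtypeEquivOfLe hle'
    have e' : Red (R := R) p ↥A'' ≃ₗ[R] Red (R := R) p ↥A' := redCongr e
    exact ⟨Finite.of_injective e'.symm e'.symm.injective, by rw [e1, e2, hφ.iso _ _ e']⟩

end Chain

section Coprime

variable {p}
variable {A : Type u} [AddCommGroup A] [Module R A]

/-- `A'/pA' → A/pA` induced by the inclusion -/
def redIncl (A' : Submodule R A) : Red (R := R) p ↥A' →ₗ[R] Red (R := R) p A :=
  Submodule.mapQ _ _ A'.subtype (by
    intro x hx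
    obtain ⟨y, rfl⟩ := (mem_pSub p).1 hx
    show A'.subtype (p • y) ∈ pSub p A
    exact (mem_pSub p).2 ⟨(y : A), by simp⟩)

/-- index prime to `p`: the reductions are isomorphic -/
theorem redIncl_bijective (A' : Submodule R A) (m' : ℕ) (hm : Nat.Coprime m' p)
    (h : ∀ a : A, m' • a ∈ A') : Function.Bijective (redIncl (p := p) A') := by
  obtain ⟨u, v, huv⟩ := (Nat.isCoprime_iff_coprime.2 hm)
  -- `u * m' + v * p = 1`
  have key : ∀ a : A, a = u • (m' • a) + v • (p • a) := by
    intro a
    have : (u * (m' : ℤ) + v * (p : ℤ)) • a = a := by rw [huv, one_smul]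
    rw [add_smul, mul_smul, mul_smul, natCast_zsmul, natCast_zsmul] at this
    exact this.symm
  constructor
  · rw [← LinearMap.ker_eq_bot, LinearMap.ker_eq_bot']
    intro x hx
    obtain ⟨a', rfl⟩ := Submodule.Quotient.mk_surjective _ x
    have h1 : (Submodule.Quotient.mk (a' : A) : Red (R := R) p A) = 0 := hx
    rw [Submodule.Quotient.mk_eq_zero] at h1
    obtain ⟨y, hy⟩ := (mem_pSub p).1 h1
    rw [Submodule.Quotient.mk_eq_zero]
    -- `y' = u • (m' • y) + v • a'`
    have hy' : u • (m' • y) + v • (a' : A) ∈ A' :=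
      A'.add_mem (A'.smul_of_tower_mem u (h y)) (A'.smul_of_tower_mem v a'.2)
    refine (mem_pSub p).2 ⟨⟨_, hy'⟩, ?_⟩
    apply Subtype.ext
    show p • (u • (m' • y) + v • (a' : A)) = (a' : A)
    rw [smul_add, smul_comm p u, smul_comm p m', hy, smul_comm p v]
    exact (key (a' : A)).symm
  · intro x
    obtain ⟨a, rfl⟩ := Submodule.Quotient.mk_surjective _ x
    have ha : u • (m' • a) ∈ A' := A'.smul_of_tower_mem u (h a)
    refine ⟨Submodule.Quotient.mk ⟨_, ha⟩, ?_⟩
    show (Submodule.Quotient.mk (u • (m' • a)) : Red (R := R) p A) = Submodule.Quotient.mk a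
    rw [Submodule.Quotient.eq]
    refine (mem_pSub p).2 ⟨-(v • a), ?_⟩
    have e := key a
    rw [smul_neg, smul_comm p v]
    clear ha
    generalize u • m' • a = X at e ⊢
    generalize v • p • a = Y at e ⊢
    rw [e]
    abel

end Coprime

section Main

variable {p}
variable {Z : Type*} [AddCommGroup Z]
  {φ : ∀ (A : Type u) [AddCommGroup A] [Module R A], Z}

/-- **Brauer–Nesbitt lattice lemma**: if `A` has no `p`-torsion, `m A ≤ A'` for some `m > 0` and
`A/pA` is finite, then `A'/pA'` is finite and `φ (A/pA) = φ (A'/pA')` for every additive `φ`. -/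
theorem lattice_red (hp : p.Prime) (hφ : IsAddFun (R := R) p φ)
    {A : Type u} [AddCommGroup A] [Module R A] (htf : ∀ x : A, p • x = 0 → x = 0)
    (A' : Submodule R A) (m : ℕ) (hm : 0 < m) (h : ∀ a : A, m • a ∈ A')
    [Finite (Red (R := R) p A)] :
    Finite (Red (R := R) p ↥A') ∧ φ (Red (R := R) p A) = φ (Red (R := R) p ↥A') := by
  obtain ⟨n, m', hm', rfl⟩ := Nat.exists_eq_pow_mul_and_not_dvd hm.ne' p hp.ne_one
  have hcop : Nat.Coprime m' p := (Nat.Coprime.symm ((Nat.Prime.coprime_iff_not_dvd hp).2 hm'))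
  set A₂ : Submodule R A := A' ⊔ pSub (R := R) (p ^ n) A with hA₂
  have hle' : A' ≤ A₂ := le_sup_left
  have h2 : ∀ a : A, p ^ n • a ∈ A₂ := fun a =>
    (le_sup_right : _ ≤ A₂) ((mem_pSub (p ^ n)).2 ⟨a, rfl⟩)
  obtain ⟨f1, e1⟩ := pow_chain hφ n A htf A₂ h2
  set A'' : Submodule R ↥A₂ := A'.comap A₂.subtype with hA''
  have h'' : ∀ b : ↥A₂, m' • b ∈ A'' := by
    rintro ⟨b, hb⟩
    obtain ⟨a', ha', c, hc, rfl⟩ := Submodule.mem_sup.1 hb
    obtain ⟨a, rfl⟩ := (mem_pSub (p ^ n)).1 hc
    show m' • (a' + p ^ n • a) ∈ A'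
    rw [smul_add]
    refine A'.add_mem (A'.smul_of_tower_mem _ ha') ?_
    have := h a
    rw [mul_comm, mul_smul] at this
    exact this
  have hb := redIncl_bijective (p := p) A'' m' hcop h''
  let e0 : Red (R := R) p ↥A'' ≃ₗ[R] Red (R := R) p ↥A₂ := LinearEquiv.ofBijective _ hb
  have e : ↥A'' ≃ₗ[R] ↥A' := Submodule.comapSubtypeEquivOfLe hle'
  have e' : Red (R := R) p ↥A'' ≃ₗ[R] Red (R := R) p ↥A' := redCongr e
  have f2 : Finite (Red (R := R) p ↥A'') := Finite.of_injective e0 e0.injective
  exact ⟨Finite.of_injective e'.symm e'.symm.injective, by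
    rw [e1, ← hφ.iso _ _ e0, hφ.iso _ _ e']⟩

/-- embedding form: `f : B ↪ A` with `m A ⊆ f(B)` -/
theorem lattice_red_of_embedding (hp : p.Prime) (hφ : IsAddFun (R := R) p φ)
    {A B : Type u} [AddCommGroup A] [Module R A] [AddCommGroup B] [Module R B]
    (htf : ∀ x : A, p • x = 0 → x = 0) (f : B →ₗ[R] A) (hf : Function.Injective f)
    (m : ℕ) (hm : 0 < m) (h : ∀ a : A, ∃ b : B, f b = m • a) [Finite (Red (R := R) p A)] :
    Finite (Red (R := R) p B) ∧ φ (Red (R := R) p A) = φ (Red (R := R) p B) := by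
  obtain ⟨f1, e1⟩ := lattice_red hp hφ htf (LinearMap.range f) m hm
    (fun a => by obtain ⟨b, hb⟩ := h a; exact ⟨b, hb⟩)
  have e : B ≃ₗ[R] ↥(LinearMap.range f) := LinearEquiv.ofInjective f hf
  have e' := redCongr (p := p) e
  exact ⟨Finite.of_injective e' e'.injective, by rw [e1, hφ.iso _ _ e']⟩

end Main

end Fermat.Agent.GP.GW.LatticeRed
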