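/-
GATE-P (S56 long shot) / node [P-GW], leaf GW-1b (helper68): **local `H³ = 0`**.

For a prime `q`, every finite-dimensional discrete `F_p`-representation `N` of
`G_{ℚ_q} = Gq q` has `Hlc (levelQ q) N 3 = 0`.

* Part A: the Brauer group `Hlc²(G_E, Ωˣ)` of a `q`-adic field `E` is `p`-divisible
  (class-formation axiom of `GC/Local/Unram` + cyclotomic degree growth).
* Part B: `Hlc³(G_E, μ_p) = 0` (Kummer sequence, `Hlc³(G_E, Ωˣ) = 0` of `GC/Local/CoarseLevel`).
* Part C: `Hlc³(G_{ℚ_q}, coind_H (F_p)) = 0` for `H` open with `χ_cyc|_H = 1`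
  (Shapiro + `H = Gal(Ω/E)` + `F_p ≃ μ_p`).
* Part D: dévissage (`RepDevissage.rep_devissage` on `G = Gq q`).
-/
import Mathlib
import Fermat.Agent.GC.Local.LocalNum
import Fermat.Agent.GC.Local.CoarseLevel
import Fermat.Agent.GC.Local.BrauerCycFinal
import Fermat.Agent.GC.Places.ChiMuLoc
import Fermat.Agent.GC.Prof.Shapiro
import Fermat.Agent.GC.PT.RepDevissage
import Fermat.Agent.GC.PT.LocDataQ
import Fermat.Agent.GC.Prof.LESNat

set_option autoImplicit false
set_option linter.unusedSectionVars false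

open CategoryTheory

noncomputable section

namespace Fermat.Agent.GP.GW.LocH3

open Fermat.Agent.GC.Prof Fermat.Agent.GC.Local.Abs Fermat.Agent.GC.Local
  Fermat.Agent.GC.Local.KR Fermat.Agent.GC.Places Fermat.Agent.GC.KumH

/-! ### Part A: the Brauer group of a `q`-adic field is divisible -/

/-- In a finite cyclic group whose order is divisible by `p ^ n`, every element killed by `n > 0`
is divisible by `p`. -/
theorem exists_nsmul_eq_of_cyclic {A : Type*} [AddCommGroup A] [Finite A] [IsAddCyclic A]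
    {p n : ℕ} (hp : p.Prime) (hn : 0 < n) (hdvd : p ^ n ∣ Nat.card A) (y : A) (hy : n • y = 0) :
    ∃ z : A, p • z = y := by
  obtain ⟨g, hg⟩ := IsAddCyclic.exists_generator (α := A)
  have hord : addOrderOf g = Nat.card A := addOrderOf_eq_card_of_forall_mem_zmultiples hg
  obtain ⟨k, rfl⟩ : ∃ k : ℕ, k • g = y := by
    have h1 := hg y
    rw [← mem_multiples_iff_mem_zmultiples] at h1
    exact (AddSubmonoid.mem_multiples_iff _ _).1 h1
  rw [← mul_nsmul'] at hy
  have h2 : Nat.card A ∣ k * n := by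
    rw [← hord, mul_comm]
    exact addOrderOf_dvd_of_nsmul_eq_zero hy
  have h3 : p ∣ k := by
    by_contra hpk
    have hcop : (p ^ n).Coprime k := Nat.Coprime.pow_left n ((Nat.Prime.coprime_iff_not_dvd hp).2 hpk)
    have h4 : p ^ n ∣ n := hcop.dvd_of_dvd_mul_left (hdvd.trans h2)
    have h5 := Nat.le_of_dvd hn h4
    have h6 : n < p ^ n := Nat.lt_pow_self hp.one_lt
    omega
  obtain ⟨k', rfl⟩ := h3
  exact ⟨k' • g, by rw [← mul_nsmul', mul_comm]⟩

section Local

variable (q : ℕ) [Fact q.Prime] (E : IntermediateField ℚ_[q] (PadicAlgCl q))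
  [FiniteDimensional ℚ_[q] E] (p : ℕ) [Fact p.Prime]

/-- **The Brauer group of a `q`-adic field is `p`-divisible.** -/
theorem brauer_divisible
    (x : Hlc (galLevels E (PadicAlgCl q)) (unitsRep E (PadicAlgCl q)) 2) :
    ∃ x' : Hlc (galLevels E (PadicAlgCl q)) (unitsRep E (PadicAlgCl q)) 2, p • x' = x := by
  obtain ⟨N₁, hfd₁, hgal₁, -, y₁, rfl⟩ :=
    exists_inflBr_eq x (⊥ : IntermediateField E (PadicAlgCl q))
  have hn₁pos : 0 < Module.finrank E N₁ := Module.finrank_pos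
  have hfdq₁ : FiniteDimensional ℚ_[q] N₁ := FiniteDimensional.trans ℚ_[q] E N₁
  have hcard₁ : Nat.card (groupCohomology (Rep.ofAlgebraAutOnUnits E N₁) 2) =
      Module.finrank E N₁ := Unram.local_card_H2_eq_finrank q E N₁
  have hy₁ : Module.finrank E N₁ • y₁ = 0 := by
    rw [← hcard₁]
    exact card_nsmul_eq_zero'
  obtain ⟨m₀, hm₀⟩ :=
    BrauerCyc.exists_pow_dvd_finrank_of_mem q E (PadicAlgCl q) p (Module.finrank E N₁)
  have hpos : 0 < p ^ (m₀ + 1) := pow_pos (Fact.out : p.Prime).pos _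
  have hne : NeZero (p ^ (m₀ + 1)) := ⟨hpos.ne'⟩
  have hne' : NeZero ((p ^ (m₀ + 1) : ℕ) : PadicAlgCl q) := ⟨by exact_mod_cast hpos.ne'⟩
  obtain ⟨ζ, hζ⟩ := HasEnoughRootsOfUnity.exists_primitiveRoot (PadicAlgCl q) (p ^ (m₀ + 1))
  have hfdC : FiniteDimensional E (IntermediateField.adjoin E {ζ}) :=
    IntermediateField.adjoin.finiteDimensional (Algebra.IsIntegral.isIntegral ζ)
  obtain ⟨N, hfd, hgal, hle, y, hy⟩ :=
    exists_inflBr_eq (inflBr E N₁ (PadicAlgCl q) 2 y₁) (IntermediateField.adjoin E {ζ})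
  have hdvd : p ^ Module.finrank E N₁ ∣ Module.finrank E N :=
    hm₀ m₀ le_rfl N ζ hζ (hle (IntermediateField.mem_adjoin_simple_self E ζ))
  have hfdq : FiniteDimensional ℚ_[q] N := FiniteDimensional.trans ℚ_[q] E N
  have hcyc : IsAddCyclic (groupCohomology (Rep.ofAlgebraAutOnUnits E N) 2) :=
    Unram.local_isAddCyclic_H2 q E N
  have hcard : Nat.card (groupCohomology (Rep.ofAlgebraAutOnUnits E N) 2) =
      Module.finrank E N := Unram.local_card_H2_eq_finrank q E N
  have hfin : Finite (groupCohomology (Rep.ofAlgebraAutOnUnits E N) 2) :=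
    Nat.finite_of_card_ne_zero (by rw [hcard]; exact Module.finrank_pos.ne')
  have hyn : Module.finrank E N₁ • y = 0 := by
    apply inflBr_two_injective E N (PadicAlgCl q)
    rw [map_nsmul, hy, ← map_nsmul, hy₁, map_zero, map_zero]
  obtain ⟨z, hz⟩ := exists_nsmul_eq_of_cyclic (Fact.out : p.Prime) hn₁pos
    (by rw [hcard]; exact hdvd) y hyn
  refine ⟨inflBr E N (PadicAlgCl q) 2 z, ?_⟩
  rw [← hy, ← hz, map_nsmul]

/-! ### Part B: `Hlc³(G_E, μ_p) = 0` -/

/-- **`Hlc³(G_E, μ_p) = 0`** for a `q`-adic field `E`. -/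
theorem hlc_three_mu_eq_zero
    (y : Hlc (galLevels E (PadicAlgCl q)) (muRep E (PadicAlgCl q) p) 3) : y = 0 :=
  (muKummer E (LocalNum.hasRoots_padicAlgCl q p)).eq_zero_of_divisible_of_torsionFree 2
    (fun x => by
      obtain ⟨x', hx'⟩ := brauer_divisible q E p x
      exact ⟨x', by rw [← hx', Nat.cast_smul_eq_nsmul]⟩)
    (fun z _ => Coarse.hlc_three_unitsRep_eq_zero q z) y

end Local

/-! ### Part C: the base case `coind_H (F_p)`, `H` open with `χ_cyc|_H = 1` -/

section Base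

variable (q : ℕ) [Fact q.Prime] (p : ℕ) [Fact p.Prime]

/-- An open subgroup of `G_{ℚ_q}` is the absolute Galois group of a finite extension of `ℚ_q`
(its fixed field). -/
theorem exists_field_eq_fixingSubgroup (H : Subgroup (Gq q)) (hH : IsOpenSub (levelQ q) H) :
    ∃ E : IntermediateField ℚ_[q] (PadicAlgCl q), FiniteDimensional ℚ_[q] E ∧
      H = E.fixingSubgroup := by
  obtain ⟨V, ⟨F, hF, rfl⟩, hVH⟩ := hH
  have hopen : IsOpen (H : Set (Gq q)) :=
    Subgroup.isOpen_mono hVH (IntermediateField.fixingSubgroup_isOpen F)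
  have hclosed : IsClosed (H : Set (Gq q)) := Subgroup.isClosed_of_isOpen H hopen
  refine ⟨IntermediateField.fixedField H, ?_, ?_⟩
  · have h1 := IntermediateField.fixedField_antitone hVH
    rw [InfiniteGalois.fixedField_fixingSubgroup F] at h1
    have : FiniteDimensional ℚ_[q] F := hF
    exact FiniteDimensional.of_injective (IntermediateField.inclusion h1).toLinearMap
      (IntermediateField.inclusion_injective h1)
  · exact (InfiniteGalois.fixingSubgroup_fixedField (⟨H, hclosed⟩ : ClosedSubgroup (Gq q))).symm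

variable (E : IntermediateField ℚ_[q] (PadicAlgCl q))

/-- `Gal(Ω/E) ≃* E.fixingSubgroup`. -/
abbrev galE : (PadicAlgCl q ≃ₐ[E] PadicAlgCl q) ≃* E.fixingSubgroup :=
  (IntermediateField.fixingSubgroupEquiv E).symm

/-- The mod `p` cyclotomic character of `Gal(Ω/E)`. -/
abbrev chiE : (PadicAlgCl q ≃ₐ[E] PadicAlgCl q) →* (ZMod p)ˣ :=
  (chiQ p q).comp (E.fixingSubgroup.subtype.comp (galE q E).toMonoidHom)

theorem chiE_spec (σ : PadicAlgCl q ≃ₐ[E] PadicAlgCl q) :
    σ ((zetaLoc p q : (PadicAlgCl q)ˣ) : PadicAlgCl q) =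
      ((zetaLoc p q : (PadicAlgCl q)ˣ) : PadicAlgCl q) ^ ((chiE q p E σ : ZMod p)).val :=
  chiQ_spec p q ((galE q E σ : E.fixingSubgroup) : Gq q)

variable [FiniteDimensional ℚ_[q] E]

/-- **Base case**: `Hlc³(G_{ℚ_q}, coind_H F_p) = 0` for `H = Gal(Ω/E)` with `ζ_p ∈ E`. -/
theorem subsingleton_hlc_three_coind_field (hχ : ∀ g ∈ E.fixingSubgroup, chiQ p q g = 1)
    [hd : IsDiscrete (levelQ q)
      (Rep.coind E.fixingSubgroup.subtype (Rep.trivial (ZMod p) E.fixingSubgroup (ZMod p)))] :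
    Subsingleton (Hlc (levelQ q)
      (Rep.coind E.fixingSubgroup.subtype (Rep.trivial (ZMod p) E.fixingSubgroup (ZMod p))) 3) := by
  have hS : IsOpenSub (levelQ q) E.fixingSubgroup :=
    IsOpenSub.of_mem (fixingSubgroup_mem_galLevels E)
  -- Shapiro
  have e1 := HlcShapiroEquiv hS 3 (Rep.trivial (ZMod p) E.fixingSubgroup (ZMod p))
  -- subgroup form ↔ absolute form
  have d2 : IsDiscrete (levelSub E) (Rep.trivial (ZMod p) E.fixingSubgroup (ZMod p)) :=
    isDiscrete_trivial _ _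
  have d3 : IsDiscrete (galLevels E (PadicAlgCl q))
      (Rep.res (galE q E).toMonoidHom (Rep.trivial (ZMod p) E.fixingSubgroup (ZMod p))) :=
    IsDiscrete.res (isContHom_fixingSubgroupEquiv_symm E) _
  have e2 := HlcMulEquivEquiv (galE q E) (Rep.trivial (ZMod p) E.fixingSubgroup (ZMod p))
    (isContHom_fixingSubgroupEquiv_symm E) (isContHom_fixingSubgroupEquiv E) 3
  -- `F_p ≃ μ_p`
  have hχ1 : ∀ σ : PadicAlgCl q ≃ₐ[E] PadicAlgCl q, chiE q p E σ = 1 :=
    fun σ => hχ _ (galE q E σ).2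
  have e3 := HlcAddEquiv (galLevels E (PadicAlgCl q))
    (A := Rep.res (galE q E).toMonoidHom (Rep.trivial (ZMod p) E.fixingSubgroup (ZMod p)))
    (M := muRep E (PadicAlgCl q) p)
    (chiMuEquiv E (isPrimitiveRoot_zetaLoc p q) (chiE q p E))
    (fun g a => by
      have h := chiMuEquiv_equivariant E (isPrimitiveRoot_zetaLoc p q) (chiE q p E)
        (chiE_spec q p E) g a
      rw [← h]
      congr 1
      show a = ((chiE q p E g : (ZMod p)ˣ) : ZMod p) * a
      rw [hχ1 g, Units.val_one, one_mul]) 3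
  have h3 : Subsingleton (Hlc (galLevels E (PadicAlgCl q)) (muRep E (PadicAlgCl q) p) 3) :=
    ⟨fun a b => (hlc_three_mu_eq_zero q E p a).trans (hlc_three_mu_eq_zero q E p b).symm⟩
  have h2 := e3.toEquiv.subsingleton
  have h1 : Subsingleton (Hlc ((levelQ q).comap E.fixingSubgroup.subtype)
      (Rep.trivial (ZMod p) E.fixingSubgroup (ZMod p)) 3) := e2.toEquiv.subsingleton
  exact e1.toEquiv.subsingleton

/-- **Base case**: `Hlc³(G_{ℚ_q}, coind_H F_p) = 0` for `H` open with `χ_cyc|_H = 1`. -/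
theorem subsingleton_hlc_three_coind (H : Subgroup (Gq q)) (hH : IsOpenSub (levelQ q) H)
    (hχ : ∀ g ∈ H, chiQ p q g = 1)
    [IsDiscrete (levelQ q) (Rep.coind H.subtype (Rep.trivial (ZMod p) H (ZMod p)))] :
    Subsingleton (Hlc (levelQ q) (Rep.coind H.subtype (Rep.trivial (ZMod p) H (ZMod p))) 3) := by
  obtain ⟨E, hE, rfl⟩ := exists_field_eq_fixingSubgroup q H hH
  exact subsingleton_hlc_three_coind_field q p E hχ

end Base

/-! ### Part D: dévissage -/

section Main

variable (q : ℕ) [Fact q.Prime] (p : ℕ) [Fact p.Prime]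

/-- The property `Hlc³(G_{ℚ_q}, M) = 0`. -/
def PrH3 (M : Rep (ZMod p) (Gq q)) : Prop :=
  ∀ (_ : IsDiscrete (levelQ q) M), Subsingleton (Hlc (levelQ q) M 3)

/-- The mod `p` cyclotomic character of `G_{ℚ_q}` is trivial on an open subgroup. -/
theorem exists_levelQ_chiQ_eq_one : ∃ U ∈ (levelQ q).sets, ∀ g ∈ U, chiQ p q g = 1 :=
  exists_level_chi_eq_one ℚ_[q] (isPrimitiveRoot_zetaLoc p q) (chiQ p q) (chiQ_spec p q)

/-- `PrH3` passes to retracts. -/
theorem prH3_of_retract (M M₁ : Rep (ZMod p) (Gq q)) [IsDiscrete (levelQ q) M]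
    [IsDiscrete (levelQ q) M₁] (i : M ⟶ M₁) (r : M₁ ⟶ M) (hir : i ≫ r = 𝟙 M)
    (h₁ : PrH3 q p M₁) : PrH3 q p M := by
  intro _
  have hz := h₁ inferInstance
  have hH : ∀ x : Hlc (levelQ q) M 3,
      (HlcMap (levelQ q) r 3).hom ((HlcMap (levelQ q) i 3).hom x) = x := by
    intro x
    have h := congr($(HlcMap_comp (levelQ q) i r 3) x)
    rw [hir, HlcMap_id] at h
    simpa using h.symm
  exact ⟨fun x y => by rw [← hH x, ← hH y, hz.elim ((HlcMap (levelQ q) i 3).hom x) _]⟩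

/-- `PrH3` is closed under extensions. -/
theorem prH3_of_shortExact (X : ShortComplex (Rep (ZMod p) (Gq q)))
    [IsDiscrete (levelQ q) X.X₁] [IsDiscrete (levelQ q) X.X₂] [IsDiscrete (levelQ q) X.X₃]
    (hX : X.ShortExact) (h₁ : PrH3 q p X.X₁) (h₃ : PrH3 q p X.X₃) : PrH3 q p X.X₂ := by
  intro _
  have hz₁ := h₁ inferInstance
  have hz₃ := h₃ inferInstance
  have hex := Hlc_exact₂ (levelQ q) hX 3
  rw [ShortComplex.moduleCat_exact_iff] at hex
  have h0 : ∀ z : Hlc (levelQ q) X.X₂ 3, z = 0 := by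
    intro z
    obtain ⟨w, hw⟩ := hex z (hz₃.elim _ _)
    rw [← hw, hz₁.elim w 0, map_zero]
  exact ⟨fun x y => by rw [h0 x, h0 y]⟩

/-- **GW-1b: local `H³ = 0`.**  Every finite-dimensional discrete `F_p`-representation `N` of
`G_{ℚ_q}` has `Hlc³(G_{ℚ_q}, N) = 0` (any primes `p`, `q`; `q = p` allowed). -/
theorem subsingleton_hlc_three (N : Rep (ZMod p) (Gq q)) [FiniteDimensional (ZMod p) N]
    [IsDiscrete (levelQ q) N] : Subsingleton (Hlc (levelQ q) N 3) := by
  refine Fermat.Agent.GC.PT.RepDevissage.rep_devissage (levelQ q) p (chiQ p q)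
    (exists_levelQ_chiQ_eq_one q p) (PrH3 q p)
    (fun M M₁ _ _ _ _ i r hir h₁ => prH3_of_retract q p M M₁ i r hir h₁)
    (fun X _ _ _ _ _ _ hX h₁ h₃ => prH3_of_shortExact q p X hX h₁ h₃)
    (fun H hH hχH _ => subsingleton_hlc_three_coind q p H hH hχH) N inferInstance

/-- `Hlc³(G_{ℚ_q}, N) = 0`, `IsZero` form. -/
theorem isZero_hlc_three (N : Rep (ZMod p) (Gq q)) [FiniteDimensional (ZMod p) N]
    [IsDiscrete (levelQ q) N] : Limits.IsZero (Hlc (levelQ q) N 3) := by
  rw [ModuleCat.isZero_iff_subsingleton]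
  exact subsingleton_hlc_three q p N

/-- Every class of `Hlc³(G_{ℚ_q}, N)` is zero. -/
theorem hlc_three_eq_zero (N : Rep (ZMod p) (Gq q)) [FiniteDimensional (ZMod p) N]
    [IsDiscrete (levelQ q) N] (x : Hlc (levelQ q) N 3) : x = 0 :=
  (subsingleton_hlc_three q p N).elim x 0

/-- **Right exactness of `Hlc²`**: for a short exact sequence `0 → N' → N → N'' → 0` of
finite-dimensional discrete `F_p[G_{ℚ_q}]`-modules, `Hlc²(N) → Hlc²(N'')` is onto. -/
theorem HlcMap_two_surjective (X : ShortComplex (Rep (ZMod p) (Gq q)))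
    [FiniteDimensional (ZMod p) X.X₁]
    [IsDiscrete (levelQ q) X.X₁] [IsDiscrete (levelQ q) X.X₂] [IsDiscrete (levelQ q) X.X₃]
    (hX : X.ShortExact) : Function.Surjective (HlcMap (levelQ q) X.g 2).hom := by
  intro y
  have hex := Hlc_exact₃ (levelQ q) hX 2 3 rfl
  rw [ShortComplex.moduleCat_exact_iff] at hex
  exact hex y (hlc_three_eq_zero q p X.X₁ _)

/-- **Right exactness of `Hlc²`, epi form**: for `φ : N ⟶ N''` surjective with `N`
finite-dimensional, `Hlc²(G_{ℚ_q}, N) → Hlc²(G_{ℚ_q}, N'')` is onto. -/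
theorem HlcMap_two_surjective_of_surjective {N N'' : Rep (ZMod p) (Gq q)}
    [FiniteDimensional (ZMod p) N] [IsDiscrete (levelQ q) N] [IsDiscrete (levelQ q) N'']
    (φ : N ⟶ N'') (hφ : Function.Surjective φ.hom) :
    Function.Surjective (HlcMap (levelQ q) φ 2).hom := by
  have hle : ∀ g : Gq q, LinearMap.ker φ.hom.toLinearMap ≤
      (LinearMap.ker φ.hom.toLinearMap).comap (N.ρ g) := by
    intro g x hx
    rw [Submodule.mem_comap, LinearMap.mem_ker]
    have h1 : φ.hom x = 0 := hx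
    show φ.hom (N.ρ g x) = 0
    rw [Rep.hom_comm_apply, h1, map_zero]
  let X : ShortComplex (Rep (ZMod p) (Gq q)) :=
    ShortComplex.mk (Rep.subtype N (LinearMap.ker φ.hom.toLinearMap) hle) φ (by
      ext x
      exact x.2)
  have hX : X.ShortExact :=
    Fermat.Agent.GC.PT.RepDevissage.shortExact_of_concrete_rep X
      (fun a b h => Subtype.ext h) hφ (fun x hx => ⟨⟨x, hx⟩, rfl⟩)
  have : FiniteDimensional (ZMod p) X.X₁ :=
    inferInstanceAs (FiniteDimensional (ZMod p) (LinearMap.ker φ.hom.toLinearMap))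
  have : IsDiscrete (levelQ q) X.X₂ := ‹IsDiscrete (levelQ q) N›
  have : IsDiscrete (levelQ q) X.X₃ := ‹IsDiscrete (levelQ q) N''›
  have : IsDiscrete (levelQ q) X.X₁ :=
    IsDiscrete.of_injective (𝒰 := levelQ q) X.f (fun a b h => Subtype.ext h)
  exact HlcMap_two_surjective q p X hX

end Main

/-! ### Consumer form: the local family `locDataQ S` -/

section LocDataQ

open Fermat.Agent.GC.PT.LocDataQ Fermat.Agent.GC.Prof.Cone Fermat.Agent.GC.C0

variable {p : ℕ} [Fact p.Prime] (S : Finset Nat.Primes)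

local instance factPrimeOfPrimesLocH3 (q : Nat.Primes) : Fact ((q : ℕ).Prime) := ⟨q.2⟩

/-- `H³(G_v, N) = 0`, `levelQ` spelling. -/
theorem subsingleton_hlc_three_res (N : Rep (ZMod p) GQ) [FiniteDimensional (ZMod p) N]
    [IsDiscrete (levelS S) N] (w : ↥S) :
    Subsingleton (@Hlc (ZMod p) (Gq ((w : Nat.Primes) : ℕ)) _ _ (levelQ ((w : Nat.Primes) : ℕ))
      (Rep.res (localGaloisToGlobal ((w : Nat.Primes) : ℕ)) N)
      (isDiscrete_res_localGaloisToGlobal S _ N) 3) := by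
  have h1 : FiniteDimensional (ZMod p)
      (Rep.res (localGaloisToGlobal ((w : Nat.Primes) : ℕ)) N) :=
    inferInstanceAs (FiniteDimensional (ZMod p) N)
  have h2 : IsDiscrete (levelQ ((w : Nat.Primes) : ℕ))
      (Rep.res (localGaloisToGlobal ((w : Nat.Primes) : ℕ)) N) :=
    isDiscrete_res_localGaloisToGlobal S _ N
  exact subsingleton_hlc_three ((w : Nat.Primes) : ℕ) p
    (Rep.res (localGaloisToGlobal ((w : Nat.Primes) : ℕ)) N)

/-- `H³(G_v, N) = 0` for every `v ∈ S` and every finite-dimensional discrete `N`. -/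
theorem locDataQ_subsingleton_hlc_three (N : Rep (ZMod p) GQ) [FiniteDimensional (ZMod p) N]
    [IsDiscrete (levelS S) N] (v : (locDataQ S).ι) :
    Subsingleton (Hlc ((locDataQ S).𝒰v v) (Rep.res ((locDataQ S).r v) N) 3) :=
  subsingleton_hlc_three_res S N v

/-- `P³(N) = ∏_v H³(G_v, N) = 0`. -/
theorem locDataQ_subsingleton_pi_hlc_three (N : Rep (ZMod p) GQ) [FiniteDimensional (ZMod p) N]
    [IsDiscrete (levelS S) N] :
    Subsingleton (∀ v, Hlc ((locDataQ S).𝒰v v) (Rep.res ((locDataQ S).r v) N) 3) :=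
  ⟨fun a b => funext fun v => (locDataQ_subsingleton_hlc_three S N v).elim (a v) (b v)⟩

/-- `Hlc²(G_v, N) → Hlc²(G_v, N'')` is onto, `levelQ` spelling. -/
theorem HlcMap_two_surjective_res {N N'' : Rep (ZMod p) GQ} [FiniteDimensional (ZMod p) N]
    [IsDiscrete (levelS S) N] [IsDiscrete (levelS S) N''] (φ : N ⟶ N'')
    (hφ : Function.Surjective φ.hom) (w : ↥S) :
    Function.Surjective
      (@HlcMap (ZMod p) (Gq ((w : Nat.Primes) : ℕ)) _ _ (levelQ ((w : Nat.Primes) : ℕ))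
        (Rep.res (localGaloisToGlobal ((w : Nat.Primes) : ℕ)) N)
        (Rep.res (localGaloisToGlobal ((w : Nat.Primes) : ℕ)) N'')
        (isDiscrete_res_localGaloisToGlobal S _ N) (isDiscrete_res_localGaloisToGlobal S _ N'')
        ((Rep.resFunctor (localGaloisToGlobal ((w : Nat.Primes) : ℕ))).map φ) 2).hom := by
  have h1 : FiniteDimensional (ZMod p)
      (Rep.res (localGaloisToGlobal ((w : Nat.Primes) : ℕ)) N) :=
    inferInstanceAs (FiniteDimensional (ZMod p) N)
  have h2 : IsDiscrete (levelQ ((w : Nat.Primes) : ℕ))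
      (Rep.res (localGaloisToGlobal ((w : Nat.Primes) : ℕ)) N) :=
    isDiscrete_res_localGaloisToGlobal S _ N
  have h3 : IsDiscrete (levelQ ((w : Nat.Primes) : ℕ))
      (Rep.res (localGaloisToGlobal ((w : Nat.Primes) : ℕ)) N'') :=
    isDiscrete_res_localGaloisToGlobal S _ N''
  exact HlcMap_two_surjective_of_surjective ((w : Nat.Primes) : ℕ) p
    (N := Rep.res (localGaloisToGlobal ((w : Nat.Primes) : ℕ)) N)
    (N'' := Rep.res (localGaloisToGlobal ((w : Nat.Primes) : ℕ)) N'')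
    ((Rep.resFunctor (localGaloisToGlobal ((w : Nat.Primes) : ℕ))).map φ) hφ

/-- **`P²(N) → P²(N'')` is onto at each `v`** for `φ : N ⟶ N''` surjective. -/
theorem locDataQ_HlcMap_two_surjective {N N'' : Rep (ZMod p) GQ} [FiniteDimensional (ZMod p) N]
    [IsDiscrete (levelS S) N] [IsDiscrete (levelS S) N''] (φ : N ⟶ N'')
    (hφ : Function.Surjective φ.hom) (v : (locDataQ S).ι) :
    Function.Surjective
      (HlcMap ((locDataQ S).𝒰v v) ((Rep.resFunctor ((locDataQ S).r v)).map φ) 2).hom :=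
  HlcMap_two_surjective_res S φ hφ v

/-- **`P²(N) → P²(N'')` is onto** for `φ : N ⟶ N''` surjective. -/
theorem locDataQ_pi_HlcMap_two_surjective {N N'' : Rep (ZMod p) GQ}
    [FiniteDimensional (ZMod p) N]
    [IsDiscrete (levelS S) N] [IsDiscrete (levelS S) N''] (φ : N ⟶ N'')
    (hφ : Function.Surjective φ.hom)
    (y : ∀ v, Hlc ((locDataQ S).𝒰v v) (Rep.res ((locDataQ S).r v) N'') 2) :
    ∃ x : ∀ v, Hlc ((locDataQ S).𝒰v v) (Rep.res ((locDataQ S).r v) N) 2,
      ∀ v, (HlcMap ((locDataQ S).𝒰v v) ((Rep.resFunctor ((locDataQ S).r v)).map φ) 2).hom (x v) =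
        y v := by
  choose x hx using fun v => locDataQ_HlcMap_two_surjective S φ hφ v (y v)
  exact ⟨x, hx⟩

end LocDataQ

end Fermat.Agent.GP.GW.LocH3
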