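/-
GATE-P / S56 [P-GW], node GW-1c, LOCAL ROUTE (helper19): **right non-degeneracy of the local
Tate pairing in degrees `(2,0)`, and `H30Right`.**

* generic: for `n ∈ N^G`, `x ∪ n = (m ↦ B m n)_* x` on `Hlc²` (`HlcCup_two_zero_eq_map`);
* local (`G = G_{ℚ_q}`): if `B : N' × N'' → k(χ)` is right non-degenerate on modules and `N'` is
  finite-dimensional discrete, then `c ∈ H⁰(G_q, N'')` with `b ∪ c = 0` for all `b ∈ H²(G_q, N')`
  is zero [`(m ↦ B m n)` is onto `k(χ)`, `H²` is right exact (cd `2`, helper68 `LocH3`),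
  `dim H²(G_q, k(χ)) = 1` (`GC/Places/LocalNumLam`)];
* global: `lam20 (N, N*, ev)` is right non-degenerate, hence `H30Right Δ.D N N* ev _` (GW-1c).
-/
import Mathlib
import Fermat.Agent.GC.Local.Hilbert.CupLow
import Fermat.Agent.GC.Prof.LowMap
import Fermat.Agent.GC.Places.LocalNumLam
import Fermat.Agent.GP.GW.LocH3
import Fermat.Agent.GP.GW.NineTermFinal

set_option autoImplicit false

open CategoryTheory Module

noncomputable section

namespace Fermat.Agent.GP.GW.H30Local

open groupCohomology Rep Fermat.Agent.GC.Prof Fermat.Agent.GC.Local.Hilbert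
open Fermat.Agent.GC.Prof.Cup (Equivariant)

universe u

section Generic

variable {k G : Type u} [CommRing k] [Group G] (𝒰 : LevelSystem G)
variable {M N P : Rep.{u} k G} [IsDiscrete 𝒰 M] [IsDiscrete 𝒰 N] [IsDiscrete 𝒰 P]
  {B : M →ₗ[k] N →ₗ[k] P}

/-- `m ↦ B m n` as a morphism of representations, for an invariant `n`. -/
def pairHom (hB : Equivariant M.ρ N.ρ P.ρ B) (n : N.ρ.invariants) : M ⟶ P :=
  Rep.ofHom ⟨B.flip (n : N), fun g => by
    refine LinearMap.ext fun m => ?_
    have h := hB g m (n : N)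
    rw [n.2 g] at h
    exact h⟩

omit [IsDiscrete 𝒰 M] [IsDiscrete 𝒰 N] [IsDiscrete 𝒰 P] in
theorem pairHom_apply (hB : Equivariant M.ρ N.ρ P.ρ B) (n : N.ρ.invariants) (m : M) :
    (pairHom hB n).hom m = B m (n : N) := rfl

/-- **cup product with an invariant is push-forward along `m ↦ B m n`.** -/
theorem HlcCup_two_zero_eq_map (hB : Equivariant M.ρ N.ρ P.ρ B) (x : Hlc 𝒰 M 2)
    (n : N.ρ.invariants) :
    HlcCup 𝒰 B hB (rfl : 2 + 0 = 2) x ((Hlc0Equiv 𝒰 N).symm n) =
      HlcMap 𝒰 (pairHom hB n) 2 x := by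
  obtain ⟨z, rfl⟩ := Hlc2π_surjective 𝒰 M x
  rw [HlcCup_two_zero, HlcMap_Hlc2π]
  congr 1
  apply Subtype.ext
  funext ⟨g, h⟩
  simp only [cupFn₂₀]
  rw [n.2 (g * h)]
  rfl

end Generic

/-! ### the local statement at `q` -/

section Local

open Fermat.Agent.GC.Places Fermat.Agent.GC.Local.KR Fermat.Agent.GC.Local.Abs ExtCitation

variable (q : ℕ) [Fact q.Prime] (p : ℕ) [Fact p.Prime]

/-- a morphism to the one-dimensional `k(χ)` which is not zero is onto. -/
theorem surjective_of_apply_ne_zero {N' : Rep (ZMod p) (Gq q)} (ψ : N' ⟶ chiRep (chiQ p q))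
    (m : N') (hm : ψ.hom m ≠ 0) : Function.Surjective ψ.hom := by
  intro t
  refine ⟨((t : ZMod p) * ((ψ.hom m : ZMod p))⁻¹) • m, ?_⟩
  have h : ψ.hom (((t : ZMod p) * ((ψ.hom m : ZMod p))⁻¹) • m) =
      ((t : ZMod p) * ((ψ.hom m : ZMod p))⁻¹) • ψ.hom m := map_smul ψ.hom.toLinearMap _ _
  rw [h]
  change (t : ZMod p) * ((ψ.hom m : ZMod p))⁻¹ * (ψ.hom m : ZMod p) = t
  rw [mul_assoc, inv_mul_cancel₀ hm, mul_one]

/-- **Local Tate duality in degrees `(2,0)`, right non-degeneracy**: if `B : N' × N'' → k(χ)` is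
right non-degenerate on modules, a class `c ∈ H⁰(G_q, N'')` orthogonal to all of `H²(G_q, N')` is
zero. -/
theorem local_right_nondeg {N' N'' : Rep (ZMod p) (Gq q)} [FiniteDimensional (ZMod p) N']
    [IsDiscrete (levelQ q) N'] [IsDiscrete (levelQ q) N'']
    [IsDiscrete (levelQ q) (chiRep (chiQ p q))]
    {B : N' →ₗ[ZMod p] N'' →ₗ[ZMod p] chiRep (chiQ p q)}
    (hB : Equivariant N'.ρ N''.ρ (chiRep (chiQ p q)).ρ B)
    (hnd : ∀ n : N'', (∀ m : N', B m n = 0) → n = 0)
    (c : Hlc (levelQ q) N'' 0)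
    (hc : ∀ b : Hlc (levelQ q) N' 2, HlcCup (levelQ q) B hB (rfl : 2 + 0 = 2) b c = 0) :
    c = 0 := by
  obtain ⟨n, rfl⟩ := (Hlc0Equiv (levelQ q) N'').symm.surjective c
  rw [LinearEquiv.map_eq_zero_iff]
  by_contra hn
  have hn' : (n : N'') ≠ 0 := fun h => hn (Subtype.ext h)
  obtain ⟨m, hm⟩ : ∃ m : N', B m (n : N'') ≠ 0 := by
    by_contra h
    exact hn' (hnd _ fun m => by
      by_contra hm
      exact h ⟨m, hm⟩)
  have hsurj := LocH3.HlcMap_two_surjective_of_surjective q p (pairHom hB n)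
    (surjective_of_apply_ne_zero q p (pairHom hB n) m hm)
  have h1 := Fermat.Agent.GC.Places.LocalNum.finrank_Hlc_two_chiQ p q
  obtain ⟨t, ht⟩ : ∃ t : Hlc (levelQ q) (chiRep (chiQ p q)) 2, t ≠ 0 := by
    by_contra h
    have h' : ∀ t : Hlc (levelQ q) (chiRep (chiQ p q)) 2, t = 0 := fun t => by
      by_contra ht
      exact h ⟨t, ht⟩
    have : Subsingleton (Hlc (levelQ q) (chiRep (chiQ p q)) 2) :=
      ⟨fun a b => (h' a).trans (h' b).symm⟩
    rw [finrank_zero_of_subsingleton] at h1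
    exact zero_ne_one h1
  obtain ⟨b, hb⟩ := hsurj t
  apply ht
  rw [← hb, ← HlcCup_two_zero_eq_map (levelQ q) hB b n]
  exact hc b

end Local

/-! ### the global statements -/

section Global

open Fermat.Agent.GC.Prof.Cone Fermat.Agent.GC.PT Fermat.Agent.GC.PT.Triples
  Fermat.Agent.GC.PT.LocDataQ Fermat.Agent.GC.PT.MainInst Fermat.Agent.GC.C0 ExtCitation
  Fermat.Agent.GP.GW Fermat.Agent.GP.GW.NineTerm Fermat.Agent.GP.GW.NineTermAbs
  Fermat.Agent.GC.Places

variable {p : ℕ} [Fact p.Prime] {S : Finset Nat.Primes}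
variable [IsDiscrete (levelS S) (TChi p)] (Δ : PTData (p := p) S)

section Pair

variable (M N : Rep (ZMod p) GQ) [FiniteDimensional (ZMod p) M] [IsDiscrete (levelS S) M]
  [IsDiscrete (levelS S) N] (B : M →ₗ[ZMod p] N →ₗ[ZMod p] ZMod p)
  (hB : IsChiPairing (cycloChar p) B) (hnd : ∀ n : N, (∀ m : M, B m n = 0) → n = 0)

include hnd in
/-- **`lam20 (M, N, B)` is right non-degenerate** as soon as `B` is right non-degenerate on
modules: local Tate duality in degrees `(2,0)`, unconditionally. -/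
theorem lam20_right_nondeg (c : Ploc (locDataQ S) N 0)
    (hc : ∀ b : Ploc (locDataQ S) M 2, Δ.E.lam20 M N B hB b c = 0) : c = 0 := by
  funext v
  have h1 : FiniteDimensional (ZMod p) (Rep.res ((locDataQ S).r v) M) :=
    inferInstanceAs (FiniteDimensional (ZMod p) M)
  have d1 : IsDiscrete ((locDataQ S).𝒰v v) (Rep.res ((locDataQ S).r v) M) :=
    LocalData.isDiscrete_res (locDataQ S) v M
  have d2 : IsDiscrete ((locDataQ S).𝒰v v) (Rep.res ((locDataQ S).r v) N) :=
    LocalData.isDiscrete_res (locDataQ S) v N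
  have d3 : IsDiscrete ((locDataQ S).𝒰v v) (Rep.res ((locDataQ S).r v) (TChi p)) :=
    LocalData.isDiscrete_res (locDataQ S) v (TChi p)
  refine @local_right_nondeg (((show ↥S from v) : Nat.Primes) : ℕ) _ p _
    (Rep.res ((locDataQ S).r v) M) (Rep.res ((locDataQ S).r v) N) h1 d1 d2 d3
    (locB (locDataQ S) (toChi (cycloChar p) B) v)
    (equivariant_locB (locDataQ S) (equivariant_toChi hB) v)
    hnd (c v) ?_
  intro b
  have h2 := hc (Pi.single v b)
  rw [(isDiag_lam20 Δ.hLam M N B hB).apply_single_left v b c,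
    block_lam20_apply Δ.hLam M N B hB v b (c v)] at h2
  have h3 : Δ.τ (Pi.single v (0 : Hlc ((locDataQ S).𝒰v v)
      (Rep.res ((locDataQ S).r v) (TChi p)) 2)) = 0 := by
    rw [Pi.single_zero, map_zero]
  exact Δ.hI v (h2.trans h3.symm)

include hnd in
/-- **GW-1c**: `h30 : H³_c(M) × H⁰(N) → k` is right non-degenerate. -/
theorem h30Right_of_nondeg (hpS : pPrime p ∈ S) : H30Right Δ.D M N B hB := by
  have : Nonempty (locDataQ S).ι := nonempty_locDataQ S ⟨_, hpS⟩
  unfold H30Right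
  rw [injective_flip_iff_right]
  intro y hy
  apply injective_locRes_zero (L := locDataQ S) N
  rw [map_zero]
  apply lam20_right_nondeg Δ M N B hB hnd
  intro b
  rw [← g_e30 M N B hB Δ.E b y]
  exact hy _

end Pair

section Ev

variable (hpS : pPrime p ∈ S) (N : Rep (ZMod p) GQ) [FiniteDimensional (ZMod p) N]
  [IsDiscrete (levelS S) N] [IsDiscrete (levelS S) (N.dualTwist (cycloChar p))]

include hpS in
/-- **GW-1c for `(N, N*, ev)`.** -/
theorem h30Right_ev :
    H30Right Δ.D N (N.dualTwist (cycloChar p)) (evB (cycloChar p) N)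
      (isChiPairing_evB (cycloChar p) N) :=
  h30Right_of_nondeg Δ N (N.dualTwist (cycloChar p)) (evB (cycloChar p) N)
    (isChiPairing_evB (cycloChar p) N) (fun _ hn => LinearMap.ext fun m => hn m) hpS

include hpS in
/-- **GW-1c for the flipped pair `(N*, N, ev.flip)`.** -/
theorem h30Right_ev_flip :
    H30Right Δ.D (N.dualTwist (cycloChar p)) N (evB (cycloChar p) N).flip
      (isChiPairing_evB (cycloChar p) N).flip := by
  have : FiniteDimensional (ZMod p) (N.dualTwist (cycloChar p)) :=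
    NineTermQ.finiteDimensional_dual N
  refine h30Right_of_nondeg Δ (N.dualTwist (cycloChar p)) N (evB (cycloChar p) N).flip
    (isChiPairing_evB (cycloChar p) N).flip (fun n hn => ?_) hpS
  exact (Module.forall_dual_apply_eq_zero_iff (ZMod p) n).1 fun f => hn f

end Ev

end Global

end Fermat.Agent.GP.GW.H30Local
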