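/-
GATE-P (S56 long shot) / node [P-GW], leaf S56-GW-SHAVANISH (helper71): **`Ш²` of the coinduced
trivial module vanishes after S-enlargement**, in the PINNED Selmer model
(`Hlc (levelS T) N i`, `locRes (locDataQ T) N i`).

`F ⊂ ℚ̄` finite, unramified outside `T ∋ p`, `p` odd, `ζ_p ∈ F`, and
`X(T,F) = Hlc¹(G_{F,T}, O_T^×) = 0` (leaf S56-GW-SKILL: true for every `T ⊇ S''`).  Then
* `ker (locResK T F (ℤ/p) 2) = ⊥` : no nonzero class of `Hlc²(G_{F,T}, ℤ/p)` is locally trivial at all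
  places of `F` above `T`;
* `locRes (locDataQ T) (coind_{G_F}^{G_ℚ} ℤ/p) 2` is injective, i.e. `Ш²(G_{ℚ,T}, W) = 0` for
  `W = coind_{G_F}(ℤ/p)`.
These are the binders that E3e (PT tail: `h² = dim Ш² + Σ_v h⁰_v(N*) − h⁰(N*)`) and E3g need after
the design note 4028; every `coind_H Y` (`G_F ≤ H`, `Y` trivial on `G_F`, `p ∤ [H : G_F]`) is a
retract of a power of `W` (helper86 E3a), and `ker (locRes · 2)` is functorial in the coefficients.
-/
import Mathlib
import Fermat.Agent.GP.GW.SKill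
import Fermat.Agent.GC.Global.KummerBridgeInst
import Fermat.Agent.GC.Places.TotalLoc

set_option autoImplicit false

open CategoryTheory

noncomputable section

namespace Fermat.Agent.GP.GW.ShaVanish

open Fermat.Agent.GC.Prof Fermat.Agent.GC.KumH Fermat.Agent.GC.Places Fermat.Agent.GC.C0
  Fermat.Agent.GC.KBInst Fermat.Agent.GC.PT.LocDataQ Fermat.Agent.GC.Prof.Cone

local notation "Qb" => AlgebraicClosure ℚ
local notation "GQ" => (AlgebraicClosure ℚ ≃ₐ[ℚ] AlgebraicClosure ℚ)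

attribute [local instance] Fermat.Agent.GC.Places.fact_prime

variable (T : Finset Nat.Primes) (F : IntermediateField ℚ Qb) [FiniteDimensional ℚ F]
  {p : ℕ} [Fact p.Prime] {ζ : Qbˣ} (hζ : IsPrimitiveRoot ζ p) (hζS : ζ ∈ sUnitsQS T)
  (hζF : ((ζ : Qbˣ) : Qb) ∈ F)

include hζ hζS hζF in
/-- **`Ш²(G_{F,T}, ℤ/p) = 0` in helper69's `TotalLoc` language**, when `X(T,F) = 0`. -/
theorem ker_locResK_two_eq_bot (hp2 : p ≠ 2) (hpT : (⟨p, Fact.out⟩ : Nat.Primes) ∈ T)
    (hF : F.IsUnramifiedOutside T)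
    [Subsingleton (Hlc (levelK T F) (sUnitsK T F) 1)] :
    LinearMap.ker (locResK T F (TpK p F) 2) = ⊥ := by
  have hp : p.Prime := Fact.out
  have h0 : sha2All T F hζ hζS hζF = ⊥ :=
    SKill.sha2Mu_eq_bot_of_cover F hζ hζS hζF hp hp2 hpT hF (famPrime T F) (famRep T F)
      (fun q w => ⟨⟨q, w⟩, rfl, rfl⟩)
  have h1 : Nat.card (LinearMap.ker (locResK T F (TpK p F) 2)) = 1 := by
    rw [card_ker_locResK_two T F hζ hζS hζF, h0]
    exact Nat.card_unique
  have h2 : Subsingleton (LinearMap.ker (locResK T F (TpK p F) 2)) :=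
    (Nat.card_eq_one_iff_unique.1 h1).1
  exact Submodule.eq_bot_of_subsingleton

include hζ hζS hζF in
/-- **`Ш²(G_{ℚ,T}, coind_{G_F}(ℤ/p)) = 0` in the PINNED model**, when `X(T,F) = 0`:
`locRes (locDataQ T) W 2` is injective for `W = coind_{G_F}^{G_ℚ}(ℤ/p)`. -/
theorem injective_locRes_two_coindK (hp2 : p ≠ 2) (hpT : (⟨p, Fact.out⟩ : Nat.Primes) ∈ T)
    (hF : F.IsUnramifiedOutside T)
    [Subsingleton (Hlc (levelK T F) (sUnitsK T F) 1)] :
    Function.Injective (locResW T F hF (TpK p F) 2) := by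
  rw [← LinearMap.ker_eq_bot, Submodule.eq_bot_iff]
  intro X hX
  have h1 := (mem_ker_locRes_iff T F hF (TpK p F) 2 X).1 hX
  rw [ker_locResK_two_eq_bot T F hζ hζS hζF hp2 hpT hF, Submodule.mem_bot] at h1
  exact (LinearEquiv.map_eq_zero_iff _).1 h1

end Fermat.Agent.GP.GW.ShaVanish
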