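/-
GATE-P (S56 long shot) / node [P-GW], leaf S56-GW-SKILL-TOP part 2 (helper71): the one-call top
binder `SKillTop.exists_field_sigma` together with the `Ш²`-vanishing of `ShaVanish` in the PINNED
model: for `F = ℚ(R, ζ_p)` and every finite `T ⊇ Σ`,
`locRes (locDataQ T) (coind_{G_F}^{G_ℚ} ℤ/p) 2` is injective.
-/
import Mathlib
import Fermat.Agent.GP.GW.SKillTop
import Fermat.Agent.GP.GW.ShaVanish

set_option autoImplicit false

noncomputable section

namespace Fermat.Agent.GP.GW.SKillTop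

open Fermat.Agent.GC.Prof Fermat.Agent.GC.C0 Fermat.Agent.GC.Places Fermat.Agent.GC.KumH
  Fermat.Agent.GC.KBInst ExtCitation

local notation "Qb" => AlgebraicClosure ℚ
local notation "GQ" => (AlgebraicClosure ℚ ≃ₐ[ℚ] AlgebraicClosure ℚ)

variable {p : ℕ} [Fact p.Prime]

/-- `Ш²(G_{ℚ,T}, coind_{G_F} ℤ/p) = 0` from `X(T,F) = 0`, with the root of unity supplied
(`p` odd, `p ∈ T`, `cycloChar p` trivial on `G_F`). -/
theorem injective_locRes_two_of_subsingleton (hp2 : p ≠ 2) (T : Finset Nat.Primes)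
    (hpT : pPrime p ∈ T) (F : IntermediateField ℚ Qb) [FiniteDimensional ℚ F]
    (hFT : F.IsUnramifiedOutside T) (hχ : ∀ g ∈ F.fixingSubgroup, cycloChar p g = 1)
    [Subsingleton (Hlc (levelK T F) (sUnitsK T F) 1)] :
    Function.Injective (locResW T F hFT (TpK p F) 2) := by
  have hp : p.Prime := Fact.out
  obtain ⟨ζ, hζ⟩ := Fermat.Agent.GJ.CycChar.exists_primitiveRoot (p := p)
  have hζF : ζ ∈ F := primitiveRoot_mem_of_cycloChar_eq_one F hχ hζ
  have hζ0 : ζ ≠ 0 := hζ.ne_zero hp.ne_zero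
  have hζu : IsPrimitiveRoot (Units.mk0 ζ hζ0) p :=
    IsPrimitiveRoot.coe_units_iff.1 (by rw [Units.val_mk0]; exact hζ)
  have hζS : Units.mk0 ζ hζ0 ∈ sUnitsQS T :=
    mem_sUnitsQS_of_pow_eq_one hp hpT _ hζu.pow_eq_one
  exact ShaVanish.injective_locRes_two_coindK T F hζu hζS
    (by rw [Units.val_mk0]; exact hζF) hp2 hpT hFT

/-- **The one-call top binder with `Ш² = 0`.** -/
theorem exists_field_sigma_sha {M : Type} [Monoid M] (hp2 : p ≠ 2) (R : GQ →* M)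
    (hR : GaloisFactorsThroughFiniteLevel R)
    (S₀ : Finset Nat.Primes) (hpS₀ : pPrime p ∈ S₀)
    (hRur : ∀ q : Nat.Primes, q ∉ S₀ → ∀ A : ValuationSubring Qb,
      A.LiesOverPrime (q : ℕ) → ∀ g ∈ A.inertiaSubgroupIn ℚ, R g = 1)
    (S : Finset Nat.Primes) :
    ∃ (F : IntermediateField ℚ Qb) (_ : FiniteDimensional ℚ F) (Sg : Finset Nat.Primes),
      F.IsUnramifiedOutside S₀ ∧ F.fixingSubgroup.Normal ∧
      (∀ g ∈ F.fixingSubgroup, R g = 1 ∧ cycloChar p g = 1) ∧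
      (∀ g : GQ, R g = 1 → cycloChar p g = 1 → g ∈ F.fixingSubgroup) ∧
      S₀ ∪ S ⊆ Sg ∧
      ∀ T : Finset Nat.Primes, Sg ⊆ T → ∃ hFT : F.IsUnramifiedOutside T,
        (∀ x : Hlc (levelK T F) (sUnitsK T F) 1, x = 0) ∧
        Function.Injective (locResW T F hFT (TpK p F) 2) := by
  obtain ⟨F, hfd, Sg, hF, hN, hker, hker', -, hSg, hT⟩ :=
    exists_field_sigma (p := p) R hR S₀ hpS₀ hRur S
  refine ⟨F, hfd, Sg, hF, hN, hker, hker', hSg, fun T hTS => ?_⟩
  obtain ⟨hFT, hsub⟩ := hT T hTS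
  have hpT : pPrime p ∈ T :=
    hTS (hSg (Finset.mem_union_left _ hpS₀))
  exact ⟨hFT, fun x => Subsingleton.elim x 0,
    injective_locRes_two_of_subsingleton hp2 T hpT F hFT (fun g hg => (hker g hg).2)⟩

end Fermat.Agent.GP.GW.SKillTop
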