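/-
GATE-P / S56 [P-GW] (helper9): **from a rational isomorphism to a finite-index embedding of
lattices** (Mathlib only, orphan).

Two finitely generated abelian groups `Λ₁, Λ₂` sitting in rational vector spaces `V₁, V₂`
(`ιᵢ : Λᵢ →+ Vᵢ` injective, `Vᵢ = ℚ · ιᵢ Λᵢ`) and a `ℚ`-linear isomorphism `e : V₁ ≃ V₂`.  Then there
are `d, m > 0` and an injective `f : Λ₁ →+ Λ₂` with `ι₂ ∘ f = d • e ∘ ι₁` and `m Λ₂ ⊆ f Λ₁`.
Every pair of operators intertwined by `e` is intertwined by `f`; in particular `f` is `R`-linear /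
`G`-equivariant as soon as `e` is.  This is the bridge from the `ℚ`-forms of the equivariant unit
theorems (`(ℚ ⊗ 𝓞ˣ) × ℚ ≃ ℚ[S_∞]`, …) to the input shape of the lattice lemmas
(`LatticeRed.lattice_red_of_embedding`, `HerbrandAdd.AddFun.q_of_finite_quotient`).
-/
import Mathlib

set_option autoImplicit false

namespace Fermat.Agent.GP.GW.RatIsoEmbed

open Function

section Core

variable {Λ₁ Λ₂ V₁ V₂ : Type*} [AddCommGroup Λ₁] [AddCommGroup Λ₂]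
  [AddCommGroup V₁] [Module ℚ V₁] [AddCommGroup V₂] [Module ℚ V₂]

/-- a common denominator: if `Λ` is finitely generated and every vector of `V'` has a positive
multiple in the subgroup `P`, then one `d > 0` works for the whole image of `Λ`. -/
theorem exists_common_denominator {Λ V' : Type*} [AddCommGroup Λ] [AddCommGroup V']
    [AddGroup.FG Λ] (g : Λ →+ V') (P : AddSubgroup V')
    (h : ∀ v : V', ∃ n : ℕ, 0 < n ∧ n • v ∈ P) :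
    ∃ d : ℕ, 0 < d ∧ ∀ x : Λ, d • g x ∈ P := by
  classical
  obtain ⟨s, hs⟩ := (AddGroup.fg_def (H := Λ)).1 inferInstance
  choose n hn0 hn using h
  refine ⟨∏ x ∈ s, n (g x), Finset.prod_pos fun x _ => hn0 _, ?_⟩
  intro x
  have hx : x ∈ AddSubgroup.closure (s : Set Λ) := by rw [hs]; trivial
  induction hx using AddSubgroup.closure_induction with
  | mem y hy =>
    obtain ⟨c, hc⟩ := Finset.dvd_prod_of_mem (fun x => n (g x)) hy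
    rw [hc, mul_comm, mul_smul]
    exact P.nsmul_mem (hn _) c
  | zero => rw [map_zero, smul_zero]; exact P.zero_mem
  | add a b _ _ ha hb => rw [map_add, smul_add]; exact P.add_mem ha hb
  | neg a _ ha => rw [map_neg, smul_neg]; exact P.neg_mem ha

variable [AddGroup.FG Λ₁] [AddGroup.FG Λ₂]
  (ι₁ : Λ₁ →+ V₁) (ι₂ : Λ₂ →+ V₂)

/-- **rational isomorphism ⟹ finite-index embedding.** -/
theorem exists_embedding_of_rat_iso (hι₁ : Injective ι₁) (hι₂ : Injective ι₂)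
    (hspan₁ : ∀ v : V₁, ∃ n : ℕ, 0 < n ∧ n • v ∈ ι₁.range)
    (hspan₂ : ∀ v : V₂, ∃ n : ℕ, 0 < n ∧ n • v ∈ ι₂.range)
    (e : V₁ ≃ₗ[ℚ] V₂) :
    ∃ (f : Λ₁ →+ Λ₂) (d m : ℕ), 0 < d ∧ 0 < m ∧ Injective f ∧
      (∀ x, ι₂ (f x) = d • e (ι₁ x)) ∧ (∀ y : Λ₂, ∃ x, f x = m • y) := by
  classical
  obtain ⟨d, hd0, hd⟩ := exists_common_denominator
    ((e : V₁ →ₗ[ℚ] V₂).toAddMonoidHom.comp ι₁) ι₂.range hspan₂
  obtain ⟨d', hd'0, hd'⟩ := exists_common_denominator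
    ((e.symm : V₂ →ₗ[ℚ] V₁).toAddMonoidHom.comp ι₂) ι₁.range hspan₁
  choose f hf using hd
  have hf' : ∀ x, ι₂ (f x) = d • e (ι₁ x) := hf
  choose b hb using hd'
  have hb' : ∀ y, ι₁ (b y) = d' • e.symm (ι₂ y) := hb
  have hdQ : (d : ℚ) ≠ 0 := by exact_mod_cast hd0.ne'
  let F : Λ₁ →+ Λ₂ :=
    { toFun := f
      map_zero' := hι₂ (by rw [hf', map_zero, map_zero, map_zero, smul_zero])
      map_add' := fun x y => hι₂ (by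
        rw [map_add, hf', hf', hf', map_add, map_add, smul_add]) }
  refine ⟨F, d, d * d', hd0, Nat.mul_pos hd0 hd'0, ?_, hf', ?_⟩
  · rw [injective_iff_map_eq_zero]
    intro x hx
    have h0 : d • e (ι₁ x) = 0 := by
      rw [← hf']
      show ι₂ (F x) = 0
      rw [hx, map_zero]
    rw [← Nat.cast_smul_eq_nsmul ℚ, smul_eq_zero] at h0
    rcases h0 with h0 | h0
    · exact absurd h0 hdQ
    · apply hι₁
      rw [map_zero]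
      exact e.map_eq_zero_iff.1 h0
  · intro y
    refine ⟨b y, hι₂ ?_⟩
    show ι₂ (f (b y)) = _
    rw [hf', hb', map_nsmul, e.apply_symm_apply, map_nsmul, mul_smul]

omit [AddGroup.FG Λ₁] [AddGroup.FG Λ₂] in
/-- every pair of operators intertwined by `e` is intertwined by `f` -/
theorem map_comm_of_formula (hι₂ : Injective ι₂) (e : V₁ ≃ₗ[ℚ] V₂) {f : Λ₁ →+ Λ₂} {d : ℕ}
    (hf : ∀ x, ι₂ (f x) = d • e (ι₁ x))
    (T₁ : Λ₁ → Λ₁) (T₂ : Λ₂ →+ Λ₂) (S₁ : V₁ → V₁) (S₂ : V₂ →+ V₂)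
    (h₁ : ∀ x, S₁ (ι₁ x) = ι₁ (T₁ x)) (h₂ : ∀ y, S₂ (ι₂ y) = ι₂ (T₂ y))
    (he : ∀ v, e (S₁ v) = S₂ (e v)) (x : Λ₁) : f (T₁ x) = T₂ (f x) := by
  apply hι₂
  rw [hf, ← h₁, he, ← h₂, hf, map_nsmul]

end Core

section Linear

variable {R : Type*} [Ring R]
variable {Λ₁ Λ₂ V₁ V₂ : Type*} [AddCommGroup Λ₁] [Module R Λ₁] [AddCommGroup Λ₂] [Module R Λ₂]
  [AddCommGroup V₁] [Module ℚ V₁] [AddCommGroup V₂] [Module ℚ V₂]
  [AddGroup.FG Λ₁] [AddGroup.FG Λ₂]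

/-- **`R`-linear form** (`R = ℤ[G]`, …): `R` acts on `V₁, V₂` through additive operators
`S₁ r, S₂ r` compatible with the `ιᵢ`, and `e` intertwines them; then `f` is `R`-linear, in the
input shape of `LatticeRed.lattice_red_of_embedding` (`∀ a, ∃ b, f b = m • a`). -/
theorem exists_linear_embedding_of_rat_iso (ι₁ : Λ₁ →+ V₁) (ι₂ : Λ₂ →+ V₂)
    (hι₁ : Injective ι₁) (hι₂ : Injective ι₂)
    (hspan₁ : ∀ v : V₁, ∃ n : ℕ, 0 < n ∧ n • v ∈ ι₁.range)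
    (hspan₂ : ∀ v : V₂, ∃ n : ℕ, 0 < n ∧ n • v ∈ ι₂.range)
    (e : V₁ ≃ₗ[ℚ] V₂) (S₁ : R → V₁ → V₁) (S₂ : R → V₂ →+ V₂)
    (h₁ : ∀ r x, S₁ r (ι₁ x) = ι₁ (r • x)) (h₂ : ∀ r y, S₂ r (ι₂ y) = ι₂ (r • y))
    (he : ∀ r v, e (S₁ r v) = S₂ r (e v)) :
    ∃ (f : Λ₁ →ₗ[R] Λ₂) (m : ℕ), 0 < m ∧ Injective f ∧ ∀ y : Λ₂, ∃ x, f x = m • y := by
  obtain ⟨f, d, m, -, hm, hinj, hf, hsurj⟩ :=
    exists_embedding_of_rat_iso ι₁ ι₂ hι₁ hι₂ hspan₁ hspan₂ e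
  refine ⟨{ toFun := f, map_add' := f.map_add, map_smul' := fun r x => ?_ }, m, hm, hinj, hsurj⟩
  exact map_comm_of_formula ι₁ ι₂ hι₂ e hf (fun x => r • x)
    (DistribSMul.toAddMonoidHom Λ₂ r) (S₁ r) (S₂ r) (h₁ r) (h₂ r) (he r) x

end Linear

section Equivariant

variable {G : Type*} [Monoid G]
variable {Λ₁ Λ₂ V₁ V₂ : Type*} [AddCommGroup Λ₁] [DistribMulAction G Λ₁] [AddCommGroup Λ₂]
  [DistribMulAction G Λ₂]
  [AddCommGroup V₁] [Module ℚ V₁] [AddCommGroup V₂] [Module ℚ V₂]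
  [AddGroup.FG Λ₁] [AddGroup.FG Λ₂]

/-- **`G`-equivariant form**: `G` acts on the `Vᵢ` through additive operators compatible with the
`ιᵢ` and intertwined by `e`. -/
theorem exists_equivariant_embedding_of_rat_iso (ι₁ : Λ₁ →+ V₁) (ι₂ : Λ₂ →+ V₂)
    (hι₁ : Injective ι₁) (hι₂ : Injective ι₂)
    (hspan₁ : ∀ v : V₁, ∃ n : ℕ, 0 < n ∧ n • v ∈ ι₁.range)
    (hspan₂ : ∀ v : V₂, ∃ n : ℕ, 0 < n ∧ n • v ∈ ι₂.range)
    (e : V₁ ≃ₗ[ℚ] V₂) (S₁ : G → V₁ → V₁) (S₂ : G → V₂ →+ V₂)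
    (h₁ : ∀ g x, S₁ g (ι₁ x) = ι₁ (g • x)) (h₂ : ∀ g y, S₂ g (ι₂ y) = ι₂ (g • y))
    (he : ∀ g v, e (S₁ g v) = S₂ g (e v)) :
    ∃ (f : Λ₁ →+ Λ₂) (m : ℕ), 0 < m ∧ Injective f ∧ (∀ (g : G) (x : Λ₁), f (g • x) = g • f x) ∧
      ∀ y : Λ₂, ∃ x, f x = m • y := by
  obtain ⟨f, d, m, -, hm, hinj, hf, hsurj⟩ :=
    exists_embedding_of_rat_iso ι₁ ι₂ hι₁ hι₂ hspan₁ hspan₂ e
  refine ⟨f, m, hm, hinj, fun g x => ?_, hsurj⟩
  exact map_comm_of_formula ι₁ ι₂ hι₂ e hf (fun x => g • x)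
    (DistribSMul.toAddMonoidHom Λ₂ g) (S₁ g) (S₂ g) (h₁ g) (h₂ g) (he g) x

end Equivariant

section Tensor

open TensorProduct

variable {Λ : Type*} [AddCommGroup Λ]

/-- the canonical map `Λ → ℚ ⊗[ℤ] Λ` -/
def toRat (Λ : Type*) [AddCommGroup Λ] : Λ →+ ℚ ⊗[ℤ] Λ :=
  ((TensorProduct.mk ℤ ℚ Λ) 1).toAddMonoidHom

@[simp] theorem toRat_apply (x : Λ) : toRat Λ x = (1 : ℚ) ⊗ₜ[ℤ] x := rfl

theorem natAbs_nsmul_eq {M : Type*} [AddCommGroup M] (a : ℤ) (x : M) :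
    a.natAbs • x = a • x ∨ a.natAbs • x = -(a • x) := by
  rcases Int.natAbs_eq a with h | h
  · left
    conv_rhs => rw [h]
    rw [natCast_zsmul]
  · right
    conv_rhs => rw [h]
    rw [neg_smul, neg_neg, natCast_zsmul]

/-- every element of `ℚ ⊗ Λ` has a positive multiple in the image of `Λ` -/
theorem toRat_span (v : ℚ ⊗[ℤ] Λ) : ∃ n : ℕ, 0 < n ∧ n • v ∈ (toRat Λ).range := by
  obtain ⟨⟨m, ⟨a, ha⟩⟩, hm⟩ := IsLocalizedModule.surj (nonZeroDivisors ℤ)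
    (TensorProduct.mk ℤ ℚ Λ 1) v
  have ha0 : a ≠ 0 := nonZeroDivisors.ne_zero ha
  have hm' : a • v = toRat Λ m := hm
  refine ⟨a.natAbs, Int.natAbs_pos.2 ha0, ?_⟩
  rcases natAbs_nsmul_eq a v with h | h
  · exact ⟨m, by rw [h, hm']⟩
  · exact ⟨-m, by rw [h, hm', map_neg]⟩

/-- `Λ → ℚ ⊗ Λ` is injective for torsion-free `Λ` -/
theorem toRat_injective (htf : ∀ (n : ℕ) (x : Λ), 0 < n → n • x = 0 → x = 0) :
    Injective (toRat Λ) := by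
  rw [injective_iff_map_eq_zero]
  intro x hx
  have hx' : (TensorProduct.mk ℤ ℚ Λ 1) x = 0 := hx
  obtain ⟨⟨a, ha⟩, h0⟩ := (IsLocalizedModule.eq_zero_iff (nonZeroDivisors ℤ)
    (TensorProduct.mk ℤ ℚ Λ 1)).1 hx'
  have ha0 : a ≠ 0 := nonZeroDivisors.ne_zero ha
  have h0' : a • x = 0 := h0
  refine htf a.natAbs x (Int.natAbs_pos.2 ha0) ?_
  rcases natAbs_nsmul_eq a x with h | h
  · rw [h, h0']
  · rw [h, h0', neg_zero]

/-- **tensor form**: torsion-free finitely generated `Λ₁, Λ₂` with `ℚ ⊗ Λ₁ ≃ ℚ ⊗ Λ₂`. -/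
theorem exists_embedding_of_tensor_iso {Λ₁ Λ₂ : Type*} [AddCommGroup Λ₁] [AddCommGroup Λ₂]
    [AddGroup.FG Λ₁] [AddGroup.FG Λ₂]
    (htf₁ : ∀ (n : ℕ) (x : Λ₁), 0 < n → n • x = 0 → x = 0)
    (htf₂ : ∀ (n : ℕ) (x : Λ₂), 0 < n → n • x = 0 → x = 0)
    (e : (ℚ ⊗[ℤ] Λ₁) ≃ₗ[ℚ] (ℚ ⊗[ℤ] Λ₂)) :
    ∃ (f : Λ₁ →+ Λ₂) (d m : ℕ), 0 < d ∧ 0 < m ∧ Injective f ∧
      (∀ x, (1 : ℚ) ⊗ₜ[ℤ] f x = d • e ((1 : ℚ) ⊗ₜ[ℤ] x)) ∧ (∀ y : Λ₂, ∃ x, f x = m • y) :=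
  exists_embedding_of_rat_iso (toRat Λ₁) (toRat Λ₂) (toRat_injective htf₁) (toRat_injective htf₂)
    toRat_span toRat_span e

end Tensor

end Fermat.Agent.GP.GW.RatIsoEmbed
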