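/-
GATE-P / S56 [P-GW] (helper9): **lattice counts for additive functions** — consumers of
`HerbrandAdd` (Herbrand-type additivity) and `RatIsoEmbed` (rational iso ⟹ finite-index embedding).

`R` any ring, `Φ : AddFun R p Z` an additive function on finite `p`-killed `R`-modules.
* `HQFin.of_fg`                       : finitely generated abelian groups have finite `[p]`, `/p`;
* `AddFun.phi_quo_eq_of_embedding`    : `f : A → B` injective `R`-linear, `m B ⊆ f A`, `B` f.g. without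
                                        `p`-torsion ⟹ `φ(A/p) = φ(B/p)`;
* `AddFun.phi_quo_eq_of_rat_iso`      : two `R`-lattices with `R`-isomorphic rationalisations have
                                        the same `φ(·/p)`  (Brauer–Nesbitt in additive form);
* `AddFun.phi_quo_of_finite_torsion`  : `T ≤ U` finite, `U/T` without `p`-torsion ⟹
                                        `φ(U/p) = φ(T[p]) + φ((U/T)/p)`;
* `AddFun.phi_unit_count`             : the abstract unit-theorem count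
      `φ(U/p) + φ(N/p) = φ(T[p]) + φ(P/p)`   when `(U/T) × N` and `P` have isomorphic rationalisations
  (`U = 𝓞_Sˣ`, `T = μ(F)`, `N = ℤ`, `P = ℤ[S ⊔ S_∞]`: `[𝓞_Sˣ/p] = [μ_p] + [𝔽_p[S ⊔ S_∞]] − [𝔽_p]`).
-/
import Fermat.Agent.GP.GW.HerbrandAdd
import Fermat.Agent.GP.GW.RatIsoEmbed

set_option autoImplicit false

namespace Fermat.Agent.GP.GW.HerbrandAdd

open Function Fermat.Agent.GP.GW.RatIsoEmbed

universe u uR uZ

section Finiteness

variable {R : Type uR} [Ring R] {p : ℕ}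

/-- a finitely generated abelian group killed by `m > 0` is finite -/
theorem finite_of_fg_of_nsmul {M : Type*} [AddCommGroup M] [AddGroup.FG M] (m : ℕ) (hm : 0 < m)
    (h : ∀ x : M, m • x = 0) : Finite M :=
  AddCommGroup.finite_of_fg_isAddTorsion M fun x =>
    isOfFinAddOrder_iff_nsmul_eq_zero.2 ⟨m, hm, h x⟩

theorem fg_submodule {A : Type*} [AddCommGroup A] [Module R A] [AddGroup.FG A]
    (W : Submodule R A) : AddGroup.FG W := by
  have : Module.Finite ℤ A := Module.Finite.iff_addGroup_fg.2 inferInstance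
  have : Module.Finite ℤ (W.toAddSubgroup.toIntSubmodule) := Module.IsNoetherian.finite ℤ _
  exact Module.Finite.iff_addGroup_fg.1 this

theorem fg_quotient {A : Type*} [AddCommGroup A] [Module R A] [AddGroup.FG A]
    (W : Submodule R A) : AddGroup.FG (A ⧸ W) :=
  AddGroup.fg_of_surjective (f := W.mkQ.toAddMonoidHom) (Submodule.mkQ_surjective W)

/-- finitely generated abelian groups have finite `[p]` and `/p` (`p > 0`) -/
theorem HQFin.of_fg (hp : 0 < p) {A : Type*} [AddCommGroup A] [Module R A] [AddGroup.FG A] :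
    HQFin R p A := by
  have := fg_submodule (HerbrandAdd.tors (R := R) p A)
  have := fg_quotient (HerbrandAdd.pRange (R := R) p A)
  exact ⟨finite_of_fg_of_nsmul p hp (tors_killed p), finite_of_fg_of_nsmul p hp (quo_killed p)⟩

/-- `m B ⊆ W` ⟹ `B/W` finite, for `B` finitely generated -/
theorem finite_quotient_of_nsmul_mem {B : Type*} [AddCommGroup B] [Module R B] [AddGroup.FG B]
    (W : Submodule R B) (m : ℕ) (hm : 0 < m) (h : ∀ b : B, m • b ∈ W) : Finite (B ⧸ W) := by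
  have := fg_quotient W
  refine finite_of_fg_of_nsmul m hm fun x => ?_
  obtain ⟨b, rfl⟩ := Submodule.mkQ_surjective W x
  rw [← map_nsmul, Submodule.mkQ_apply, Submodule.Quotient.mk_eq_zero]
  exact h b

end Finiteness

namespace AddFun

variable {R : Type uR} [Ring R] {p : ℕ} {Z : Type uZ} [AddCommGroup Z] (Φ : AddFun.{u} R p Z)

/-- `φ(·/p)` of isomorphic modules without `p`-torsion -/
theorem phi_quo_congr {A B : Type u} [AddCommGroup A] [Module R A] [AddCommGroup B] [Module R B]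
    (hA : HQFin R p A) (htf : ∀ a : A, p • a = 0 → a = 0) (e : A ≃ₗ[R] B) :
    Φ.φ (quo (R := R) p A) = Φ.φ (quo (R := R) p B) := by
  rw [← Φ.q_torsionFree htf, Φ.q_congr hA e, Φ.q_torsionFree]
  intro b hb
  have : e.symm b = 0 := htf _ (by rw [← map_nsmul, hb, map_zero])
  simpa using this

/-- **finite-index embedding ⟹ same reduction class** -/
theorem phi_quo_eq_of_embedding (hp : 0 < p) {A B : Type u} [AddCommGroup A] [Module R A]
    [AddCommGroup B] [Module R B] [AddGroup.FG B] (htf : ∀ b : B, p • b = 0 → b = 0)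
    (f : A →ₗ[R] B) (hf : Injective f) (m : ℕ) (hm : 0 < m) (h : ∀ b : B, ∃ a, f a = m • b) :
    Φ.φ (quo (R := R) p A) = Φ.φ (quo (R := R) p B) := by
  have hB : HQFin R p B := HQFin.of_fg hp
  have : Finite (B ⧸ LinearMap.range f) :=
    finite_quotient_of_nsmul_mem _ m hm fun b => by
      obtain ⟨a, ha⟩ := h b
      exact ⟨a, ha⟩
  have h1 := Φ.phi_quo_of_finite_quotient (LinearMap.range f) hB htf
  have := fg_submodule (LinearMap.range f)
  have hW : HQFin R p (LinearMap.range f) := HQFin.of_fg hp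
  have htfW : ∀ w : LinearMap.range f, p • w = 0 → w = 0 := by
    intro w hw
    apply Subtype.ext
    apply htf
    have := congrArg Subtype.val hw
    rwa [Submodule.coe_smul_of_tower] at this
  rw [h1]
  exact (Φ.phi_quo_congr hW htfW (LinearEquiv.ofInjective f hf).symm).symm

/-- **Brauer–Nesbitt in additive form**: two `R`-lattices whose rationalisations are isomorphic
compatibly with the `R`-action have the same `φ(·/p)`.  (`Vᵢ` any rational vector spaces containing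
`Λᵢ` as full lattices; `R` acts on `Vᵢ` through the operators `Sᵢ r`.) -/
theorem phi_quo_eq_of_rat_iso (hp : 0 < p) {Λ₁ Λ₂ : Type u} [AddCommGroup Λ₁] [Module R Λ₁]
    [AddCommGroup Λ₂] [Module R Λ₂] [AddGroup.FG Λ₁] [AddGroup.FG Λ₂]
    {V₁ V₂ : Type*} [AddCommGroup V₁] [Module ℚ V₁] [AddCommGroup V₂] [Module ℚ V₂]
    (ι₁ : Λ₁ →+ V₁) (ι₂ : Λ₂ →+ V₂) (hι₁ : Injective ι₁) (hι₂ : Injective ι₂)
    (hspan₁ : ∀ v : V₁, ∃ n : ℕ, 0 < n ∧ n • v ∈ ι₁.range)
    (hspan₂ : ∀ v : V₂, ∃ n : ℕ, 0 < n ∧ n • v ∈ ι₂.range)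
    (e : V₁ ≃ₗ[ℚ] V₂) (S₁ : R → V₁ → V₁) (S₂ : R → V₂ →+ V₂)
    (h₁ : ∀ r x, S₁ r (ι₁ x) = ι₁ (r • x)) (h₂ : ∀ r y, S₂ r (ι₂ y) = ι₂ (r • y))
    (he : ∀ r v, e (S₁ r v) = S₂ r (e v)) :
    Φ.φ (quo (R := R) p Λ₁) = Φ.φ (quo (R := R) p Λ₂) := by
  obtain ⟨f, m, hm, hinj, hsurj⟩ := exists_linear_embedding_of_rat_iso ι₁ ι₂ hι₁ hι₂ hspan₁ hspan₂
    e S₁ S₂ h₁ h₂ he
  refine Φ.phi_quo_eq_of_embedding hp ?_ f hinj m hm hsurj
  -- `Λ₂` embeds in a rational vector space, hence has no torsion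
  intro b hb
  apply hι₂
  have h0 : p • ι₂ b = 0 := by rw [← map_nsmul, hb, map_zero]
  rw [← Nat.cast_smul_eq_nsmul ℚ, smul_eq_zero] at h0
  rcases h0 with h0 | h0
  · exact absurd h0 (by exact_mod_cast hp.ne')
  · rw [h0, map_zero]

/-- `T ≤ U` finite with `U/T` without `p`-torsion: `φ(U/p) = φ(T[p]) + φ((U/T)/p)` -/
theorem phi_quo_of_finite_torsion {U : Type u} [AddCommGroup U] [Module R U]
    (T : Submodule R U) [Finite T] (hL : HQFin R p (U ⧸ T))
    (htf : ∀ x : U ⧸ T, p • x = 0 → x = 0) :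
    Φ.φ (quo (R := R) p U) =
      Φ.φ (tors (R := R) p T) + Φ.φ (quo (R := R) p (U ⧸ T)) := by
  have hT : HQFin R p T := HQFin.of_finite
  have hadd := Φ.q_add hT hL (f := T.subtype) (g := T.mkQ) (Submodule.injective_subtype _)
    (Submodule.mkQ_surjective _) (LinearMap.exact_subtype_mkQ _)
  rw [Φ.q_finite (A := T), zero_add, Φ.q_torsionFree htf] at hadd
  -- `U[p] ≅ T[p]`
  have hbij : Bijective (torsMap (R := R) p T.subtype) := by
    refine ⟨torsMap_injective p (Submodule.injective_subtype _), ?_⟩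
    intro x
    have hx : (x : U) ∈ T := by
      rw [← Submodule.Quotient.mk_eq_zero]
      apply htf
      rw [← Submodule.Quotient.mk_smul, (mem_tors p).1 x.2, Submodule.Quotient.mk_zero]
    refine ⟨⟨⟨x, hx⟩, ?_⟩, Subtype.ext rfl⟩
    rw [mem_tors]
    apply Subtype.ext
    rw [Submodule.coe_smul_of_tower]
    exact (mem_tors p).1 x.2
  have : Finite (tors (R := R) p T) := inferInstance
  have e1 : Φ.φ (tors (R := R) p T) = Φ.φ (tors (R := R) p U) :=
    Φ.iso (tors_killed p) (LinearEquiv.ofBijective _ hbij)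
  have hq : Φ.q U = Φ.φ (quo (R := R) p U) - Φ.φ (tors (R := R) p U) := rfl
  rw [hq] at hadd
  rw [e1, ← hadd]
  abel

/-- **the abstract unit-theorem count.**  `U` an `R`-module with finite torsion part `T`,
`U/T` and `N`, `P` lattices (f.g., and `P` inside a rational vector space), `(U/T) × N` and `P`
with `R`-isomorphic rationalisations.  Then `φ(U/p) + φ(N/p) = φ(T[p]) + φ(P/p)`. -/
theorem phi_unit_count (hp : 0 < p) {U N P : Type u} [AddCommGroup U] [Module R U]
    [AddCommGroup N] [Module R N] [AddCommGroup P] [Module R P]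
    (T : Submodule R U) [Finite T] [AddGroup.FG (U ⧸ T)] [AddGroup.FG N] [AddGroup.FG P]
    {V₁ V₂ : Type*} [AddCommGroup V₁] [Module ℚ V₁] [AddCommGroup V₂] [Module ℚ V₂]
    (ι₁ : ((U ⧸ T) × N) →+ V₁) (ι₂ : P →+ V₂) (hι₁ : Injective ι₁) (hι₂ : Injective ι₂)
    (hspan₁ : ∀ v : V₁, ∃ n : ℕ, 0 < n ∧ n • v ∈ ι₁.range)
    (hspan₂ : ∀ v : V₂, ∃ n : ℕ, 0 < n ∧ n • v ∈ ι₂.range)
    (e : V₁ ≃ₗ[ℚ] V₂) (S₁ : R → V₁ → V₁) (S₂ : R → V₂ →+ V₂)
    (h₁ : ∀ r x, S₁ r (ι₁ x) = ι₁ (r • x)) (h₂ : ∀ r y, S₂ r (ι₂ y) = ι₂ (r • y))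
    (he : ∀ r v, e (S₁ r v) = S₂ r (e v)) :
    Φ.φ (quo (R := R) p U) + Φ.φ (quo (R := R) p N) =
      Φ.φ (tors (R := R) p T) + Φ.φ (quo (R := R) p P) := by
  have hLN : AddGroup.FG ((U ⧸ T) × N) := inferInstance
  have hrat := Φ.phi_quo_eq_of_rat_iso hp ι₁ ι₂ hι₁ hι₂ hspan₁ hspan₂ e S₁ S₂ h₁ h₂ he
  -- torsion-freeness of `(U/T) × N` from the embedding in `V₁`
  have htfLN : ∀ x : (U ⧸ T) × N, p • x = 0 → x = 0 := by
    intro b hb
    apply hι₁
    have h0 : p • ι₁ b = 0 := by rw [← map_nsmul, hb, map_zero]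
    rw [← Nat.cast_smul_eq_nsmul ℚ, smul_eq_zero] at h0
    rcases h0 with h0 | h0
    · exact absurd h0 (by exact_mod_cast hp.ne')
    · rw [h0, map_zero]
  have htfL : ∀ x : U ⧸ T, p • x = 0 → x = 0 := by
    intro x hx
    have := htfLN (x, 0) (by rw [Prod.smul_mk, hx, smul_zero]; rfl)
    exact (Prod.mk.inj this).1
  have htfN : ∀ x : N, p • x = 0 → x = 0 := by
    intro x hx
    have := htfLN (0, x) (by rw [Prod.smul_mk, hx, smul_zero]; rfl)
    exact (Prod.mk.inj this).2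
  have hL : HQFin R p (U ⧸ T) := HQFin.of_fg hp
  have hN : HQFin R p N := HQFin.of_fg hp
  obtain ⟨-, hprod⟩ := Φ.q_prod hL hN
  rw [Φ.q_torsionFree htfLN, Φ.q_torsionFree htfL, Φ.q_torsionFree htfN] at hprod
  rw [Φ.phi_quo_of_finite_torsion T hL htfL, ← hrat, hprod]
  abel

end AddFun

end Fermat.Agent.GP.GW.HerbrandAdd
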