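/-
GATE-P (S56 long shot) / node [P-GW], leaf LOCFIN (helper68): **local finiteness**.

For primes `p`, `q` (`q = p` allowed) and every finite-dimensional discrete `F_p`-representation
`N` of `G_{ℚ_q} = Gq q`, the groups `Hlc (levelQ q) N i`, `i ≤ 3`, are finite (`i = 3`: zero,
`LocH3`).  Dévissage (`RepDevissage.rep_devissage`) down to `coind_H (F_p)`, `H = Gal(Ω/E)` open
with `ζ_p ∈ E`, where `Hlcⁱ(G_{ℚ_q}, coind_H F_p) ≃ Hlcⁱ(G_E, μ_p)` (`coindMuEquiv`) has the
cardinality computed in `GC/Local/LocalNum`.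

Consumer form in the `locDataQ S` language: `Hⁱ_v(N)` and `Pⁱ(N) = ∏_v Hⁱ_v(N)` are
finite-dimensional for `i ≤ 3`.
-/
import Mathlib
import Fermat.Agent.GP.GW.LocH3

set_option autoImplicit false
set_option linter.unusedSectionVars false

open CategoryTheory

noncomputable section

namespace Fermat.Agent.GP.GW.LocFin

open Fermat.Agent.GC.Prof Fermat.Agent.GC.Local.Abs Fermat.Agent.GC.Local
  Fermat.Agent.GC.Local.KR Fermat.Agent.GC.Places Fermat.Agent.GP.GW.LocH3

/-! ### The base case -/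

section Base

variable (q : ℕ) [Fact q.Prime] (p : ℕ) [Fact p.Prime]
  (E : IntermediateField ℚ_[q] (PadicAlgCl q)) [FiniteDimensional ℚ_[q] E]

/-- **Shapiro + `F_p ≃ μ_p`**: `Hlcⁿ(G_{ℚ_q}, coind_H F_p) ≃ Hlcⁿ(G_E, μ_p)` for `H = Gal(Ω/E)`
with `ζ_p ∈ E`. -/
def coindMuEquiv (hχ : ∀ g ∈ E.fixingSubgroup, chiQ p q g = 1)
    [hd : IsDiscrete (levelQ q)
      (Rep.coind E.fixingSubgroup.subtype (Rep.trivial (ZMod p) E.fixingSubgroup (ZMod p)))]
    (n : ℕ) :
    Hlc (levelQ q)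
      (Rep.coind E.fixingSubgroup.subtype (Rep.trivial (ZMod p) E.fixingSubgroup (ZMod p))) n ≃
      Hlc (galLevels E (PadicAlgCl q)) (muRep E (PadicAlgCl q) p) n := by
  have hS : IsOpenSub (levelQ q) E.fixingSubgroup :=
    IsOpenSub.of_mem (fixingSubgroup_mem_galLevels E)
  have d2 : IsDiscrete (levelSub E) (Rep.trivial (ZMod p) E.fixingSubgroup (ZMod p)) :=
    isDiscrete_trivial _ _
  have d3 : IsDiscrete (galLevels E (PadicAlgCl q))
      (Rep.res (galE q E).toMonoidHom (Rep.trivial (ZMod p) E.fixingSubgroup (ZMod p))) :=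
    IsDiscrete.res (isContHom_fixingSubgroupEquiv_symm E) _
  have hχ1 : ∀ σ : PadicAlgCl q ≃ₐ[E] PadicAlgCl q, chiE q p E σ = 1 :=
    fun σ => hχ _ (galE q E σ).2
  refine (HlcShapiroEquiv hS n (Rep.trivial (ZMod p) E.fixingSubgroup (ZMod p))).toEquiv.trans ?_
  refine Equiv.trans (β := Hlc (galLevels E (PadicAlgCl q))
      (Rep.res (galE q E).toMonoidHom (Rep.trivial (ZMod p) E.fixingSubgroup (ZMod p))) n)
    (HlcMulEquivEquiv (galE q E) (Rep.trivial (ZMod p) E.fixingSubgroup (ZMod p))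
      (isContHom_fixingSubgroupEquiv_symm E) (isContHom_fixingSubgroupEquiv E) n).toEquiv ?_
  exact (HlcAddEquiv (galLevels E (PadicAlgCl q))
    (A := Rep.res (galE q E).toMonoidHom (Rep.trivial (ZMod p) E.fixingSubgroup (ZMod p)))
    (M := muRep E (PadicAlgCl q) p)
    (chiMuEquiv E (isPrimitiveRoot_zetaLoc p q) (chiE q p E))
    (fun g a => by
      have h := chiMuEquiv_equivariant E (isPrimitiveRoot_zetaLoc p q) (chiE q p E)
        (chiE_spec q p E) g a
      rw [← h]
      congr 1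
      show a = ((chiE q p E g : (ZMod p)ˣ) : ZMod p) * a
      rw [hχ1 g, Units.val_one, one_mul]) n).toEquiv

/-- `Hlcⁿ(G_E, μ_p)` is finite for `n ≤ 3`. -/
theorem finite_hlc_mu (n : ℕ) (hn : n ≤ 3) :
    Finite (Hlc (galLevels E (PadicAlgCl q)) (muRep E (PadicAlgCl q) p) n) := by
  have hp : p.Prime := Fact.out
  have : NeZero p := ⟨hp.ne_zero⟩
  have hμ : Nat.card (rootsOfUnity p E) ≠ 0 := Nat.card_pos.ne'
  interval_cases n
  · apply Nat.finite_of_card_ne_zero
    rw [LocalNum.local_card_hlc_zero]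
    exact hμ
  · apply Nat.finite_of_card_ne_zero
    rw [LocalNum.local_card_hlc_one]
    refine Nat.mul_ne_zero (Nat.mul_ne_zero hp.ne_zero hμ) ?_
    split_ifs
    · exact pow_ne_zero _ hp.ne_zero
    · exact one_ne_zero
  · apply Nat.finite_of_card_ne_zero
    rw [LocalNum.local_card_hlc_two]
    exact hp.ne_zero
  · have : Subsingleton (Hlc (galLevels E (PadicAlgCl q)) (muRep E (PadicAlgCl q) p) 3) :=
      ⟨fun a b => (hlc_three_mu_eq_zero q E p a).trans (hlc_three_mu_eq_zero q E p b).symm⟩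
    infer_instance

/-- **Base case**: `Hlcⁿ(G_{ℚ_q}, coind_H F_p)` is finite, `n ≤ 3`, for `H` open with
`χ_cyc|_H = 1`. -/
theorem finite_hlc_coind (H : Subgroup (Gq q)) (hH : IsOpenSub (levelQ q) H)
    (hχ : ∀ g ∈ H, chiQ p q g = 1)
    [IsDiscrete (levelQ q) (Rep.coind H.subtype (Rep.trivial (ZMod p) H (ZMod p)))]
    (n : ℕ) (hn : n ≤ 3) :
    Finite (Hlc (levelQ q) (Rep.coind H.subtype (Rep.trivial (ZMod p) H (ZMod p))) n) := by
  obtain ⟨E, hE, rfl⟩ := exists_field_eq_fixingSubgroup q H hH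
  have := finite_hlc_mu q p E n hn
  exact Finite.of_equiv _ (coindMuEquiv q p E hχ n).symm

end Base

/-! ### Dévissage -/

section Main

variable (q : ℕ) [Fact q.Prime] (p : ℕ) [Fact p.Prime]

/-- The middle term of an exact sequence with finite-dimensional ends is finite-dimensional. -/
theorem finiteDimensional_of_exact' {k X Y Z : Type*} [Field k] [AddCommGroup X] [Module k X]
    [AddCommGroup Y] [Module k Y] [AddCommGroup Z] [Module k Z] (f : X →ₗ[k] Y) (g : Y →ₗ[k] Z)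
    (h : ∀ y, g y = 0 → ∃ x, f x = y) [FiniteDimensional k X] [FiniteDimensional k Z] :
    FiniteDimensional k Y := by
  have hle : LinearMap.ker g ≤ LinearMap.range f := fun y hy => h y hy
  have h0 : FiniteDimensional k (LinearMap.range f) := inferInstance
  have h1 : FiniteDimensional k (LinearMap.ker g) := Submodule.finiteDimensional_of_le hle
  have h2 : FiniteDimensional k (Y ⧸ LinearMap.ker g) :=
    (g.quotKerEquivRange).symm.finiteDimensional
  exact Module.Finite.of_submodule_quotient (LinearMap.ker g)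

/-- The property "`Hlcⁿ(G_{ℚ_q}, M)` is finite-dimensional for `n ≤ 3`". -/
def PrFin (M : Rep (ZMod p) (Gq q)) : Prop :=
  ∀ (_ : IsDiscrete (levelQ q) M) (n : ℕ), n ≤ 3 →
    FiniteDimensional (ZMod p) (Hlc (levelQ q) M n)

/-- `PrFin` passes to retracts. -/
theorem prFin_of_retract (M M₁ : Rep (ZMod p) (Gq q)) [IsDiscrete (levelQ q) M]
    [IsDiscrete (levelQ q) M₁] (i : M ⟶ M₁) (r : M₁ ⟶ M) (hir : i ≫ r = 𝟙 M)
    (h₁ : PrFin q p M₁) : PrFin q p M := by
  intro _ n hn
  have := h₁ inferInstance n hn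
  exact Module.Finite.of_injective (HlcMap (levelQ q) i n).hom
    (HlcMap_injective_of_retract (levelQ q) i r hir n)

/-- `PrFin` is closed under extensions. -/
theorem prFin_of_shortExact (X : ShortComplex (Rep (ZMod p) (Gq q)))
    [IsDiscrete (levelQ q) X.X₁] [IsDiscrete (levelQ q) X.X₂] [IsDiscrete (levelQ q) X.X₃]
    (hX : X.ShortExact) (h₁ : PrFin q p X.X₁) (h₃ : PrFin q p X.X₃) : PrFin q p X.X₂ := by
  intro _ n hn
  have f₁ := h₁ inferInstance n hn
  have f₃ := h₃ inferInstance n hn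
  have hex := Hlc_exact₂ (levelQ q) hX n
  rw [ShortComplex.moduleCat_exact_iff] at hex
  exact finiteDimensional_of_exact' (HlcMap (levelQ q) X.f n).hom (HlcMap (levelQ q) X.g n).hom hex

/-- **LOCFIN**: `Hlcⁿ(G_{ℚ_q}, N)` is finite-dimensional over `F_p` for `n ≤ 3` and every
finite-dimensional discrete `N` (any primes `p`, `q`). -/
theorem finiteDimensional_hlc (N : Rep (ZMod p) (Gq q)) [FiniteDimensional (ZMod p) N]
    [IsDiscrete (levelQ q) N] (n : ℕ) (hn : n ≤ 3) :
    FiniteDimensional (ZMod p) (Hlc (levelQ q) N n) := by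
  refine Fermat.Agent.GC.PT.RepDevissage.rep_devissage (levelQ q) p (chiQ p q)
    (exists_levelQ_chiQ_eq_one q p) (PrFin q p)
    (fun M M₁ _ _ _ _ i r hir h₁ => prFin_of_retract q p M M₁ i r hir h₁)
    (fun X _ _ _ _ _ _ hX h₁ h₃ => prFin_of_shortExact q p X hX h₁ h₃)
    (fun H hH hχH _ m hm => ?_) N inferInstance n hn
  have := finite_hlc_coind q p H hH hχH m hm
  exact Module.Finite.of_finite

/-- `Hlcⁿ(G_{ℚ_q}, N)` is finite for `n ≤ 3`. -/
theorem finite_hlc (N : Rep (ZMod p) (Gq q)) [FiniteDimensional (ZMod p) N]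
    [IsDiscrete (levelQ q) N] (n : ℕ) (hn : n ≤ 3) : Finite (Hlc (levelQ q) N n) := by
  have := finiteDimensional_hlc q p N n hn
  exact Module.finite_of_finite (ZMod p)

end Main

/-! ### Consumer form: the local family `locDataQ S` -/

section LocDataQ

open Fermat.Agent.GC.PT.LocDataQ Fermat.Agent.GC.Prof.Cone Fermat.Agent.GC.C0

variable {p : ℕ} [Fact p.Prime] (S : Finset Nat.Primes)

local instance factPrimeOfPrimesLocFin (q : Nat.Primes) : Fact ((q : ℕ).Prime) := ⟨q.2⟩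

/-- `Hⁿ(G_v, N)` is finite-dimensional, `levelQ` spelling. -/
theorem finiteDimensional_hlc_res (N : Rep (ZMod p) GQ) [FiniteDimensional (ZMod p) N]
    [IsDiscrete (levelS S) N] (w : ↥S) (n : ℕ) (hn : n ≤ 3) :
    FiniteDimensional (ZMod p)
      (@Hlc (ZMod p) (Gq ((w : Nat.Primes) : ℕ)) _ _ (levelQ ((w : Nat.Primes) : ℕ))
        (Rep.res (localGaloisToGlobal ((w : Nat.Primes) : ℕ)) N)
        (isDiscrete_res_localGaloisToGlobal S _ N) n) := by
  have h1 : FiniteDimensional (ZMod p)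
      (Rep.res (localGaloisToGlobal ((w : Nat.Primes) : ℕ)) N) :=
    inferInstanceAs (FiniteDimensional (ZMod p) N)
  have h2 : IsDiscrete (levelQ ((w : Nat.Primes) : ℕ))
      (Rep.res (localGaloisToGlobal ((w : Nat.Primes) : ℕ)) N) :=
    isDiscrete_res_localGaloisToGlobal S _ N
  exact finiteDimensional_hlc ((w : Nat.Primes) : ℕ) p
    (Rep.res (localGaloisToGlobal ((w : Nat.Primes) : ℕ)) N) n hn

/-- **`Hⁿ_v(N)` is finite-dimensional** for `n ≤ 3`, every `v ∈ S`, every finite-dimensional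
discrete `N`. -/
theorem locDataQ_finiteDimensional_hlc (N : Rep (ZMod p) GQ) [FiniteDimensional (ZMod p) N]
    [IsDiscrete (levelS S) N] (v : (locDataQ S).ι) (n : ℕ) (hn : n ≤ 3) :
    FiniteDimensional (ZMod p) (Hlc ((locDataQ S).𝒰v v) (Rep.res ((locDataQ S).r v) N) n) :=
  finiteDimensional_hlc_res S N v n hn

/-- **`Pⁿ(N) = ∏_v Hⁿ_v(N)` is finite-dimensional** for `n ≤ 3`. -/
theorem locDataQ_finiteDimensional_pi_hlc (N : Rep (ZMod p) GQ) [FiniteDimensional (ZMod p) N]
    [IsDiscrete (levelS S) N] (n : ℕ) (hn : n ≤ 3) :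
    FiniteDimensional (ZMod p)
      (∀ v, Hlc ((locDataQ S).𝒰v v) (Rep.res ((locDataQ S).r v) N) n) := by
  have := fun v => locDataQ_finiteDimensional_hlc S N v n hn
  exact Module.Finite.pi

end LocDataQ

end Fermat.Agent.GP.GW.LocFin
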