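/-
GATE-P / S56 [P-GW] (helper40): the class-group term of Tate's global Euler characteristic in
"additive function" form (same interface as `GP/GW/LatticeRed.lean`, helper74).

`R` any ring (think `R = ℤ[G]`), `p` a prime, `φ` additive on short exact sequences of finite
`R`-modules killed by `p` (`LatticeRed.IsAddFun`).  For a FINITE `R`-module `A`:
  `φ (A[p]) = φ (A / pA)`                                   (`phi_tors_eq_phi_red`)
(induction on `|A|` with `B = pA` and the exact sequence
  `0 → B[p] → A[p] → A/pA → B/pB → 0`).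
Corollary (`phi_red_of_finite_torsion`): if `T ≤ A` is a finite submodule such that `A/T` has no
`p`-torsion and `A/pA` is finite, then `φ (A/pA) = φ (T[p]) + φ ((A/T)/p(A/T))`
(units: `[𝓞_S^×/p] = [μ_p] + [lattice/p]`).  Mathlib + LatticeRed only.
-/
import Fermat.Agent.GP.GW.LatticeRed

set_option autoImplicit false

namespace Fermat.Agent.GP.GW.TorsionQuot

open Fermat.Agent.GP.GW.LatticeRed

universe u v

variable {R : Type v} [Ring R] (p : ℕ)

/-- the `p`-torsion `A[p]` as a submodule of `A` -/
def pTors (A : Type u) [AddCommGroup A] [Module R A] : Submodule R A :=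
  LinearMap.ker ((p : ℕ) • (LinearMap.id : A →ₗ[R] A))

theorem mem_pTors {A : Type u} [AddCommGroup A] [Module R A] {x : A} :
    x ∈ pTors (R := R) p A ↔ p • x = 0 := by
  unfold pTors
  rw [LinearMap.mem_ker]
  simp only [LinearMap.smul_apply, LinearMap.id_coe, id_eq]

theorem pTors_smul_eq_zero {A : Type u} [AddCommGroup A] [Module R A]
    (x : ↥(pTors (R := R) p A)) : p • x = 0 := by
  apply Subtype.ext
  have := (mem_pTors p).1 x.2
  simp [this]

variable {p}

section Seq

variable {A : Type u} [AddCommGroup A] [Module R A]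

/-- `B = pA` -/
abbrev BB (p : ℕ) (A : Type u) [AddCommGroup A] [Module R A] : Submodule R A :=
  pSub (R := R) p A

/-- `i : B[p] → A[p]`, the inclusion -/
def incl : ↥(pTors (R := R) p ↥(BB (R := R) p A)) →ₗ[R] ↥(pTors (R := R) p A) :=
  LinearMap.codRestrict _ ((BB (R := R) p A).subtype.comp (pTors (R := R) p ↥(BB (R := R) p A)).subtype)
    (fun x => by
      rw [mem_pTors]
      have h := (mem_pTors p).1 x.2
      have h' := congrArg Subtype.val h
      rw [Submodule.coe_zero] at h'
      show p • (((x : ↥(BB (R := R) p A)) : A)) = 0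
      rw [← h']
      rfl)

theorem incl_coe (x : ↥(pTors (R := R) p ↥(BB (R := R) p A))) :
    ((incl x : ↥(pTors (R := R) p A)) : A) = ((x : ↥(BB (R := R) p A)) : A) := rfl

theorem incl_injective : Function.Injective (incl (R := R) (p := p) (A := A)) := by
  intro x y h
  have := congrArg Subtype.val h
  rw [incl_coe, incl_coe] at this
  exact Subtype.ext (Subtype.ext this)

/-- `π : A[p] → A/pA` -/
def proj : ↥(pTors (R := R) p A) →ₗ[R] Red (R := R) p A :=
  (Submodule.mkQ _).comp (pTors (R := R) p A).subtype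

/-- `δ : A/pA → B/pB`, `[a] ↦ [p a]` -/
def delta : Red (R := R) p A →ₗ[R] Red (R := R) p ↥(BB (R := R) p A) :=
  Submodule.liftQ _ ((Submodule.mkQ _).comp
    (LinearMap.codRestrict (BB (R := R) p A) ((p : ℕ) • (LinearMap.id : A →ₗ[R] A))
      (fun a => (mem_pSub p).2 ⟨a, by simp⟩))) (by
    intro a ha
    obtain ⟨y, rfl⟩ := (mem_pSub p).1 ha
    rw [LinearMap.mem_ker, LinearMap.comp_apply, Submodule.mkQ_apply,
      Submodule.Quotient.mk_eq_zero]
    refine (mem_pSub p).2 ⟨⟨p • y, (mem_pSub p).2 ⟨y, rfl⟩⟩, ?_⟩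
    apply Subtype.ext
    simp)

theorem delta_mk (a : A) :
    delta (R := R) (p := p) (Submodule.Quotient.mk a) =
      Submodule.Quotient.mk (⟨p • a, (mem_pSub p).2 ⟨a, rfl⟩⟩ : ↥(BB (R := R) p A)) := by
  rfl

theorem delta_surjective : Function.Surjective (delta (R := R) (p := p) (A := A)) := by
  intro y
  obtain ⟨⟨b, hb⟩, rfl⟩ := Submodule.Quotient.mk_surjective _ y
  obtain ⟨a, rfl⟩ := (mem_pSub p).1 hb
  exact ⟨Submodule.Quotient.mk a, delta_mk a⟩

/-- exactness at `A[p]` -/
theorem exact_incl_proj :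
    Function.Exact (incl (R := R) (p := p) (A := A)) (proj (R := R) (p := p) (A := A)) := by
  intro x
  constructor
  · intro h
    have h1 : (Submodule.Quotient.mk (x : A) : Red (R := R) p A) = 0 := h
    rw [Submodule.Quotient.mk_eq_zero] at h1
    have hx := (mem_pTors p).1 x.2
    refine ⟨⟨⟨(x : A), h1⟩, ?_⟩, ?_⟩
    · rw [mem_pTors]
      apply Subtype.ext
      simp [hx]
    · apply Subtype.ext
      rfl
  · rintro ⟨y, rfl⟩
    show (Submodule.Quotient.mk ((incl y : ↥(pTors (R := R) p A)) : A) : Red (R := R) p A) = 0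
    rw [Submodule.Quotient.mk_eq_zero, incl_coe]
    exact (y : ↥(BB (R := R) p A)).2

/-- exactness at `A/pA` -/
theorem exact_proj_delta :
    Function.Exact (proj (R := R) (p := p) (A := A)) (delta (R := R) (p := p) (A := A)) := by
  intro x
  obtain ⟨a, rfl⟩ := Submodule.Quotient.mk_surjective _ x
  constructor
  · intro h
    rw [delta_mk, Submodule.Quotient.mk_eq_zero] at h
    obtain ⟨⟨b, hb⟩, hy⟩ := (mem_pSub p).1 h
    obtain ⟨a', rfl⟩ := (mem_pSub p).1 hb
    have h2 : p • (p • a') = p • a := by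
      have := congrArg Subtype.val hy
      simpa using this
    have h3 : a - p • a' ∈ pTors (R := R) p A := by
      rw [mem_pTors, smul_sub, h2, sub_self]
    refine ⟨⟨a - p • a', h3⟩, ?_⟩
    show (Submodule.Quotient.mk (a - p • a') : Red (R := R) p A) = Submodule.Quotient.mk a
    rw [Submodule.Quotient.eq]
    refine (mem_pSub p).2 ⟨-a', ?_⟩
    rw [smul_neg]
    abel
  · rintro ⟨y, hy⟩
    rw [← hy]
    show delta (R := R) (p := p) (Submodule.Quotient.mk (y : A)) = 0
    rw [delta_mk, Submodule.Quotient.mk_eq_zero]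
    have hy0 := (mem_pTors p).1 y.2
    have : (⟨p • (y : A), (mem_pSub p).2 ⟨(y : A), rfl⟩⟩ : ↥(BB (R := R) p A)) = 0 := by
      apply Subtype.ext
      simp [hy0]
    rw [this]
    exact Submodule.zero_mem _

end Seq

section Main

variable {Z : Type*} [AddCommGroup Z]
  {φ : ∀ (A : Type u) [AddCommGroup A] [Module R A], Z}

/-- splitting a four-term exact sequence `0 → M₁ → M₂ → M₃ → M₄ → 0` of finite modules killed by
`p`: `φ M₂ + φ M₄ = φ M₁ + φ M₃`. -/
theorem four_term (hφ : IsAddFun (R := R) p φ)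
    {M₁ M₂ M₃ M₄ : Type u} [AddCommGroup M₁] [Module R M₁] [AddCommGroup M₂] [Module R M₂]
    [AddCommGroup M₃] [Module R M₃] [AddCommGroup M₄] [Module R M₄]
    (f : M₁ →ₗ[R] M₂) (g : M₂ →ₗ[R] M₃) (h : M₃ →ₗ[R] M₄)
    (hf : Function.Injective f) (hfg : Function.Exact f g) (hgh : Function.Exact g h)
    (hh : Function.Surjective h) [Finite M₂] [Finite M₃]
    (h2 : ∀ x : M₂, p • x = 0) (h3 : ∀ x : M₃, p • x = 0) :
    φ M₂ + φ M₄ = φ M₁ + φ M₃ := by
  -- `I = range g`
  let I : Submodule R M₃ := LinearMap.range g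
  let g' : M₂ →ₗ[R] ↥I := g.rangeRestrict
  have hg' : Function.Surjective g' := LinearMap.surjective_rangeRestrict g
  have hex1 : Function.Exact f g' := by
    intro x
    constructor
    · intro hx
      have : g x = 0 := by
        have := congrArg Subtype.val hx
        simpa [g'] using this
      exact (hfg x).1 this
    · rintro ⟨y, rfl⟩
      apply Subtype.ext
      show g (f y) = 0
      exact (hfg (f y)).2 ⟨y, rfl⟩
  have hex2 : Function.Exact I.subtype h := by
    intro x
    constructor
    · intro hx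
      obtain ⟨y, hy⟩ := (hgh x).1 hx
      exact ⟨⟨x, ⟨y, hy⟩⟩, rfl⟩
    · rintro ⟨⟨y, ⟨w, rfl⟩⟩, rfl⟩
      exact (hgh (g w)).2 ⟨w, rfl⟩
  have e1 := hφ.add _ _ _ f g' hf hg' hex1 inferInstance h2
  have e2 := hφ.add _ _ _ I.subtype h (Submodule.injective_subtype I) hh hex2 inferInstance h3
  rw [e1, e2]
  abel

/-- **`φ (A[p]) = φ (A/pA)` for every finite `R`-module `A`** (class-group term). -/
theorem phi_tors_eq_phi_red (hφ : IsAddFun (R := R) p φ) :
    ∀ (n : ℕ) (A : Type u) [AddCommGroup A] [Module R A] [Finite A], Nat.card A ≤ n →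
      φ ↥(pTors (R := R) p A) = φ (Red (R := R) p A) := by
  intro n
  induction n with
  | zero =>
    intro A _ _ _ hA
    have : Nat.card A = 0 := Nat.le_zero.1 hA
    exact absurd this Nat.card_pos.ne'
  | succ n ih =>
    intro A _ _ _ hA
    by_cases hinj : ∀ x : A, p • x = 0 → x = 0
    · -- `A[p] = 0` and `A/pA = 0`
      have hsurj : Function.Surjective (fun x : A => p • x) := by
        apply Finite.surjective_of_injective
        intro x y hxy
        have : p • (x - y) = 0 := by rw [smul_sub]; exact sub_eq_zero.2 hxy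
        exact sub_eq_zero.1 (hinj _ this)
      have s1 : Subsingleton ↥(pTors (R := R) p A) :=
        ⟨fun x y => Subtype.ext (by
          rw [hinj _ ((mem_pTors p).1 x.2), hinj _ ((mem_pTors p).1 y.2)])⟩
      have s2 : Subsingleton (Red (R := R) p A) := by
        refine ⟨fun x y => ?_⟩
        obtain ⟨a, rfl⟩ := Submodule.Quotient.mk_surjective _ x
        obtain ⟨b, rfl⟩ := Submodule.Quotient.mk_surjective _ y
        rw [Submodule.Quotient.eq]
        obtain ⟨c, hc⟩ := hsurj (a - b)
        exact (mem_pSub p).2 ⟨c, hc⟩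
      let e : ↥(pTors (R := R) p A) ≃ₗ[R] Red (R := R) p A :=
        { (0 : ↥(pTors (R := R) p A) →ₗ[R] Red (R := R) p A) with
          invFun := fun _ => 0
          left_inv := fun x => Subsingleton.elim _ _
          right_inv := fun x => Subsingleton.elim _ _ }
      exact hφ.iso _ _ e
    · -- `|pA| < |A|`
      push Not at hinj
      obtain ⟨x₀, hx₀, hx₀'⟩ := hinj
      have hlt : Nat.card ↥(BB (R := R) p A) < Nat.card A := by
        have hne : (BB (R := R) p A) ≠ ⊤ := by
          intro htop
          have hsurj : Function.Surjective (fun x : A => p • x) := by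
            intro y
            have : y ∈ BB (R := R) p A := by rw [htop]; trivial
            exact (mem_pSub p).1 this
          have hinj' := Finite.injective_iff_surjective.2 hsurj
          have : p • x₀ = p • (0 : A) := by rw [hx₀, smul_zero]
          exact hx₀' (hinj' this)
        obtain ⟨y, hy⟩ : ∃ y : A, y ∉ BB (R := R) p A := by
          by_contra hcon
          push Not at hcon
          exact hne (eq_top_iff.2 fun y _ => hcon y)
        have hss : Function.Injective ((BB (R := R) p A).subtype) :=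
          Submodule.injective_subtype _
        have hns : ¬ Function.Surjective ((BB (R := R) p A).subtype) := by
          intro hs
          obtain ⟨b, hb⟩ := hs y
          exact hy (hb ▸ b.2)
        have := Fintype.ofFinite A
        have := Fintype.ofFinite ↥(BB (R := R) p A)
        rw [Nat.card_eq_fintype_card, Nat.card_eq_fintype_card]
        exact Fintype.card_lt_of_injective_not_surjective _ hss hns
      have hB : Nat.card ↥(BB (R := R) p A) ≤ n := Nat.lt_succ_iff.1 (lt_of_lt_of_le hlt hA)
      have ihB := ih ↥(BB (R := R) p A) hB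
      have : Finite (Red (R := R) p A) :=
        Finite.of_surjective (Submodule.mkQ _) (Submodule.mkQ_surjective _)
      have h4 := four_term hφ (incl (R := R) (p := p) (A := A)) proj delta incl_injective
        exact_incl_proj exact_proj_delta delta_surjective (pTors_smul_eq_zero p)
        (red_smul_eq_zero p)
      rw [ihB, add_comm (φ (Red (R := R) p ↥(BB (R := R) p A)))] at h4
      exact add_right_cancel h4

/-- `φ (A[p]) = φ (A/pA)`, final form. -/
theorem phi_tors_eq_phi_red' (hφ : IsAddFun (R := R) p φ)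
    (A : Type u) [AddCommGroup A] [Module R A] [Finite A] :
    φ ↥(pTors (R := R) p A) = φ (Red (R := R) p A) :=
  phi_tors_eq_phi_red hφ (Nat.card A) A le_rfl

end Main

section Torsion

variable {Z : Type*} [AddCommGroup Z]
  {φ : ∀ (A : Type u) [AddCommGroup A] [Module R A], Z}
variable {A : Type u} [AddCommGroup A] [Module R A] (T : Submodule R A)

/-- `A/pA → (A/T)/p(A/T)` -/
def redQuot : Red (R := R) p A →ₗ[R] Red (R := R) p (A ⧸ T) :=
  Submodule.mapQ _ _ (Submodule.mkQ T) (by
    intro x hx
    obtain ⟨y, rfl⟩ := (mem_pSub p).1 hx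
    exact (mem_pSub p).2 ⟨Submodule.Quotient.mk y, rfl⟩)

theorem redQuot_surjective : Function.Surjective (redQuot (R := R) (p := p) T) := by
  intro y
  obtain ⟨y', rfl⟩ := Submodule.Quotient.mk_surjective _ y
  obtain ⟨a, rfl⟩ := Submodule.Quotient.mk_surjective _ y'
  exact ⟨Submodule.Quotient.mk a, rfl⟩

theorem redIncl_injective_of_torsionFree
    (htf : ∀ x : A ⧸ T, p • x = 0 → x = 0) :
    Function.Injective (redIncl (R := R) (p := p) T) := by
  rw [← LinearMap.ker_eq_bot, LinearMap.ker_eq_bot']
  intro x hx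
  obtain ⟨t, rfl⟩ := Submodule.Quotient.mk_surjective _ x
  have h1 : (Submodule.Quotient.mk (t : A) : Red (R := R) p A) = 0 := hx
  rw [Submodule.Quotient.mk_eq_zero] at h1
  obtain ⟨a, ha⟩ := (mem_pSub p).1 h1
  have h2 : p • (Submodule.Quotient.mk a : A ⧸ T) = 0 := by
    rw [← Submodule.Quotient.mk_smul, ha, Submodule.Quotient.mk_eq_zero]
    exact t.2
  have h3 : a ∈ T := (Submodule.Quotient.mk_eq_zero T).1 (htf _ h2)
  rw [Submodule.Quotient.mk_eq_zero]
  exact (mem_pSub p).2 ⟨⟨a, h3⟩, Subtype.ext ha⟩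

theorem exact_redIncl_redQuot :
    Function.Exact (redIncl (R := R) (p := p) T) (redQuot (R := R) (p := p) T) := by
  intro x
  obtain ⟨a, rfl⟩ := Submodule.Quotient.mk_surjective _ x
  constructor
  · intro h
    have h1 : (Submodule.Quotient.mk (Submodule.Quotient.mk a : A ⧸ T) :
        Red (R := R) p (A ⧸ T)) = 0 := h
    rw [Submodule.Quotient.mk_eq_zero] at h1
    obtain ⟨y, hy⟩ := (mem_pSub p).1 h1
    obtain ⟨a', rfl⟩ := Submodule.Quotient.mk_surjective _ y
    have h2 : a - p • a' ∈ T := by
      rw [← Submodule.Quotient.mk_eq_zero T, Submodule.Quotient.mk_sub,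
        Submodule.Quotient.mk_smul, hy, sub_self]
    refine ⟨Submodule.Quotient.mk ⟨a - p • a', h2⟩, ?_⟩
    show (Submodule.Quotient.mk (a - p • a') : Red (R := R) p A) = Submodule.Quotient.mk a
    rw [Submodule.Quotient.eq]
    refine (mem_pSub p).2 ⟨-a', ?_⟩
    rw [smul_neg]
    abel
  · rintro ⟨y, hy⟩
    rw [← hy]
    obtain ⟨t, rfl⟩ := Submodule.Quotient.mk_surjective _ y
    show (Submodule.Quotient.mk (Submodule.Quotient.mk (t : A) : A ⧸ T) :
        Red (R := R) p (A ⧸ T)) = 0
    rw [(Submodule.Quotient.mk_eq_zero T).2 t.2]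
    rfl

/-- **units term**: `T ≤ A` finite, `A/T` without `p`-torsion, `A/pA` finite:
`φ (A/pA) = φ (T[p]) + φ ((A/T)/p(A/T))`. -/
theorem phi_red_of_finite_torsion (hφ : IsAddFun (R := R) p φ) [Finite ↥T]
    (htf : ∀ x : A ⧸ T, p • x = 0 → x = 0) [Finite (Red (R := R) p A)] :
    φ (Red (R := R) p A) =
      φ ↥(pTors (R := R) p ↥T) + φ (Red (R := R) p (A ⧸ T)) := by
  have e := hφ.add _ _ _ (redIncl (R := R) (p := p) T) (redQuot (R := R) (p := p) T)
    (redIncl_injective_of_torsionFree T htf) (redQuot_surjective T) (exact_redIncl_redQuot T)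
    inferInstance (red_smul_eq_zero p)
  rw [e, phi_tors_eq_phi_red' hφ ↥T]

end Torsion

end Fermat.Agent.GP.GW.TorsionQuot
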