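/-
GATE-P / S56 [P-GW], node GW-1c auxiliary (helper19): **right exactness of `H³_c`.**

For `φ : N ⟶ N''` surjective between finite-dimensional discrete `F_p[G_ℚ]`-modules,
`H³_c(N) → H³_c(N'')` is ONTO: `P²(N'') ↠ H³_c(N'')` because `H³(G_S, N'') = 0`, and
`P²(N) ↠ P²(N'')` because the local groups have cohomological dimension `2` (helper68 `LocH3`).
-/
import Mathlib
import Fermat.Agent.GC.Prof.ConeLCNat
import Fermat.Agent.GP.GW.LocH3
import Fermat.Agent.GP.GW.NineTermExport

set_option autoImplicit false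

open CategoryTheory Module

noncomputable section

namespace Fermat.Agent.GP.GW.H30Aux

open Fermat.Agent.GC.Prof Fermat.Agent.GC.Prof.Cone Fermat.Agent.GC.PT
  Fermat.Agent.GC.PT.Triples Fermat.Agent.GC.PT.LocDataQ Fermat.Agent.GC.PT.MainInst
  Fermat.Agent.GC.C0 ExtCitation groupCohomology Fermat.Agent.GP.GW

variable {p : ℕ} [Fact p.Prime] {S : Finset Nat.Primes}
variable [IsDiscrete (levelS S) (TChi p)]

/-- **`H³_c(N) → H³_c(N'')` is onto** for `φ : N ⟶ N''` surjective. -/
theorem HlcCMap_three_surjective (Δ : PTData (p := p) S) (hpS : pPrime p ∈ S)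
    {N N'' : Rep (ZMod p) GQ} [FiniteDimensional (ZMod p) N] [FiniteDimensional (ZMod p) N'']
    [IsDiscrete (levelS S) N] [IsDiscrete (levelS S) N''] (φ : N ⟶ N'')
    (hφ : Function.Surjective φ.hom) :
    Function.Surjective (HlcCMap (locDataQ S) φ 3).hom := by
  intro z
  have h3 : Limits.IsZero (Hlc (levelS S) N'' 3) := by
    rw [ModuleCat.isZero_iff_subsingleton]
    exact NineTermExport.subsingleton_hlc_three Δ hpS N''
  obtain ⟨b'', rfl⟩ := surjective_HlcCBdry_two (L := locDataQ S) N'' h3 z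
  obtain ⟨b, hb⟩ := LocH3.locDataQ_pi_HlcMap_two_surjective S φ hφ b''
  refine ⟨HlcCBdry (locDataQ S) N 2 b, ?_⟩
  have h := HlcCMap_HlcCBdry (locDataQ S) φ 2 b
  refine h.trans ?_
  congr 1
  funext v
  exact hb v

end Fermat.Agent.GP.GW.H30Aux
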