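/-
GATE-P (S56) / node [P-GW], leaf GW-1c, DIRECT route (helper18; hedge for helper2's `H30.lean`):

**`h30 : H³_c(N) × H⁰(N*) → k` is RIGHT non-degenerate for every finite-dimensional discrete `N`**
(`NineTerm.H30Right Δ.D N N* ev _`), from `Δ : PTData S` by a one-place argument:

for `y ∈ H⁰(N*)` with `h30 x y = 0` for all `x`, take `x = ∂ (single_v β)`, `β ∈ H²(G_v, N)`:
`0 = h30 (∂ b) y = lam20 b (loc⁰ y) = τ (single_v (β ∪ loc_v y))`  (`E.e30`, `hLam`), hence
`β ∪ loc_v y = 0` for all `β` (`Δ.hI v`).  Locally `c = loc_v y` is an invariant `n` of `N*|G_v`,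
i.e. a `G_v`-map `N → k(χ)`, and `β ∪ c = n_* β` (`HlcCup_two_zero`, `HlcMap_Hlc2π`).  If `n ≠ 0`
then `n` is onto, so `n_*` is onto `H²(G_v, k(χ))` (`LocH3`: `H³(G_v, -) = 0`), which is a line
(`finrank_Hlc_two_chiQ`), a contradiction.  So `loc_v y = 0` for every `v`, and `y = 0`.
-/
import Mathlib
import Fermat.Agent.GP.GW.NineTermFinal
import Fermat.Agent.GP.GW.LocH3
import Fermat.Agent.GC.Local.Hilbert.CupLow
import Fermat.Agent.GC.Prof.LowMap
import Fermat.Agent.GC.Places.LocalNumLam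

set_option autoImplicit false

noncomputable section

namespace Fermat.Agent.GP.GW.H30Direct

open Fermat.Agent.GC.Prof Fermat.Agent.GC.Prof.Cone Fermat.Agent.GC.PT
  Fermat.Agent.GC.PT.Triples Fermat.Agent.GC.PT.LocDataQ Fermat.Agent.GC.PT.MainInst
  groupCohomology CategoryTheory ExtCitation Module Fermat.Agent.GC.C0 Fermat.Agent.GP.GW
  Fermat.Agent.GP.GW.NineTerm Fermat.Agent.GP.GW.NineTermQ Fermat.Agent.GP.GW.NineTermFinal
  Fermat.Agent.GC.Local.Hilbert

open Fermat.Agent.GC.Prof.Cup (Equivariant)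

/-! ### Cup product with a class of degree `0` is the induced map -/

section CupZero

universe u

variable {k G : Type u} [CommRing k] [Group G] (𝒰 : LevelSystem G)
variable {M N P : Rep.{u} k G} [IsDiscrete 𝒰 M] [IsDiscrete 𝒰 N] [IsDiscrete 𝒰 P]
  {B : M →ₗ[k] N →ₗ[k] P} (hB : Equivariant M.ρ N.ρ P.ρ B)

include hB in
omit [IsDiscrete 𝒰 M] [IsDiscrete 𝒰 N] [IsDiscrete 𝒰 P] in
theorem cupHom_comm (n : N.ρ.invariants) (g : G) (m : M) :
    B (M.ρ g m) (n : N) = P.ρ g (B m (n : N)) := by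
  have h := hB g m (n : N)
  rw [n.2 g] at h
  exact h

/-- The morphism `M ⟶ P`, `m ↦ B m n`, for an invariant `n` of `N`. -/
def cupHom (n : N.ρ.invariants) : M ⟶ P :=
  Rep.ofHom ⟨B.flip (n : N), fun g => by
    ext m
    exact cupHom_comm hB n g m⟩

omit [IsDiscrete 𝒰 M] [IsDiscrete 𝒰 N] [IsDiscrete 𝒰 P] in
@[simp]
theorem cupHom_hom_apply (n : N.ρ.invariants) (m : M) :
    (cupHom hB n).hom m = B m (n : N) := rfl

/-- **`x ∪ [n] = (m ↦ B m n)_* x`** in bidegree `(2,0)`. -/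
theorem HlcCup_two_zero_eq_map (n : N.ρ.invariants) (x : Hlc 𝒰 M 2) :
    HlcCup 𝒰 B hB (rfl : 2 + 0 = 2) x ((Hlc0Equiv 𝒰 N).symm n) =
      HlcMap 𝒰 (cupHom hB n) 2 x := by
  obtain ⟨z, rfl⟩ := Hlc2π_surjective 𝒰 M x
  rw [HlcCup_two_zero 𝒰 hB z n, HlcMap_Hlc2π]
  congr 1
  apply Subtype.ext
  funext x
  show B ((z : G × G → M) x) (N.ρ (x.1 * x.2) (n : N)) = B ((z : G × G → M) x) (n : N)
  rw [n.2]

end CupZero

/-! ### Local right non-degeneracy in bidegree `(2,0)` over `G_{ℚ_q}` -/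

section Local

open Fermat.Agent.GC.Local.Abs Fermat.Agent.GC.Local Fermat.Agent.GC.Local.KR
  Fermat.Agent.GC.Places

variable (q : ℕ) [Fact q.Prime] (p : ℕ) [Fact p.Prime]
variable {A A' T : Rep (ZMod p) (Gq q)} [FiniteDimensional (ZMod p) A]
  [IsDiscrete (levelQ q) A] [IsDiscrete (levelQ q) A'] [IsDiscrete (levelQ q) T]
  {B : A →ₗ[ZMod p] A' →ₗ[ZMod p] T} (hB : Equivariant A.ρ A'.ρ T.ρ B)

/-- If `T` is a line with `H²(G_{ℚ_q}, T) ≠ 0` and `B : A × A' → T` is right non-degenerate on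
the modules, then the cup product `H²(A) × H⁰(A') → H²(T)` is right non-degenerate. -/
theorem local_right_nondeg (hT : Module.finrank (ZMod p) T = 1)
    (hT2 : Nontrivial (Hlc (levelQ q) T 2))
    (hnd : ∀ a' : A', (∀ a : A, B a a' = 0) → a' = 0)
    (c : Hlc (levelQ q) A' 0)
    (hc : ∀ β : Hlc (levelQ q) A 2,
      HlcCup (levelQ q) B hB (rfl : 2 + 0 = 2) β c = 0) : c = 0 := by
  by_contra hne
  set n := Hlc0Equiv (levelQ q) A' c with hn
  have hcn : c = (Hlc0Equiv (levelQ q) A').symm n := by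
    rw [hn, LinearEquiv.symm_apply_apply]
  have hn0 : (n : A') ≠ 0 := by
    intro h0
    apply hne
    have h1 : n = 0 := Subtype.ext h0
    rw [hcn, h1, map_zero]
  obtain ⟨a, ha⟩ : ∃ a : A, B a (n : A') ≠ 0 := by
    by_contra hall
    exact hn0 (hnd _ fun a => by_contra fun h => hall ⟨a, h⟩)
  have hsurj : Function.Surjective (cupHom hB n).hom := by
    intro t
    obtain ⟨r, hr⟩ := (finrank_eq_one_iff_of_nonzero' (B a (n : A')) ha).1 hT t
    refine ⟨r • a, ?_⟩
    rw [map_smul]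
    exact hr
  have hs2 := LocH3.HlcMap_two_surjective_of_surjective q p (cupHom hB n) hsurj
  obtain ⟨t, ht⟩ := exists_ne (0 : Hlc (levelQ q) T 2)
  obtain ⟨β, hβ⟩ := hs2 t
  apply ht
  rw [← hβ]
  have h := hc β
  rw [hcn, HlcCup_two_zero_eq_map] at h
  exact h

end Local

/-! ### The global statement -/

section Main

variable {p : ℕ} [Fact p.Prime] {S : Finset Nat.Primes}
variable [IsDiscrete (levelS S) (TChi p)] (Δ : PTData (p := p) S) (hpS : pPrime p ∈ S)
  (N : Rep (ZMod p) GQ) [FiniteDimensional (ZMod p) N] [IsDiscrete (levelS S) N]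
  [IsDiscrete (levelS S) (N.dualTwist (cycloChar p))]

attribute [local instance] Fermat.Agent.GC.PT.LocDataQ.factPrimeOfPrimes

open Fermat.Agent.GC.Local.Abs Fermat.Agent.GC.Local Fermat.Agent.GC.Local.KR
  Fermat.Agent.GC.Places Fermat.Agent.GC.Places.LocalNum

/-- `dim H²(G_v, k(χ)) = 1` for `v ∈ S`. -/
theorem finrank_Hlc_two_TChi : ∀ v : (locDataQ S).ι,
    Module.finrank (ZMod p)
      (Hlc ((locDataQ S).𝒰v v) (Rep.res ((locDataQ S).r v) (TChi p)) 2) = 1 :=
  fun (v : ↥S) =>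
    haveI := isDiscrete_chiRep_chiQ p ((v : Nat.Primes) : ℕ)
    finrank_Hlc_two_chiQ p ((v : Nat.Primes) : ℕ)

/-- `H²(G_v, k(χ)) ≠ 0` for `v ∈ S`. -/
theorem nontrivial_Hlc_two_TChi (v : (locDataQ S).ι) :
    Nontrivial (Hlc ((locDataQ S).𝒰v v) (Rep.res ((locDataQ S).r v) (TChi p)) 2) :=
  Module.nontrivial_of_finrank_pos (R := ZMod p) (by
    rw [finrank_Hlc_two_TChi v]
    exact one_pos)

/-- **Local right non-degeneracy at `v ∈ S`**: if `β ∪ c = 0` for every `β ∈ H²(G_v, N)` then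
`c = 0` (`c ∈ H⁰(G_v, N*)`). -/
theorem local_right_nondeg_ev : ∀ (v : (locDataQ S).ι)
    (c : Hlc ((locDataQ S).𝒰v v) (Rep.res ((locDataQ S).r v) (N.dualTwist (cycloChar p))) 0)
    (_ : ∀ β : Hlc ((locDataQ S).𝒰v v) (Rep.res ((locDataQ S).r v) N) 2,
      HlcCup ((locDataQ S).𝒰v v)
        (locB (locDataQ S) (toChi (cycloChar p) (evB (cycloChar p) N)) v)
        (equivariant_locB (locDataQ S)
          (equivariant_toChi (isChiPairing_evB (cycloChar p) N)) v)
        (show 2 + 0 = 2 from rfl) β c = 0), c = 0 :=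
  fun (v : ↥S) c hc => by
    have hfd : FiniteDimensional (ZMod p)
        (Rep.res (localGaloisToGlobal ((v : Nat.Primes) : ℕ)) N) :=
      inferInstanceAs (FiniteDimensional (ZMod p) N)
    have d1 : IsDiscrete (levelQ ((v : Nat.Primes) : ℕ))
        (Rep.res (localGaloisToGlobal ((v : Nat.Primes) : ℕ)) N) :=
      isDiscrete_res_localGaloisToGlobal S _ N
    have d2 : IsDiscrete (levelQ ((v : Nat.Primes) : ℕ))
        (Rep.res (localGaloisToGlobal ((v : Nat.Primes) : ℕ)) (N.dualTwist (cycloChar p))) :=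
      isDiscrete_res_localGaloisToGlobal S _ (N.dualTwist (cycloChar p))
    have d3 : IsDiscrete (levelQ ((v : Nat.Primes) : ℕ))
        (Rep.res (localGaloisToGlobal ((v : Nat.Primes) : ℕ)) (TChi p)) :=
      isDiscrete_res_localGaloisToGlobal S _ (TChi p)
    have hT : Module.finrank (ZMod p)
        (Rep.res (localGaloisToGlobal ((v : Nat.Primes) : ℕ)) (TChi p)) = 1 :=
      Module.finrank_self (ZMod p)
    exact @local_right_nondeg ((v : Nat.Primes) : ℕ) _ p _
      (Rep.res (localGaloisToGlobal ((v : Nat.Primes) : ℕ)) N)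
      (Rep.res (localGaloisToGlobal ((v : Nat.Primes) : ℕ)) (N.dualTwist (cycloChar p)))
      (Rep.res (localGaloisToGlobal ((v : Nat.Primes) : ℕ)) (TChi p)) hfd d1 d2 d3
      (locB (locDataQ S) (toChi (cycloChar p) (evB (cycloChar p) N)) v)
      (equivariant_locB (locDataQ S) (equivariant_toChi (isChiPairing_evB (cycloChar p) N)) v)
      hT (nontrivial_Hlc_two_TChi v)
      (fun f hf => LinearMap.ext fun m => hf m) c hc

include Δ hpS in
/-- **GW-1c**: `h30 : H³_c(N) × H⁰(N*) → k` is right non-degenerate, for EVERY finite-dimensional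
discrete `N`. -/
theorem h30Right : H30Right Δ.D N (N.dualTwist (cycloChar p)) (evB (cycloChar p) N)
    (isChiPairing_evB (cycloChar p) N) := by
  have : Nonempty (locDataQ S).ι := nonempty_locDataQ S ⟨_, hpS⟩
  unfold H30Right
  rw [injective_iff_map_eq_zero]
  intro y hy
  have hy' : ∀ x, g30 Δ.D N (N.dualTwist (cycloChar p)) (evB (cycloChar p) N)
      (isChiPairing_evB (cycloChar p) N) x y = 0 := fun x => by
    have h := congr($hy x)
    rwa [LinearMap.flip_apply] at h
  apply injective_locRes_zero (L := locDataQ S) (N.dualTwist (cycloChar p))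
  rw [map_zero]
  funext v
  apply local_right_nondeg_ev N v
  intro β
  have h1 := hy' (HlcCBdry (locDataQ S) N 2 (Pi.single v β))
  rw [g_e30 N (N.dualTwist (cycloChar p)) (evB (cycloChar p) N)
    (isChiPairing_evB (cycloChar p) N) Δ.E, Δ.hLam.2.2] at h1
  have h2 : (fun w => HlcCup ((locDataQ S).𝒰v w)
      (locB (locDataQ S) (toChi (cycloChar p) (evB (cycloChar p) N)) w)
      (equivariant_locB (locDataQ S)
        (equivariant_toChi (isChiPairing_evB (cycloChar p) N)) w)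
      (show 2 + 0 = 2 from rfl) ((Pi.single v β :
        ∀ w, Hlc ((locDataQ S).𝒰v w) (Rep.res ((locDataQ S).r w) N) 2) w)
      (locRes (locDataQ S) (N.dualTwist (cycloChar p)) 0 y w)) =
      Pi.single v (HlcCup ((locDataQ S).𝒰v v)
        (locB (locDataQ S) (toChi (cycloChar p) (evB (cycloChar p) N)) v)
        (equivariant_locB (locDataQ S)
          (equivariant_toChi (isChiPairing_evB (cycloChar p) N)) v)
        (show 2 + 0 = 2 from rfl) β
        (locRes (locDataQ S) (N.dualTwist (cycloChar p)) 0 y v)) := by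
    funext w
    by_cases h : w = v
    · subst h
      rw [Pi.single_eq_same, Pi.single_eq_same]
    · rw [Pi.single_eq_of_ne h, Pi.single_eq_of_ne h, map_zero, LinearMap.zero_apply]
  rw [h2] at h1
  refine Δ.hI v ?_
  show Δ.τ (Pi.single v _) = Δ.τ (Pi.single v 0)
  rw [h1, Pi.single_zero, map_zero]

end Main

end Fermat.Agent.GP.GW.H30Direct
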