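/-
GATE-P / S56 [SEL] node S56-SEL-LOCALDICT (helper48; GO by helper98, board 4187 (3)).

**The local dictionary at `P := padicPlace q`** (helper98 4098 (F4)): cocycle FUNCTIONS on the frozen
decomposition group `D_P ≤ G_ℚ` versus the pinned local model
`Hlc (levelQ q) (Rep.res (localGaloisToGlobal q) N) 1` over `Gq q = Gal(PadicAlgCl q / ℚ_q)`.
Generic in the coefficient ring `k` and in `N : Rep k G_ℚ`; built on helper29's
`GP/Loc/PadicPlace.eqDP : Gq q ≃* D_P` and helper78's `GC/Prof/Low`, `GC/Prof/LowMap`.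

* `DP q`                : `D_P = (padicPlace q).decompositionSubgroup ℚ`;
* `IsLevelConstDP q c`  : `c : D_P → X` is right-invariant under `D_P ∩ Gal(ℚ̄/L)`, `L/ℚ` finite;
* `fnLoc q N`           : the `k`-submodule of `D_P → N` of level-constant `1`-cocycles
                          (`c (g * h) = N.ρ g (c h) + c g`, Mathlib's convention);
* **`localDict q N : fnLoc q N ≃ₗ[k] lcCocycles₁ (levelQ q) (Rep.res (localGaloisToGlobal q) N)`**,
  `c ↦ c ∘ eqDP q`  (`localDict_apply`, `localDict_symm_apply`);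
* `fnLocCob q N x`      : the coboundary `σ ↦ N.ρ σ x - x` as an element of `fnLoc`;
  `localDict_fnLocCob`, `localDict_mem_coboundaries₁_iff`;
* **`fnLocClass q N : fnLoc q N →ₗ[k] Hlc (levelQ q) (Rep.res (localGaloisToGlobal q) N) 1`**,
  `fnLocClass_surjective`, `fnLocClass_eq_zero_iff` (class `0` ⟺ `c σ = N.ρ σ x - x`),
  `fnLocClass_eq_iff`;
* `resDP q N z hz hlc`  : a global cocycle function `z : G_ℚ → N`, constant on the cosets of
  `Gal(ℚ̄/L)`, restricted to `D_P`, as an element of `fnLoc`; `resDPOfLC` for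
  `z ∈ lcCocycles₁ (levelS S) N`;
* **`locRes_Hlc1π`** : `locRes (locDataQ S) N 1 (Hlc1π (levelS S) N z) v = fnLocClass v N (z|_{D_P})`
  (compatibility with the global localisation map of the Selmer model `GP/GW/Model.lean`);
* inertia: `localDict_vanishes_on_Iq_iff` (`localDict c = 0` on helper29's `Iq q` ⟺ `c = 0` on the
  FROZEN inertia group `I_P`), `localDict_eq_cob_on_Iq_iff`;
* finite levels: `exists_normal_level` (every `c ∈ fnLoc` is right-invariant under
  `D_P ∩ Gal(ℚ̄/E)` for a finite NORMAL `E ⊇ E₀`), `apply_eq_zero_of_fixes`,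
  `apply_mul_left_of_fixes`.
NEW file; orphan until S56 lands.
-/
import Fermat.Agent.GP.Loc.PadicPlace
import Fermat.Agent.GC.Prof.LowMap
import Fermat.Agent.GC.PT.LocDataQ

set_option autoImplicit false
set_option linter.unusedSectionVars false

open CategoryTheory groupCohomology

noncomputable section

namespace Fermat.Agent.GP.GW.LocalDict

open Fermat.Agent.GC.Local.KR Fermat.Agent.GC.Places Fermat.Agent.GC.Prof Fermat.Agent.GC.C0
open Fermat.Agent.GP.Loc.PadicPlace

local notation "Qb" => AlgebraicClosure ℚ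

local instance isAlgebraicQb_ld : Algebra.IsAlgebraic ℚ (AlgebraicClosure ℚ) :=
  AlgebraicClosure.isAlgebraic ℚ
local instance isAlgClosureQb_ld : IsAlgClosure ℚ (AlgebraicClosure ℚ) :=
  ⟨inferInstance, inferInstance⟩
local instance normalQb_ld : Normal ℚ (AlgebraicClosure ℚ) :=
  IsAlgClosure.normal ℚ (AlgebraicClosure ℚ)

variable (q : ℕ) [Fact q.Prime]

/-- the frozen decomposition group `D_P`, `P := padicPlace q`. -/
abbrev DP : Subgroup GQ := (padicPlace q).decompositionSubgroup ℚ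

/-- `c : D_P → X` is constant on the right cosets of `D_P ∩ Gal(ℚ̄/L)` for some finite `L/ℚ`. -/
def IsLevelConstDP {X : Type*} (c : ↥(DP q) → X) : Prop :=
  ∃ L : IntermediateField ℚ Qb, FiniteDimensional ℚ L ∧
    ∀ g s : ↥(DP q), (∀ x ∈ L, (s : GQ) x = x) → c (g * s) = c g

variable {q}

theorem IsLevelConstDP.add {X : Type*} [Add X] {c c' : ↥(DP q) → X} (hc : IsLevelConstDP q c)
    (hc' : IsLevelConstDP q c') : IsLevelConstDP q (c + c') := by
  obtain ⟨L, hL, h⟩ := hc
  obtain ⟨L', hL', h'⟩ := hc'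
  refine ⟨L ⊔ L', inferInstance, fun g s hs => ?_⟩
  have h1 : ∀ x ∈ L, (s : GQ) x = x := fun x hx => hs x ((le_sup_left : L ≤ L ⊔ L') hx)
  have h2 : ∀ x ∈ L', (s : GQ) x = x := fun x hx => hs x ((le_sup_right : L' ≤ L ⊔ L') hx)
  show c (g * s) + c' (g * s) = c g + c' g
  rw [h g s h1, h' g s h2]

theorem IsLevelConstDP.comp {X Y : Type*} {c : ↥(DP q) → X} (hc : IsLevelConstDP q c)
    (φ : X → Y) : IsLevelConstDP q (φ ∘ c) := by
  obtain ⟨L, hL, h⟩ := hc
  exact ⟨L, hL, fun g s hs => congrArg φ (h g s hs)⟩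

theorem IsLevelConstDP.const {X : Type*} (x : X) :
    IsLevelConstDP q (fun _ : ↥(DP q) => x) :=
  ⟨⊥, inferInstance, fun _ _ _ => rfl⟩

variable (q) {k : Type} [CommRing k] (N : Rep k GQ)

/-- **level-constant `1`-cocycle functions on `D_P`** with values in `N` (Mathlib's cocycle
convention `c (g * h) = N.ρ g (c h) + c g`). -/
def fnLoc : Submodule k (↥(DP q) → N) where
  carrier := {c | (∀ g h : ↥(DP q), c (g * h) = N.ρ (g : GQ) (c h) + c g) ∧ IsLevelConstDP q c}
  add_mem' := by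
    rintro c c' ⟨hc, hl⟩ ⟨hc', hl'⟩
    refine ⟨fun g h => ?_, hl.add hl'⟩
    show c (g * h) + c' (g * h) = N.ρ (g : GQ) (c h + c' h) + (c g + c' g)
    rw [hc g h, hc' g h, map_add]
    abel
  zero_mem' := ⟨fun g h => by simp, IsLevelConstDP.const (0 : N)⟩
  smul_mem' := by
    rintro a c ⟨hc, hl⟩
    refine ⟨fun g h => ?_, hl.comp (a • ·)⟩
    show a • c (g * h) = N.ρ (g : GQ) (a • c h) + a • c g
    rw [hc g h, map_smul, smul_add]

variable {q N}

theorem mem_fnLoc_iff {c : ↥(DP q) → N} :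
    c ∈ fnLoc q N ↔
      (∀ g h : ↥(DP q), c (g * h) = N.ρ (g : GQ) (c h) + c g) ∧ IsLevelConstDP q c := Iff.rfl

theorem fnLoc_cocycle (c : fnLoc q N) (g h : ↥(DP q)) :
    (c : ↥(DP q) → N) (g * h) = N.ρ (g : GQ) ((c : ↥(DP q) → N) h) + (c : ↥(DP q) → N) g :=
  c.2.1 g h

theorem fnLoc_isLevelConst (c : fnLoc q N) : IsLevelConstDP q (c : ↥(DP q) → N) := c.2.2

theorem fnLoc_apply_one (c : fnLoc q N) : (c : ↥(DP q) → N) 1 = 0 := by
  have h := fnLoc_cocycle c 1 1
  rw [mul_one, OneMemClass.coe_one, map_one, Module.End.one_apply] at h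
  exact (add_eq_left.mp h.symm)

/-! ### The dictionary -/

/-- pull-back of a level-constant cocycle function on `D_P` to `Gq q`. -/
theorem comp_eqDP_mem (c : fnLoc q N) :
    (fun τ : Gq q => (c : ↥(DP q) → N) (eqDP q τ)) ∈
      lcCocycles₁ (levelQ q) (Rep.res (localGaloisToGlobal q) N) := by
  refine ⟨(mem_cocycles₁_iff _).2 fun g h => ?_, ?_⟩
  · show (c : ↥(DP q) → N) (eqDP q (g * h)) = _
    rw [map_mul, fnLoc_cocycle c]
    rfl
  · obtain ⟨L, hL, h⟩ := fnLoc_isLevelConst c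
    obtain ⟨U, hU, hle⟩ := exists_mem_levelQ_le q L
    refine ⟨U, hU, fun g s hs => ?_⟩
    show (c : ↥(DP q) → N) (eqDP q (g * s)) = (c : ↥(DP q) → N) (eqDP q g)
    rw [map_mul]
    exact h _ _ (fun x hx => hle s hs x hx)

/-- push-forward of a level-constant cocycle on `Gq q` to a function on `D_P`. -/
theorem comp_eqDP_symm_mem
    (z : lcCocycles₁ (levelQ q) (Rep.res (localGaloisToGlobal q) N)) :
    (fun σ : ↥(DP q) => ((z : Gq q → N) ((eqDP q).symm σ) : N)) ∈ fnLoc q N := by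
  refine ⟨fun g h => ?_, ?_⟩
  · show (z : Gq q → N) ((eqDP q).symm (g * h)) = _
    rw [map_mul, (mem_cocycles₁_iff _).1 z.2.1]
    show N.ρ (localGaloisToGlobal q ((eqDP q).symm g)) _ + _ = _
    rw [localGaloisToGlobal_eqDP_symm]
  · obtain ⟨U, hU, h⟩ := z.2.2
    obtain ⟨L, hL, hLU⟩ := exists_level_of_mem_levelQ q hU
    refine ⟨L, hL, fun g s hs => ?_⟩
    show (z : Gq q → N) ((eqDP q).symm (g * s)) = (z : Gq q → N) ((eqDP q).symm g)
    rw [map_mul]
    refine h _ _ (hLU _ fun x hx => ?_)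
    rw [localGaloisToGlobal_eqDP_symm]
    exact hs x hx

variable (q N)

/-- **the local dictionary**: level-constant cocycle functions on `D_P` ≃ level-constant
`1`-cocycles of the pinned local model. -/
def localDict :
    fnLoc q N ≃ₗ[k] lcCocycles₁ (levelQ q) (Rep.res (localGaloisToGlobal q) N) where
  toFun c := ⟨fun τ : Gq q => (c : ↥(DP q) → N) (eqDP q τ), comp_eqDP_mem c⟩
  invFun z := ⟨fun σ : ↥(DP q) => ((z : Gq q → N) ((eqDP q).symm σ) : N), comp_eqDP_symm_mem z⟩
  map_add' c c' := rfl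
  map_smul' a c := rfl
  left_inv c := by
    apply Subtype.ext
    funext σ
    show (c : ↥(DP q) → N) (eqDP q ((eqDP q).symm σ)) = _
    rw [MulEquiv.apply_symm_apply]
  right_inv z := by
    apply Subtype.ext
    funext τ
    show (z : Gq q → N) ((eqDP q).symm (eqDP q τ)) = _
    rw [MulEquiv.symm_apply_apply]

variable {q N}

@[simp] theorem localDict_apply (c : fnLoc q N) (τ : Gq q) :
    (localDict q N c : Gq q → N) τ = (c : ↥(DP q) → N) (eqDP q τ) := rfl

@[simp] theorem localDict_symm_apply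
    (z : lcCocycles₁ (levelQ q) (Rep.res (localGaloisToGlobal q) N)) (σ : ↥(DP q)) :
    (((localDict q N).symm z : fnLoc q N) : ↥(DP q) → N) σ =
      (z : Gq q → N) ((eqDP q).symm σ) := rfl

/-! ### Coboundaries and classes -/

section Classes

variable [IsDiscrete (levelQ q) (Rep.res (localGaloisToGlobal q) N)]

/-- the stabiliser of `x : N` contains `D_P ∩ Gal(ℚ̄/L)` for a finite `L/ℚ`. -/
theorem exists_level_fix (x : N) :
    ∃ L : IntermediateField ℚ Qb, FiniteDimensional ℚ L ∧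
      ∀ s : ↥(DP q), (∀ y ∈ L, (s : GQ) y = y) → N.ρ (s : GQ) x = x := by
  obtain ⟨U, hU, hfix⟩ := IsDiscrete.exists_fix (𝒰 := levelQ q)
    (M := Rep.res (localGaloisToGlobal q) N) x
  obtain ⟨L, hL, hLU⟩ := exists_level_of_mem_levelQ q hU
  refine ⟨L, hL, fun s hs => ?_⟩
  have h1 : (eqDP q).symm s ∈ U := hLU _ fun y hy => by
    rw [localGaloisToGlobal_eqDP_symm]
    exact hs y hy
  have h2 := hfix _ h1
  have h3 : N.ρ (localGaloisToGlobal q ((eqDP q).symm s)) x = x := h2
  rwa [localGaloisToGlobal_eqDP_symm] at h3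

variable (q N)

/-- the coboundary `σ ↦ N.ρ σ x - x` on `D_P`. -/
def fnLocCob (x : N) : fnLoc q N :=
  ⟨fun σ : ↥(DP q) => N.ρ (σ : GQ) x - x, by
    refine ⟨fun g h => ?_, ?_⟩
    · show N.ρ ((g * h : ↥(DP q)) : GQ) x - x = N.ρ (g : GQ) (N.ρ (h : GQ) x - x) + (N.ρ (g : GQ) x - x)
      rw [Subgroup.coe_mul, map_mul, Module.End.mul_apply, map_sub]
      abel
    · obtain ⟨L, hL, h⟩ := exists_level_fix (q := q) (N := N) x
      refine ⟨L, hL, fun g s hs => ?_⟩
      show N.ρ ((g * s : ↥(DP q)) : GQ) x - x = N.ρ (g : GQ) x - x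
      rw [Subgroup.coe_mul, map_mul, Module.End.mul_apply, h s hs]⟩

variable {q N}

@[simp] theorem fnLocCob_apply (x : N) (σ : ↥(DP q)) :
    ((fnLocCob q N x : fnLoc q N) : ↥(DP q) → N) σ = N.ρ (σ : GQ) x - x := rfl

theorem localDict_fnLocCob (x : N) :
    (localDict q N (fnLocCob q N x) : Gq q → N) =
      (d₀₁ (Rep.res (localGaloisToGlobal q) N)).hom x := by
  funext τ
  rw [d₀₁_hom_apply]
  rfl

/-- coboundaries correspond under the dictionary. -/
theorem localDict_mem_coboundaries₁_iff (c : fnLoc q N) :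
    (localDict q N c : Gq q → N) ∈ coboundaries₁ (Rep.res (localGaloisToGlobal q) N) ↔
      ∃ x : N, ∀ σ : ↥(DP q), (c : ↥(DP q) → N) σ = N.ρ (σ : GQ) x - x := by
  constructor
  · rintro ⟨x, hx⟩
    refine ⟨x, fun σ => ?_⟩
    have h1 := congrFun hx ((eqDP q).symm σ)
    rw [d₀₁_hom_apply] at h1
    have h2 : (localDict q N c : Gq q → N) ((eqDP q).symm σ) = (c : ↥(DP q) → N) σ := by
      rw [localDict_apply, MulEquiv.apply_symm_apply]
    rw [← h2, ← h1]
    show N.ρ (localGaloisToGlobal q ((eqDP q).symm σ)) x - x = N.ρ (σ : GQ) x - x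
    rw [localGaloisToGlobal_eqDP_symm]
  · rintro ⟨x, hx⟩
    refine ⟨x, ?_⟩
    funext τ
    rw [d₀₁_hom_apply, localDict_apply, hx]
    rfl

variable (q N)

/-- **the class map** of the dictionary: a level-constant cocycle function on `D_P` ↦ its class in
the pinned local cohomology group. -/
def fnLocClass : fnLoc q N →ₗ[k] Hlc (levelQ q) (Rep.res (localGaloisToGlobal q) N) 1 :=
  (Hlc1π (levelQ q) (Rep.res (localGaloisToGlobal q) N)).comp (localDict q N).toLinearMap

variable {q N}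

theorem fnLocClass_apply (c : fnLoc q N) :
    fnLocClass q N c = Hlc1π (levelQ q) (Rep.res (localGaloisToGlobal q) N) (localDict q N c) :=
  rfl

theorem fnLocClass_surjective : Function.Surjective (fnLocClass q N) :=
  (Hlc1π_surjective (levelQ q) (Rep.res (localGaloisToGlobal q) N)).comp
    (localDict q N).surjective

/-- class `0` ⟺ coboundary on `D_P`. -/
theorem fnLocClass_eq_zero_iff (c : fnLoc q N) :
    fnLocClass q N c = 0 ↔
      ∃ x : N, ∀ σ : ↥(DP q), (c : ↥(DP q) → N) σ = N.ρ (σ : GQ) x - x := by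
  rw [fnLocClass_apply, Hlc1π_eq_zero_iff, localDict_mem_coboundaries₁_iff]

theorem fnLocClass_fnLocCob (x : N) : fnLocClass q N (fnLocCob q N x) = 0 :=
  (fnLocClass_eq_zero_iff _).2 ⟨x, fun _ => rfl⟩

/-- equal classes ⟺ the functions differ by a coboundary on `D_P`. -/
theorem fnLocClass_eq_iff (c c' : fnLoc q N) :
    fnLocClass q N c = fnLocClass q N c' ↔
      ∃ x : N, ∀ σ : ↥(DP q),
        (c : ↥(DP q) → N) σ = (c' : ↥(DP q) → N) σ + (N.ρ (σ : GQ) x - x) := by
  rw [← sub_eq_zero, ← map_sub, fnLocClass_eq_zero_iff]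
  refine exists_congr fun x => forall_congr' fun σ => ?_
  show (c : ↥(DP q) → N) σ - (c' : ↥(DP q) → N) σ = _ ↔ _
  rw [sub_eq_iff_eq_add']

/-- the kernel of the class map is the image of `fnLocCob`. -/
theorem ker_fnLocClass :
    LinearMap.ker (fnLocClass q N) = Submodule.span k (Set.range (fnLocCob q N)) := by
  apply le_antisymm
  · intro c hc
    obtain ⟨x, hx⟩ := (fnLocClass_eq_zero_iff c).1 hc
    have : c = fnLocCob q N x := Subtype.ext (funext hx)
    rw [this]
    exact Submodule.subset_span ⟨x, rfl⟩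
  · rw [Submodule.span_le]
    rintro _ ⟨x, rfl⟩
    exact fnLocClass_fnLocCob x

end Classes

/-! ### Restriction of global cocycle functions, compatibility with `locRes` -/

section Global

variable (q N)

/-- a global cocycle function `z : G_ℚ → N`, constant on the cosets of `Gal(ℚ̄/L)` (`L/ℚ`
finite), restricted to `D_P`. -/
def resDP (z : GQ → N) (hz : ∀ g h : GQ, z (g * h) = N.ρ g (z h) + z g)
    (hl : ∃ L : IntermediateField ℚ Qb, FiniteDimensional ℚ L ∧
      ∀ g s : GQ, (∀ x ∈ L, s x = x) → z (g * s) = z g) : fnLoc q N :=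
  ⟨fun σ : ↥(DP q) => z (σ : GQ), fun g h => hz g h, by
    obtain ⟨L, hL, h⟩ := hl
    exact ⟨L, hL, fun g s hs => h g s hs⟩⟩

variable {q N}

@[simp] theorem resDP_apply (z : GQ → N) (hz) (hl) (σ : ↥(DP q)) :
    ((resDP q N z hz hl : fnLoc q N) : ↥(DP q) → N) σ = z (σ : GQ) := rfl

theorem localDict_resDP_apply (z : GQ → N) (hz) (hl) (τ : Gq q) :
    (localDict q N (resDP q N z hz hl) : Gq q → N) τ = z (localGaloisToGlobal q τ) := rfl

/-- a level-constant cocycle for `levelS S` is constant on the cosets of `Gal(ℚ̄/F)`, `F/ℚ`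
finite. -/
theorem exists_level_of_lcCocycles₁ {S : Finset Nat.Primes} (z : lcCocycles₁ (levelS S) N) :
    ∃ L : IntermediateField ℚ Qb, FiniteDimensional ℚ L ∧
      ∀ g s : GQ, (∀ x ∈ L, s x = x) → (z : GQ → N) (g * s) = (z : GQ → N) g := by
  obtain ⟨U, ⟨F, hF, rfl⟩, h⟩ := z.2.2
  refine ⟨F, hF.1, fun g s hs => h g s ?_⟩
  rw [IntermediateField.mem_fixingSubgroup_iff]
  exact hs

variable (q N)

/-- the restriction to `D_P` of a level-constant global cocycle. -/
def resDPOfLC {S : Finset Nat.Primes} (z : lcCocycles₁ (levelS S) N) : fnLoc q N :=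
  resDP q N (z : GQ → N) ((mem_cocycles₁_iff _).1 z.2.1) (exists_level_of_lcCocycles₁ z)

variable {q N}

@[simp] theorem resDPOfLC_apply {S : Finset Nat.Primes} (z : lcCocycles₁ (levelS S) N)
    (σ : ↥(DP q)) :
    ((resDPOfLC q N z : fnLoc q N) : ↥(DP q) → N) σ = (z : GQ → N) (σ : GQ) := rfl

end Global

/-- an index of `locDataQ S` as an element of `S` (`(locDataQ S).ι = ↥S` by `rfl`). -/
abbrev idxS (S : Finset Nat.Primes) (v : (Fermat.Agent.GC.PT.LocDataQ.locDataQ S).ι) : ↥S := v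

/-- the prime number under an index of `locDataQ S`. -/
abbrev idxPrime (S : Finset Nat.Primes) (v : (Fermat.Agent.GC.PT.LocDataQ.locDataQ S).ι) : ℕ :=
  ((idxS S v : Nat.Primes) : ℕ)

instance fact_idxPrime (S : Finset Nat.Primes) (v : (Fermat.Agent.GC.PT.LocDataQ.locDataQ S).ι) :
    Fact (idxPrime S v).Prime := ⟨(idxS S v : Nat.Primes).2⟩

instance isDiscrete_res_idxPrime (S : Finset Nat.Primes) (N : Rep k GQ) [IsDiscrete (levelS S) N]
    (v : (Fermat.Agent.GC.PT.LocDataQ.locDataQ S).ι) :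
    IsDiscrete (levelQ (idxPrime S v)) (Rep.res (localGaloisToGlobal (idxPrime S v)) N) :=
  isDiscrete_res_localGaloisToGlobal S (idxPrime S v) N

/-- **compatibility with the global localisation map**: the `v`-component of `locRes` of the class
of a level-constant global cocycle `z` is the class of `z|_{D_P}`, `P = padicPlace v`
(`v : (locDataQ S).ι = ↥S`; both sides live in `Hloc S N v 1` of `GP/GW/Model.lean`). -/
theorem locRes_Hlc1π (S : Finset Nat.Primes) (N : Rep k GQ) [IsDiscrete (levelS S) N]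
    (z : lcCocycles₁ (levelS S) N) (v : (Fermat.Agent.GC.PT.LocDataQ.locDataQ S).ι) :
    Cone.locRes (Fermat.Agent.GC.PT.LocDataQ.locDataQ S) N 1 (Hlc1π (levelS S) N z) v =
      fnLocClass (idxPrime S v) N (resDPOfLC (idxPrime S v) N z) := by
  refine (Cone.locRes_apply (Fermat.Agent.GC.PT.LocDataQ.locDataQ S) N 1 _ v).trans ?_
  refine (HlcPull_Hlc1π ((Fermat.Agent.GC.PT.LocDataQ.locDataQ S).cont v)
    (𝟙 (Rep.res ((Fermat.Agent.GC.PT.LocDataQ.locDataQ S).r v) N)) z).trans ?_
  rfl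

/-! ### Inertia: the frozen `I_P` versus helper29's `Iq q` -/

section Inertia

/-- the dictionary image of `c` vanishes on `Iq q` ⟺ `c` vanishes on the FROZEN inertia group
`I_P = (padicPlace q).inertiaSubgroupIn ℚ`. -/
theorem localDict_vanishes_on_Iq_iff (c : fnLoc q N) :
    (∀ τ ∈ Iq q, (localDict q N c : Gq q → N) τ = 0) ↔
      ∀ σ : ↥(DP q), (σ : GQ) ∈ (padicPlace q).inertiaSubgroupIn ℚ →
        (c : ↥(DP q) → N) σ = 0 := by
  constructor
  · intro h σ hσ
    have h1 : (eqDP q).symm σ ∈ Iq q := by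
      rw [mem_Iq_iff, localGaloisToGlobal_eqDP_symm]
      exact hσ
    have h2 := h _ h1
    rwa [localDict_apply, MulEquiv.apply_symm_apply] at h2
  · intro h τ hτ
    rw [localDict_apply]
    exact h _ ((mem_Iq_iff q τ).1 hτ)

/-- the dictionary image of `c` agrees on `Iq q` with the coboundary of `x` ⟺ `c` agrees with it
on the frozen inertia group. -/
theorem localDict_eq_cob_on_Iq_iff (c : fnLoc q N) (x : N) :
    (∀ τ ∈ Iq q, (localDict q N c : Gq q → N) τ =
        (Rep.res (localGaloisToGlobal q) N).ρ τ x - x) ↔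
      ∀ σ : ↥(DP q), (σ : GQ) ∈ (padicPlace q).inertiaSubgroupIn ℚ →
        (c : ↥(DP q) → N) σ = N.ρ (σ : GQ) x - x := by
  constructor
  · intro h σ hσ
    have h1 : (eqDP q).symm σ ∈ Iq q := by
      rw [mem_Iq_iff, localGaloisToGlobal_eqDP_symm]
      exact hσ
    have h2 := h _ h1
    rw [localDict_apply, MulEquiv.apply_symm_apply] at h2
    rw [h2]
    show N.ρ (localGaloisToGlobal q ((eqDP q).symm σ)) x - x = _
    rw [localGaloisToGlobal_eqDP_symm]
  · intro h τ hτ
    rw [localDict_apply, h _ ((mem_Iq_iff q τ).1 hτ)]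
    rfl

end Inertia

/-! ### Finite levels -/

section FiniteLevel

/-- every `c ∈ fnLoc` is right-invariant under `D_P ∩ Gal(ℚ̄/E)` for a finite NORMAL extension
`E/ℚ` containing any prescribed finite `E₀`. -/
theorem exists_normal_level (c : fnLoc q N) (E₀ : IntermediateField ℚ Qb)
    [FiniteDimensional ℚ E₀] :
    ∃ E : IntermediateField ℚ Qb, FiniteDimensional ℚ E ∧ Normal ℚ E ∧ E₀ ≤ E ∧
      ∀ g s : ↥(DP q), (∀ x ∈ E, (s : GQ) x = x) →
        (c : ↥(DP q) → N) (g * s) = (c : ↥(DP q) → N) g := by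
  obtain ⟨L, hL, h⟩ := fnLoc_isLevelConst c
  refine ⟨IntermediateField.normalClosure ℚ (L ⊔ E₀ : IntermediateField ℚ Qb) Qb,
    inferInstance, normalClosure.normal ℚ _ Qb, ?_, fun g s hs => h g s fun x hx => ?_⟩
  · exact le_sup_right.trans (IntermediateField.le_normalClosure _)
  · exact hs x ((IntermediateField.le_normalClosure _) ((le_sup_left : L ≤ L ⊔ E₀) hx))

/-- a cocycle which is right-invariant under `s` vanishes at `s`. -/
theorem apply_eq_zero_of_right_inv (c : fnLoc q N) (s : ↥(DP q))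
    (hs : ∀ g : ↥(DP q), (c : ↥(DP q) → N) (g * s) = (c : ↥(DP q) → N) g) :
    (c : ↥(DP q) → N) s = 0 := by
  have := hs 1
  rwa [one_mul, fnLoc_apply_one] at this

/-- if moreover `s` acts trivially on `N`, the cocycle is also LEFT-invariant under `s`: it factors
through the finite quotient. -/
theorem apply_mul_left_of_fixes (c : fnLoc q N) (s : ↥(DP q))
    (hs : ∀ g : ↥(DP q), (c : ↥(DP q) → N) (g * s) = (c : ↥(DP q) → N) g)
    (hN : N.ρ (s : GQ) = 1) (g : ↥(DP q)) :
    (c : ↥(DP q) → N) (s * g) = (c : ↥(DP q) → N) g := by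
  rw [fnLoc_cocycle, hN, Module.End.one_apply, apply_eq_zero_of_right_inv c s hs, add_zero]

end FiniteLevel

end Fermat.Agent.GP.GW.LocalDict
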