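/-
GATE-P (S56) / [P-GW] leaf S56-GW-FORMULAABS, part 3 (helper7): **CARDINALITY form of the consumer
inequality** — the shape eaten by `GP/Core/CoreAbs.twGate_of_abstract` (`|T_Q| ≤ D_Q * |k|^{|Q|}`)
and produced by the local nodes (`#L_v ≤ #H⁰_v * c_v`).

From `(PRE)` (`PreEuler M Δ L`) and `(TATE)` (`TateLe S M*`) of `GP/GW/Model.lean`, `p` odd:

* `natCard_mul_le` :
  `#Sel_L(M) * ∏_v #H⁰_v(M) * #H⁰(M*) * #M^{c=1} ≤ #Sel_{L^⊥}(M*) * #H⁰(M) * ∏_v #L_v`;
* `natCard_selmer_mul_conj_le` : with local ratio bounds `#L_v ≤ #H⁰_v(M) * c_v` and `h⁰(M) = 0`: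
  `#Sel_L(M) * #M^{c=1} ≤ #Sel_{L^⊥}(M*) * ∏_v c_v`;
* `natCard_selmer_le_mul_pow` : if moreover `∏_v c_v ≤ #M^{c=1} * B`, then
  `#Sel_L(M) ≤ #Sel_{L^⊥}(M*) * B`  (for S56: `c_v = 1` at `v ∈ Σ∖{p}`, `c_p = |k|`,
  `c_q = |k|` at the Taylor–Wiles primes, `#M^{c=1} = |k|`, so `B = |k|^{|Q|}`).
-/
import Mathlib
import Fermat.Agent.GP.GW.ModelConj

set_option autoImplicit false

namespace Fermat.Agent.GP.GW.ModelCard

open Fermat.Agent.GC.Prof Fermat.Agent.GC.Prof.Cone Fermat.Agent.GC.PT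
  Fermat.Agent.GC.PT.LocDataQ Fermat.Agent.GC.PT.MainInst groupCohomology CategoryTheory
  ExtCitation Module Fermat.Agent.GC.C0 Fermat.Agent.GC.PT.Triples Fermat.Agent.GP.GW

noncomputable section

variable {p : ℕ} [Fact p.Prime]

/-- `#V = p ^ dim V` over `ZMod p`. -/
theorem natCard_eq_pow {V : Type*} [AddCommGroup V] [Module (ZMod p) V]
    [FiniteDimensional (ZMod p) V] : Nat.card V = p ^ finrank (ZMod p) V := by
  rw [Module.natCard_eq_pow_finrank (K := ZMod p) (V := V), Nat.card_zmod]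

variable {S : Finset Nat.Primes} [IsDiscrete (levelS S) (TChi p)]
variable (M : Rep (ZMod p) GQ) [IsDiscrete (levelS S) M]
variable [IsDiscrete (levelS S) (M.dualTwist (cycloChar p))]

omit [IsDiscrete (levelS S) (TChi p)] [IsDiscrete (levelS S) (M.dualTwist (cycloChar p))] in
/-- `H⁰(M)` is finite-dimensional for finite-dimensional `M`. -/
theorem finiteDimensional_Hlc_zero [FiniteDimensional (ZMod p) M] :
    FiniteDimensional (ZMod p) (Hlc (levelS S) M 0) :=
  LinearEquiv.finiteDimensional (Hlc0Equiv (levelS S) M).symm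

/-- **Cardinality form of the Greenberg–Wiles consumer inequality.** -/
theorem natCard_mul_le (hp2 : p ≠ 2) [FiniteDimensional (ZMod p) M]
    (Δ : PTData (p := p) S) (L : ∀ v, Submodule (ZMod p) (Hloc S M v 1))
    (hpre : PreEuler M Δ L) (htate : TateLe S (M.dualTwist (cycloChar p))) :
    Nat.card (selmerGrp S M L) * (∏ v, Nat.card (Hloc S M v 0)) *
        Nat.card (Hlc (levelS S) (M.dualTwist (cycloChar p)) 0) *
        Nat.card (LinearMap.ker (M.ρ complexConjugation - 1)) ≤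
      Nat.card (dualSelmerGrp M Δ L) * Nat.card (Hlc (levelS S) M 0) *
        ∏ v, Nat.card (L v) := by
  have h := ModelConj.selmer_le_conj_general M hp2 Δ L hpre htate
  have : FiniteDimensional (ZMod p) (selmerGrp S M L) :=
    (selmer_le_of_preEuler_tate M Δ L hpre htate).1
  have : FiniteDimensional (ZMod p) (Hlc (levelS S) (M.dualTwist (cycloChar p)) 1) := hpre.2.1
  have : ∀ v, FiniteDimensional (ZMod p) (Hloc S M v 1) := hpre.2.2.2.1
  have : ∀ v, FiniteDimensional (ZMod p) (Hloc S M v 0) :=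
    ModelConj.finiteDimensional_Hloc_zero M
  have : FiniteDimensional (ZMod p) (Hlc (levelS S) M 0) := finiteDimensional_Hlc_zero M
  have : FiniteDimensional (ZMod p) (M.dualTwist (cycloChar p)) :=
    inferInstanceAs (FiniteDimensional (ZMod p) (Module.Dual (ZMod p) M))
  have : FiniteDimensional (ZMod p) (Hlc (levelS S) (M.dualTwist (cycloChar p)) 0) :=
    finiteDimensional_Hlc_zero (M.dualTwist (cycloChar p))
  rw [FormulaAbs.finrank_pi_univ L, Module.finrank_pi_fintype] at h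
  have hp : 1 ≤ p := (Fact.out : p.Prime).one_le
  have key := Nat.pow_le_pow_right hp h
  simp only [pow_add, ← Finset.prod_pow_eq_pow_sum] at key
  have e1 : Nat.card (selmerGrp S M L) = p ^ finrank (ZMod p) (selmerGrp S M L) :=
    natCard_eq_pow
  have e2 : ∀ v, Nat.card (Hloc S M v 0) = p ^ finrank (ZMod p) (Hloc S M v 0) :=
    fun v => natCard_eq_pow
  have e3 : Nat.card (Hlc (levelS S) (M.dualTwist (cycloChar p)) 0) =
      p ^ finrank (ZMod p) (Hlc (levelS S) (M.dualTwist (cycloChar p)) 0) := natCard_eq_pow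
  have e4 : Nat.card (LinearMap.ker (M.ρ complexConjugation - 1)) =
      p ^ finrank (ZMod p) (LinearMap.ker (M.ρ complexConjugation - 1)) := natCard_eq_pow
  have e5 : Nat.card (dualSelmerGrp M Δ L) = p ^ finrank (ZMod p) (dualSelmerGrp M Δ L) :=
    natCard_eq_pow
  have e6 : Nat.card (Hlc (levelS S) M 0) = p ^ finrank (ZMod p) (Hlc (levelS S) M 0) :=
    natCard_eq_pow
  have e7 : ∀ v, Nat.card (L v) = p ^ finrank (ZMod p) (L v) := fun v => natCard_eq_pow
  rw [e1, e3, e4, e5, e6, Finset.prod_congr rfl (fun v _ => e2 v),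
    Finset.prod_congr rfl (fun v _ => e7 v)]
  exact key

/-- **Ratio form.** Local bounds `#L_v ≤ #H⁰_v(M) * c_v` and `h⁰(M) = 0` give
`#Sel_L(M) * #M^{c=1} ≤ #Sel_{L^⊥}(M*) * ∏_v c_v`. -/
theorem natCard_selmer_mul_conj_le (hp2 : p ≠ 2) [FiniteDimensional (ZMod p) M]
    (Δ : PTData (p := p) S) (L : ∀ v, Submodule (ZMod p) (Hloc S M v 1))
    (hpre : PreEuler M Δ L) (htate : TateLe S (M.dualTwist (cycloChar p)))
    (hh0 : Nat.card (Hlc (levelS S) M 0) = 1)
    (c : (locDataQ S).ι → ℕ)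
    (hc : ∀ v, Nat.card (L v) ≤ Nat.card (Hloc S M v 0) * c v) :
    Nat.card (selmerGrp S M L) * Nat.card (LinearMap.ker (M.ρ complexConjugation - 1)) ≤
      Nat.card (dualSelmerGrp M Δ L) * ∏ v, c v := by
  have h := natCard_mul_le M hp2 Δ L hpre htate
  rw [hh0, mul_one] at h
  have : ∀ v, FiniteDimensional (ZMod p) (Hloc S M v 0) :=
    ModelConj.finiteDimensional_Hloc_zero M
  have : FiniteDimensional (ZMod p) (M.dualTwist (cycloChar p)) :=
    inferInstanceAs (FiniteDimensional (ZMod p) (Module.Dual (ZMod p) M))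
  have : FiniteDimensional (ZMod p) (Hlc (levelS S) (M.dualTwist (cycloChar p)) 0) :=
    finiteDimensional_Hlc_zero (M.dualTwist (cycloChar p))
  have : ∀ v, Finite (Hloc S M v 0) := fun v => Module.finite_of_finite (ZMod p)
  have : Finite (Hlc (levelS S) (M.dualTwist (cycloChar p)) 0) :=
    Module.finite_of_finite (ZMod p)
  have hP0 : 0 < ∏ v, Nat.card (Hloc S M v 0) :=
    Finset.prod_pos fun v _ => Nat.card_pos
  have hs0 : 1 ≤ Nat.card (Hlc (levelS S) (M.dualTwist (cycloChar p)) 0) := Nat.card_pos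
  have hL : (∏ v, Nat.card (L v)) ≤ (∏ v, Nat.card (Hloc S M v 0)) * ∏ v, c v := by
    rw [← Finset.prod_mul_distrib]
    exact Finset.prod_le_prod' fun v _ => hc v
  -- cancel the common factor `∏ #H⁰_v`
  apply Nat.le_of_mul_le_mul_left _ hP0
  calc (∏ v, Nat.card (Hloc S M v 0)) *
        (Nat.card (selmerGrp S M L) * Nat.card (LinearMap.ker (M.ρ complexConjugation - 1)))
      = Nat.card (selmerGrp S M L) * (∏ v, Nat.card (Hloc S M v 0)) * 1 *
          Nat.card (LinearMap.ker (M.ρ complexConjugation - 1)) := by ring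
    _ ≤ Nat.card (selmerGrp S M L) * (∏ v, Nat.card (Hloc S M v 0)) *
          Nat.card (Hlc (levelS S) (M.dualTwist (cycloChar p)) 0) *
          Nat.card (LinearMap.ker (M.ρ complexConjugation - 1)) := by
        apply Nat.mul_le_mul_right
        exact Nat.mul_le_mul_left _ hs0
    _ ≤ Nat.card (dualSelmerGrp M Δ L) * ∏ v, Nat.card (L v) := h
    _ ≤ Nat.card (dualSelmerGrp M Δ L) *
          ((∏ v, Nat.card (Hloc S M v 0)) * ∏ v, c v) := Nat.mul_le_mul_left _ hL
    _ = (∏ v, Nat.card (Hloc S M v 0)) * (Nat.card (dualSelmerGrp M Δ L) * ∏ v, c v) := by ring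

/-- **The shape of `CoreAbs.twGate_of_abstract` (GW).** If moreover `∏_v c_v ≤ #M^{c=1} * B`
then `#Sel_L(M) ≤ #Sel_{L^⊥}(M*) * B`. -/
theorem natCard_selmer_le_mul (hp2 : p ≠ 2) [FiniteDimensional (ZMod p) M]
    (Δ : PTData (p := p) S) (L : ∀ v, Submodule (ZMod p) (Hloc S M v 1))
    (hpre : PreEuler M Δ L) (htate : TateLe S (M.dualTwist (cycloChar p)))
    (hh0 : Nat.card (Hlc (levelS S) M 0) = 1)
    (c : (locDataQ S).ι → ℕ)
    (hc : ∀ v, Nat.card (L v) ≤ Nat.card (Hloc S M v 0) * c v) (B : ℕ)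
    (hB : ∏ v, c v ≤ Nat.card (LinearMap.ker (M.ρ complexConjugation - 1)) * B) :
    Nat.card (selmerGrp S M L) ≤ Nat.card (dualSelmerGrp M Δ L) * B := by
  have h := natCard_selmer_mul_conj_le M hp2 Δ L hpre htate hh0 c hc
  have hpos : 0 < Nat.card (LinearMap.ker (M.ρ complexConjugation - 1)) := by
    have : Finite M := Module.finite_of_finite (ZMod p)
    exact Nat.card_pos
  apply Nat.le_of_mul_le_mul_left _ hpos
  calc Nat.card (LinearMap.ker (M.ρ complexConjugation - 1)) * Nat.card (selmerGrp S M L)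
      = Nat.card (selmerGrp S M L) * Nat.card (LinearMap.ker (M.ρ complexConjugation - 1)) :=
        mul_comm _ _
    _ ≤ Nat.card (dualSelmerGrp M Δ L) * ∏ v, c v := h
    _ ≤ Nat.card (dualSelmerGrp M Δ L) *
          (Nat.card (LinearMap.ker (M.ρ complexConjugation - 1)) * B) :=
        Nat.mul_le_mul_left _ hB
    _ = Nat.card (LinearMap.ker (M.ρ complexConjugation - 1)) *
          (Nat.card (dualSelmerGrp M Δ L) * B) := by ring

end

end Fermat.Agent.GP.GW.ModelCard
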