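/-
GATE-P / S56 [P-GW] (helper19): **the nine-term package, binder-free.**
`GP/GW/NineTermFinal.lean` (GW-1d) + `GP/GW/H30Local.lean` (GW-1c) ⟹ for `Δ : PTData S`, `p ∈ S`,
`N` finite-dimensional discrete:

* `nine_term_holds` : `h⁰(N) + h²(N*) + p¹(N) + h²(N) + h⁰(N*) = p⁰(N) + h¹(N) + h¹(N*) + p²(N)`;
* `lam20_perfect`, `lam02_perfect` : the sums of the local pairings in degrees `(2,0)`, `(0,2)`
  are perfect; `local_duality_20`, `local_duality_02` : at each place;
* `finrank_HlcC_three : h³_c(N) = h⁰(N*)`, `finrank_Ploc_two : p²(N) = p⁰(N*)`,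
  `finrank_Ploc_zero : p⁰(N) = p²(N*)`, `finrank_Hloc_two`, `finrank_Hloc_zero` (per place);
* `g30_bijective` : `H³_c(N) ≅ H⁰(N*)^∨`.
-/
import Mathlib
import Fermat.Agent.GP.GW.H30Local
import Fermat.Agent.GP.GW.LocFin

set_option autoImplicit false

open CategoryTheory Module

noncomputable section

namespace Fermat.Agent.GP.GW.NineTermHolds

open Fermat.Agent.GC.Prof Fermat.Agent.GC.Prof.Cone Fermat.Agent.GC.PT
  Fermat.Agent.GC.PT.Triples Fermat.Agent.GC.PT.LocDataQ Fermat.Agent.GC.PT.MainInst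
  Fermat.Agent.GC.C0 ExtCitation groupCohomology Fermat.Agent.GP.GW Fermat.Agent.GP.GW.NineTerm
  Fermat.Agent.GP.GW.NineTermAbs Fermat.Agent.GP.GW.NineTermFinal Fermat.Agent.GP.GW.H30Local

variable {p : ℕ} [Fact p.Prime] {S : Finset Nat.Primes}
variable [IsDiscrete (levelS S) (TChi p)] (Δ : PTData (p := p) S) (hpS : pPrime p ∈ S)
  (N : Rep (ZMod p) GQ) [FiniteDimensional (ZMod p) N] [IsDiscrete (levelS S) N]
  [IsDiscrete (levelS S) (N.dualTwist (cycloChar p))]

include Δ hpS in
/-- **the nine-term alternating sum, unconditionally.** -/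
theorem nine_term_holds :
    finrank (ZMod p) (Hlc (levelS S) N 0) +
        finrank (ZMod p) (Hlc (levelS S) (N.dualTwist (cycloChar p)) 2) +
        finrank (ZMod p) (∀ v, Hloc S N v 1) + finrank (ZMod p) (Hlc (levelS S) N 2) +
        finrank (ZMod p) (Hlc (levelS S) (N.dualTwist (cycloChar p)) 0) =
      finrank (ZMod p) (∀ v, Hloc S N v 0) + finrank (ZMod p) (Hlc (levelS S) N 1) +
        finrank (ZMod p) (Hlc (levelS S) (N.dualTwist (cycloChar p)) 1) +
        finrank (ZMod p) (∀ v, Hloc S N v 2) :=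
  nine_term_of_h30 Δ hpS N (h30Right_ev Δ hpS N)

include hpS in
/-- **`lam20 : P²(N) × P⁰(N*) → k` is perfect.** -/
theorem lam20_perfect :
    Function.Injective (Δ.E.lam20 N (N.dualTwist (cycloChar p)) (evB (cycloChar p) N)
      (isChiPairing_evB (cycloChar p) N)) ∧
    Function.Injective (Δ.E.lam20 N (N.dualTwist (cycloChar p)) (evB (cycloChar p) N)
      (isChiPairing_evB (cycloChar p) N)).flip := by
  have := NineTermQ.finiteDimensional_dual (p := p) N
  exact NineTerm.lam20_perfect Δ.E (NineTermQ.goodPair Δ hpS N) (cupSymm20 Δ N _ _ _)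
    (h30Right_ev Δ hpS N)

include hpS in
/-- **`lam02 : P⁰(N) × P²(N*) → k` is perfect.** -/
theorem lam02_perfect :
    Function.Injective (Δ.E.lam02 N (N.dualTwist (cycloChar p)) (evB (cycloChar p) N)
      (isChiPairing_evB (cycloChar p) N)) ∧
    Function.Injective (Δ.E.lam02 N (N.dualTwist (cycloChar p)) (evB (cycloChar p) N)
      (isChiPairing_evB (cycloChar p) N)).flip :=
  NineTerm.lam02_perfect Δ.E (NineTermQ.goodPair Δ hpS N) (cupSymm02 Δ N _ _ _)
    (h30Right_ev_flip Δ hpS N)

include hpS in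
/-- **local Tate duality in degrees `(2,0)` at every `v ∈ S`.** -/
theorem local_duality_20 (v : (locDataQ S).ι) :
    Function.Injective (block (Δ.E.lam20 N (N.dualTwist (cycloChar p)) (evB (cycloChar p) N)
      (isChiPairing_evB (cycloChar p) N)) v) ∧
    Function.Injective (block (Δ.E.lam20 N (N.dualTwist (cycloChar p)) (evB (cycloChar p) N)
      (isChiPairing_evB (cycloChar p) N)) v).flip := by
  have := NineTermQ.finiteDimensional_dual (p := p) N
  obtain ⟨ε, hε, hsym⟩ := cupSymm20 Δ N (N.dualTwist (cycloChar p)) (evB (cycloChar p) N)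
    (isChiPairing_evB (cycloChar p) N)
  exact NineTerm.local_duality_20 Δ.hLam (NineTermQ.goodPair Δ hpS N) ε hε hsym
    (h30Right_ev Δ hpS N) v

include hpS in
/-- **local Tate duality in degrees `(0,2)` at every `v ∈ S`.** -/
theorem local_duality_02 (v : (locDataQ S).ι) :
    Function.Injective (block (Δ.E.lam02 N (N.dualTwist (cycloChar p)) (evB (cycloChar p) N)
      (isChiPairing_evB (cycloChar p) N)) v) ∧
    Function.Injective (block (Δ.E.lam02 N (N.dualTwist (cycloChar p)) (evB (cycloChar p) N)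
      (isChiPairing_evB (cycloChar p) N)) v).flip := by
  obtain ⟨ε, hε, hsym⟩ := cupSymm02 Δ N (N.dualTwist (cycloChar p)) (evB (cycloChar p) N)
    (isChiPairing_evB (cycloChar p) N)
  exact NineTerm.local_duality_02 Δ.hLam (NineTermQ.goodPair Δ hpS N) ε hε hsym
    (h30Right_ev_flip Δ hpS N) v

include Δ hpS in
/-- `h³_c(N) = h⁰(N*)`. -/
theorem finrank_HlcC_three :
    finrank (ZMod p) (HlcC (locDataQ S) N 3) =
      finrank (ZMod p) (Hlc (levelS S) (N.dualTwist (cycloChar p)) 0) := by
  have := NineTermQ.finiteDimensional_dual (p := p) N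
  exact NineTerm.finrank_HlcC_three (NineTermQ.goodPair Δ hpS N) (h30Right_ev Δ hpS N)

include hpS in
/-- `H³_c(N) ≅ H⁰(N*)^∨`. -/
theorem g30_bijective :
    Function.Bijective (g30 Δ.D N (N.dualTwist (cycloChar p)) (evB (cycloChar p) N)
      (isChiPairing_evB (cycloChar p) N)) := by
  have := NineTermQ.finiteDimensional_dual (p := p) N
  have hg := NineTermQ.goodPair Δ hpS N
  have := fdH0 (𝒰 := levelS S) (N.dualTwist (cycloChar p))
  have := hg.fdC3
  exact bijective_of_injective_flip _ hg.g30_injective (h30Right_ev Δ hpS N)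

include Δ hpS in
/-- `p²(N) = p⁰(N*)`. -/
theorem finrank_Ploc_two :
    finrank (ZMod p) (Ploc (locDataQ S) N 2) =
      finrank (ZMod p) (Ploc (locDataQ S) (N.dualTwist (cycloChar p)) 0) := by
  have := NineTermQ.finiteDimensional_dual (p := p) N
  exact NineTerm.finrank_Ploc_two Δ.E (NineTermQ.goodPair Δ hpS N) (cupSymm20 Δ N _ _ _)
    (h30Right_ev Δ hpS N)

include Δ hpS in
/-- `h²_v(N) = h⁰_v(N*)` at every place. -/
theorem finrank_Hloc_two (v : (locDataQ S).ι) :
    finrank (ZMod p) (Hloc S N v 2) =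
      finrank (ZMod p) (Hloc S (N.dualTwist (cycloChar p)) v 0) := by
  have := NineTermQ.finiteDimensional_dual (p := p) N
  have h1 : FiniteDimensional (ZMod p) (Hloc S N v 2) :=
    LocFin.locDataQ_finiteDimensional_hlc S N v 2 (by omega)
  have h2 : FiniteDimensional (ZMod p) (Hloc S (N.dualTwist (cycloChar p)) v 0) :=
    LocFin.locDataQ_finiteDimensional_hlc S (N.dualTwist (cycloChar p)) v 0 (by omega)
  obtain ⟨hl, hr⟩ := local_duality_20 Δ hpS N v
  exact finrank_eq_of_bijective _ (bijective_of_injective_flip _ hl hr)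

include Δ hpS in
/-- `h⁰_v(N) = h²_v(N*)` at every place. -/
theorem finrank_Hloc_zero (v : (locDataQ S).ι) :
    finrank (ZMod p) (Hloc S N v 0) =
      finrank (ZMod p) (Hloc S (N.dualTwist (cycloChar p)) v 2) := by
  have := NineTermQ.finiteDimensional_dual (p := p) N
  have h1 : FiniteDimensional (ZMod p) (Hloc S N v 0) :=
    LocFin.locDataQ_finiteDimensional_hlc S N v 0 (by omega)
  have h2 : FiniteDimensional (ZMod p) (Hloc S (N.dualTwist (cycloChar p)) v 2) :=
    LocFin.locDataQ_finiteDimensional_hlc S (N.dualTwist (cycloChar p)) v 2 (by omega)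
  obtain ⟨hl, hr⟩ := local_duality_02 Δ hpS N v
  exact finrank_eq_of_bijective _ (bijective_of_injective_flip _ hl hr)

end Fermat.Agent.GP.GW.NineTermHolds
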